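import Mathlib

/-!
# Automorphisms of algebraically closed fields
-/

set_option autoImplicit false
set_option linter.style.haveILetI false

noncomputable section

namespace Fermat.Agent.S27A

open IntermediateField Cardinal

/-- Extension of the identity of `R` to isomorphisms of algebraically closed fields. -/
theorem exists_equiv' {R K : Type*} [Field R] [Field K] [Algebra R K]
    [IsAlgClosed K] {ι : Type*} {v w : ι → K}
    (hv : IsTranscendenceBasis R v) (hw : IsTranscendenceBasis R w) :
    ∃ σ : K ≃ₐ[R] K, ∀ i, σ (v i) = w i := by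
  letI h1 := IsAlgClosed.isAlgClosure_of_transcendence_basis v hv
  letI h2 := IsAlgClosed.isAlgClosure_of_transcendence_basis w hw
  let E : Algebra.adjoin R (Set.range v) ≃ₐ[R] Algebra.adjoin R (Set.range w) :=
    hv.1.aevalEquiv.symm.trans hw.1.aevalEquiv
  have hcomm : ∀ r : R, IsAlgClosure.equivOfEquiv K K E.toRingEquiv (algebraMap R K r) =
      algebraMap R K r := by
    intro r
    have h3 := IsAlgClosure.equivOfEquiv_algebraMap K K E.toRingEquiv
      (algebraMap R (Algebra.adjoin R (Set.range v)) r)
    rw [← IsScalarTower.algebraMap_apply] at h3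
    rw [h3]
    change algebraMap _ K (E (algebraMap R _ r)) = _
    rw [AlgEquiv.commutes, ← IsScalarTower.algebraMap_apply]
  refine ⟨AlgEquiv.ofRingEquiv (f := IsAlgClosure.equivOfEquiv K K E.toRingEquiv) hcomm, ?_⟩
  intro i
  have h3 := IsAlgClosure.equivOfEquiv_algebraMap K K E.toRingEquiv
    ⟨v i, Algebra.subset_adjoin ⟨i, rfl⟩⟩
  have h4 : hv.1.aevalEquiv.symm ⟨v i, Algebra.subset_adjoin ⟨i, rfl⟩⟩ = MvPolynomial.X i := by
    rw [AlgEquiv.symm_apply_eq]
    apply Subtype.ext
    simp
  have h5 : E ⟨v i, Algebra.subset_adjoin ⟨i, rfl⟩⟩ =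
      ⟨w i, Algebra.subset_adjoin ⟨i, rfl⟩⟩ := by
    change hw.1.aevalEquiv (hv.1.aevalEquiv.symm _) = _
    rw [h4]
    apply Subtype.ext
    simp
  refine h3.trans ?_
  change algebraMap _ K (E _) = _
  rw [h5]
  rfl

section

variable (K : Type*) {L : Type*} [Field K] [Field L] [Algebra K L] [IsAlgClosed L]

/-- a transcendental number has translates by all natural numbers as conjugates -/
theorem exists_aut_add' (a : L) (ha : Transcendental K a) (n : ℕ) :
    ∃ σ : L ≃ₐ[K] L, σ a = a + n := by
  classical
  have hind : AlgebraicIndepOn K id ({a} : Set L) :=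
    (algebraicIndependent_singleton_iff (R := K) (x := fun i : ({a} : Set L) => id (i : L))
      ⟨a, rfl⟩).mpr ha
  obtain ⟨B, haB, hB⟩ := exists_isTranscendenceBasis_superset hind
  let v : B → L := fun b => b
  let w : B → L := fun b => (b : L) + n
  have hw : IsTranscendenceBasis K w := by
    let θ : MvPolynomial B K →ₐ[K] MvPolynomial B K :=
      MvPolynomial.aeval (fun b => MvPolynomial.X b + MvPolynomial.C (n : K))
    let θ' : MvPolynomial B K →ₐ[K] MvPolynomial B K :=
      MvPolynomial.aeval (fun b => MvPolynomial.X b - MvPolynomial.C (n : K))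
    have h1 : θ'.comp θ = AlgHom.id K _ := by
      apply MvPolynomial.algHom_ext
      intro b
      simp [θ, θ']
    rw [isTranscendenceBasis_iff_algebraicIndependent_isAlgebraic]
    have hcomp : (MvPolynomial.aeval w : MvPolynomial B K →ₐ[K] L) =
        (MvPolynomial.aeval v).comp θ := by
      apply MvPolynomial.algHom_ext
      intro b
      simp [θ, v, w]
    have hθ : Function.Injective θ := by
      intro x y hxy
      have := congrArg θ' hxy
      have h2 := fun z => AlgHom.congr_fun h1 z
      simp only [AlgHom.comp_apply, AlgHom.id_apply] at h2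
      rwa [h2, h2] at this
    refine ⟨?_, ?_⟩
    · change Function.Injective (MvPolynomial.aeval w : MvPolynomial B K →ₐ[K] L)
      rw [hcomp]
      rw [AlgHom.coe_comp]
      exact Function.Injective.comp hB.1 hθ
    · have hadj : Algebra.adjoin K (Set.range w) = Algebra.adjoin K (Set.range v) := by
        apply le_antisymm
        · rw [Algebra.adjoin_le_iff]
          rintro _ ⟨b, rfl⟩
          exact add_mem (Algebra.subset_adjoin ⟨b, rfl⟩) (natCast_mem _ n)
        · rw [Algebra.adjoin_le_iff]
          rintro _ ⟨b, rfl⟩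
          have : v b = w b - n := by simp [v, w]
          rw [this]
          exact sub_mem (Algebra.subset_adjoin ⟨b, rfl⟩) (natCast_mem _ n)
      rw [hadj]
      exact hB.isAlgebraic
  obtain ⟨σ, hσ'⟩ := exists_equiv' hB hw
  exact ⟨σ, hσ' ⟨a, haB rfl⟩⟩

/-- an element with a finite orbit is algebraic -/
theorem isAlgebraic_of_finite_orbit [CharZero L] {a : L}
    (h : {b : L | ∃ σ : L ≃ₐ[K] L, σ a = b}.Finite) : IsAlgebraic K a := by
  by_contra ha
  choose σ hσ' using exists_aut_add' K a ha
  have : Set.Infinite {b : L | ∃ σ : L ≃ₐ[K] L, σ a = b} := by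
    refine Set.infinite_of_injective_forall_mem (f := fun n : ℕ => a + n) ?_ ?_
    · intro m n hmn
      simpa using hmn
    · intro n
      exact ⟨σ n, hσ' n⟩
  exact this h

/-- the fixed field -/
theorem mem_range_of_finite_orbit [IsAlgClosed K] [CharZero L] {a : L}
    (h : {b : L | ∃ σ : L ≃ₐ[K] L, σ a = b}.Finite) : ∃ c : K, algebraMap K L c = a := by
  have h1 := isAlgebraic_of_finite_orbit K h
  have h2 := IsAlgClosed.degree_eq_one_of_irreducible K (minpoly.irreducible h1.isIntegral)
  exact minpoly.mem_range_of_degree_eq_one K a h2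

theorem mem_range_of_fixed [IsAlgClosed K] [CharZero L] {a : L}
    (h : ∀ σ : L ≃ₐ[K] L, σ a = a) : ∃ c : K, algebraMap K L c = a := by
  apply mem_range_of_finite_orbit
  refine (Set.finite_singleton a).subset ?_
  rintro _ ⟨σ, rfl⟩
  exact h σ

end

end Fermat.Agent.S27A
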