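import Fermat.Agent.MW.GalGen
import Fermat.Agent.S27A.BC1

/-!
# Semilinear automorphisms of constant field extensions
-/

set_option autoImplicit false
set_option linter.unusedSectionVars false
set_option linter.style.haveILetI false

noncomputable section

namespace Fermat.Agent.S27A

open AlgebraicCurve Fermat.Agent.RR Fermat.Agent.Curve IntermediateField Module Fermat.Agent.MW
open scoped TensorProduct

variable {K K' F F' : Type*} [Field K] [Field K'] [Field F] [Field F']
  [Algebra K F] [Algebra K' F'] [Algebra K K'] [Algebra F F']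
  [IsAlgClosed K] [IsAlgClosed K'] [FunField K F] [FunField K' F'] [hC : CExt K K' F F']

theorem linInd_bc_of_mem (D : Divisor K F) {ι : Type*} {u : ι → F}
    (hu : LinearIndependent K u) (hm : ∀ i, u i ∈ riemannRochSpace D) :
    LinearIndependent K' (fun i => bc F F' (u i)) := by
  classical
  let V : Submodule K F := riemannRochSpace D
  let u' : ι → V := fun i => ⟨u i, hm i⟩
  have hu' : LinearIndependent K u' := LinearIndependent.of_comp V.subtype hu
  have hs : LinearIndepOn K id (Set.range u') := hu'.linearIndepOn_id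
  let B := Module.Basis.extend hs
  haveI : Fintype (hs.extend (Set.subset_univ _)) :=
    FiniteDimensional.fintypeBasisIndex B
  let w : (hs.extend (Set.subset_univ _)) → F' := fun j => bc F F' (((j : V) : F))
  have hB : ∀ j, B j = (j : V) := fun j => Module.Basis.extend_apply_self hs j
  have hspan : Submodule.span K' (Set.range w) = SL K' F' D := by
    apply le_antisymm
    · rw [Submodule.span_le]
      rintro _ ⟨j, rfl⟩
      exact bc_mem_SL (j : V).2
    · rw [SL, Submodule.span_le]
      rintro _ ⟨f, hf, rfl⟩
      have h1 : f = ∑ j, (B.repr ⟨f, hf⟩ j) • ((j : V) : F) := by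
        have h2 := congrArg (Submodule.subtype V) (B.sum_repr ⟨f, hf⟩)
        rw [map_sum] at h2
        simp only [map_smul, hB] at h2
        exact h2.symm
      rw [h1, map_sum]
      refine Submodule.sum_mem _ fun j _ => ?_
      rw [Algebra.smul_def, map_mul, bc, hC.comm, ← Algebra.smul_def]
      exact Submodule.smul_mem _ _ (Submodule.subset_span ⟨j, rfl⟩)
  have hw : LinearIndependent K' w := by
    rw [linearIndependent_iff_card_eq_finrank_span, Set.finrank, hspan, finrank_SL,
      ← Module.finrank_eq_card_basis B]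
    rfl
  let e : ι → (hs.extend (Set.subset_univ _)) := fun i =>
    ⟨u' i, hs.subset_extend _ ⟨i, rfl⟩⟩
  have he : Function.Injective e := by
    intro i j hij
    exact hu'.injective (congrArg Subtype.val hij)
  exact hw.comp e he

/-- linear disjointness -/
theorem linInd_bc {ι : Type*} {u : ι → F} (hu : LinearIndependent K u) :
    LinearIndependent K' (fun i => bc F F' (u i)) := by
  classical
  rw [linearIndependent_iff_finset_linearIndependent]
  intro s
  refine linInd_bc_of_mem (K := K) (∑ i ∈ s, poleDiv K (u i))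
    (u := fun i : s => u i) (hu.comp _ Subtype.val_injective) fun i => ?_
  have h1 : poleDiv K (u (i : ι)) ≤ ∑ i ∈ s, poleDiv K (u i) :=
    Finset.single_le_sum (f := fun i => poleDiv K (u i)) (fun j _ => poleDiv_nonneg _) i.2
  refine L_mono h1 ?_
  rw [mem_L]
  intro v
  apply Ge.of_le
  rw [poleDiv_apply]
  omega

/-- every element is a quotient of elements of the span -/
theorem exists_semi [CharZero K'] (σ : K' ≃ₐ[K] K') :
    ∃ s : SemilinearAut K' F', (∀ a, SemilinearAut.baseAut s a = σ a) ∧ FixF F s := by
  letI : Algebra K F' := ((algebraMap F F').comp (algebraMap K F)).toAlgebra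
  haveI : IsScalarTower K F F' := IsScalarTower.of_algebraMap_eq fun _ => rfl
  haveI : IsScalarTower K K' F' := IsScalarTower.of_algebraMap_eq fun a => hC.comm a
  let T := K' ⊗[K] F
  let μ : T →ₐ[K'] F' := Algebra.TensorProduct.lift (Algebra.ofId K' F')
    (IsScalarTower.toAlgHom K F F') (fun x y => Commute.all _ _)
  have hμ : ∀ (a : K') (f : F), μ (a ⊗ₜ f) = algebraMap K' F' a * bc F F' f := fun a f =>
    Algebra.TensorProduct.lift_tmul _ _ _ a f
  have hinj : Function.Injective μ := by
    let b := Module.Basis.ofVectorSpace K F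
    let b' := Algebra.TensorProduct.basis K' b
    have hli : LinearIndependent K' (fun i => μ (b' i)) := by
      have h1 := linInd_bc (K' := K') (F' := F') b.linearIndependent
      convert h1 using 2 with i
      rw [Algebra.TensorProduct.basis_apply, hμ, map_one, one_mul]
    rw [injective_iff_map_eq_zero]
    intro x hx
    have h1 : b'.repr x = 0 := by
      rw [linearIndependent_iff] at hli
      apply hli
      rw [Finsupp.linearCombination_apply, Finsupp.sum]
      have h2 := congrArg μ (b'.linearCombination_repr x)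
      rw [Finsupp.linearCombination_apply, Finsupp.sum, map_sum, hx] at h2
      rw [← h2]
      refine Finset.sum_congr rfl fun i _ => ?_
      rw [map_smul]
    exact (LinearEquiv.map_eq_zero_iff _).1 h1
  letI algT : Algebra T F' := μ.toRingHom.toAlgebra
  have halg : ∀ x : T, algebraMap T F' x = μ x := fun _ => rfl
  haveI : FaithfulSMul T F' := (faithfulSMul_iff_algebraMap_injective T F').2 hinj
  haveI : IsFractionRing T F' := by
    refine IsFractionRing.of_field T F' fun z => ?_
    have h1 : IntermediateField.adjoin K' (Set.range (bc F F')) = ⊤ :=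
      hC.gen _ fun f => IntermediateField.subset_adjoin _ _ ⟨f, rfl⟩
    have h2 : z ∈ IntermediateField.adjoin K' (Set.range (bc F F')) := by
      rw [h1]; exact IntermediateField.mem_top
    have h3 : Algebra.adjoin K' (Set.range (bc F F')) ≤ μ.range := by
      rw [Algebra.adjoin_le_iff]
      rintro _ ⟨f, rfl⟩
      exact ⟨1 ⊗ₜ f, by
        change μ (1 ⊗ₜ f) = _
        rw [hμ, map_one, one_mul]⟩
    obtain ⟨r, hr, s, hs, rfl⟩ := IntermediateField.mem_adjoin_iff_div.1 h2
    obtain ⟨x, hx⟩ := h3 hr
    obtain ⟨y, hy⟩ := h3 hs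
    exact ⟨x, y, by rw [halg, halg, ← hx, ← hy]; rfl⟩
  let θ : T ≃ₐ[K] T := Algebra.TensorProduct.congr σ AlgEquiv.refl
  let ρ : F' ≃+* F' := IsFractionRing.ringEquivOfRingEquiv (A := T) (B := T) θ.toRingEquiv
  have hρ : ∀ x : T, ρ (μ x) = μ (θ x) := fun x =>
    IsFractionRing.ringEquivOfRingEquiv_algebraMap (A := T) (B := T) (K := F') (L := F')
      θ.toRingEquiv x
  have h1 : ∀ a : K', ρ (algebraMap K' F' a) = algebraMap K' F' (σ a) := by
    intro a
    have h2 := hρ (a ⊗ₜ 1)
    have h3 : θ (a ⊗ₜ 1) = σ a ⊗ₜ 1 := Algebra.TensorProduct.congr_apply _ _ _ |>.trans (by simp)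
    rw [h3, hμ, hμ, map_one, mul_one, mul_one] at h2
    exact h2
  have h2 : ∀ f : F, ρ (bc F F' f) = bc F F' f := by
    intro f
    have h2 := hρ (1 ⊗ₜ f)
    have h3 : θ (1 ⊗ₜ f) = 1 ⊗ₜ f := Algebra.TensorProduct.congr_apply _ _ _ |>.trans (by simp)
    rw [h3, hμ, map_one, one_mul] at h2
    exact h2
  exact ⟨⟨(ρ, σ.toRingEquiv), h1⟩, fun a => rfl, h2⟩

end Fermat.Agent.S27A
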