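import Fermat.Agent.S27A.BC4

/-!
# Constant field extensions: torsion of the class group
-/

set_option autoImplicit false
set_option linter.unusedSectionVars false
set_option linter.style.haveILetI false

noncomputable section

namespace Fermat.Agent.S27A

open AlgebraicCurve Fermat.Agent.RR Fermat.Agent.Curve IntermediateField Module Fermat.Agent.MW

variable {K K' F F' : Type*} [Field K] [Field K'] [Field F] [Field F']
  [Algebra K F] [Algebra K' F'] [Algebra K K'] [Algebra F F']
  [IsAlgClosed K] [IsAlgClosed K'] [FunField K F] [FunField K' F'] [hC : CExt K K' F F']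

variable (K K' F F') in
/-- base change of divisors of degree zero -/
def bc0 : Divisor.degZero (K := K) (F := F) →+ Divisor.degZero (K := K') (F := F') :=
  ((bcD K' F').comp (Divisor.degZero (K := K) (F := F)).subtype).codRestrict _ fun D => by
    rw [Divisor.mem_degZero, AddMonoidHom.comp_apply, degree_bcD]
    exact D.2

theorem coe_bc0 (D : Divisor.degZero (K := K) (F := F)) :
    (bc0 K K' F F' D : Divisor K' F') = bcD K' F' (D : Divisor K F) := rfl

variable (K K' F F') in
/-- base change of classes -/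
def bcPic : Pic0 K F →+ Pic0 K' F' :=
  QuotientAddGroup.map _ _ (bc0 K K' F F') (by
    intro D hD
    rw [AddSubgroup.mem_addSubgroupOf] at hD
    obtain ⟨f, hf, h⟩ := Spec.isPrincipal_iff.1 (Divisor.mem_principal.1 hD)
    rw [AddSubgroup.mem_comap, AddSubgroup.mem_addSubgroupOf, Divisor.mem_principal, coe_bc0,
      Spec.isPrincipal_iff]
    exact ⟨bc F F' f, bc_ne_zero hf, by rw [divisor_bc (K := K) f, h]⟩)

theorem bcPic_mk (D : Divisor.degZero (K := K) (F := F)) :
    bcPic K K' F F' (Pic0.mk D) = Pic0.mk (bc0 K K' F F' D) := rfl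

theorem bcPic_injective [CharZero K'] : Function.Injective (bcPic K K' F F') := by
  rw [injective_iff_map_eq_zero]
  intro x hx
  obtain ⟨D, rfl⟩ := Pic0.mk_surjective x
  rw [bcPic_mk] at hx
  have h1 := Spec.pic0_mk_eq_zero.1 hx
  rw [coe_bc0, Spec.isPrincipal_iff] at h1
  obtain ⟨f, hf, h2⟩ := h1
  obtain ⟨g, hg, h3⟩ := isPrincipal_of_bcD (rrGenus_bc K K' F F') (D := (D : Divisor K F)) hf h2.symm
  apply Spec.pic0_mk_eq_zero.2
  rw [Spec.isPrincipal_iff]
  exact ⟨g, hg, h3.symm⟩

theorem bcPic_cl (P₀ : Place K F) (D : Divisor K F) :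
    bcPic K K' F F' (cl P₀ D) = cl (bcP K' F' P₀) (bcD K' F' D) := by
  change Pic0.mk _ = Pic0.mk _
  congr 1
  apply Subtype.ext
  rw [coe_bc0]
  change bcD K' F' (D - Finsupp.single P₀ (Divisor.degree D)) =
    bcD K' F' D - Finsupp.single (bcP K' F' P₀) (Divisor.degree (bcD K' F' D))
  rw [map_sub, bcD_single, degree_bcD]

variable (K F) in
/-- places with finitely many conjugates are constant -/
theorem exists_bcP_of_finite [CharZero K'] {Q : Place K' F'}
    (h : {Q' | ∃ s : SemilinearAut K' F', FixF F s ∧ s • Q = Q'}.Finite) :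
    ∃ P : Place K F, Q = bcP K' F' P := by
  obtain ⟨t, ht, -⟩ := (inferInstance : FunField K F).out
  rw [rational_iff ht]
  apply mem_range_of_finite_orbit
  refine (h.image fun Q' => ev Q' (bc F F' t)).subset ?_
  rintro _ ⟨σ, rfl⟩
  obtain ⟨s, hs1, hs2⟩ := exists_semi (F := F) (F' := F') σ
  refine ⟨s • Q, ⟨s, hs2, rfl⟩, ?_⟩
  change ev (s • Q) (bc F F' t) = _
  rw [hs2.ev_bc, hs1]

theorem exists_bcD {E : Divisor K' F'} (h : ∀ Q, E Q ≠ 0 → ∃ P : Place K F, Q = bcP K' F' P) :
    ∃ D : Divisor K F, bcD K' F' D = E := by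
  classical
  refine ⟨Finsupp.comapDomain (bcP K' F') E bcP_injective.injOn, ?_⟩
  apply Finsupp.mapDomain_comapDomain _ bcP_injective
  intro Q hQ
  rw [Finset.mem_coe, Finsupp.mem_support_iff] at hQ
  obtain ⟨P, rfl⟩ := h Q hQ
  exact ⟨P, rfl⟩

/-- **torsion classes are defined over the small field** -/
theorem exists_bcPic [CharZero K'] {n : ℕ} [hfin : Finite (Pic0.torsion K' F' n)] {x : Pic0 K' F'}
    (hx : x ∈ Pic0.torsion K' F' n) : ∃ y : Pic0 K F, bcPic K K' F F' y = x := by
  classical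
  obtain ⟨P₀, -⟩ := exists_place_avoid (K := K) (F := F) ∅
  have hfin' : ((Pic0.torsion K' F' n : AddSubgroup (Pic0 K' F')) : Set (Pic0 K' F')).Finite := by
    exact Set.toFinite _
  obtain ⟨D, hD⟩ := exists_bcD (K := K) (F := F) (E := minD (bcP K' F' P₀) x) fun Q hQ => by
    apply exists_bcP_of_finite K F
    have h1 : (⋃ y ∈ ((Pic0.torsion K' F' n : AddSubgroup (Pic0 K' F')) : Set (Pic0 K' F')),
        {Q | minD (bcP K' F' P₀) y Q ≠ 0}).Finite := by
      refine hfin'.biUnion fun y _ => ?_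
      refine (minD (bcP K' F' P₀) y).support.finite_toSet.subset fun Q hQ => ?_
      exact Finsupp.mem_support_iff.2 hQ
    refine h1.subset ?_
    rintro _ ⟨s, hs, rfl⟩
    simp only [Set.mem_iUnion]
    refine ⟨s • x, SemilinearAut.smul_mem_torsion s hx, ?_⟩
    change minD (bcP K' F' P₀) (s • x) (s • Q) ≠ 0
    rw [minD_smul (bcP K' F' P₀) (hs.smul_bcP P₀), SemilinearAut.divisor_smul_apply_smul]
    exact hQ
  exact ⟨cl P₀ D, by rw [bcPic_cl, hD, cl_minD]⟩

variable (K K' F F') in
include hC in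
/-- **The torsion of the class group is invariant under constant field extensions.** -/
theorem card_torsion_bc [CharZero K'] (n : ℕ) [hfin : Finite (Pic0.torsion K' F' n)] :
    Nat.card (Pic0.torsion K F n) = Nat.card (Pic0.torsion K' F' n) := by
  apply Nat.card_congr
  refine Equiv.ofBijective (fun x => ⟨bcPic K K' F F' x, ?_⟩) ⟨?_, ?_⟩
  · rw [Pic0.mem_torsion, ← map_zsmul, Pic0.mem_torsion.1 x.2, map_zero]
  · intro x y hxy
    exact Subtype.ext (bcPic_injective (congrArg Subtype.val hxy))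
  · rintro ⟨x, hx⟩
    obtain ⟨y, rfl⟩ := exists_bcPic (K := K) (F := F) hx
    refine ⟨⟨y, ?_⟩, rfl⟩
    rw [Pic0.mem_torsion] at hx ⊢
    apply bcPic_injective (K' := K') (F' := F')
    rw [map_zsmul, hx, map_zero]

end Fermat.Agent.S27A
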