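import Fermat.Agent.S27A.SpHom

/-!
# The ultrafilter on finite subsets and approximate homomorphisms to algebraic closures of finite
fields
-/

set_option autoImplicit false
set_option linter.style.haveILetI false
set_option linter.unusedSectionVars false

namespace Fermat.Agent.S27A

open Filter

section

variable {K : Type*} [Field K] [CharZero K]

/-- the prime attached to a finite subset -/
noncomputable def prm (S : Finset K) : ℕ := (exists_hom_adjoin S).choose

instance fact_prm (S : Finset K) : Fact (prm S).Prime := (exists_hom_adjoin S).choose_spec.choose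

theorem card_le_prm (S : Finset K) : S.card ≤ prm S :=
  (exists_hom_adjoin S).choose_spec.choose_spec.1

/-- the residue field attached to a finite subset -/
abbrev kS (S : Finset K) : Type := AlgebraicClosure (ZMod (prm S))

/-- the homomorphism attached to a finite subset -/
noncomputable def homS (S : Finset K) : Algebra.adjoin ℤ (S : Set K) →+* kS S :=
  (exists_hom_adjoin S).choose_spec.choose_spec.2.some

open Classical in
/-- the homomorphism attached to a finite subset, extended by zero -/
noncomputable def phiS (S : Finset K) (a : K) : kS S :=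
  if h : a ∈ Algebra.adjoin ℤ (S : Set K) then homS S ⟨a, h⟩ else 0

theorem phiS_of_mem {S : Finset K} {a : K} (h : a ∈ Algebra.adjoin ℤ (S : Set K)) :
    phiS S a = homS S ⟨a, h⟩ := dif_pos h

theorem phiS_add {S : Finset K} {a b : K} (ha : a ∈ Algebra.adjoin ℤ (S : Set K))
    (hb : b ∈ Algebra.adjoin ℤ (S : Set K)) : phiS S (a + b) = phiS S a + phiS S b := by
  rw [phiS_of_mem ha, phiS_of_mem hb, phiS_of_mem (add_mem ha hb), ← map_add]
  rfl

theorem phiS_mul {S : Finset K} {a b : K} (ha : a ∈ Algebra.adjoin ℤ (S : Set K))
    (hb : b ∈ Algebra.adjoin ℤ (S : Set K)) : phiS S (a * b) = phiS S a * phiS S b := by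
  rw [phiS_of_mem ha, phiS_of_mem hb, phiS_of_mem (mul_mem ha hb), ← map_mul]
  rfl

theorem phiS_one (S : Finset K) : phiS S (1 : K) = 1 := by
  rw [phiS_of_mem (one_mem _)]
  exact map_one (homS S)

theorem phiS_zero (S : Finset K) : phiS S (0 : K) = 0 := by
  rw [phiS_of_mem (zero_mem _)]
  exact map_zero (homS S)

theorem phiS_natCast (S : Finset K) (n : ℕ) : phiS S (n : K) = n := by
  rw [phiS_of_mem (natCast_mem _ n)]
  exact map_natCast (homS S) n

variable (K) in
/-- the ultrafilter on finite subsets -/
noncomputable def ultS : Ultrafilter (Finset K) := Ultrafilter.of atTop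

theorem eventually_ultS {P : Finset K → Prop} (h : ∀ᶠ S in atTop, P S) : ∀ᶠ S in (ultS K : Filter (Finset K)), P S :=
  Ultrafilter.of_le atTop h

theorem eventually_subset (T : Finset K) : ∀ᶠ S in (ultS K : Filter (Finset K)), T ⊆ S :=
  eventually_ultS (eventually_ge_atTop T)

theorem eventually_mem (a : K) : ∀ᶠ S in (ultS K : Filter (Finset K)), a ∈ S := by
  classical
  filter_upwards [eventually_subset ({a} : Finset K)] with S hS
  exact hS (Finset.mem_singleton_self a)

theorem eventually_mem_adjoin (a : K) :
    ∀ᶠ S : Finset K in (ultS K : Filter (Finset K)), a ∈ Algebra.adjoin ℤ (S : Set K) := by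
  filter_upwards [eventually_mem a] with S hS
  exact Algebra.subset_adjoin hS

theorem eventually_le_prm (n : ℕ) : ∀ᶠ S in (ultS K : Filter (Finset K)), n ≤ prm S := by
  classical
  haveI : Infinite K := inferInstance
  obtain ⟨T, hT⟩ := Infinite.exists_subset_card_eq K n
  filter_upwards [eventually_subset T] with S hS
  exact (hT ▸ Finset.card_le_card hS).trans (card_le_prm S)

theorem eventually_phiS_add (a b : K) :
    ∀ᶠ S in (ultS K : Filter (Finset K)), phiS S (a + b) = phiS S a + phiS S b := by
  filter_upwards [eventually_mem_adjoin a, eventually_mem_adjoin b] with S ha hb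
  exact phiS_add ha hb

theorem eventually_phiS_mul (a b : K) :
    ∀ᶠ S in (ultS K : Filter (Finset K)), phiS S (a * b) = phiS S a * phiS S b := by
  filter_upwards [eventually_mem_adjoin a, eventually_mem_adjoin b] with S ha hb
  exact phiS_mul ha hb

theorem eventually_phiS_ne {a : K} (ha : a ≠ 0) :
    ∀ᶠ S in (ultS K : Filter (Finset K)), phiS S a ≠ 0 := by
  filter_upwards [eventually_phiS_mul a a⁻¹] with S h
  rw [mul_inv_cancel₀ ha, phiS_one] at h
  exact left_ne_zero_of_mul_eq_one h.symm

end

end Fermat.Agent.S27A
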