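import Fermat.Agent.S27A.U5

/-!
# All places of the ultraproduct are limits
-/

set_option autoImplicit false
set_option linter.unusedSectionVars false

namespace Fermat.Agent.S27A

open AlgebraicCurve Fermat.Agent.Curve Fermat.Agent.RR Polynomial IntermediateField Filter

theorem nonempty_pl (K F : Type*) [Field K] [IsAlgClosed K] [Field F] [Algebra K F]
    [hF : FunField K F] : Nonempty (Place K F) := by
  obtain ⟨t, ht, -⟩ := hF.out
  exact ⟨(exists_zero' ht).choose⟩

variable {I : Type*} {U : Ultrafilter I} {k F : I → Type*} [∀ i, Field (k i)]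
  [∀ i, IsAlgClosed (k i)] [∀ i, Field (F i)] [∀ i, Algebra (k i) (F i)]
  [∀ i, FunField (k i) (F i)] [hBG : BG k F]

instance instFunFieldFS : FunField (UP U k) (FS U k F) := by
  obtain ⟨G, hG⟩ := hBG.out
  choose u hu0 hu1 hu2 using fun i => exists_unif ((nonempty_pl (k i) (F i)).some)
  have hub : ∀ᶠ i in U, pd (k i) (u i) ≤ 4 * G + 7 := Eventually.of_forall fun i =>
    (hu2 i).trans (by have := hG i; omega)
  let x0 : FS U k F := ⟨umk U u, umk_mem_FS hub⟩
  have hx0 : Transcendental (UP U k) x0 := by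
    apply transcendental_of
    filter_upwards [rep_eq (x := x0) (f := u) rfl] with i hi
    intro hc
    obtain ⟨c, hc⟩ := mem_range_of_isAlgebraic hc
    have h1 := hu1 i
    rw [← hi, ← hc, ord_algebraMap] at h1
    exact zero_ne_one h1
  exact ⟨x0, hx0, finiteDimensional_of hx0⟩

theorem uv_dich (v v' : ∀ i, Place (k i) (F i)) : ∀ᶠ i in U,
    (v i = v' i ↔ (uv v : Place (UP U k) (FS U k F)) = uv v') := by
  by_cases h : (uv v : Place (UP U k) (FS U k F)) = uv v'
  · filter_upwards [uv_eq_iff.1 h] with i hi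
    exact ⟨fun _ => h, fun _ => hi⟩
  · have h1 : ∀ᶠ i in U, v i ≠ v' i := Ultrafilter.eventually_not.2 fun h' => h (uv_eq_iff.2 h')
    filter_upwards [h1] with i hi
    exact ⟨fun h' => absurd h' hi, fun h' => absurd h' h⟩

theorem exists_uv (Q : Place (UP U k) (FS U k F)) : ∃ v, uv v = Q := by
  classical
  obtain ⟨t, ht0, ht1⟩ := exists_ord_eq Q 1
  have ht : Transcendental (UP U k) t := by
    intro hc
    obtain ⟨c, rfl⟩ := mem_range_of_isAlgebraic hc
    rw [ord_algebraMap] at ht1
    exact zero_ne_one ht1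
  obtain ⟨m, hm⟩ := rep_bdd t
  obtain ⟨e, he⟩ := exists_ulim_int U (a := fun i => pd (k i) (rep t i)) (m := m)
    (Eventually.of_forall fun i => by
      rw [abs_of_nonneg (pd_nonneg _)]; exact hm i)
  obtain ⟨i0, hi0⟩ := he.exists
  obtain ⟨n, hn⟩ := Int.eq_ofNat_of_zero_le (a := e) (by rw [← hi0]; exact pd_nonneg _)
  subst hn
  have hz : ∀ i, ∃ v : Fin n → Place (k i) (F i), pd (k i) (rep t i) = (n : ℤ) →
      zeroDiv (k i) (rep t i) = ∑ s, Finsupp.single (v s) 1 := by
    intro i
    by_cases hi : pd (k i) (rep t i) = (n : ℤ)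
    · obtain ⟨v, hv⟩ := exists_eq_sum (n := n) (zeroDiv_nonneg (K := k i) (rep t i)) (by
        rw [zeroDiv_eq_poleDiv_inv]
        change pd (k i) (rep t i)⁻¹ = _
        rw [pd_inv, hi])
      exact ⟨v, fun _ => hv⟩
    · exact ⟨fun _ => (nonempty_pl (k i) (F i)).some, fun h => absurd h hi⟩
  choose v hv using hz
  obtain ⟨w, hw⟩ : ∃ w : Fin n → Place (UP U k) (FS U k F), ∀ s, w s = uv (fun i => v i s) :=
    ⟨_, fun s => rfl⟩
  -- the orders
  have hord : ∀ s, (w s).ord t = (Finset.univ.filter fun s' => w s' = w s).card := by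
    intro s
    rw [hw s]
    apply uv_ord_eq
    have h1 : ∀ᶠ i in U, ∀ s', (v i s' = v i s ↔ w s' = w s) := by
      rw [eventually_all]
      intro s'
      rw [hw, hw]
      exact uv_dich (fun i => v i s') (fun i => v i s)
    filter_upwards [he, h1] with i h2 h3
    have h4 := DFunLike.congr_fun (hv i h2) (v i s)
    rw [zeroDiv_apply, Finsupp.finset_sum_apply] at h4
    have h5 : ∑ s', (Finsupp.single (v i s') (1 : ℤ)) (v i s) =
        (Finset.univ.filter fun s' => w s' = w s).card := by
      rw [Finset.card_filter]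
      push_cast
      refine Finset.sum_congr rfl fun s' _ => ?_
      rw [Finsupp.single_apply]
      simp only [h3 s']
    rw [h5] at h4
    have h6 : 0 < (Finset.univ.filter fun s' => w s' = w s).card :=
      Finset.card_pos.2 ⟨s, by simp⟩
    rw [← hw s]
    omega
  by_contra hQ
  have hQ' : Q ∉ Finset.univ.image w := by
    intro h
    obtain ⟨s, -, hs⟩ := Finset.mem_image.1 h
    exact hQ ⟨fun i => v i s, by rw [← hs, hw s]⟩
  haveI := finiteDimensional_of ht
  have h1 := sum_ord_le ht (insert Q (Finset.univ.image w)) (by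
    intro u hu
    rcases Finset.mem_insert.1 hu with rfl | hu
    · rw [ht1]; exact one_pos
    · obtain ⟨s, -, rfl⟩ := Finset.mem_image.1 hu
      rw [hord]
      exact_mod_cast Finset.card_pos.2 ⟨s, by simp⟩)
  rw [Finset.sum_insert hQ', ht1] at h1
  have h2 : ∑ u ∈ Finset.univ.image w, u.ord t = n := by
    have h3 : ∀ u ∈ Finset.univ.image w, u.ord t =
        ((Finset.univ.filter fun s' => w s' = u).card : ℤ) := by
      intro u hu
      obtain ⟨s, -, rfl⟩ := Finset.mem_image.1 hu
      exact hord s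
    rw [Finset.sum_congr rfl h3, ← Nat.cast_sum, ← Finset.card_eq_sum_card_image, Finset.card_univ,
      Fintype.card_fin]
  rw [h2] at h1
  have h3 := finrank_le_of ht (e := n) (he.mono fun i hi => hi.le)
  omega

end Fermat.Agent.S27A
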