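import Fermat.Agent.S27A.UD2
import Fermat.Agent.S27A.U6

/-!
# The ultraproduct of function fields satisfies the abstract properties
-/

set_option autoImplicit false
set_option linter.style.haveILetI false
set_option linter.unusedSectionVars false

noncomputable section

namespace Fermat.Agent.S27A

open AlgebraicCurve Fermat.Agent.Curve Fermat.Agent.RR Polynomial IntermediateField Filter

variable {I : Type*} {U : Ultrafilter I} {k F : I → Type*} [∀ i, Field (k i)]
  [∀ i, IsAlgClosed (k i)] [∀ i, Field (F i)] [∀ i, Algebra (k i) (F i)]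
  [∀ i, FunField (k i) (F i)] [hBG : BG k F]

theorem Bd.add' {f g : ∀ i, F i} (hf : Bd U k f) (hg : Bd U k g) : Bd U k (fun i => f i + g i) := by
  obtain ⟨m, hm⟩ := hf
  obtain ⟨n, hn⟩ := hg
  refine ⟨m + n, ?_⟩
  filter_upwards [hm, hn] with i h1 h2
  exact (pd_add (f i) (g i)).trans (add_le_add h1 h2)

theorem Bd.smul' (a : ∀ i, k i) {f : ∀ i, F i} (hf : Bd U k f) :
    Bd U k (fun i => a i • f i) := by
  obtain ⟨m, hm⟩ := hf
  refine ⟨m, ?_⟩
  filter_upwards [hm] with i h1
  change pd (k i) (a i • f i) ≤ m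
  rw [Algebra.smul_def]
  refine (pd_mul _ _).trans ?_
  rw [pd_algebraMap, zero_add]
  exact h1

open Classical in
variable (U k F) in
/-- the ultraproduct of function fields -/
def udFS : UD U k F (UP U k) (FS U k F) where
  of f := if h : Bd U k f then ⟨umk U f, umk_mem_FS h.choose_spec⟩ else 0
  ofK := umk U
  pl := uv
  surj x := by
    obtain ⟨m, hm⟩ := rep_bdd x
    have h : Bd U k (rep x) := ⟨m, Eventually.of_forall hm⟩
    refine ⟨rep x, h, ?_⟩
    rw [dif_pos h]
    exact Subtype.ext (umk_rep x)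
  surjK := umk_surjective
  of_zero := by
    split_ifs with h
    · exact Subtype.ext (map_zero _)
    · rfl
  ofK_zero := map_zero _
  of_eq {f g} hf hg := by
    rw [dif_pos hf, dif_pos hg, Subtype.ext_iff]
    exact umk_eq
  ofK_eq := umk_eq
  of_add {f g} hf hg := by
    rw [dif_pos hf, dif_pos hg, dif_pos (hf.add' hg)]
    exact Subtype.ext (map_add (umk U) f g)
  of_smul a {f} hf := by
    rw [dif_pos hf, dif_pos (hf.smul' a)]
    exact Subtype.ext (umk_smul a f).symm
  pl_surj := exists_uv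
  pl_eq := uv_eq_iff
  ord_pl v {f} hf _ := by
    rw [dif_pos hf]
    filter_upwards [uv_ord v (⟨umk U f, umk_mem_FS hf.choose_spec⟩ : FS U k F),
      rep_eq (x := (⟨umk U f, umk_mem_FS hf.choose_spec⟩ : FS U k F)) (f := f) rfl] with i h1 h2
    rw [← h1, h2]

theorem rrGenus_FS {g : ℕ} (hg : ∀ᶠ i in (U : Filter I), rrGenus (k i) (F i) = g) :
    rrGenus (UP U k) (FS U k F) = g := (udFS U k F).rrGenus_eq hg

theorem card_torsion_FS {g : ℕ} (hg : ∀ᶠ i in (U : Filter I), rrGenus (k i) (F i) = g) (n : ℕ)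
    {N : ℕ} (hN0 : N ≠ 0)
    (hN : ∀ᶠ i in (U : Filter I), Nat.card (Pic0.torsion (k i) (F i) n) = N) :
    Nat.card (Pic0.torsion (UP U k) (FS U k F) n) = N := (udFS U k F).card_torsion hg n hN0 hN

/-- the genus of the members of a bounded family is eventually constant -/
theorem eventually_rrGenus : ∀ᶠ i in (U : Filter I),
    rrGenus (k i) (F i) = rrGenus (UP U k) (FS U k F) := by
  obtain ⟨G, hG⟩ := hBG.out
  obtain ⟨g, hg⟩ := eventually_const U (fun i => rrGenus (k i) (F i)) G (Eventually.of_forall hG)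
  rw [rrGenus_FS hg]
  exact hg

end Fermat.Agent.S27A
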