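import Fermat.Agent.S27A.FpBar
import Fermat.Agent.S27A.BC5
import Fermat.Agent.S27A.UD3
import Fermat.Agent.S27A.Sp0

/-!
# The torsion of the class group in characteristic zero, from a spreading out
-/

set_option autoImplicit false
set_option linter.unusedSectionVars false

noncomputable section

namespace Fermat.Agent.S27A

open AlgebraicCurve Fermat.Agent.RR Fermat.Agent.Curve Fermat.Agent.MW Filter

theorem card_of_spread (K F : Type*) [Field K] [IsAlgClosed K] [CharZero K] [Field F]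
    [Algebra K F] [FunField K F] (Fm : Finset K → Type) [∀ S, Field (Fm S)]
    [∀ S, Algebra (kS S) (Fm S)] [∀ S, FunField (kS S) (Fm S)] [BG kS Fm]
    [Algebra K (UP (ultS K) kS)] [Algebra F (FS (ultS K) kS Fm)]
    [hC : CExt K (UP (ultS K) kS) F (FS (ultS K) kS Fm)] (ℓ : ℕ) [hℓ : Fact ℓ.Prime] (k : ℕ) :
    Nat.card (Pic0.torsion K F (ℓ ^ k)) = ℓ ^ (2 * rrGenus K F * k) := by
  have hz : CharZero (UP (ultS K) kS) := charZero_of_injective_algebraMap
    (algebraMap K (UP (ultS K) kS)).injective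
  have e1 := eventually_rrGenus (U := ultS K) (k := kS) (F := Fm)
  have e2 : ∀ᶠ S in (ultS K : Filter (Finset K)), Nat.card (Pic0.torsion (kS S) (Fm S) (ℓ ^ k)) =
      ℓ ^ (2 * rrGenus (UP (ultS K) kS) (FS (ultS K) kS Fm) * k) := by
    filter_upwards [e1, eventually_le_prm (K := K) (ℓ + 1)] with S h1 h2
    rw [← h1]
    exact card_torsion_Fp (prm S) (Fm S) ℓ (by omega) k
  have h0 : ℓ ^ (2 * rrGenus (UP (ultS K) kS) (FS (ultS K) kS Fm) * k) ≠ 0 :=
    pow_ne_zero _ hℓ.out.ne_zero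
  have e3 := card_torsion_FS e1 (ℓ ^ k) h0 e2
  have : Finite (Pic0.torsion (UP (ultS K) kS) (FS (ultS K) kS Fm) (ℓ ^ k)) :=
    Nat.finite_of_card_ne_zero (by rw [e3]; exact h0)
  rw [card_torsion_bc K (UP (ultS K) kS) F (FS (ultS K) kS Fm) (ℓ ^ k), e3,
    rrGenus_bc K (UP (ultS K) kS) F (FS (ultS K) kS Fm)]

end Fermat.Agent.S27A
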