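import Fermat.Agent.S27A.RR1

/-!
# Weil differentials and the Riemann-Roch theorem
-/

set_option autoImplicit false
set_option linter.style.haveILetI false
set_option linter.unusedSectionVars false

noncomputable section

namespace Fermat.Agent.S27A

open AlgebraicCurve Fermat.Agent.Curve Fermat.Agent.RR Polynomial IntermediateField

variable {K F : Type*} [Field K] [Field F] [Algebra K F]

/-- multiplication by a function on repartitions -/
def mulR (f : F) : ↥(repartitions K F) →ₗ[K] ↥(repartitions K F) where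
  toFun α := cst f * α
  map_add' α β := mul_add _ _ _
  map_smul' c α := by
    apply Subtype.ext
    funext v
    change f * (c • (α : Place K F → F) v) = c • (f * (α : Place K F → F) v)
    rw [mul_smul_comm]

theorem mulR_apply (f : F) (α : ↥(repartitions K F)) (v : Place K F) :
    (mulR f α).1 v = f * α.1 v := rfl

theorem mulR_cst (f g : F) : mulR (K := K) f (cst g) = cst (f * g) := by
  apply Subtype.ext
  funext v
  rfl

/-- the Weil differential `f ω` -/
def mulW (ω : ↥(repartitions K F) →ₗ[K] K) : F →ₗ[K] (↥(repartitions K F) →ₗ[K] K) where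
  toFun f := ω ∘ₗ mulR f
  map_add' f g := by
    ext α
    change ω (cst (f + g) * α) = ω (cst f * α) + ω (cst g * α)
    rw [← map_add]
    congr 1
    apply Subtype.ext
    funext v
    change (f + g) * α.1 v = f * α.1 v + g * α.1 v
    ring
  map_smul' c f := by
    ext α
    change ω (cst (c • f) * α) = c • ω (cst f * α)
    rw [← map_smul]
    congr 1
    apply Subtype.ext
    funext v
    change (c • f) * α.1 v = c • (f * α.1 v)
    rw [smul_mul_assoc]

theorem mulW_apply (ω : ↥(repartitions K F) →ₗ[K] K) (f : F) (α : ↥(repartitions K F)) :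
    mulW ω f α = ω (mulR f α) := rfl

theorem mulW_mulW (ω : ↥(repartitions K F) →ₗ[K] K) (f g : F) :
    mulW (mulW ω f) g = mulW ω (f * g) := by
  ext α
  change ω (cst f * (cst g * α)) = ω (cst (f * g) * α)
  congr 1
  apply Subtype.ext
  funext v
  change f * (g * α.1 v) = (f * g) * α.1 v
  ring

theorem mulW_one (ω : ↥(repartitions K F) →ₗ[K] K) : mulW ω 1 = ω := by
  ext α
  change ω (cst 1 * α) = ω α
  congr 1
  apply Subtype.ext
  funext v
  change 1 * α.1 v = α.1 v
  ring

theorem mulW_injective {ω : ↥(repartitions K F) →ₗ[K] K} (hω : ω ≠ 0) :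
    Function.Injective (mulW ω) := by
  rw [injective_iff_map_eq_zero]
  intro f hf
  by_contra hf0
  apply hω
  rw [← mulW_one ω, ← mul_inv_cancel₀ hf0, ← mulW_mulW, hf]
  ext α
  rfl

/-- the Weil differentials vanishing on `R(D)` -/
def WD (D : Divisor K F) : Submodule K (↥(repartitions K F) →ₗ[K] K) := (SS D).dualAnnihilator

theorem mem_WD {D : Divisor K F} {ω : ↥(repartitions K F) →ₗ[K] K} :
    ω ∈ WD D ↔ (∀ α ∈ repartitionsOf D, ω α = 0) ∧ ∀ f : F, ω (cst f) = 0 := by
  rw [WD, Submodule.mem_dualAnnihilator]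
  constructor
  · intro h
    exact ⟨fun α hα => h α (Submodule.mem_sup_left hα),
      fun f => h _ (Submodule.mem_sup_right (mem_P.2 ⟨f, rfl⟩))⟩
  · rintro ⟨h1, h2⟩ α hα
    obtain ⟨β, hβ, f, rfl⟩ := mem_SS.1 hα
    rw [map_add, h1 β hβ, h2 f, add_zero]

theorem WD_anti {D E : Divisor K F} (h : D ≤ E) : WD E ≤ WD D := by
  intro ω hω
  rw [mem_WD] at hω ⊢
  exact ⟨fun α hα => hω.1 α (repartitionsOf_mono h hα), hω.2⟩

variable [IsAlgClosed K] [hF : FunField K F]

theorem mulR_mem {f : F} (hf : f ≠ 0) {E : Divisor K F} {α : ↥(repartitions K F)} :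
    mulR f α ∈ repartitionsOf E ↔ α ∈ repartitionsOf (E + divisor K f) := by
  rw [mem_R, mem_R]
  refine forall_congr' fun v => ?_
  rw [mulR_apply]
  by_cases h0 : α.1 v = 0
  · rw [h0, mul_zero]
    exact ⟨fun _ => Ge.zero _ _, fun _ => Ge.zero _ _⟩
  · constructor
    · intro h
      have h1 := h.le_ord (mul_ne_zero hf h0)
      rw [v.ord_mul hf h0] at h1
      right
      rw [Finsupp.add_apply, divisor_apply]
      omega
    · intro h
      have h1 := h.le_ord h0
      rw [Finsupp.add_apply, divisor_apply] at h1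
      right
      rw [v.ord_mul hf h0]
      omega

theorem mulW_mem {f : F} (hf : f ≠ 0) {E : Divisor K F} {ω : ↥(repartitions K F) →ₗ[K] K} :
    mulW ω f ∈ WD E ↔ ω ∈ WD (E - divisor K f) := by
  rw [mem_WD, mem_WD]
  constructor
  · rintro ⟨h1, h2⟩
    refine ⟨fun α hα => ?_, fun g => ?_⟩
    · have h3 : mulR f⁻¹ α ∈ repartitionsOf E := by
        rw [mulR_mem (inv_ne_zero hf)]
        have e : divisor K f⁻¹ = -divisor K f := by
          ext v
          rw [Finsupp.neg_apply, divisor_apply, divisor_apply, v.ord_inv]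
        rw [e, ← sub_eq_add_neg]
        exact hα
      have h4 := h1 _ h3
      rw [mulW_apply] at h4
      have e : mulR f (mulR f⁻¹ α) = α := by
        apply Subtype.ext
        funext v
        rw [mulR_apply, mulR_apply, mul_inv_cancel_left₀ hf]
      rwa [e] at h4
    · have h4 := h2 (f⁻¹ * g)
      rwa [mulW_apply, mulR_cst, mul_inv_cancel_left₀ hf] at h4
  · rintro ⟨h1, h2⟩
    refine ⟨fun α hα => ?_, fun g => ?_⟩
    · rw [mulW_apply]
      apply h1
      rw [mulR_mem hf, sub_add_cancel]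
      exact hα
    · rw [mulW_apply, mulR_cst]
      exact h2 _

theorem mulW_mem_of_L {D E : Divisor K F} {ω : ↥(repartitions K F) →ₗ[K] K} (hω : ω ∈ WD D)
    {f : F} (hf : f ∈ riemannRochSpace (D - E)) : mulW ω f ∈ WD E := by
  rcases eq_or_ne f 0 with rfl | h0
  · rw [map_zero]; exact zero_mem _
  · rw [mulW_mem h0]
    refine WD_anti ?_ hω
    intro v
    have h1 := (mem_L.1 hf v).le_ord h0
    rw [Finsupp.sub_apply] at h1 ⊢
    rw [divisor_apply]
    omega

theorem finite_WD (D : Divisor K F) : Module.Finite K (WD D) := by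
  haveI : Module.Finite K (↥(repartitions K F) ⧸ SS D) := (finrank_H1 D).1
  exact Module.Finite.equiv (SS D).dualQuotEquivDualAnnihilator

theorem finrank_WD (D : Divisor K F) :
    (Module.finrank K (WD D) : ℤ) = ell D - Divisor.degree D - 1 + rrGenus K F := by
  rw [← (finrank_H1 D).2]
  haveI : Module.Finite K (↥(repartitions K F) ⧸ SS D) := (finrank_H1 D).1
  have h1 := (SS D).dualQuotEquivDualAnnihilator.finrank_eq
  rw [Subspace.dual_finrank_eq] at h1
  exact_mod_cast h1.symm

variable (K F) in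
theorem nonempty_place : Nonempty (Place K F) := by
  obtain ⟨t, ht, _⟩ := hF.out
  obtain ⟨v, -⟩ := exists_pole ht
  exact ⟨v⟩

/-- Weil differentials form a one-dimensional space -/
theorem one_dim {D1 D2 : Divisor K F} {ω1 ω2 : ↥(repartitions K F) →ₗ[K] K} (h1 : ω1 ∈ WD D1)
    (h2 : ω2 ∈ WD D2) (hω : ω1 ≠ 0) : ∃ f : F, ω2 = mulW ω1 f := by
  by_contra hcon
  push Not at hcon
  obtain ⟨v⟩ := nonempty_place K F
  let N : ℕ := (3 * (rrGenus K F : ℤ) - Divisor.degree D1 - Divisor.degree D2).toNat + 1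
  let E : Divisor K F := Finsupp.single v (-(N : ℤ))
  have hE : Divisor.degree E = -(N : ℤ) := degree_single' v _
  haveI := finite_WD E
  let Φ : (riemannRochSpace (D1 - E) × riemannRochSpace (D2 - E)) →ₗ[K] WD E :=
    LinearMap.codRestrict (WD E)
      ((mulW ω1 ∘ₗ (riemannRochSpace (D1 - E)).subtype).coprod
        (mulW ω2 ∘ₗ (riemannRochSpace (D2 - E)).subtype)) (fun p => by
          rw [LinearMap.coprod_apply]
          exact add_mem (mulW_mem_of_L h1 p.1.2) (mulW_mem_of_L h2 p.2.2))
  have hΦ : Function.Injective Φ := by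
    rw [injective_iff_map_eq_zero]
    rintro ⟨f1, f2⟩ h
    have h3 : mulW ω1 f1 + mulW ω2 f2 = 0 := congrArg Subtype.val h
    have hf2 : (f2 : F) = 0 := by
      by_contra hf2
      refine hcon (-(f1 * (f2 : F)⁻¹)) ?_
      have h4 : mulW ω2 f2 = -mulW ω1 f1 := eq_neg_of_add_eq_zero_right h3
      have h5 : mulW (mulW ω2 f2) (f2 : F)⁻¹ = mulW (-mulW ω1 f1) (f2 : F)⁻¹ := by rw [h4]
      rw [mulW_mulW, mul_inv_cancel₀ hf2, mulW_one] at h5
      rw [h5, map_neg, ← mulW_mulW]
      rfl
    have hf1 : (f1 : F) = 0 := by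
      rw [hf2, map_zero, add_zero] at h3
      exact mulW_injective hω (h3.trans (map_zero _).symm)
    exact Prod.ext (Subtype.ext hf1) (Subtype.ext hf2)
  have h3 := LinearMap.finrank_le_finrank_of_injective hΦ
  rw [Module.finrank_prod] at h3
  have h4 : ((ell (D1 - E) + ell (D2 - E) : ℕ) : ℤ) ≤ Module.finrank K (WD E) := by
    exact_mod_cast h3
  rw [finrank_WD, ell_eq_zero (D := E) (by rw [hE]; simp [N]), hE] at h4
  have h5 := riemann (D1 - E)
  have h6 := riemann (D2 - E)
  rw [map_sub, hE] at h5 h6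
  have h7 := Int.self_le_toNat (3 * (rrGenus K F : ℤ) - Divisor.degree D1 - Divisor.degree D2)
  push_cast at h4
  simp only [N] at h4 h5 h6
  push_cast at h4 h5 h6
  omega

theorem WD_sup {D E : Divisor K F} {ω : ↥(repartitions K F) →ₗ[K] K} (h1 : ω ∈ WD D)
    (h2 : ω ∈ WD E) : ω ∈ WD (D ⊔ E) := by
  classical
  rw [mem_WD] at h1 h2 ⊢
  refine ⟨fun α hα => ?_, h1.2⟩
  rw [mem_R] at hα
  let β0 : Place K F → F := fun v => if E v ≤ D v then α.1 v else 0
  have hβ : ∀ v : Place K F, Ge v (-D v) (β0 v) := by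
    intro v
    by_cases hv : E v ≤ D v
    · simp only [β0, if_pos hv]
      have := hα v
      rw [Finsupp.sup_apply, sup_eq_left.2 hv] at this
      exact this
    · simp only [β0, if_neg hv]
      exact Ge.zero _ _
  have hβm : β0 ∈ repartitions K F := mem_repartitions_of_forall_le_exp D β0 fun v => by
    rw [v.adicValuation_le_exp_iff]
    exact hβ v
  let β : ↥(repartitions K F) := ⟨β0, hβm⟩
  have hβD : β ∈ repartitionsOf D := mem_R.2 hβ
  have hγ : α - β ∈ repartitionsOf E := by
    rw [mem_R]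
    intro v
    change Ge v _ (α.1 v - β0 v)
    by_cases hv : E v ≤ D v
    · simp only [β0, if_pos hv, sub_self]
      exact Ge.zero _ _
    · simp only [β0, if_neg hv, sub_zero]
      have := hα v
      rw [Finsupp.sup_apply, sup_eq_right.2 (le_of_not_ge hv)] at this
      exact this
  have e : α = β + (α - β) := by abel
  rw [e, map_add, h1.1 β hβD, h2.1 _ hγ, add_zero]

theorem eq_zero_of_nonneg_degree {D : Divisor K F} (h : 0 ≤ D) (hd : Divisor.degree D ≤ 0) :
    D = 0 := by
  have hd' : Divisor.degree D = 0 := le_antisymm hd (degree_nonneg h)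
  rw [degree_eq] at hd'
  ext v
  by_cases hv : v ∈ D.support
  · exact (Finset.sum_eq_zero_iff_of_nonneg (fun v _ => h v)).1 hd' v hv
  · rwa [Finsupp.notMem_support_iff] at hv

variable (K F) in
/-- **Riemann-Roch** -/
theorem exists_canonical : ∃ Wc : Divisor K F, Divisor.degree Wc = 2 * rrGenus K F - 2 ∧
    ∀ D : Divisor K F, (ell D : ℤ) = Divisor.degree D + 1 - rrGenus K F + ell (Wc - D) := by
  obtain ⟨c, hc⟩ := exists_riemann (K := K) (F := F)
  obtain ⟨v⟩ := nonempty_place K F
  -- a nonzero differential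
  obtain ⟨D0, ω, hω0, hω⟩ : ∃ (D0 : Divisor K F) (ω : ↥(repartitions K F) →ₗ[K] K), ω ∈ WD D0 ∧
      ω ≠ 0 := by
    let D0 : Divisor K F := Finsupp.single v (-2)
    have hD0 : Divisor.degree D0 = -2 := degree_single' v _
    haveI := finite_WD D0
    have h1 := finrank_WD D0
    rw [ell_eq_zero (D := D0) (by rw [hD0]; norm_num), hD0] at h1
    have h2 : 0 < Module.finrank K (WD D0) := by omega
    haveI : Nontrivial (WD D0) := Module.nontrivial_of_finrank_pos h2
    obtain ⟨ω, hω⟩ := exists_ne (0 : WD D0)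
    exact ⟨D0, ω, ω.2, fun h => hω (Subtype.ext h)⟩
  -- the maximal divisor
  have hbd : ∀ D : Divisor K F, ω ∈ WD D → Divisor.degree D < c := by
    intro D hD
    by_contra hcon
    rw [not_lt] at hcon
    have h1 := SS_eq_top hc hcon
    rw [WD, h1, Submodule.mem_dualAnnihilator] at hD
    exact hω (LinearMap.ext fun α => hD α trivial)
  obtain ⟨G, ⟨Wc, hWc, hG1⟩, hG⟩ := Int.exists_greatest_of_bdd
    (P := fun n => ∃ D : Divisor K F, ω ∈ WD D ∧ Divisor.degree D = n)
    ⟨c, by rintro n ⟨D, hD, rfl⟩; exact (hbd D hD).le⟩ ⟨_, D0, hω0, rfl⟩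
  have hmax : ∀ D : Divisor K F, ω ∈ WD D → D ≤ Wc := by
    intro D hD
    have h1 := hG _ ⟨D ⊔ Wc, WD_sup hD hWc, rfl⟩
    have h2 : D ⊔ Wc - Wc = 0 := by
      apply eq_zero_of_nonneg_degree (sub_nonneg.2 le_sup_right)
      rw [map_sub]
      omega
    rw [sub_eq_zero] at h2
    rw [← h2]
    exact le_sup_left
  -- duality
  have hdual : ∀ D : Divisor K F, ell (Wc - D) = Module.finrank K (WD D) := by
    intro D
    let Φ : riemannRochSpace (Wc - D) →ₗ[K] WD D :=
      LinearMap.codRestrict (WD D) (mulW ω ∘ₗ (riemannRochSpace (Wc - D)).subtype)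
        (fun f => mulW_mem_of_L hWc f.2)
    have hΦ1 : Function.Injective Φ := by
      rw [injective_iff_map_eq_zero]
      intro f h
      have h3 : mulW ω f = 0 := congrArg Subtype.val h
      exact Subtype.ext (mulW_injective hω (h3.trans (map_zero _).symm))
    have hΦ2 : Function.Surjective Φ := by
      rintro ⟨ω', hω'⟩
      obtain ⟨f, rfl⟩ := one_dim hWc hω' hω
      have hf : f ∈ riemannRochSpace (Wc - D) := by
        rcases eq_or_ne f 0 with rfl | h0
        · exact zero_mem _
        · have h4 := hmax _ ((mulW_mem h0).1 hω')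
          rw [mem_L]
          intro w
          right
          have h5 := h4 w
          rw [Finsupp.sub_apply, divisor_apply] at h5
          rw [Finsupp.sub_apply]
          omega
      exact ⟨⟨f, hf⟩, Subtype.ext rfl⟩
    exact (LinearEquiv.ofBijective Φ ⟨hΦ1, hΦ2⟩).finrank_eq
  have hRR : ∀ D : Divisor K F,
      (ell D : ℤ) = Divisor.degree D + 1 - rrGenus K F + ell (Wc - D) := by
    intro D
    rw [hdual D, finrank_WD D]
    ring
  refine ⟨Wc, ?_, hRR⟩
  have h1 := hRR 0
  have h2 := hRR Wc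
  rw [ell_zero, map_zero, sub_zero] at h1
  rw [sub_self, ell_zero] at h2
  push_cast at h1 h2
  omega

end Fermat.Agent.S27A
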