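import Mathlib
import Fermat.Agent.S27A.RR2
import Fermat.Prelude.Def_AlgebraicCurve_IsCurveOver

/-!
# Curves in characteristic zero are function fields
-/

set_option autoImplicit false
set_option linter.style.haveILetI false
set_option linter.unusedSectionVars false

noncomputable section

namespace Fermat.Agent.S27A

open AlgebraicCurve Fermat.Agent.RR IntermediateField KaehlerDifferential

variable {K F : Type*} [Field K] [Field F] [Algebra K F]

attribute [local instance] FractionRing.liftAlgebra

theorem finrank_kaehler [CharZero K] {ι : Type*} [Finite ι] {x : ι → F}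
    (hx : IsTranscendenceBasis K x) : Module.finrank F Ω[F⁄K] = Nat.card ι := by
  classical
  haveI := Fintype.ofFinite ι
  let S := MvPolynomial ι K
  letI : Algebra S F := (MvPolynomial.aeval x).toAlgebra
  haveI : IsScalarTower K S F := IsScalarTower.of_algebraMap_eq fun a => by
    change _ = MvPolynomial.aeval x (algebraMap K S a)
    rw [AlgHom.commutes]
  have hinj : Function.Injective (algebraMap S F) := hx.1
  haveI : FaithfulSMul S F := (faithfulSMul_iff_algebraMap_injective S F).2 hinj
  haveI : Algebra.IsAlgebraic S F := by
    rw [hx.isAlgebraic_iff (S := S)]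
    intro i
    have : x i = algebraMap S F (MvPolynomial.X i) := by
      change _ = MvPolynomial.aeval x (MvPolynomial.X i)
      rw [MvPolynomial.aeval_X]
    rw [this]
    exact isAlgebraic_algebraMap _
  haveI : CharZero S := inferInstance
  haveI : CharZero (FractionRing S) := inferInstance
  haveI : Algebra.IsAlgebraic (FractionRing S) F :=
    (IsFractionRing.comap_isAlgebraic_iff (A := S) (K := FractionRing S) (C := F)).1 inferInstance
  haveI : Algebra.IsSeparable (FractionRing S) F := inferInstance
  haveI : Algebra.FormallyEtale (FractionRing S) F := Algebra.FormallyEtale.of_isSeparable _ _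
  haveI : Algebra.FormallyEtale S (FractionRing S) :=
    Algebra.FormallyEtale.of_isLocalization (nonZeroDivisors S)
  haveI : Algebra.FormallyEtale S F := Algebra.FormallyEtale.comp S (FractionRing S) F
  have e := KaehlerDifferential.tensorKaehlerEquivOfFormallyEtale K S F
  rw [← e.finrank_eq]
  haveI : Module.Free S Ω[S⁄K] := .of_basis (KaehlerDifferential.mvPolynomialBasis K ι)
  rw [Module.finrank_baseChange, Module.finrank_eq_card_basis (KaehlerDifferential.mvPolynomialBasis K ι),
    Nat.card_eq_fintype_card]

variable (K F) in
/-- curves in the sense of the prelude are function fields in one variable -/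
theorem funField_of_isCurveOver [CharZero K] [IsCurveOver K F] [Algebra.EssFiniteType K F] :
    FunField K F := by
  classical
  obtain ⟨s, hs⟩ := exists_finset_isTranscendenceBasis K F
  have h1 := finrank_kaehler hs
  rw [IsCurveOver.finrank_kaehler, Nat.card_eq_fintype_card, Fintype.card_coe] at h1
  obtain ⟨t, rfl⟩ := Finset.card_eq_one.1 h1.symm
  refine ⟨t, ?_, ?_⟩
  · have h2 := hs.1.transcendental ⟨t, Finset.mem_singleton_self t⟩
    exact h2
  · have h2 := hs.isAlgebraic_field
    have h3 : Set.range ((↑) : ({t} : Finset F) → F) = {t} := by
      ext y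
      simp
    rw [h3] at h2
    haveI := h2
    haveI : Algebra.EssFiniteType K⟮t⟯ F := Algebra.EssFiniteType.of_comp K K⟮t⟯ F
    exact Algebra.finite_of_essFiniteType_of_isAlgebraic

end Fermat.Agent.S27A
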