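import Fermat.Agent.S27A.Sp3

/-!
# Homomorphisms from a function field given by generators
-/

set_option autoImplicit false
set_option linter.style.haveILetI false
set_option linter.unusedSectionVars false

namespace Fermat.Agent.S27A

open AlgebraicCurve Fermat.Agent.Curve Fermat.Agent.RR Polynomial IntermediateField

variable {K F E : Type*} [Field K] [IsAlgClosed K] [Field F] [Algebra K F] [Field E]

theorem exists_lift_adj {x : F} (hx : Transcendental K x) (j : K →+* E) {x' : E}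
    (hx' : ∀ p : K[X], eval₂ j x' p = 0 → p = 0) :
    ∃ φ : K⟮x⟯ →+* E, ∀ p : K[X], φ (toAdj K x p) = eval₂ j x' p := by
  letI := (toAdj K x).toAlgebra
  haveI := isFractionRing_toAdj hx
  have hinj : Function.Injective (eval₂RingHom j x') :=
    (injective_iff_map_eq_zero _).2 fun p hp => hx' p (by simpa using hp)
  refine ⟨IsFractionRing.lift (A := K[X]) (K := K⟮x⟯) hinj, fun p => ?_⟩
  have h := IsFractionRing.lift_algebraMap (A := K[X]) (K := K⟮x⟯) hinj p
  rw [coe_eval₂RingHom] at h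
  exact h

/-- **Homomorphisms from `K(x)(y)`.** -/
theorem lift_of_minpoly {x y : F} (hx : Transcendental K x) (hy : K⟮x⟯⟮y⟯ = ⊤)
    {f : K[X][X]} (hf : f.Monic) (hmin : minpoly K⟮x⟯ y = f.map (toAdj K x))
    (j : K →+* E) {x' y' : E} (hx' : ∀ p : K[X], eval₂ j x' p = 0 → p = 0)
    (hf' : eval₂ (eval₂RingHom j x') y' f = 0) :
    ∃ φ : F →+* E, (∀ a, φ (algebraMap K F a) = j a) ∧ φ x = x' ∧ φ y = y' := by
  obtain ⟨φ₀, hφ₀⟩ := exists_lift_adj hx j hx'
  letI : Algebra K⟮x⟯ E := φ₀.toAlgebra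
  have hint : IsIntegral K⟮x⟯ y := by
    by_contra h
    have h1 := minpoly.eq_zero h
    rw [hmin] at h1
    exact (hf.map (toAdj K x)).ne_zero h1
  let pb := IntermediateField.adjoin.powerBasis hint
  have hgen : pb.gen = AdjoinSimple.gen K⟮x⟯ y := IntermediateField.adjoin.powerBasis_gen hint
  have hmin' : minpoly K⟮x⟯ pb.gen = minpoly K⟮x⟯ y := by
    rw [hgen, IntermediateField.minpoly_gen]
  have hroot : aeval y' (minpoly K⟮x⟯ pb.gen) = 0 := by
    rw [hmin', hmin, aeval_def, eval₂_map]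
    have e : (algebraMap K⟮x⟯ E).comp (toAdj K x) = eval₂RingHom j x' := by
      apply RingHom.ext
      intro p
      exact hφ₀ p
    rw [e]
    exact hf'
  let ψ : K⟮x⟯⟮y⟯ →ₐ[K⟮x⟯] E := pb.lift y' hroot
  have hψ : ψ (AdjoinSimple.gen K⟮x⟯ y) = y' := by
    rw [← hgen]
    exact pb.lift_gen y' hroot
  let e : F ≃ₐ[K⟮x⟯] K⟮x⟯⟮y⟯ :=
    (IntermediateField.topEquiv (F := K⟮x⟯) (E := F)).symm.trans (IntermediateField.equivOfEq hy.symm)
  have hcoe : ∀ z : F, ((e z : K⟮x⟯⟮y⟯) : F) = z := fun z => rfl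
  refine ⟨(ψ.comp e.toAlgHom).toRingHom, fun a => ?_, ?_, ?_⟩
  · change ψ (e (algebraMap K F a)) = j a
    have h1 : algebraMap K F a = algebraMap K⟮x⟯ F (toAdj K x (C a)) := by
      change _ = ((toAdj K x (C a) : K⟮x⟯) : F)
      rw [coe_toAdj, aeval_C]
    rw [h1, AlgEquiv.commutes, AlgHom.commutes]
    change φ₀ _ = _
    rw [hφ₀, eval₂_C]
  · change ψ (e x) = x'
    have h1 : x = algebraMap K⟮x⟯ F (toAdj K x X) := by
      change _ = ((toAdj K x X : K⟮x⟯) : F)
      rw [coe_toAdj, aeval_X]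
    have h2 : e x = algebraMap K⟮x⟯ _ (toAdj K x X) :=
      (congrArg e h1).trans (AlgEquiv.commutes e _)
    rw [h2, AlgHom.commutes]
    change φ₀ _ = _
    rw [hφ₀, eval₂_X]
  · change ψ (e y) = y'
    have h2 : e y = AdjoinSimple.gen K⟮x⟯ y := Subtype.ext rfl
    rw [h2, hψ]

end Fermat.Agent.S27A
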