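import Fermat.Agent.S27A.Sp1

/-!
# Function fields of plane curves
-/

set_option autoImplicit false
set_option linter.unusedSectionVars false
set_option linter.style.haveILetI false

noncomputable section

open IntermediateField Polynomial AlgebraicCurve Fermat.Agent.Curve Fermat.Agent.RR

namespace Fermat.Agent.S27A

section gen

variable {k F : Type*} [Field k] [Field F] [Algebra k F]

/-- the embedding of polynomials -/
def polyGen (x : F) : k[X] →+* k⟮x⟯ := (aeval (AdjoinSimple.gen k x) : k[X] →ₐ[k] k⟮x⟯).toRingHom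

theorem algebraMap_polyGen (x : F) (p : k[X]) :
    algebraMap k⟮x⟯ F (polyGen x p) = aeval x p := by
  change algebraMap k⟮x⟯ F (aeval (AdjoinSimple.gen k x) p) = _
  rw [← aeval_algebraMap_apply]
  rfl

theorem polyGen_injective {x : F} (hx : Transcendental k x) :
    Function.Injective (polyGen (k := k) x) := by
  intro p q h
  have h1 : aeval x p = aeval x q := by rw [← algebraMap_polyGen, h, algebraMap_polyGen]
  exact transcendental_iff_injective.1 hx h1

theorem aeval_map_polyGen (x y : F) (f : k[X][X]) :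
    aeval y (f.map (polyGen x)) = ev2 x y f := by
  rw [ev2, coe_eval₂RingHom, aeval_def, eval₂_map]
  congr 1
  exact RingHom.ext fun p => algebraMap_polyGen x p

theorem isIntegral_of_ev2 {x y : F} (hx : Transcendental k x) {q : k[X][X]} (hq : q ≠ 0)
    (h : ev2 x y q = 0) : IsIntegral k⟮x⟯ y := by
  have h1 : IsAlgebraic k⟮x⟯ y := ⟨q.map (polyGen x), by
    rwa [Ne, Polynomial.map_eq_zero_iff (polyGen_injective hx)], by rw [aeval_map_polyGen, h]⟩
  exact h1.isIntegral

theorem finiteDimensional_of_gen {x y : F} (hy : IsIntegral k⟮x⟯ y) (hgen : k⟮x⟯⟮y⟯ = ⊤) :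
    FiniteDimensional k⟮x⟯ F := by
  haveI : FiniteDimensional k⟮x⟯ k⟮x⟯⟮y⟯ := adjoin.finiteDimensional hy
  rw [hgen] at this
  exact Module.Finite.equiv (topEquiv (F := k⟮x⟯) (E := F)).toLinearEquiv

theorem finrank_of_gen {x y : F} (hy : IsIntegral k⟮x⟯ y) (hgen : k⟮x⟯⟮y⟯ = ⊤) :
    Module.finrank k⟮x⟯ F = (minpoly k⟮x⟯ y).natDegree := by
  rw [← adjoin.finrank hy, hgen]
  exact (finrank_top').symm

theorem linearIndependent_gen {x y : F} (hy : IsIntegral k⟮x⟯ y) (hgen : k⟮x⟯⟮y⟯ = ⊤) {m : ℕ}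
    (hm : Module.finrank k⟮x⟯ F = m) : LinearIndependent k⟮x⟯ (fun j : Fin m => y ^ (j : ℕ)) := by
  rw [finrank_of_gen hy hgen] at hm
  subst hm
  exact linearIndependent_pow y

theorem finrank_le_natDegree {x y : F} (hx : Transcendental k x) {f : k[X][X]} (hf : f.Monic)
    (h : ev2 x y f = 0) (hgen : k⟮x⟯⟮y⟯ = ⊤) : Module.finrank k⟮x⟯ F ≤ f.natDegree := by
  have hy := isIntegral_of_ev2 hx hf.ne_zero h
  rw [finrank_of_gen hy hgen]
  have h1 : minpoly k⟮x⟯ y ∣ f.map (polyGen x) := minpoly.dvd _ _ (by rw [aeval_map_polyGen, h])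
  have h2 := natDegree_le_of_dvd h1 (hf.map _).ne_zero
  rwa [hf.natDegree_map] at h2

end gen

section PF

variable (k : Type*) [Field k]

/-- the big field -/
abbrev OmP := AlgebraicClosure (RatFunc k)

/-- the coordinate function -/
def tX : OmP k := algebraMap (RatFunc k) (OmP k) RatFunc.X

theorem aeval_tX (p : k[X]) : aeval (tX k) p = algebraMap (RatFunc k) (OmP k)
    (algebraMap k[X] (RatFunc k) p) := by
  rw [tX, aeval_algebraMap_apply, RatFunc.aeval_X_left_eq_algebraMap]

theorem transcendental_tX : Transcendental k (tX k) := by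
  rw [transcendental_iff_injective]
  intro p q h
  rw [aeval_tX, aeval_tX] at h
  exact RatFunc.algebraMap_injective k ((algebraMap (RatFunc k) (OmP k)).injective h)

variable {k}

open Classical in
/-- a root of `f` -/
def tY (f : k[X][X]) : OmP k := if h : ∃ y, ev2 (tX k) y f = 0 then h.choose else 0

theorem ev2_tY {f : k[X][X]} (hf : f.Monic) (hn : f.natDegree ≠ 0) : ev2 (tX k) (tY f) f = 0 := by
  have h : ∃ y, ev2 (tX k) y f = 0 := by
    have h1 : (f.map (aeval (tX k) : k[X] →ₐ[k] OmP k).toRingHom).degree ≠ 0 := by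
      rw [hf.degree_map, degree_eq_natDegree hf.ne_zero]
      exact_mod_cast hn
    obtain ⟨y, hy⟩ := IsAlgClosed.exists_root _ h1
    refine ⟨y, ?_⟩
    rw [IsRoot, eval_map] at hy
    exact hy
  rw [tY, dif_pos h]
  exact h.choose_spec

/-- the function field -/
def PF (f : k[X][X]) : IntermediateField k (OmP k) := adjoin k {tX k, tY f}

/-- the first coordinate -/
def pX (f : k[X][X]) : PF f := ⟨tX k, subset_adjoin k _ (Set.mem_insert _ _)⟩

/-- the second coordinate -/
def pY (f : k[X][X]) : PF f := ⟨tY f, subset_adjoin k _ (Set.mem_insert_of_mem _ rfl)⟩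

theorem val_ev2 (L : IntermediateField k (OmP k)) (x y : L) (f : k[X][X]) :
    ((ev2 x y f : L) : OmP k) = ev2 (x : OmP k) (y : OmP k) f := by
  rw [ev2_apply, ev2_apply]
  push_cast
  refine Finset.sum_congr rfl fun i _ => ?_
  congr 1
  exact (aeval_algebraMap_apply (OmP k) x (f.coeff i)).symm

theorem transcendental_pX (f : k[X][X]) : Transcendental k (pX f) := by
  intro h
  exact transcendental_tX k (h.algebraMap (A := OmP k))

theorem ev2_pY {f : k[X][X]} (hf : f.Monic) (hn : f.natDegree ≠ 0) :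
    ev2 (pX f) (pY f) f = 0 := by
  apply Subtype.ext
  rw [val_ev2]
  exact ev2_tY hf hn

theorem gen_PF (f : k[X][X]) : k⟮pX f⟯⟮pY f⟯ = ⊤ := by
  rw [← restrictScalars_eq_top_iff (K := k), adjoin_simple_adjoin_simple]
  apply lift_injective (PF f)
  rw [lift_adjoin, lift_top, Set.image_pair]
  rfl

theorem isIntegral_pY (f : k[X][X]) : IsIntegral k⟮pX f⟯ (pY f) := by
  have h1 : IsAlgebraic (RatFunc k) (tY f) := Algebra.IsAlgebraic.isAlgebraic _
  obtain ⟨q, hq, hq0⟩ := (IsFractionRing.isAlgebraic_iff k[X] (RatFunc k) (OmP k)).2 h1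
  refine isIntegral_of_ev2 (transcendental_pX f) hq ?_
  apply Subtype.ext
  rw [val_ev2]
  change ev2 (tX k) (tY f) q = 0
  rw [ev2, coe_eval₂RingHom, ← hq0, aeval_def]
  congr 1
  refine RingHom.ext fun p => (aeval_tX k p).trans ?_
  exact (IsScalarTower.algebraMap_apply k[X] (RatFunc k) (OmP k) p).symm

instance finiteDimensional_PF (f : k[X][X]) : FiniteDimensional k⟮pX f⟯ (PF f) :=
  finiteDimensional_of_gen (isIntegral_pY f) (gen_PF f)

instance funField_PF (f : k[X][X]) : FunField k (PF f) := ⟨pX f, transcendental_pX f, inferInstance⟩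

theorem finrank_PF_le {f : k[X][X]} (hf : f.Monic) (hn : f.natDegree ≠ 0) :
    Module.finrank k⟮pX f⟯ (PF f) ≤ f.natDegree :=
  finrank_le_natDegree (transcendental_pX f) hf (ev2_pY hf hn) (gen_PF f)

variable [IsAlgClosed k]

theorem genus_PF_le {f : k[X][X]} (hf : f.Monic) (hn : f.natDegree ≠ 0) {D : ℕ}
    (hD : ∀ i, (f.coeff i).natDegree ≤ D) : rrGenus k (PF f) ≤ D * f.natDegree ^ 2 + 1 := by
  refine (genus_le (transcendental_pX f) hf hD (ev2_pY hf hn) rfl
    (linearIndependent_gen (isIntegral_pY f) (gen_PF f) rfl)).trans ?_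
  have h1 := finrank_PF_le hf hn
  gcongr

end PF

end Fermat.Agent.S27A
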