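import Fermat.Agent.RR.Riemann

/-!
# Generators of a function field, integral over a polynomial ring
-/

set_option autoImplicit false
set_option linter.style.haveILetI false
set_option linter.unusedSectionVars false

namespace Fermat.Agent.S27A

open AlgebraicCurve Fermat.Agent.Curve Fermat.Agent.RR Polynomial IntermediateField

variable {K F : Type*} [Field K] [IsAlgClosed K] [Field F] [Algebra K F]

/-- the map `K[X] → K(x)` -/
noncomputable def toAdj (K : Type*) {F : Type*} [Field K] [Field F] [Algebra K F] (x : F) :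
    K[X] →+* K⟮x⟯ := (aeval (AdjoinSimple.gen K x) : K[X] →ₐ[K] K⟮x⟯).toRingHom

theorem coe_toAdj (x : F) (p : K[X]) : ((toAdj K x p : K⟮x⟯) : F) = aeval x p := by
  change algebraMap K⟮x⟯ F (aeval (AdjoinSimple.gen K x) p) = _
  rw [← aeval_algebraMap_apply, AdjoinSimple.algebraMap_gen]

theorem toAdj_injective {x : F} (hx : Transcendental K x) : Function.Injective (toAdj K x) := by
  have h := transcendental_iff_injective.1 hx
  intro p q hpq
  apply h
  rw [← coe_toAdj, ← coe_toAdj, hpq]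

theorem isFractionRing_toAdj {x : F} (hx : Transcendental K x) :
    letI := (toAdj K x).toAlgebra
    IsFractionRing K[X] K⟮x⟯ := by
  letI := (toAdj K x).toAlgebra
  have hinj : Function.Injective (algebraMap K[X] K⟮x⟯) := toAdj_injective hx
  refine ⟨?_, ?_, ?_⟩
  · rintro ⟨p, hp⟩
    have hp0 : p ≠ 0 := nonZeroDivisors.ne_zero hp
    exact IsUnit.mk0 _ ((map_ne_zero_iff _ hinj).2 hp0)
  · intro z
    obtain ⟨r, s, hrs⟩ := (mem_adjoin_simple_iff K (z : F)).1 z.2
    by_cases hs : s = 0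
    · refine ⟨(0, 1), ?_⟩
      have hz : z = 0 := by
        apply Subtype.ext
        rw [hrs, hs, map_zero, div_zero]
        rfl
      rw [hz]
      simp
    · refine ⟨(r, ⟨s, mem_nonZeroDivisors_of_ne_zero hs⟩), ?_⟩
      apply Subtype.ext
      change (z : F) * ((toAdj K x s : K⟮x⟯) : F) = ((toAdj K x r : K⟮x⟯) : F)
      rw [coe_toAdj, coe_toAdj, hrs]
      have hs0 : aeval x s ≠ 0 := fun h0 => hs ((transcendental_iff.1 hx) s h0)
      field_simp
  · intro p q hpq
    exact ⟨1, by rw [hinj hpq]⟩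

/-- **Generators.** -/
theorem exists_generators [CharZero K] [hF : FunField K F] : ∃ x y : F, Transcendental K x ∧
    FiniteDimensional K⟮x⟯ F ∧ K⟮x⟯⟮y⟯ = ⊤ ∧ ∃ f : K[X][X], f.Monic ∧
      eval₂ (aeval x : K[X] →ₐ[K] F).toRingHom y f = 0 ∧
      minpoly K⟮x⟯ y = f.map (toAdj K x) := by
  obtain ⟨x, hx, hfd⟩ := hF.out
  haveI := fd (K := K) hx
  haveI : CharZero F := charZero_of_injective_algebraMap (algebraMap K F).injective
  haveI : CharZero K⟮x⟯ := charZero_of_injective_algebraMap (algebraMap K K⟮x⟯).injective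
  letI := (toAdj K x).toAlgebra
  haveI := isFractionRing_toAdj hx
  letI : Algebra K[X] F := ((algebraMap K⟮x⟯ F).comp (toAdj K x)).toAlgebra
  haveI : IsScalarTower K[X] K⟮x⟯ F := IsScalarTower.of_algebraMap_eq fun p => rfl
  have halg : ∀ p : K[X], algebraMap K[X] F p = aeval x p := fun p => coe_toAdj x p
  obtain ⟨y₀, hy₀⟩ := Field.exists_primitive_element K⟮x⟯ F
  have h1 : IsAlgebraic K⟮x⟯ y₀ := Algebra.IsAlgebraic.isAlgebraic y₀
  have h2 : IsAlgebraic K[X] y₀ := (IsFractionRing.isAlgebraic_iff K[X] K⟮x⟯ F).2 h1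
  obtain ⟨c, hc, hint⟩ := h2.exists_integral_multiple
  have hc0 : toAdj K x c ≠ 0 := (map_ne_zero_iff _ (toAdj_injective hx)).2 hc
  refine ⟨x, c • y₀, hx, inferInstance, ?_, minpoly K[X] (c • y₀), minpoly.monic hint, ?_, ?_⟩
  · rw [eq_top_iff, ← hy₀, adjoin_simple_le_iff]
    have h3 : c • y₀ ∈ K⟮x⟯⟮c • y₀⟯ := mem_adjoin_simple_self _ _
    have h4 : algebraMap K⟮x⟯ F (toAdj K x c)⁻¹ * (c • y₀) ∈ K⟮x⟯⟮c • y₀⟯ :=
      mul_mem (IntermediateField.algebraMap_mem _ _) h3
    have h5 : algebraMap K⟮x⟯ F (toAdj K x c)⁻¹ * (c • y₀) = y₀ := by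
      rw [Algebra.smul_def, IsScalarTower.algebraMap_apply K[X] K⟮x⟯ F, ← mul_assoc, ← map_mul]
      change algebraMap K⟮x⟯ F ((toAdj K x c)⁻¹ * toAdj K x c) * y₀ = y₀
      rw [inv_mul_cancel₀ hc0, map_one, one_mul]
    rwa [h5] at h4
  · have h6 := minpoly.aeval K[X] (c • y₀)
    rw [aeval_def] at h6
    have e : (algebraMap K[X] F) = (aeval x : K[X] →ₐ[K] F).toRingHom := RingHom.ext halg
    rwa [e] at h6
  · exact minpoly.isIntegrallyClosed_eq_field_fractions' K⟮x⟯ hint

end Fermat.Agent.S27A
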