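import Fermat.Agent.S27A.U6
import Fermat.Agent.S27A.Sp3
import Fermat.Agent.S27A.Sp2

/-!
# Generators of ultraproducts of function fields
-/

set_option autoImplicit false
set_option linter.unusedSectionVars false
set_option linter.style.haveILetI false

noncomputable section

namespace Fermat.Agent.S27A

open AlgebraicCurve Fermat.Agent.Curve Fermat.Agent.RR Polynomial IntermediateField Filter

variable {I : Type*} {U : Ultrafilter I} {k F : I → Type*} [∀ i, Field (k i)]
  [∀ i, IsAlgClosed (k i)] [∀ i, Field (F i)] [∀ i, Algebra (k i) (F i)]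

/-- independence in ultraproducts -/
theorem li_FS [∀ i, FunField (k i) (F i)] {ι : Type*} [Fintype ι] (w : ι → FS U k F)
    (h : ∀ᶠ i in (U : Filter I), LinearIndependent (k i) (fun s => rep (w s) i)) :
    LinearIndependent (UP U k) w := by
  rw [Fintype.linearIndependent_iff]
  intro g hg
  choose c hc using fun s => umk_surjective (U := U) (R := k) (g s)
  have h1 : umk U (fun i => ∑ s, c s i • rep (w s) i) = 0 := by
    have h2 := congrArg (fun z : FS U k F => (z : UP U F)) hg
    simp only [IntermediateField.coe_sum, IntermediateField.coe_zero] at h2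
    rw [← h2]
    have e : (fun i => ∑ s, c s i • rep (w s) i) = ∑ s, fun i => c s i • rep (w s) i := by
      funext i
      rw [Finset.sum_apply]
    rw [e, map_sum]
    refine Finset.sum_congr rfl fun s _ => ?_
    rw [IntermediateField.coe_smul, ← umk_rep (w s), ← hc, umk_smul]
  rw [umk_eq_zero] at h1
  intro s
  rw [← hc, umk_eq_zero]
  filter_upwards [h, h1] with i hi hi'
  exact Fintype.linearIndependent_iff.1 hi (fun s => c s i) hi' s

/-- independence of monomials gives independence over the rational function field -/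
theorem li_of_monomials {K L : Type*} [Field K] [IsAlgClosed K] [Field L] [Algebra K L] {x y : L}
    (hx : Transcendental K x) {m : ℕ}
    (h : ∀ B : ℕ, LinearIndependent K (fun q : Fin B × Fin m => x ^ (q.1 : ℕ) * y ^ (q.2 : ℕ))) :
    LinearIndependent K⟮x⟯ (fun j : Fin m => y ^ (j : ℕ)) := by
  letI := (toAdj K x).toAlgebra
  haveI := isFractionRing_toAdj hx
  letI : Algebra K[X] L := ((algebraMap K⟮x⟯ L).comp (toAdj K x)).toAlgebra
  haveI : IsScalarTower K[X] K⟮x⟯ L := IsScalarTower.of_algebraMap_eq fun p => rfl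
  have halg : ∀ p : K[X], algebraMap K[X] L p = aeval x p := fun p => coe_toAdj x p
  rw [← LinearIndependent.iff_fractionRing K[X] K⟮x⟯]
  rw [Fintype.linearIndependent_iff]
  intro g hg
  obtain ⟨B, hB⟩ : ∃ B : ℕ, ∀ j, (g j).natDegree < B :=
    ⟨Finset.univ.sup (fun j => (g j).natDegree) + 1, fun j =>
      Nat.lt_succ_of_le (Finset.le_sup (f := fun j => (g j).natDegree) (Finset.mem_univ j))⟩
  have h1 : ∑ q : Fin B × Fin m, (g q.2).coeff q.1 • (x ^ (q.1 : ℕ) * y ^ (q.2 : ℕ)) = 0 := by
    rw [← hg, Fintype.sum_prod_type_right]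
    refine Finset.sum_congr rfl fun j _ => ?_
    rw [Algebra.smul_def, halg, aeval_eq_sum_range' (hB j), Finset.sum_mul, Finset.sum_range]
    refine Finset.sum_congr rfl fun b _ => ?_
    rw [smul_mul_assoc]
  intro j
  ext b
  rw [coeff_zero]
  by_cases hb : b < B
  · exact Fintype.linearIndependent_iff.1 (h B) _ h1 (⟨b, hb⟩, j)
  · exact coeff_eq_zero_of_natDegree_lt ((hB j).trans_le (not_lt.1 hb))

theorem monomials_li {K L : Type*} [Field K] [IsAlgClosed K] [Field L] [Algebra K L] {x y : L}
    (hx : Transcendental K x) {m : ℕ}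
    (h : LinearIndependent K⟮x⟯ (fun j : Fin m => y ^ (j : ℕ))) (B : ℕ) :
    LinearIndependent K (fun q : Fin B × Fin m => x ^ (q.1 : ℕ) * y ^ (q.2 : ℕ)) := by
  have hgen : Transcendental K (AdjoinSimple.gen K x) := transcendental_gen hx
  have h1 := linearIndependent_smul (linearIndependent_pow hgen B) h
  have e : (fun q : Fin B × Fin m => (AdjoinSimple.gen K x ^ (q.1 : ℕ)) • y ^ (q.2 : ℕ)) =
      fun q : Fin B × Fin m => x ^ (q.1 : ℕ) * y ^ (q.2 : ℕ) := by
    funext q
    rw [Algebra.smul_def, map_pow]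
    rfl
  rw [← e]
  exact h1

theorem rep_monomial [∀ i, FunField (k i) (F i)] (xs ys : FS U k F) (a b : ℕ) :
    ∀ᶠ i in (U : Filter I), rep (xs ^ a * ys ^ b) i = rep xs i ^ a * rep ys i ^ b := by
  apply rep_eq (f := fun i => rep xs i ^ a * rep ys i ^ b)
  rw [IntermediateField.coe_mul, IntermediateField.coe_pow, IntermediateField.coe_pow,
    ← umk_rep xs, ← umk_rep ys, ← map_pow, ← map_pow, ← map_mul]
  rfl

/-- **Generators of the ultraproduct.** -/
theorem gen_top [∀ i, FunField (k i) (F i)] [hBG : BG k F] {xs ys : FS U k F}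
    (hx : ∀ᶠ i in (U : Filter I), Transcendental (k i) (rep xs i))
    (hgen : ∀ᶠ i in (U : Filter I), (k i)⟮rep xs i⟯⟮rep ys i⟯ = ⊤) :
    (UP U k)⟮xs⟯⟮ys⟯ = ⊤ := by
  have hx' : Transcendental (UP U k) xs := transcendental_of hx
  haveI := finiteDimensional_of hx'
  obtain ⟨B, hB⟩ := rep_bdd xs
  obtain ⟨m, -, hm⟩ := exists_ulim U (Finset.range (B + 1))
    (a := fun i => Module.finrank (k i)⟮rep xs i⟯ (F i)) (by
      filter_upwards [hx] with i hi
      have h1 := hB i
      rw [pd, degree_poleDiv hi] at h1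
      rw [Finset.mem_range]
      omega)
  have hle : Module.finrank (UP U k)⟮xs⟯ (FS U k F) ≤ m := by
    refine finrank_le_of hx' ?_
    filter_upwards [hx, hm] with i hi hmi
    rw [pd, degree_poleDiv hi, hmi]
  have hli : LinearIndependent (UP U k)⟮xs⟯ (fun j : Fin m => ys ^ (j : ℕ)) := by
    refine li_of_monomials hx' fun B => li_FS _ ?_
    have h1 : ∀ᶠ i in (U : Filter I), ∀ q : Fin B × Fin m,
        rep (xs ^ (q.1 : ℕ) * ys ^ (q.2 : ℕ)) i = rep xs i ^ (q.1 : ℕ) * rep ys i ^ (q.2 : ℕ) :=
      eventually_all.2 fun q => rep_monomial xs ys _ _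
    filter_upwards [hx, hgen, hm, h1] with i hi hgi hmi h1i
    haveI := fd (K := k i) hi
    simp only [h1i]
    exact monomials_li hi (linearIndependent_gen (IsIntegral.of_finite _ _) hgi hmi) B
  apply IntermediateField.eq_of_le_of_finrank_le le_top
  rw [finrank_top']
  refine hle.trans ?_
  have h2 : LinearIndependent (UP U k)⟮xs⟯ (fun j : Fin m =>
      (⟨ys ^ (j : ℕ), pow_mem (mem_adjoin_simple_self _ ys) _⟩ : (UP U k)⟮xs⟯⟮ys⟯)) := by
    apply LinearIndependent.of_comp ((UP U k)⟮xs⟯⟮ys⟯.val.toLinearMap)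
    exact hli
  have h3 := h2.fintype_card_le_finrank
  rwa [Fintype.card_fin] at h3

end Fermat.Agent.S27A
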