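import Fermat.Agent.S27A.Sp0
import Fermat.Agent.S27A.Sp4
import Fermat.Agent.S27A.Sp5
import Fermat.Agent.MW.BC

/-!
# Spreading out a function field
-/

set_option autoImplicit false
set_option linter.unusedSectionVars false
set_option linter.style.haveILetI false

noncomputable section

namespace Fermat.Agent.S27A

open AlgebraicCurve Fermat.Agent.Curve Fermat.Agent.RR Polynomial IntermediateField Filter
  Fermat.Agent.MW

section poly

variable {k : Type*} [Field k]

/-- a monic two-variable polynomial with given coefficients -/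
def mkP (n D : ℕ) (c : ℕ → ℕ → k) : k[X][X] :=
  X ^ n + ∑ i ∈ Finset.range n, C (∑ j ∈ Finset.range (D + 1), C (c i j) * X ^ j) * X ^ i

theorem degree_mkP_lt (n D : ℕ) (c : ℕ → ℕ → k) :
    (∑ i ∈ Finset.range n, C (∑ j ∈ Finset.range (D + 1), C (c i j) * X ^ j) * X ^ i :
      k[X][X]).degree < n := by
  refine (degree_sum_le _ _).trans_lt ?_
  rw [Finset.sup_lt_iff (WithBot.bot_lt_coe _)]
  intro i hi
  refine (degree_C_mul_X_pow_le _ _).trans_lt ?_
  exact_mod_cast Finset.mem_range.1 hi

theorem monic_mkP (n D : ℕ) (c : ℕ → ℕ → k) : (mkP n D c).Monic :=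
  monic_X_pow_add (degree_mkP_lt n D c)

theorem natDegree_mkP (n D : ℕ) (c : ℕ → ℕ → k) : (mkP n D c).natDegree = n := by
  have h1 : (mkP n D c).degree = n := by
    rw [mkP, degree_add_eq_left_of_degree_lt]
    · exact degree_X_pow _
    · rw [degree_X_pow]
      exact degree_mkP_lt n D c
  exact natDegree_eq_of_degree_eq_some h1

theorem natDegree_coeff_mkP (n D : ℕ) (c : ℕ → ℕ → k) (l : ℕ) :
    ((mkP n D c).coeff l).natDegree ≤ D := by
  rw [mkP, coeff_add, finset_sum_coeff]
  refine (natDegree_add_le _ _).trans (max_le ?_ ?_)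
  · rw [coeff_X_pow]
    split_ifs <;> simp
  · refine natDegree_sum_le_of_forall_le _ _ fun i _ => ?_
    rw [coeff_C_mul_X_pow]
    split_ifs
    · refine natDegree_sum_le_of_forall_le _ _ fun j hj => ?_
      refine (natDegree_C_mul_X_pow_le _ _).trans ?_
      have := Finset.mem_range.1 hj
      omega
    · simp

theorem ev2_mkP {F : Type*} [Field F] [Algebra k F] (x y : F) (n D : ℕ) (c : ℕ → ℕ → k) :
    ev2 x y (mkP n D c) = y ^ n + ∑ i ∈ Finset.range n,
      (∑ j ∈ Finset.range (D + 1), algebraMap k F (c i j) * x ^ j) * y ^ i := by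
  rw [ev2, coe_eval₂RingHom, mkP, eval₂_add, eval₂_X_pow, eval₂_finset_sum]
  congr 1
  refine Finset.sum_congr rfl fun i _ => ?_
  rw [eval₂_mul, eval₂_C, eval₂_X_pow]
  congr 1
  change aeval x _ = _
  rw [map_sum]
  refine Finset.sum_congr rfl fun j _ => ?_
  rw [map_mul, aeval_C, map_pow, aeval_X]

theorem eq_mkP {f : k[X][X]} (hf : f.Monic) {D : ℕ} (hD : ∀ i, (f.coeff i).natDegree ≤ D) :
    f = mkP f.natDegree D (fun i j => (f.coeff i).coeff j) := by
  conv_lhs => rw [hf.as_sum]
  rw [mkP]
  congr 1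
  refine Finset.sum_congr rfl fun i _ => ?_
  congr 2
  exact as_sum_range_C_mul_X_pow' _ (Nat.lt_succ_of_le (hD i))

theorem eval₂_mkP {E : Type*} [Field E] (j : k →+* E) (x y : E) (n D : ℕ) (c : ℕ → ℕ → k) :
    eval₂ (eval₂RingHom j x) y (mkP n D c) = y ^ n + ∑ i ∈ Finset.range n,
      (∑ l ∈ Finset.range (D + 1), j (c i l) * x ^ l) * y ^ i := by
  rw [mkP, eval₂_add, eval₂_X_pow, eval₂_finset_sum]
  congr 1
  refine Finset.sum_congr rfl fun i _ => ?_
  rw [eval₂_mul, eval₂_C, eval₂_X_pow]
  congr 1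
  rw [coe_eval₂RingHom, eval₂_finset_sum]
  refine Finset.sum_congr rfl fun l _ => ?_
  rw [eval₂_mul, eval₂_C, eval₂_X_pow]

end poly

section jK

variable (K : Type*) [Field K] [CharZero K]

/-- the constants -/
abbrev Ks := UP (ultS K) (fun S : Finset K => kS S)

/-- the embedding of the constants -/
def jK : K →+* Ks K where
  toFun a := umk (ultS K) (fun S => phiS S a)
  map_one' := by
    rw [← map_one (umk (ultS K))]
    congr 1
    funext S
    exact phiS_one S
  map_zero' := by
    rw [← map_zero (umk (ultS K))]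
    congr 1
    funext S
    exact phiS_zero S
  map_mul' a b := by
    rw [← map_mul, umk_eq]
    exact eventually_phiS_mul a b
  map_add' a b := by
    rw [← map_add, umk_eq]
    exact eventually_phiS_add a b

theorem algebraMap_jK {Fm : Finset K → Type} [∀ S, Field (Fm S)] [∀ S, Algebra (kS S) (Fm S)]
    [∀ S, FunField (kS S) (Fm S)] (a : K) :
    ((algebraMap (Ks K) (FS (ultS K) (fun S : Finset K => kS S) Fm) (jK K a) :
      FS (ultS K) (fun S : Finset K => kS S) Fm) : UP (ultS K) Fm) =
      umk (ultS K) (fun S => algebraMap (kS S) (Fm S) (phiS S a)) := rfl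

end jK

section main

variable (K : Type*) [Field K] [IsAlgClosed K] [CharZero K]

/-- elements of the ultraproduct which are algebraic over `K` -/
theorem mem_range_jK {a : Ks K} {h : K[X]} (h0 : h ≠ 0) (ha : eval₂ (jK K) a h = 0) :
    ∃ c : K, jK K c = a := by
  letI : Algebra K (Ks K) := (jK K).toAlgebra
  have h1 : IsAlgebraic K a := ⟨h, h0, ha⟩
  exact Fermat.Agent.Curve.mem_range_of_isAlgebraic h1

variable (F : Type*) [Field F] [Algebra K F] [FunField K F]

/-- **Spreading out**: a function field in characteristic zero embeds in an ultraproduct of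
function fields over algebraic closures of finite fields, up to extension of constants. -/
theorem exists_spread : ∃ (Fm : Finset K → Type) (_ : ∀ S, Field (Fm S))
    (_ : ∀ S, Algebra (kS S) (Fm S)) (_ : ∀ S, FunField (kS S) (Fm S))
    (_ : BG (fun S : Finset K => kS S) Fm) (_ : Algebra K (Ks K))
    (_ : Algebra F (FS (ultS K) (fun S : Finset K => kS S) Fm)),
    CExt K (Ks K) F (FS (ultS K) (fun S : Finset K => kS S) Fm) := by
  obtain ⟨x, y, hx, hfd, hgen, f, hf, h0, hmin⟩ := exists_generators (K := K) (F := F)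
  have hn : f.natDegree ≠ 0 := by
    intro hn
    rw [eq_one_of_monic_natDegree_zero hf hn, eval₂_one] at h0
    exact one_ne_zero h0
  obtain ⟨D, hD⟩ : ∃ D : ℕ, ∀ i, (f.coeff i).natDegree ≤ D := by
    refine ⟨(Finset.range (f.natDegree + 1)).sup (fun i => (f.coeff i).natDegree), fun i => ?_⟩
    by_cases hi : i ∈ Finset.range (f.natDegree + 1)
    · exact Finset.le_sup (f := fun i => (f.coeff i).natDegree) hi
    · rw [Finset.mem_range, not_lt] at hi
      rw [coeff_eq_zero_of_natDegree_lt (by omega)]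
      simp
  obtain ⟨n, hnn⟩ : ∃ n, n = f.natDegree := ⟨_, rfl⟩
  let c : ℕ → ℕ → K := fun i j => (f.coeff i).coeff j
  have hfc : f = mkP n D c := by rw [hnn]; exact eq_mkP hf hD
  rw [← hnn] at hn
  let g : ∀ S : Finset K, (kS S)[X][X] := fun S => mkP n D (fun i j => phiS S (c i j))
  let Fm : Finset K → Type := fun S => PF (g S)
  have hg : ∀ S, (g S).Monic := fun S => monic_mkP _ _ _
  have hgn : ∀ S, (g S).natDegree = n := fun S => natDegree_mkP _ _ _
  have hgn0 : ∀ S, (g S).natDegree ≠ 0 := fun S => by rw [hgn]; exact hn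
  have hgD : ∀ S i, ((g S).coeff i).natDegree ≤ D := fun S i => natDegree_coeff_mkP _ _ _ _
  letI i1 : ∀ S, Field (Fm S) := fun S => inferInstanceAs (Field (PF (g S)))
  letI i2 : ∀ S, Algebra (kS S) (Fm S) := fun S => inferInstanceAs (Algebra (kS S) (PF (g S)))
  letI i3 : ∀ S, FunField (kS S) (Fm S) := fun S => funField_PF (g S)
  haveI i4 : BG (fun S : Finset K => kS S) Fm := ⟨D * n ^ 2 + 1, fun S => by
    have h1 := genus_PF_le (hg S) (hgn0 S) (hgD S)
    rw [hgn] at h1
    exact h1⟩
  let px : ∀ S, Fm S := fun S => pX (g S)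
  let py : ∀ S, Fm S := fun S => pY (g S)
  have hpx : ∀ S, Transcendental (kS S) (px S) := fun S => transcendental_pX (g S)
  have hpdx : ∀ S, pd (kS S) (px S) ≤ n := fun S => by
    have h1 := finrank_PF_le (hg S) (hgn0 S)
    rw [hgn] at h1
    have h2 := degree_poleDiv (hpx S)
    rw [pd, h2]
    exact_mod_cast h1
  have hpdy : ∀ S, pd (kS S) (py S) ≤ D * n := fun S => by
    have h1 : py S ∈ riemannRochSpace (D • poleDiv (kS S) (px S)) :=
      mem_L_of_monic (hg S) (hgD S) (ev2_pY (hg S) (hgn0 S))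
    have h2 := pd_of_mem h1
    have h3 : (D • poleDiv (kS S) (px S)) ⊔ 0 = D • poleDiv (kS S) (px S) :=
      sup_eq_left.2 (nsmul_nonneg (poleDiv_nonneg _) D)
    rw [h3, map_nsmul, nsmul_eq_mul] at h2
    refine h2.trans ?_
    have h4 : Divisor.degree (poleDiv (kS S) (px S)) ≤ n := hpdx S
    nlinarith [Int.natCast_nonneg D]
  let xs : FS (ultS K) (fun S : Finset K => kS S) Fm :=
    ⟨umk (ultS K) px, umk_mem_FS (m := n) (Eventually.of_forall hpdx)⟩
  let ys : FS (ultS K) (fun S : Finset K => kS S) Fm :=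
    ⟨umk (ultS K) py, umk_mem_FS (m := D * n) (Eventually.of_forall hpdy)⟩
  have hrx : ∀ᶠ S in (ultS K : Filter (Finset K)), rep xs S = px S := rep_eq rfl
  have hry : ∀ᶠ S in (ultS K : Filter (Finset K)), rep ys S = py S := rep_eq rfl
  have htr : ∀ᶠ S in (ultS K : Filter (Finset K)), Transcendental (kS S) (rep xs S) := by
    filter_upwards [hrx] with S hS
    rw [hS]
    exact hpx S
  have hxs : Transcendental (Ks K) xs := transcendental_of htr
  have htop : (Ks K)⟮xs⟯⟮ys⟯ = ⊤ := by
    refine gen_top htr ?_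
    filter_upwards [hrx, hry] with S hS hS'
    rw [hS, hS']
    exact gen_PF (g S)
  let j : K →+* FS (ultS K) (fun S : Finset K => kS S) Fm :=
    (algebraMap (Ks K) (FS (ultS K) (fun S : Finset K => kS S) Fm)).comp (jK K)
  have hx' : ∀ p : K[X], eval₂ j xs p = 0 → p = 0 := by
    intro p hp
    have h1 : aeval xs (p.map (jK K)) = 0 := by
      rw [aeval_def, eval₂_map]
      exact hp
    have h2 := transcendental_iff.1 hxs _ h1
    exact (Polynomial.map_eq_zero_iff (jK K).injective).1 h2
  have hf' : eval₂ (eval₂RingHom j xs) ys f = 0 := by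
    rw [hfc, eval₂_mkP]
    apply (FS (ultS K) (fun S : Finset K => kS S) Fm).val.injective
    have h1 : umk (ultS K) (fun S => ev2 (px S) (py S) (g S)) = 0 := by
      rw [umk_eq_zero]
      exact Eventually.of_forall fun S => ev2_pY (hg S) (hgn0 S)
    have h2 : (fun S => ev2 (px S) (py S) (g S)) = py ^ n + ∑ i ∈ Finset.range n,
        (∑ l ∈ Finset.range (D + 1),
          (fun S => algebraMap (kS S) (Fm S) (phiS S (c i l))) * px ^ l) * py ^ i := by
      funext S
      rw [ev2_mkP]
      simp only [Pi.add_apply, Pi.pow_apply, Finset.sum_apply, Pi.mul_apply]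
    rw [h2] at h1
    simp only [map_add, map_pow, map_sum, map_mul] at h1
    rw [map_zero, ← h1]
    simp only [map_add, map_pow, map_sum, map_mul]
    rfl
  obtain ⟨φ, hφj, hφx, hφy⟩ := lift_of_minpoly hx hgen hf hmin j hx' hf'
  letI i5 : Algebra K (Ks K) := (jK K).toAlgebra
  letI i6 : Algebra F (FS (ultS K) (fun S : Finset K => kS S) Fm) := φ.toAlgebra
  refine ⟨Fm, i1, i2, i3, i4, i5, i6, ?_⟩
  refine { comm := fun a => hφj a, gen := fun E hE => ?_, tr := fun z hz => ?_ }
  · have h1 : xs ∈ E := hφx ▸ hE x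
    have h2 : ys ∈ E := hφy ▸ hE y
    rw [← restrictScalars_eq_top_iff (K := Ks K), adjoin_simple_adjoin_simple] at htop
    rw [eq_top_iff, ← htop, adjoin_le_iff]
    rintro _ (rfl | rfl)
    · exact h1
    · exact h2
  · obtain ⟨a, ha⟩ := hz
    change algebraMap (Ks K) _ a = φ z at ha
    -- a relation between `x` and `z`
    letI := (toAdj K x).toAlgebra
    haveI := isFractionRing_toAdj hx
    letI : Algebra K[X] F := ((algebraMap K⟮x⟯ F).comp (toAdj K x)).toAlgebra
    haveI : IsScalarTower K[X] K⟮x⟯ F := IsScalarTower.of_algebraMap_eq fun p => rfl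
    have h1 : IsAlgebraic K⟮x⟯ z := Algebra.IsAlgebraic.isAlgebraic z
    obtain ⟨H, hH, hH0⟩ := (IsFractionRing.isAlgebraic_iff K[X] K⟮x⟯ F).2 h1
    have h2 : eval₂ (aeval x : K[X] →ₐ[K] F).toRingHom z H = 0 := by
      rw [← hH0, aeval_def]
      congr 1
      exact RingHom.ext fun p => (coe_toAdj x p).symm
    -- apply the embedding
    have h3 : eval₂ (eval₂RingHom j xs) (φ z) H = 0 := by
      rw [← map_zero φ, ← h2, hom_eval₂]
      congr 1
      refine Polynomial.ringHom_ext (fun a => ?_) ?_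
      · rw [coe_eval₂RingHom, eval₂_C, RingHom.comp_apply]
        change _ = φ (aeval x (C a))
        rw [aeval_C, hφj]
        rfl
      · rw [coe_eval₂RingHom, eval₂_X, RingHom.comp_apply]
        change _ = φ (aeval x X)
        rw [aeval_X, hφx]
    obtain ⟨P, hP⟩ : ∃ P : (Ks K)[X], P = eval₂ (mapRingHom (jK K)) (C a) H := ⟨_, rfl⟩
    have h4 : aeval xs P = 0 := by
      rw [← h3, ← ha, hP]
      change (aeval xs : (Ks K)[X] →ₐ[Ks K] _).toRingHom _ = _
      rw [hom_eval₂]
      congr 1
      · refine Polynomial.ringHom_ext (fun b => ?_) ?_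
        · rw [RingHom.comp_apply, coe_mapRingHom, map_C, coe_eval₂RingHom, eval₂_C]
          change aeval xs (C _) = _
          rw [aeval_C]
          rfl
        · rw [RingHom.comp_apply, coe_mapRingHom, map_X, coe_eval₂RingHom, eval₂_X]
          change aeval xs X = _
          rw [aeval_X]
      · change aeval xs (C a) = _
        rw [aeval_C]
    have h5 : P = 0 := transcendental_iff.1 hxs _ h4
    obtain ⟨l, hl⟩ : ∃ l, H.leadingCoeff.coeff l ≠ 0 := by
      by_contra hc
      push Not at hc
      exact leadingCoeff_ne_zero.2 hH (Polynomial.ext fun l => by rw [hc, coeff_zero])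
    let hh : K[X] := ∑ i ∈ Finset.range (H.natDegree + 1), C ((H.coeff i).coeff l) * X ^ i
    have hh0 : hh ≠ 0 := by
      intro h6
      have h7 : hh.coeff H.natDegree = 0 := by rw [h6, coeff_zero]
      simp only [hh, finset_sum_coeff, coeff_C_mul_X_pow] at h7
      rw [Finset.sum_ite_eq, if_pos (Finset.self_mem_range_succ _)] at h7
      exact hl h7
    have hha : eval₂ (jK K) a hh = 0 := by
      have h6 : P.coeff l = 0 := by rw [h5, coeff_zero]
      rw [← h6, hP, eval₂_eq_sum_range (p := H), finset_sum_coeff, eval₂_finset_sum]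
      refine Finset.sum_congr rfl fun i _ => ?_
      rw [eval₂_mul, eval₂_C, eval₂_X_pow, ← C_pow, coeff_mul_C, coe_mapRingHom, coeff_map]
    obtain ⟨c', hc'⟩ := mem_range_jK K hh0 hha
    refine ⟨c', φ.injective ?_⟩
    rw [hφj, ← ha, ← hc']
    rfl

end main

end Fermat.Agent.S27A
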