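import Fermat.Agent.S27A.BC2

/-!
# Constant field extensions: genus
-/

set_option autoImplicit false
set_option linter.unusedSectionVars false
set_option linter.style.haveILetI false

noncomputable section

namespace Fermat.Agent.S27A

open AlgebraicCurve Fermat.Agent.RR Fermat.Agent.Curve IntermediateField Module Fermat.Agent.MW

/-- a stable space of vectors contains a vector over the small field -/
theorem exists_fixed_vec {K K' ι : Type*} [Field K] [IsAlgClosed K] [Field K'] [IsAlgClosed K']
    [CharZero K'] [Algebra K K'] [Fintype ι] (R : Submodule K' (ι → K'))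
    (hR : ∀ σ : K' ≃ₐ[K] K', ∀ c ∈ R, (fun i => σ (c i)) ∈ R) (h0 : R ≠ ⊥) :
    ∃ d : ι → K, d ≠ 0 ∧ (fun i => algebraMap K K' (d i)) ∈ R := by
  classical
  obtain ⟨c₀, hc₀, hc₀0⟩ := Submodule.exists_mem_ne_zero_of_ne_bot h0
  have hex : ∃ n : ℕ, ∃ c ∈ R, c ≠ 0 ∧ (Finset.univ.filter fun i => c i ≠ 0).card = n :=
    ⟨_, c₀, hc₀, hc₀0, rfl⟩
  obtain ⟨c, hc, hc0, hcn⟩ := Nat.find_spec hex
  obtain ⟨i₀, hi₀⟩ := Function.ne_iff.1 hc0
  have hi₀' : c i₀ ≠ 0 := hi₀
  set d : ι → K' := fun i => (c i₀)⁻¹ * c i with hd
  have hdR : d ∈ R := R.smul_mem (c i₀)⁻¹ hc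
  have hd1 : d i₀ = 1 := inv_mul_cancel₀ hi₀'
  have hfix : ∀ σ : K' ≃ₐ[K] K', ∀ i, σ (d i) = d i := by
    intro σ
    by_contra hcon
    push Not at hcon
    obtain ⟨i₁, hi₁⟩ := hcon
    have h1 : (fun i => σ (d i)) - d ∈ R := R.sub_mem (hR σ d hdR) hdR
    have h2 : (fun i => σ (d i)) - d ≠ 0 := by
      intro h
      have := congrFun h i₁
      exact hi₁ (sub_eq_zero.1 this)
    apply Nat.find_min hex (m := (Finset.univ.filter fun i =>
      ((fun i => σ (d i)) - d) i ≠ 0).card) ?_ ⟨_, h1, h2, rfl⟩
    rw [← hcn]
    apply Finset.card_lt_card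
    refine ⟨?_, ?_⟩
    · intro i hi
      rw [Finset.mem_filter] at hi ⊢
      refine ⟨hi.1, fun h => hi.2 ?_⟩
      change σ (d i) - d i = 0
      have : d i = 0 := by rw [hd]; simp only; rw [h, mul_zero]
      rw [this, map_zero, sub_zero]
    · intro h
      have h3 := h (Finset.mem_filter.2 ⟨Finset.mem_univ i₀, hi₀'⟩)
      rw [Finset.mem_filter] at h3
      apply h3.2
      change σ (d i₀) - d i₀ = 0
      rw [hd1, map_one, sub_self]
  choose e he using fun i => mem_range_of_fixed K (fun σ => hfix σ i)
  refine ⟨e, ?_, ?_⟩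
  · intro h
    have := he i₀
    rw [h, hd1, Pi.zero_apply, map_zero] at this
    exact zero_ne_one this
  · have : (fun i => algebraMap K K' (e i)) = d := funext he
    rw [this]
    exact hdR

variable {K K' F F' : Type*} [Field K] [Field K'] [Field F] [Field F']
  [Algebra K F] [Algebra K' F'] [Algebra K K'] [Algebra F F']
  [IsAlgClosed K] [IsAlgClosed K'] [FunField K F] [FunField K' F'] [hC : CExt K K' F F']
  [CharZero K']

include hC in
/-- functions fixed by all semilinear automorphisms -/
theorem mem_range_of_fix {x : F'} (hx : ∀ s : SemilinearAut K' F', FixF F s → s • x = x) :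
    ∃ f : F, bc F F' f = x := by
  classical
  by_contra hcon
  push Not at hcon
  letI : Algebra K F' := ((algebraMap F F').comp (algebraMap K F)).toAlgebra
  haveI : IsScalarTower K F F' := IsScalarTower.of_algebraMap_eq fun _ => rfl
  haveI : IsScalarTower K K' F' := IsScalarTower.of_algebraMap_eq fun a => hC.comm a
  -- `x` is a quotient
  have h1 : IntermediateField.adjoin K' (Set.range (bc F F')) = ⊤ :=
    hC.gen _ fun f => IntermediateField.subset_adjoin _ _ ⟨f, rfl⟩
  have h2 : x ∈ IntermediateField.adjoin K' (Set.range (bc F F')) := by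
    rw [h1]; exact IntermediateField.mem_top
  obtain ⟨r, hr, s, hs, hxrs⟩ := IntermediateField.mem_adjoin_iff_div.1 h2
  let b := Module.Basis.ofVectorSpace K F
  -- elements of the algebra are combinations of the basis
  have hspan : ∀ y ∈ Algebra.adjoin K' (Set.range (bc F F')),
      y ∈ Submodule.span K' (Set.range fun i => bc F F' (b i)) := by
    have hF : ∀ f : F, bc F F' f ∈ Submodule.span K' (Set.range fun i => bc F F' (b i)) := by
      intro f
      rw [← b.linearCombination_repr f, Finsupp.linearCombination_apply, Finsupp.sum, map_sum]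
      refine Submodule.sum_mem _ fun i _ => ?_
      rw [Algebra.smul_def, map_mul, bc, hC.comm, ← Algebra.smul_def]
      exact Submodule.smul_mem _ _ (Submodule.subset_span ⟨i, rfl⟩)
    have hmul : ∀ y ∈ Submodule.span K' (Set.range fun i => bc F F' (b i)),
        ∀ z ∈ Submodule.span K' (Set.range fun i => bc F F' (b i)),
        y * z ∈ Submodule.span K' (Set.range fun i => bc F F' (b i)) := by
      intro y hy z hz
      induction hy using Submodule.span_induction with
      | mem y hy =>
        obtain ⟨i, rfl⟩ := hy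
        induction hz using Submodule.span_induction with
        | mem z hz =>
          obtain ⟨j, rfl⟩ := hz
          change bc F F' (b i) * bc F F' (b j) ∈ _
          rw [← map_mul]
          exact hF _
        | zero => rw [mul_zero]; exact zero_mem _
        | add y z _ _ hy hz => rw [mul_add]; exact add_mem hy hz
        | smul a y _ hy => rw [mul_smul_comm]; exact Submodule.smul_mem _ _ hy
      | zero => rw [zero_mul]; exact zero_mem _
      | add x z _ _ hx hz => rw [add_mul]; exact add_mem hx hz
      | smul a x _ hx => rw [smul_mul_assoc]; exact Submodule.smul_mem _ _ hx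
    intro y hy
    induction hy using Algebra.adjoin_induction with
    | mem y hy =>
      obtain ⟨f, rfl⟩ := hy
      exact hF f
    | algebraMap a =>
      have := Submodule.smul_mem _ a (hF 1)
      rwa [map_one, Algebra.smul_def, mul_one] at this
    | add y z _ _ hy hz => exact add_mem hy hz
    | mul y z _ _ hy hz => exact hmul y hy z hz
  obtain ⟨c, hc⟩ := (Finsupp.mem_span_range_iff_exists_finsupp).1 (hspan r hr)
  obtain ⟨d, hd⟩ := (Finsupp.mem_span_range_iff_exists_finsupp).1 (hspan s hs)
  have hs0 : s ≠ 0 := by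
    rintro rfl
    apply hcon 0
    rw [hxrs, div_zero, map_zero]
  let S : Finset _ := c.support ∪ d.support
  have hc' : ∑ i ∈ S, c i • bc F F' (b i) = r := by
    rw [← hc, Finsupp.sum]
    symm
    apply Finset.sum_subset Finset.subset_union_left
    intro i _ hi
    rw [Finsupp.notMem_support_iff.1 hi, zero_smul]
  have hd' : ∑ i ∈ S, d i • bc F F' (b i) = s := by
    rw [← hd, Finsupp.sum]
    symm
    apply Finset.sum_subset Finset.subset_union_right
    intro i _ hi
    rw [Finsupp.notMem_support_iff.1 hi, zero_smul]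
  -- the relation space
  let w : S ⊕ S → F' := Sum.elim (fun i => x * bc F F' (b i)) (fun i => bc F F' (b i))
  let L : (S ⊕ S → K') →ₗ[K'] F' := Fintype.linearCombination K' w
  have hL : ∀ e, L e = ∑ i, e i • w i := fun e => Fintype.linearCombination_apply K' w e
  have hwfix : ∀ s : SemilinearAut K' F', FixF F s → ∀ i, s • w i = w i := by
    intro s hs i
    rcases i with i | i
    · change s • (x * bc F F' (b i)) = x * bc F F' (b i)
      rw [smul_mul', hx s hs, hs]
    · exact hs _
  have hstab : ∀ σ : K' ≃ₐ[K] K', ∀ e ∈ LinearMap.ker L, (fun i => σ (e i)) ∈ LinearMap.ker L := by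
    intro σ e he
    obtain ⟨s, hs1, hs2⟩ := exists_semi (F := F) (F' := F') σ
    rw [LinearMap.mem_ker, hL] at he ⊢
    have h3 := congrArg (fun y => s • y) he
    simp only [smul_zero] at h3
    rw [Finset.smul_sum] at h3
    rw [← h3]
    refine Finset.sum_congr rfl fun i _ => ?_
    rw [Algebra.smul_def, Algebra.smul_def, smul_mul', SemilinearAut.smul_algebraMap,
      hwfix s hs2, hs1]
  have hne : LinearMap.ker L ≠ ⊥ := by
    intro h
    have h3 : (Sum.elim (fun i : S => d i) (fun i : S => -c i) : S ⊕ S → K') ∈ LinearMap.ker L := by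
      rw [LinearMap.mem_ker, hL, Fintype.sum_sum_type]
      simp only [Sum.elim_inl, Sum.elim_inr, w, neg_smul]
      rw [Finset.sum_neg_distrib]
      have e1 : ∑ i : S, d i • (x * bc F F' (b i)) = x * s := by
        rw [← hd', Finset.mul_sum, ← Finset.sum_coe_sort S]
        refine Finset.sum_congr rfl fun i _ => ?_
        rw [mul_smul_comm]
      have e2 : ∑ i : S, c i • bc F F' (b i) = r := by
        rw [← hc', ← Finset.sum_coe_sort S]
      rw [e1, e2, hxrs, div_mul_cancel₀ _ hs0, add_neg_cancel]
    rw [h, Submodule.mem_bot] at h3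
    apply hs0
    rw [← hd', ← Finset.sum_coe_sort S]
    apply Finset.sum_eq_zero
    intro i _
    have := congrFun h3 (Sum.inl i)
    simp only [Sum.elim_inl, Pi.zero_apply] at this
    rw [this, zero_smul]
  obtain ⟨e, he0, he⟩ := exists_fixed_vec (K := K) (LinearMap.ker L) hstab hne
  rw [LinearMap.mem_ker, hL, Fintype.sum_sum_type] at he
  simp only [Sum.elim_inl, Sum.elim_inr, w] at he
  set α : F := ∑ i : S, e (Sum.inl i) • b i with hα
  set β : F := ∑ i : S, e (Sum.inr i) • b i with hβ
  have e1 : ∑ i : S, algebraMap K K' (e (Sum.inl i)) • (x * bc F F' (b i)) = x * bc F F' α := by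
    rw [hα, map_sum, Finset.mul_sum]
    refine Finset.sum_congr rfl fun i _ => ?_
    rw [Algebra.smul_def, Algebra.smul_def, map_mul, bc, hC.comm]
    ring
  have e2 : ∑ i : S, algebraMap K K' (e (Sum.inr i)) • (bc F F' (b i)) = bc F F' β := by
    rw [hβ, map_sum]
    refine Finset.sum_congr rfl fun i _ => ?_
    rw [Algebra.smul_def, Algebra.smul_def, map_mul, bc, hC.comm]
  rw [e1, e2] at he
  have hbS : LinearIndependent K (fun i : S => b i) :=
    b.linearIndependent.comp _ Subtype.val_injective
  by_cases hα0 : α = 0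
  · rw [hα0, map_zero, mul_zero, zero_add] at he
    have hβ0 : β = 0 := (map_eq_zero _).1 he
    apply he0
    funext i
    rcases i with i | i
    · exact Fintype.linearIndependent_iff.1 hbS (fun i => e (Sum.inl i)) hα0 i
    · exact Fintype.linearIndependent_iff.1 hbS (fun i => e (Sum.inr i)) hβ0 i
  · apply hcon (-β / α)
    have hα' : bc F F' α ≠ 0 := bc_ne_zero hα0
    rw [map_div₀, map_neg, div_eq_iff hα']
    linear_combination -he

end Fermat.Agent.S27A
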