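import Fermat.Agent.S27A.BC3

/-!
# Constant field extensions: genus and Riemann-Roch spaces
-/

set_option autoImplicit false
set_option linter.unusedSectionVars false
set_option linter.style.haveILetI false

noncomputable section

namespace Fermat.Agent.S27A

open AlgebraicCurve Fermat.Agent.RR Fermat.Agent.Curve IntermediateField Module Fermat.Agent.MW

variable {K K' F F' : Type*} [Field K] [Field K'] [Field F] [Field F']
  [Algebra K F] [Algebra K' F'] [Algebra K K'] [Algebra F F']
  [IsAlgClosed K] [IsAlgClosed K'] [FunField K F] [FunField K' F'] [hC : CExt K K' F F']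

variable (K' F') in
/-- constant places separating the sections of `L(D)` -/
theorem exists_places (n : ℕ) : ∀ (D : Divisor K F) (S : Finset (Place K F)),
    ell (bcD K' F' D) = n → ∃ P : Fin n → Place K F, Function.Injective P ∧ (∀ i, P i ∉ S) ∧
      ell (bcD K' F' (D - ∑ i, Finsupp.single (P i) 1)) = 0 := by
  classical
  induction n with
  | zero =>
    intro D S h
    refine ⟨Fin.elim0, fun i => i.elim0, fun i => i.elim0, ?_⟩
    rw [Finset.univ_eq_empty, Finset.sum_empty, sub_zero]
    exact h
  | succ n ih =>
    intro D S h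
    obtain ⟨x, hx0, hx⟩ := exists_ne_zero_of_ell_pos (K := K') (D := bcD K' F' D)
      (by rw [h]; positivity)
    obtain ⟨P₀, hP₀⟩ := exists_place_avoid (K := K) (F := F) (S ∪ D.support ∪
      ((divisor K' x).support.preimage (bcP K' F') bcP_injective.injOn))
    rw [Finset.mem_union, Finset.mem_union, not_or, not_or, Finset.mem_preimage,
      Finsupp.notMem_support_iff, Finsupp.notMem_support_iff, divisor_apply] at hP₀
    obtain ⟨⟨h1, h2⟩, h3⟩ := hP₀
    have h4 : x ∉ riemannRochSpace (bcD K' F' (D - Finsupp.single P₀ 1)) := by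
      intro h5
      have h6 := ((mem_L.1 h5) (bcP K' F' P₀)).le_ord hx0
      rw [bcD_apply, Finsupp.sub_apply, h2, Finsupp.single_eq_same, h3] at h6
      omega
    have hle : riemannRochSpace (bcD K' F' (D - Finsupp.single P₀ 1)) ≤
        riemannRochSpace (bcD K' F' D) :=
      L_mono (bcD_le_iff.2 (sub_le_self _ (Spec.single_le_of_nonneg P₀)))
    have hlt : ell (bcD K' F' (D - Finsupp.single P₀ 1)) < ell (bcD K' F' D) := by
      apply Submodule.finrank_lt_finrank_of_lt
      exact lt_of_le_of_ne hle fun h5 => h4 (by rw [h5]; exact hx)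
    have h5 := (finite_add_single (bcD K' F' (D - Finsupp.single P₀ 1)) (bcP K' F' P₀)
      inferInstance).2
    have h6 : bcD K' F' (D - Finsupp.single P₀ 1) + Finsupp.single (bcP K' F' P₀) 1 =
        bcD K' F' D := by
      rw [← bcD_single, ← map_add, sub_add_cancel]
    rw [h6] at h5
    obtain ⟨P, hP1, hP2, hP3⟩ := ih (D - Finsupp.single P₀ 1) (insert P₀ S) (by omega)
    refine ⟨Fin.cons P₀ P, ?_, ?_, ?_⟩
    · rw [Fin.cons_injective_iff]
      refine ⟨?_, hP1⟩
      rintro ⟨i, hi⟩
      exact hP2 i (by rw [hi]; exact Finset.mem_insert_self _ _)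
    · intro i
      refine Fin.cases ?_ (fun i => ?_) i
      · rw [Fin.cons_zero]; exact h1
      · rw [Fin.cons_succ]
        exact fun hi => hP2 i (Finset.mem_insert_of_mem hi)
    · rw [Fin.sum_univ_succ]
      simp only [Fin.cons_zero, Fin.cons_succ]
      rw [← sub_sub]
      exact hP3

theorem smul_mem_bcD {s : SemilinearAut K' F'} (hs : FixF F s) {D : Divisor K F} {x : F'}
    (hx : x ∈ riemannRochSpace (bcD K' F' D)) : s • x ∈ riemannRochSpace (bcD K' F' D) := by
  have := Spec.smul_mem_L s hx
  rwa [hs.smul_bcD] at this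

/-- **Riemann-Roch spaces commute with constant field extensions.** -/
theorem L_bcD_le [CharZero K'] (D : Divisor K F) :
    riemannRochSpace (bcD K' F' D) ≤ SL K' F' D := by
  classical
  obtain ⟨n, hn⟩ : ∃ n, ell (bcD K' F' D) = n := ⟨_, rfl⟩
  obtain ⟨P, hP1, hP2, hP3⟩ := exists_places K' F' n D D.support hn
  set V := riemannRochSpace (bcD K' F' D) with hV
  have hreg : ∀ x ∈ V, ∀ i, Ge (bcP K' F' (P i)) 0 x := by
    intro x hx i
    have h1 := (mem_L.1 hx) (bcP K' F' (P i))
    rwa [bcD_apply, Finsupp.notMem_support_iff.1 (hP2 i), neg_zero] at h1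
  let E : V →ₗ[K'] (Fin n → K') :=
    { toFun := fun x i => ev (bcP K' F' (P i)) (x : F')
      map_add' := fun x y => funext fun i => ev_add (hreg x x.2 i) (hreg y y.2 i)
      map_smul' := fun a x => funext fun i => by
        change ev _ (a • (x : F')) = a * ev _ (x : F')
        rw [Algebra.smul_def, ev_mul (Ge.algebraMap _ a) (hreg x x.2 i), ev_algebraMap] }
  have hinj : Function.Injective E := by
    rw [← LinearMap.ker_eq_bot, LinearMap.ker_eq_bot']
    intro x hx
    by_contra hx0
    have hx0' : (x : F') ≠ 0 := fun h => hx0 (Subtype.ext h)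
    have h1 : (x : F') ∈ riemannRochSpace (bcD K' F' (D - ∑ i, Finsupp.single (P i) 1)) := by
      rw [mem_L]
      intro v
      by_cases hv : ∃ i, v = bcP K' F' (P i)
      · obtain ⟨i, rfl⟩ := hv
        have h2 : ev (bcP K' F' (P i)) (x : F') = 0 := congrFun hx i
        rw [ev_eq_zero_iff (hreg x x.2 i)] at h2
        refine h2.mono ?_
        rw [bcD_apply, Finsupp.sub_apply, Finsupp.notMem_support_iff.1 (hP2 i),
          Finsupp.finsetSum_apply, Finset.sum_eq_single i, Finsupp.single_eq_same]
        · norm_num
        · intro j _ hj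
          exact Finsupp.single_eq_of_ne fun h => hj (hP1 h).symm
        · intro h; exact absurd (Finset.mem_univ i) h
      · push Not at hv
        have h2 := (mem_L.1 x.2) v
        refine h2.mono ?_
        have h3 : bcD K' F' (∑ i, Finsupp.single (P i) 1) v = 0 := by
          rw [map_sum, Finsupp.finsetSum_apply]
          apply Finset.sum_eq_zero
          intro i _
          rw [bcD_single]
          exact Finsupp.single_eq_of_ne (hv i)
        rw [map_sub, Finsupp.sub_apply, h3, sub_zero]
    have h2 : riemannRochSpace (bcD K' F' (D - ∑ i, Finsupp.single (P i) 1)) = ⊥ :=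
      Submodule.finrank_eq_zero.1 hP3
    rw [h2] at h1
    exact hx0' h1
  have hsurj : Function.Surjective E := by
    rw [← LinearMap.injective_iff_surjective_of_finrank_eq_finrank]
    · exact hinj
    · rw [Module.finrank_fin_fun]; exact hn
  choose e he using fun i : Fin n => hsurj (Pi.single i 1)
  have hfix : ∀ i, ∀ s : SemilinearAut K' F', FixF F s → s • (e i : F') = e i := by
    intro i s hs
    have h1 : (⟨s • (e i : F'), smul_mem_bcD hs (e i).2⟩ : V) = e i := by
      apply hinj
      rw [he]
      funext j
      change ev (bcP K' F' (P j)) (s • (e i : F')) = _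
      have h2 := ev_smul s (bcP K' F' (P j)) (e i : F')
      rw [hs.smul_bcP] at h2
      rw [h2]
      have h3 : ev (bcP K' F' (P j)) (e i : F') = (Pi.single i 1 : Fin n → K') j :=
        congrFun (he i) j
      rw [h3]
      by_cases hij : j = i
      · subst hij
        rw [Pi.single_eq_same, map_one]
      · rw [Pi.single_eq_of_ne hij, map_zero]
    exact congrArg Subtype.val h1
  choose f hf using fun i => mem_range_of_fix (K := K) (F := F) (hfix i)
  intro x hx
  have h1 : (⟨x, hx⟩ : V) = ∑ i, (ev (bcP K' F' (P i)) x) • e i := by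
    apply hinj
    rw [map_sum]
    funext j
    rw [Finset.sum_apply, Finset.sum_eq_single j]
    · rw [map_smul, he, Pi.smul_apply, Pi.single_eq_same, smul_eq_mul, mul_one]
      rfl
    · intro i _ hij
      rw [map_smul, he, Pi.smul_apply, Pi.single_eq_of_ne hij.symm, smul_zero]
    · intro h; exact absurd (Finset.mem_univ j) h
  have h2 := congrArg Subtype.val h1
  rw [Submodule.coe_sum] at h2
  change x = _ at h2
  rw [h2]
  refine Submodule.sum_mem _ fun i _ => ?_
  rw [Submodule.coe_smul]
  refine Submodule.smul_mem _ _ ?_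
  rw [← hf i]
  apply bc_mem_SL
  rw [← bc_mem_L (K' := K') (F' := F'), hf i]
  exact (e i).2

theorem ell_bcD_eq [CharZero K'] (D : Divisor K F) : ell (bcD K' F' D) = ell D := by
  apply le_antisymm
  · rw [← finrank_SL (K' := K') (F' := F') D]
    exact Submodule.finrank_mono (L_bcD_le D)
  · exact ell_le_ell_bcD D

variable (K K' F F') in
include hC in
/-- **The genus is invariant under constant field extensions.** -/
theorem rrGenus_bc [CharZero K'] : rrGenus K F = rrGenus K' F' := by
  obtain ⟨c', hc'⟩ := exists_riemann (K := K') (F := F')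
  have := rrGenus_unique (K := K) (F := F) (g := rrGenus K' F') ⟨c', fun D hD => by
    have h1 := hc' (bcD K' F' D) (by rwa [degree_bcD])
    rwa [ell_bcD_eq, degree_bcD] at h1⟩
  exact_mod_cast this.symm

end Fermat.Agent.S27A
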