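import Mathlib

/-!
# Lang's theorem for vector spaces
-/

set_option autoImplicit false

namespace Fermat.Agent.S27A

open Polynomial Module

variable {K : Type*} [Field K] {V : Type*} [AddCommGroup V] [Module K V]

/-- the polynomials of the elimination -/
noncomputable def lP (Q : ℕ) (a : ℕ → K) : ℕ → K[X]
  | 0 => 0
  | i + 1 => lP Q a i ^ Q + C (a i) * X ^ Q

theorem lP_dvd {Q : ℕ} (hQ : 2 ≤ Q) (a : ℕ → K) (i : ℕ) : X ^ Q ∣ lP Q a i := by
  induction i with
  | zero => exact dvd_zero _
  | succ i ih =>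
    refine dvd_add ?_ (dvd_mul_left _ _)
    exact ih.trans (dvd_pow_self _ (by omega))

theorem lP_ne {Q : ℕ} (hQ : 2 ≤ Q) (a : ℕ → K) (d : ℕ) (h : lP Q a d = 0) :
    ∀ i < d, a i = 0 := by
  induction d with
  | zero => intro i hi; omega
  | succ d ih =>
    have h0 : lP Q a d = 0 := by
      by_contra hne
      have h1 : Q ≤ (lP Q a d).natDegree := by
        have := natDegree_le_of_dvd (lP_dvd hQ a d) hne
        rwa [natDegree_X_pow] at this
      have h2 : (lP Q a d ^ Q).natDegree = Q * (lP Q a d).natDegree := natDegree_pow _ _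
      have h3 : (C (a d) * X ^ Q : K[X]).natDegree ≤ Q := natDegree_C_mul_X_pow_le _ _
      have h4 : Q < Q * (lP Q a d).natDegree := by nlinarith
      have h5 : (lP Q a d ^ Q + C (a d) * X ^ Q).natDegree = Q * (lP Q a d).natDegree := by
        rw [natDegree_add_eq_left_of_natDegree_lt (by rw [h2]; omega), h2]
      have h6 : lP Q a (d + 1) = lP Q a d ^ Q + C (a d) * X ^ Q := rfl
      rw [← h6, h, natDegree_zero] at h5
      omega
    have h1 : C (a d) * X ^ Q = (0 : K[X]) := by
      have h6 : lP Q a (d + 1) = lP Q a d ^ Q + C (a d) * X ^ Q := rfl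
      rw [h6, h0, zero_pow (by omega), zero_add] at h
      exact h
    have h2 : a d = 0 := by
      rcases mul_eq_zero.1 h1 with h | h
      · exact C_eq_zero.1 h
      · exact absurd h (pow_ne_zero _ X_ne_zero)
    intro i hi
    rcases Nat.lt_succ_iff_lt_or_eq.1 hi with h3 | rfl
    · exact ih h0 i h3
    · exact h2

variable [IsAlgClosed K]

theorem exists_fixed_coeff {Q : ℕ} (hQ : 2 ≤ Q) (a : ℕ → K) {d : ℕ} (h : lP Q a d ≠ 0) :
    ∃ y : K, y ≠ 0 ∧ (lP Q a d).eval y = y := by
  obtain ⟨R, hR⟩ := lP_dvd hQ a d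
  have hR0 : R ≠ 0 := by rintro rfl; rw [mul_zero] at hR; exact h hR
  have hX : (X : K[X]) ^ (Q - 1) * R ≠ 0 := mul_ne_zero (pow_ne_zero _ X_ne_zero) hR0
  have hdeg : 1 ≤ ((X : K[X]) ^ (Q - 1) * R).natDegree := by
    rw [natDegree_mul (pow_ne_zero _ X_ne_zero) hR0, natDegree_X_pow]
    omega
  obtain ⟨y, hy⟩ := IsAlgClosed.exists_root ((X : K[X]) ^ (Q - 1) * R - 1) (by
    intro h0
    have h1 : ((X : K[X]) ^ (Q - 1) * R - 1).natDegree = ((X : K[X]) ^ (Q - 1) * R).natDegree := by
      rw [natDegree_sub_eq_left_of_natDegree_lt]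
      rw [natDegree_one]; omega
    have h2 := natDegree_eq_zero_iff_degree_le_zero.2 h0.le
    omega)
  rw [IsRoot.def, eval_sub, eval_mul, eval_pow, eval_X, eval_one, sub_eq_zero] at hy
  refine ⟨y, ?_, ?_⟩
  · rintro rfl
    rw [zero_pow (by omega), zero_mul] at hy
    exact zero_ne_one hy
  · rw [hR, eval_mul, eval_pow, eval_X]
    have h1 : y ^ Q = y * y ^ (Q - 1) := by rw [← pow_succ']; congr 1; omega
    rw [h1, mul_assoc, hy, mul_one]

variable {Q : ℕ} {T : V →+ V}

theorem iter_ne (hinj : Function.Injective T) {v : V} (hv : v ≠ 0) (i : ℕ) : T^[i] v ≠ 0 := by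
  induction i with
  | zero => exact hv
  | succ i ih =>
    rw [Function.iterate_succ_apply']
    intro h
    exact ih (hinj (h.trans (map_zero T).symm))

/-- existence of a nonzero fixed vector -/
theorem exists_fixed [FiniteDimensional K V] (hQ : 2 ≤ Q) (hT : ∀ (c : K) v, T (c • v) = c ^ Q • T v)
    (hinj : Function.Injective T) {v : V} (hv : v ≠ 0) : ∃ w : V, w ≠ 0 ∧ T w = w := by
  classical
  -- the first linear relation
  let S : ℕ → Submodule K V := fun d => Submodule.span K (Set.range fun i : Fin d => T^[i] v)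
  have hmono : Monotone S := by
    intro m n hmn
    refine Submodule.span_mono ?_
    rintro _ ⟨i, rfl⟩
    exact ⟨⟨i, i.2.trans_le hmn⟩, rfl⟩
  have hex : ∃ d, T^[d] v ∈ S d := by
    obtain ⟨n, hn⟩ := monotone_stabilizes_iff_noetherian.2 (inferInstance : IsNoetherian K V)
      ⟨S, hmono⟩
    refine ⟨n, ?_⟩
    have h1 : T^[n] v ∈ S (n + 1) := Submodule.subset_span ⟨⟨n, n.lt_succ_self⟩, rfl⟩
    have h2 : S n = S (n + 1) := hn (n + 1) n.le_succ
    rwa [h2]
  set d := Nat.find hex with hd
  have hdS : T^[d] v ∈ S d := Nat.find_spec hex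
  have hmin : ∀ m < d, T^[m] v ∉ S m := fun m hm => Nat.find_min hex hm
  obtain ⟨c, hc⟩ := Submodule.mem_span_range_iff_exists_fun K |>.1 hdS
  set a : ℕ → K := fun i => if h : i < d then c ⟨i, h⟩ else 0 with ha
  have hrel : ∑ i ∈ Finset.range d, a i • T^[i] v = T^[d] v := by
    rw [← hc, Finset.sum_range]
    refine Finset.sum_congr rfl fun i _ => ?_
    rw [ha]
    simp
  have hP : lP Q a d ≠ 0 := by
    intro h0
    have h1 := lP_ne hQ a d h0
    apply iter_ne hinj hv d
    rw [← hrel]
    refine Finset.sum_eq_zero fun i hi => ?_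
    rw [h1 i (Finset.mem_range.1 hi), zero_smul]
  obtain ⟨y, hy0, hy⟩ := exists_fixed_coeff hQ a hP
  have hd0 : d ≠ 0 := by
    intro h0
    rw [h0] at hP
    exact hP rfl
  obtain ⟨e, he⟩ := Nat.exists_eq_succ_of_ne_zero hd0
  set x : ℕ → K := fun i => (lP Q a (i + 1)).eval y with hx
  have hxs : ∀ i, x i = (lP Q a i).eval y ^ Q + a i * y ^ Q := fun i => by
    rw [hx]
    simp only [lP, eval_add, eval_pow, eval_mul, eval_C, eval_X]
  have hxe : x e = y := by rw [hx]; simp only; rw [← Nat.succ_eq_add_one, ← he]; exact hy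
  refine ⟨∑ i ∈ Finset.range d, x i • T^[i] v, ?_, ?_⟩
  · -- nonzero
    intro h0
    rw [he, Finset.sum_range_succ, hxe] at h0
    apply hmin e (by omega)
    have h1 : y • T^[e] v ∈ S e := by
      have h2 : y • T^[e] v = -∑ i ∈ Finset.range e, x i • T^[i] v := by
        rw [eq_neg_iff_add_eq_zero, add_comm]; exact h0
      rw [h2]
      refine (S e).neg_mem (Submodule.sum_mem _ fun i hi => (S e).smul_mem _ ?_)
      exact Submodule.subset_span ⟨⟨i, Finset.mem_range.1 hi⟩, rfl⟩
    have h2 := (S e).smul_mem y⁻¹ h1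
    rwa [smul_smul, inv_mul_cancel₀ hy0, one_smul] at h2
  · -- fixed
    rw [map_sum]
    have h1 : ∀ i, T (x i • T^[i] v) = (lP Q a (i + 1)).eval y ^ Q • T^[i + 1] v := fun i => by
      rw [hT, ← Function.iterate_succ_apply' T]
    rw [Finset.sum_congr rfl fun i _ => h1 i]
    have h2 : ∑ i ∈ Finset.range d, (lP Q a (i + 1)).eval y ^ Q • T^[i + 1] v =
        ∑ i ∈ Finset.range (d + 1), (lP Q a i).eval y ^ Q • T^[i] v := by
      rw [Finset.sum_range_succ' (fun i => (lP Q a i).eval y ^ Q • T^[i] v)]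
      have h3 : (lP Q a 0).eval y ^ Q = 0 := by
        simp only [lP, eval_zero]
        exact zero_pow (by omega)
      rw [h3, zero_smul, add_zero]
    rw [h2, Finset.sum_range_succ, hy, ← hrel, Finset.smul_sum, ← Finset.sum_add_distrib]
    refine Finset.sum_congr rfl fun i _ => ?_
    rw [smul_smul, ← add_smul, hxs, mul_comm (y ^ Q)]

theorem exists_as {Q : ℕ} (hQ : 2 ≤ Q) (c : K) : ∃ y : K, y ^ Q - y = c := by
  obtain ⟨y, hy⟩ := IsAlgClosed.exists_root (X ^ Q - X - C c : K[X]) (by
    intro h0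
    have h1 : (X ^ Q - X - C c : K[X]).natDegree = Q := by
      have h2 : (X + C c : K[X]).natDegree < (X ^ Q : K[X]).natDegree := by
        rw [natDegree_X_pow, natDegree_X_add_C]; omega
      rw [sub_sub, natDegree_sub_eq_left_of_natDegree_lt h2, natDegree_X_pow]
    have h2 := natDegree_eq_zero_iff_degree_le_zero.2 h0.le
    omega)
  rw [IsRoot.def, eval_sub, eval_sub, eval_pow, eval_X, eval_C, sub_eq_zero] at hy
  exact ⟨y, hy⟩

/-- **Lang's theorem**: the fixed vectors span -/
theorem span_fixed [FiniteDimensional K V] (hQ : 2 ≤ Q) (hT : ∀ (c : K) v, T (c • v) = c ^ Q • T v)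
    (hinj : Function.Injective T) : Submodule.span K {v : V | T v = v} = ⊤ := by
  classical
  by_contra hne
  set S := Submodule.span K {v : V | T v = v} with hS
  have hTS : ∀ s ∈ S, T s ∈ S := by
    intro s hs
    refine Submodule.closure_induction (p := fun s _ => T s ∈ S) (by rw [map_zero]; exact S.zero_mem)
      (fun x y _ _ hx hy => by rw [map_add]; exact S.add_mem hx hy)
      (fun c v hv => by
        have hv' : T v = v := hv
        rw [hT, hv']; exact S.smul_mem _ (Submodule.subset_span hv)) hs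
  have hroot : ∀ s ∈ S, ∃ t ∈ S, T t = s := by
    intro s hs
    refine Submodule.closure_induction (p := fun s _ => ∃ t ∈ S, T t = s)
      ⟨0, S.zero_mem, map_zero T⟩
      (fun x y _ _ hx hy => by
        obtain ⟨t, ht, ht'⟩ := hx
        obtain ⟨u, hu, hu'⟩ := hy
        exact ⟨t + u, S.add_mem ht hu, by rw [map_add, ht', hu']⟩)
      (fun c v hv => by
        obtain ⟨y, hy⟩ := IsAlgClosed.exists_pow_nat_eq c (n := Q) (by omega)
        have hv' : T v = v := hv
        exact ⟨y • v, S.smul_mem _ (Submodule.subset_span hv), by rw [hT, hy, hv']⟩) hs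
  have hAS : ∀ s ∈ S, ∃ t ∈ S, T t - t = s := by
    intro s hs
    refine Submodule.closure_induction (p := fun s _ => ∃ t ∈ S, T t - t = s)
      ⟨0, S.zero_mem, by rw [map_zero, sub_zero]⟩
      (fun x y _ _ hx hy => by
        obtain ⟨t, ht, ht'⟩ := hx
        obtain ⟨u, hu, hu'⟩ := hy
        exact ⟨t + u, S.add_mem ht hu, by rw [map_add, ← ht', ← hu']; abel⟩)
      (fun c v hv => by
        obtain ⟨y, hy⟩ := exists_as hQ c
        have hv' : T v = v := hv
        exact ⟨y • v, S.smul_mem _ (Submodule.subset_span hv), by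
          rw [hT, hv', ← sub_smul, hy]⟩) hs
  -- the quotient
  let T' : (V ⧸ S) →+ (V ⧸ S) := QuotientAddGroup.map S.toAddSubgroup S.toAddSubgroup T
    (fun s hs => hTS s hs)
  have hT'mk : ∀ v : V, T' (Submodule.Quotient.mk v) = Submodule.Quotient.mk (T v) := fun v => rfl
  have hT' : ∀ (c : K) v, T' (c • v) = c ^ Q • T' v := by
    intro c v
    obtain ⟨v, rfl⟩ := Submodule.Quotient.mk_surjective S v
    rw [← Submodule.Quotient.mk_smul, hT'mk, hT, hT'mk, Submodule.Quotient.mk_smul]
  have hinj' : Function.Injective T' := by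
    rw [injective_iff_map_eq_zero]
    intro v hv
    obtain ⟨v, rfl⟩ := Submodule.Quotient.mk_surjective S v
    rw [hT'mk, Submodule.Quotient.mk_eq_zero] at hv
    obtain ⟨t, ht, ht'⟩ := hroot _ hv
    rw [Submodule.Quotient.mk_eq_zero, ← hinj ht']
    exact ht
  obtain ⟨v, -, hv⟩ := SetLike.exists_of_lt (lt_top_iff_ne_top.2 hne)
  obtain ⟨w, hw0, hw⟩ := exists_fixed hQ hT' hinj' (v := Submodule.Quotient.mk v) (by
    rw [Ne, Submodule.Quotient.mk_eq_zero]; exact hv)
  obtain ⟨w, rfl⟩ := Submodule.Quotient.mk_surjective S w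
  rw [hT'mk, Submodule.Quotient.eq] at hw
  obtain ⟨t, ht, ht'⟩ := hAS _ hw
  apply hw0
  rw [Submodule.Quotient.mk_eq_zero]
  have h1 : w - t ∈ S := Submodule.subset_span (by
    change T (w - t) = w - t
    rw [map_sub]
    have : T w = w + (T t - t) := by rw [ht']; abel
    rw [this]; abel)
  have := S.add_mem h1 ht
  rwa [sub_add_cancel] at this

theorem exists_basis_fixed [FiniteDimensional K V] (hQ : 2 ≤ Q)
    (hT : ∀ (c : K) v, T (c • v) = c ^ Q • T v) (hinj : Function.Injective T) :
    ∃ b : Basis (Fin (finrank K V)) K V, ∀ i, T (b i) = b i := by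
  classical
  have hs : ⊤ ≤ Submodule.span K {v : V | T v = v} := (span_fixed hQ hT hinj).ge
  let b := Basis.ofSpan hs
  have : Finite ((linearIndepOn_empty K id).extend (Set.empty_subset {v : V | T v = v})) :=
    Module.Finite.finite_basis b
  have := Fintype.ofFinite ((linearIndepOn_empty K id).extend
    (Set.empty_subset {v : V | T v = v}))
  have e : Fintype.card ((linearIndepOn_empty K id).extend
      (Set.empty_subset {v : V | T v = v})) = finrank K V := (finrank_eq_card_basis b).symm
  refine ⟨b.reindex (Fintype.equivFinOfCardEq e), fun i => ?_⟩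
  rw [Basis.reindex_apply]
  exact Basis.ofSpan_subset hs ⟨_, rfl⟩

theorem card_pow_eq {p s : ℕ} [hp : Fact p.Prime] [CharP K p] (hs : s ≠ 0) (hQ : Q = p ^ s) :
    Nat.card {c : K // c ^ Q = c} = Q := by
  classical
  have hQ2 : 2 ≤ Q := by
    rw [hQ]
    calc 2 ≤ p := hp.out.two_le
      _ = p ^ 1 := (pow_one p).symm
      _ ≤ p ^ s := Nat.pow_le_pow_right hp.out.pos (Nat.pos_of_ne_zero hs)
  have hsep : (X ^ Q - X : K[X]).Separable :=
    galois_poly_separable p Q (by rw [hQ]; exact dvd_pow_self p hs)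
  have hne : (X ^ Q - X : K[X]) ≠ 0 := FiniteField.X_pow_card_sub_X_ne_zero K (by omega)
  have h1 := card_rootSet_eq_natDegree (K := K) hsep (IsAlgClosed.splits _)
  rw [FiniteField.X_pow_card_sub_X_natDegree_eq K (by omega)] at h1
  rw [← Nat.card_eq_fintype_card] at h1
  refine Eq.trans (Nat.card_congr (Equiv.subtypeEquivRight fun c => ?_)) h1
  rw [mem_rootSet_of_ne hne]
  simp [sub_eq_zero]

/-- **the number of fixed vectors** -/
theorem card_fixed [FiniteDimensional K V] {p s : ℕ} [hp : Fact p.Prime] [CharP K p] (hs : s ≠ 0)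
    (hQ : Q = p ^ s) (hT : ∀ (c : K) v, T (c • v) = c ^ Q • T v) (hinj : Function.Injective T) :
    Nat.card {v : V // T v = v} = Q ^ finrank K V := by
  classical
  have hQ2 : 2 ≤ Q := by
    rw [hQ]
    calc 2 ≤ p := hp.out.two_le
      _ = p ^ 1 := (pow_one p).symm
      _ ≤ p ^ s := Nat.pow_le_pow_right hp.out.pos (Nat.pos_of_ne_zero hs)
  obtain ⟨b, hb⟩ := exists_basis_fixed hQ2 hT hinj
  have hfix : ∀ v : V, T v = v ↔ ∀ i, (b.equivFun v i) ^ Q = b.equivFun v i := by
    intro v
    have h1 : T v = ∑ i, (b.equivFun v i) ^ Q • b i := by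
      conv_lhs => rw [← b.sum_equivFun v]
      rw [map_sum]
      exact Finset.sum_congr rfl fun i _ => by rw [hT, hb]
    constructor
    · intro h i
      have h2 : b.equivFun v = fun i => (b.equivFun v i) ^ Q := by
        apply b.equivFun.symm.injective
        rw [LinearEquiv.symm_apply_apply, b.equivFun_symm_apply, ← h1, h]
      exact (congrFun h2 i).symm
    · intro h
      rw [h1]
      conv_rhs => rw [← b.sum_equivFun v]
      exact Finset.sum_congr rfl fun i _ => by rw [h i]
  have e : {v : V // T v = v} ≃ (Fin (finrank K V) → {c : K // c ^ Q = c}) :=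
    { toFun := fun v i => ⟨b.equivFun v.1 i, (hfix v.1).1 v.2 i⟩
      invFun := fun c => ⟨b.equivFun.symm fun i => (c i).1, by
        rw [hfix]
        intro i
        rw [LinearEquiv.apply_symm_apply]
        exact (c i).2⟩
      left_inv := fun v => Subtype.ext (by
        change b.equivFun.symm (b.equivFun v.1) = v.1
        rw [LinearEquiv.symm_apply_apply])
      right_inv := fun c => by
        funext i
        apply Subtype.ext
        change b.equivFun (b.equivFun.symm fun i => (c i).1) i = (c i).1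
        rw [LinearEquiv.apply_symm_apply] }
  rw [Nat.card_congr e, Nat.card_fun, card_pow_eq hs hQ, Nat.card_eq_fintype_card, Fintype.card_fin]

end Fermat.Agent.S27A
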