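import Fermat.Agent.RR.LSpace
import Fermat.Agent.S27A.Lang

/-!
# Semilinear automorphisms of function fields
-/

set_option autoImplicit false
set_option linter.unusedSectionVars false

noncomputable section

namespace Fermat.Agent.S27A

open AlgebraicCurve Fermat.Agent.RR Fermat.Agent.Curve

/-- a `q`-semilinear automorphism of a function field -/
structure SemiAut (K F : Type*) [Field K] [Field F] [Algebra K F] (q : ℕ) where
  /-- the automorphism -/
  f : F ≃+* F
  comm : ∀ c : K, f (algebraMap K F c) = algebraMap K F (c ^ q)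
  hq : q ≠ 0

namespace SemiAut

variable {K F : Type*} [Field K] [IsAlgClosed K] [Field F] [Algebra K F] {q : ℕ}
  (Φ : SemiAut K F q)

theorem symm_algebraMap (c : K) : ∃ d : K, Φ.f.symm (algebraMap K F c) = algebraMap K F d := by
  obtain ⟨d, hd⟩ := IsAlgClosed.exists_pow_nat_eq c (Nat.pos_of_ne_zero Φ.hq)
  refine ⟨d, ?_⟩
  rw [RingEquiv.symm_apply_eq, Φ.comm, hd]

/-- powers -/
def pow (n : ℕ) : SemiAut K F (q ^ n) where
  f := Φ.f ^ n
  comm c := by
    induction n with
    | zero => simp
    | succ n ih =>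
      rw [pow_succ' Φ.f]
      change Φ.f ((Φ.f ^ n) (algebraMap K F c)) = _
      rw [ih, Φ.comm, ← pow_mul, pow_succ]
  hq := pow_ne_zero n Φ.hq

/-- the valuation subring -/
def subr (v : Place K F) : ValuationSubring F :=
  v.toValuationSubring.comap (Φ.f.symm : F →+* F)

theorem mem_subr {v : Place K F} {x : F} : x ∈ Φ.subr v ↔ Φ.f.symm x ∈ v.toValuationSubring :=
  Iff.rfl

/-- the valuation rings are isomorphic -/
def subrEquiv (v : Place K F) : v.toValuationSubring ≃+* Φ.subr v where
  toFun x := ⟨Φ.f x, by rw [mem_subr, RingEquiv.symm_apply_apply]; exact x.2⟩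
  invFun x := ⟨Φ.f.symm x, x.2⟩
  left_inv x := Subtype.ext (Φ.f.symm_apply_apply x)
  right_inv x := Subtype.ext (Φ.f.apply_symm_apply x)
  map_mul' x y := Subtype.ext (map_mul Φ.f _ _)
  map_add' x y := Subtype.ext (map_add Φ.f _ _)

/-- transport of places -/
def mapP (v : Place K F) : Place K F where
  toValuationSubring := Φ.subr v
  algebraMap_mem' c := by
    obtain ⟨d, hd⟩ := Φ.symm_algebraMap c
    rw [mem_subr, hd]
    exact v.algebraMap_mem' d
  ne_top' h := v.ne_top' (by
    rw [eq_top_iff]
    intro x _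
    have h1 : Φ.f x ∈ Φ.subr v := by rw [h]; exact ValuationSubring.mem_top _
    rwa [mem_subr, RingEquiv.symm_apply_apply] at h1)
  isPrincipalIdealRing' := IsPrincipalIdealRing.of_surjective
    ((Φ.subrEquiv v : v.toValuationSubring ≃+* Φ.subr v) : v.toValuationSubring →+* Φ.subr v)
    (Φ.subrEquiv v).surjective

theorem ord_mapP (v : Place K F) (x : F) : (Φ.mapP v).ord (Φ.f x) = v.ord x := by
  rcases eq_or_ne x 0 with rfl | hx
  · rw [map_zero, Place.ord_zero, Place.ord_zero]
  obtain ⟨π, hπ⟩ := IsDiscreteValuationRing.exists_irreducible v.toValuationSubring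
  obtain ⟨u, hu⟩ := v.exists_unit_mul_zpow hx hπ
  set n := v.ord x with hn
  set e : v.toValuationSubring ≃+* (Φ.mapP v).toValuationSubring := Φ.subrEquiv v with he
  have hπ' : Irreducible (e π) := (MulEquiv.irreducible_iff e).mpr hπ
  have hu' : IsUnit (e (u : v.toValuationSubring)) := u.isUnit.map e
  have hcoeu : ((hu'.unit : (Φ.mapP v).toValuationSubring) : F)
      = Φ.f ((u : v.toValuationSubring) : F) := by
    rw [IsUnit.unit_spec]
    rfl
  have hcoeπ : ((e π : (Φ.mapP v).toValuationSubring) : F) = Φ.f (π : F) := rfl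
  have key : Φ.f x = ((hu'.unit : (Φ.mapP v).toValuationSubring) : F)
      * (((e π : (Φ.mapP v).toValuationSubring) : F) ^ n) := by
    rw [hcoeu, hcoeπ, hu, map_mul, map_zpow₀]
  rw [key, (Φ.mapP v).ord_unit_smul_zpow hu'.unit hπ' n]

/-- transport of places as a permutation -/
def perm : Equiv.Perm (Place K F) :=
  Equiv.ofBijective Φ.mapP (by
    constructor
    · intro v w h
      have h1 := congrArg Place.toValuationSubring h
      ext x
      have h2 : Φ.f x ∈ Φ.subr v ↔ Φ.f x ∈ Φ.subr w := by
        change Φ.subr v = Φ.subr w at h1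
        rw [h1]
      simpa only [mem_subr, RingEquiv.symm_apply_apply] using h2
    · intro w
      refine ⟨⟨w.toValuationSubring.comap (Φ.f : F →+* F), ?_, ?_, ?_⟩, ?_⟩
      · intro c
        change Φ.f (algebraMap K F c) ∈ w.toValuationSubring
        rw [Φ.comm]
        exact w.algebraMap_mem' _
      · intro h
        apply w.ne_top'
        rw [eq_top_iff]
        intro x _
        have h1 : Φ.f.symm x ∈ w.toValuationSubring.comap (Φ.f : F →+* F) := by
          rw [h]; exact ValuationSubring.mem_top _
        have h2 : Φ.f (Φ.f.symm x) ∈ w.toValuationSubring := h1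
        rwa [RingEquiv.apply_symm_apply] at h2
      · let e : w.toValuationSubring →+* w.toValuationSubring.comap (Φ.f : F →+* F) :=
          { toFun := fun x => ⟨Φ.f.symm x, by
              change Φ.f (Φ.f.symm x) ∈ w.toValuationSubring
              rw [RingEquiv.apply_symm_apply]; exact x.2⟩
            map_one' := Subtype.ext (map_one Φ.f.symm)
            map_mul' := fun x y => Subtype.ext (map_mul Φ.f.symm _ _)
            map_zero' := Subtype.ext (map_zero Φ.f.symm)
            map_add' := fun x y => Subtype.ext (map_add Φ.f.symm _ _) }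
        refine IsPrincipalIdealRing.of_surjective e fun y => ?_
        refine ⟨⟨Φ.f y, y.2⟩, Subtype.ext ?_⟩
        exact Φ.f.symm_apply_apply y
      · ext x
        change Φ.f (Φ.f.symm x) ∈ w.toValuationSubring ↔ _
        rw [RingEquiv.apply_symm_apply])

theorem perm_apply (v : Place K F) : Φ.perm v = Φ.mapP v := rfl

theorem ord_perm (v : Place K F) (x : F) : (Φ.perm v).ord (Φ.f x) = v.ord x := Φ.ord_mapP v x

theorem ord_perm' (v : Place K F) (x : F) : v.ord (Φ.f x) = (Φ.perm.symm v).ord x := by
  rw [← Φ.ord_perm (Φ.perm.symm v), Equiv.apply_symm_apply]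

theorem perm_pow (n : ℕ) : (Φ.pow n).perm = Φ.perm ^ n := by
  induction n with
  | zero =>
    refine Equiv.ext fun v => ?_
    ext x
    rfl
  | succ n ih =>
    refine Equiv.ext fun v => ?_
    rw [pow_succ' Φ.perm n, Equiv.Perm.mul_apply, ← ih]
    ext x
    change (Φ.f ^ (n + 1)).symm x ∈ v.toValuationSubring ↔
      (Φ.f ^ n).symm (Φ.f.symm x) ∈ v.toValuationSubring
    have h1 : (Φ.f ^ (n + 1)).symm x = (Φ.f ^ n).symm (Φ.f.symm x) := by
      rw [RingEquiv.symm_apply_eq, pow_succ' Φ.f n]
      change x = Φ.f ((Φ.f ^ n) ((Φ.f ^ n).symm (Φ.f.symm x)))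
      rw [RingEquiv.apply_symm_apply, RingEquiv.apply_symm_apply]
    rw [h1]

/-- transport of divisors -/
def div : Divisor K F ≃+ Divisor K F := Finsupp.domCongr Φ.perm

theorem div_apply (D : Divisor K F) (v : Place K F) : Φ.div D v = D (Φ.perm.symm v) := by
  rw [div, Finsupp.domCongr_apply, Finsupp.equivMapDomain_apply]

theorem div_single (v : Place K F) (n : ℤ) :
    Φ.div (Finsupp.single v n) = Finsupp.single (Φ.perm v) n := by
  rw [div, Finsupp.domCongr_apply, Finsupp.equivMapDomain_single]

variable [hF : FunField K F]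

theorem degree_div (D : Divisor K F) : Divisor.degree (Φ.div D) = Divisor.degree D := by
  induction D using Finsupp.induction with
  | zero => rw [map_zero]
  | single_add v n D _ _ ih =>
    rw [map_add, map_add, map_add, ih, div_single, degree_single', degree_single']

theorem div_principal {D : Divisor K F} (hD : D ∈ Divisor.principal (K := K) (F := F)) :
    Φ.div D ∈ Divisor.principal (K := K) (F := F) := by
  obtain ⟨f, hf, h⟩ := hD
  exact ⟨Φ.f f, (map_ne_zero Φ.f).2 hf, fun v => by rw [div_apply, h, ord_perm']⟩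

/-- transport of divisors of degree zero -/
def deg0 : Divisor.degZero (K := K) (F := F) →+ Divisor.degZero (K := K) (F := F) :=
  ((Φ.div : Divisor K F →+ Divisor K F).domRestrict (Divisor.degZero (K := K) (F := F))).codRestrict _
    (fun D => by
      rw [Divisor.mem_degZero]
      exact (Φ.degree_div _).trans D.2)

theorem coe_deg0 (D : Divisor.degZero (K := K) (F := F)) :
    (Φ.deg0 D : Divisor K F) = Φ.div (D : Divisor K F) := rfl

/-- transport of classes -/
def pic : AddMonoid.End (Pic0 K F) :=
  QuotientAddGroup.map _ _ Φ.deg0 (by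
    rintro ⟨D, hD0⟩ hD
    simp only [AddSubgroup.mem_addSubgroupOf] at hD ⊢
    exact Φ.div_principal hD)

theorem pic_mk (D : Divisor.degZero (K := K) (F := F)) :
    Φ.pic (Pic0.mk D) = Pic0.mk (Φ.deg0 D) := rfl

theorem div_pow (n : ℕ) (D : Divisor K F) : (Φ.pow n).div D = (Φ.div : Divisor K F → Divisor K F)^[n] D := by
  induction n generalizing D with
  | zero =>
    ext v
    rw [div_apply, perm_pow, pow_zero]
    rfl
  | succ n ih =>
    rw [Function.iterate_succ_apply, ← ih]
    ext v
    rw [div_apply, div_apply, div_apply, perm_pow, perm_pow, pow_succ Φ.perm n]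
    rfl

theorem pic_pow (n : ℕ) : (Φ.pow n).pic = Φ.pic ^ n := by
  induction n with
  | zero =>
    refine DFunLike.ext _ _ fun x => ?_
    obtain ⟨D, rfl⟩ := Pic0.mk_surjective x
    rw [pic_mk, pow_zero Φ.pic]
    change Pic0.mk _ = Pic0.mk D
    refine congrArg Pic0.mk (Subtype.ext ?_)
    rw [coe_deg0, div_pow]
    rfl
  | succ n ih =>
    refine DFunLike.ext _ _ fun x => ?_
    obtain ⟨D, rfl⟩ := Pic0.mk_surjective x
    rw [pow_succ Φ.pic n, ← ih, pic_mk]
    change _ = (Φ.pow n).pic (Φ.pic (Pic0.mk D))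
    rw [pic_mk, pic_mk]
    refine congrArg Pic0.mk (Subtype.ext ?_)
    rw [coe_deg0, coe_deg0, coe_deg0, div_pow, div_pow, Function.iterate_succ_apply]

end SemiAut

end Fermat.Agent.S27A
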