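import Fermat.Agent.RR.Riemann
import Fermat.Agent.S27A.Semi

/-!
# Counting effective divisors fixed by Frobenius
-/

set_option autoImplicit false
set_option linter.unusedSectionVars false

noncomputable section

namespace Fermat.Agent.S27A

open AlgebraicCurve Fermat.Agent.RR Fermat.Agent.Curve

theorem card_ne_zero {α : Type*} [Zero α] (P : α → Prop) (h0 : P 0) [Finite {x // P x}] :
    Nat.card {x // P x ∧ x ≠ 0} + 1 = Nat.card {x // P x} := by
  classical
  have : Finite {x // P x ∧ x ≠ 0} :=
    Finite.of_injective (fun x : {x // P x ∧ x ≠ 0} => (⟨x.1, x.2.1⟩ : {x // P x}))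
      (fun x y h => Subtype.ext (congrArg (fun z : {x // P x} => z.1) h))
  rw [← Finite.card_option]
  refine Nat.card_congr
    { toFun := fun o => match o with
        | none => ⟨0, h0⟩
        | some x => ⟨x.1, x.2.1⟩
      invFun := fun x => if h : x.1 = 0 then none else some ⟨x.1, x.2, h⟩
      left_inv := ?_
      right_inv := ?_ }
  · rintro (_ | x)
    · simp
    · simp [x.2.2]
  · rintro ⟨x, hx⟩
    by_cases h : x = 0
    · simp [h]
    · simp [h]

variable {K F : Type*} [Field K] [IsAlgClosed K] [Field F] [Algebra K F] [hF : FunField K F]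

theorem ell_congr {D D' : Divisor K F} (h : D - D' ∈ Divisor.principal (K := K) (F := F)) :
    ell D = ell D' := by
  have key : ∀ {D D' : Divisor K F}, D - D' ∈ Divisor.principal (K := K) (F := F) →
      ell D ≤ ell D' := by
    intro D D' h
    obtain ⟨f, hf, hfv⟩ := h
    let T : riemannRochSpace D →ₗ[K] riemannRochSpace D' :=
      { toFun := fun x => ⟨f * x.1, by
          rw [mem_riemannRochSpace_iff]
          intro v
          rcases (mem_riemannRochSpace_iff.1 x.2) v with h0 | h1
          · left; rw [h0, mul_zero]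
          · by_cases hx : x.1 = 0
            · left; rw [hx, mul_zero]
            · right
              rw [v.ord_mul hf hx, ← hfv, Finsupp.sub_apply]
              omega⟩
        map_add' := fun x y => Subtype.ext (mul_add _ _ _)
        map_smul' := fun c x => Subtype.ext (mul_smul_comm _ _ _) }
    refine LinearMap.finrank_le_finrank_of_injective (f := T) fun x y hxy => ?_
    have h1 := congrArg Subtype.val hxy
    exact Subtype.ext (mul_left_cancel₀ hf h1)
  refine le_antisymm (key h) (key ?_)
  rw [← neg_sub]
  exact (Divisor.principal (K := K) (F := F)).neg_mem h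

variable {q : ℕ} (Φ : SemiAut K F q)

theorem SemiAut.mem_L_div {D : Divisor K F} {x : F} :
    Φ.f x ∈ riemannRochSpace (Φ.div D) ↔ x ∈ riemannRochSpace D := by
  rw [mem_riemannRochSpace_iff, mem_riemannRochSpace_iff]
  constructor
  · intro h v
    rcases h (Φ.perm v) with h0 | h1
    · left; exact (map_eq_zero Φ.f).1 h0
    · right
      rw [Φ.ord_perm, Φ.div_apply, Equiv.symm_apply_apply] at h1
      exact h1
  · intro h v
    rcases h (Φ.perm.symm v) with h0 | h1
    · left; rw [h0, map_zero]
    · right
      rw [Φ.ord_perm', Φ.div_apply]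
      exact h1

theorem SemiAut.ell_div {p s : ℕ} [hp : Fact p.Prime] [CharP K p] (hq : q = p ^ s)
    (D : Divisor K F) : ell (Φ.div D) = ell D := by
  let j : riemannRochSpace D ≃+ riemannRochSpace (Φ.div D) :=
    { toFun := fun x => ⟨Φ.f x.1, Φ.mem_L_div.2 x.2⟩
      invFun := fun x => ⟨Φ.f.symm x.1, by
        rw [← Φ.mem_L_div, RingEquiv.apply_symm_apply]; exact x.2⟩
      left_inv := fun x => Subtype.ext (Φ.f.symm_apply_apply x.1)
      right_inv := fun x => Subtype.ext (Φ.f.apply_symm_apply x.1)
      map_add' := fun x y => Subtype.ext (map_add Φ.f _ _) }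
  have hinj : Function.Injective (fun c : K => c ^ q) := by
    intro c d hcd
    rw [hq] at hcd
    have h1 : (c - d) ^ p ^ s = 0 := by
      rw [sub_pow_char_pow (p := p)]
      exact sub_eq_zero.2 hcd
    exact sub_eq_zero.1 (pow_eq_zero_iff (pow_ne_zero s hp.out.ne_zero) |>.1 h1)
  have hsurj : Function.Surjective (fun c : K => c ^ q) := fun c =>
    IsAlgClosed.exists_pow_nat_eq c (Nat.pos_of_ne_zero Φ.hq)
  have h1 := rank_eq_of_equiv_equiv (fun c : K => c ^ q) j ⟨hinj, hsurj⟩ (fun c x =>
    Subtype.ext (by
      change Φ.f (c • x.1) = (c ^ q) • Φ.f x.1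
      rw [Algebra.smul_def, map_mul, Φ.comm, Algebra.smul_def]))
  rw [ell, ell, Module.finrank, Module.finrank, h1]

end Fermat.Agent.S27A
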