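import Fermat.Agent.S27A.Eff

/-!
# Counting effective divisors fixed by Frobenius: the formula
-/

set_option autoImplicit false
set_option linter.unusedSectionVars false

noncomputable section

namespace Fermat.Agent.S27A

open AlgebraicCurve Fermat.Agent.RR Fermat.Agent.Curve

variable {K F : Type*} [Field K] [IsAlgClosed K] [Field F] [Algebra K F] [hF : FunField K F]

/-- the integral divisor of an effective divisor -/
def toD (E : Place K F →₀ ℕ) : Divisor K F := E.mapRange (Nat.cast : ℕ → ℤ) Nat.cast_zero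

theorem toD_apply (E : Place K F →₀ ℕ) (v : Place K F) : toD E v = E v := rfl

theorem toD_eq_sum (E : Place K F →₀ ℕ) :
    toD E = E.sum fun P k => (k : ℕ) • (Finsupp.single P 1 : Divisor K F) := by
  classical
  ext v
  rw [toD_apply, Finsupp.sum, Finsupp.finset_sum_apply]
  simp only [Finsupp.smul_apply, Finsupp.single_apply, smul_ite, smul_zero]
  rw [Finset.sum_ite_eq']
  split_ifs with h
  · simp
  · rw [Finsupp.notMem_support_iff.1 h]; rfl

/-- the class of degree zero of a divisor -/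
def clD (P₀ : Place K F) : Divisor K F →+ Pic0 K F :=
  (QuotientAddGroup.mk' _ : Divisor.degZero (K := K) (F := F) →+ Pic0 K F).comp
    { toFun := fun D => ⟨D - Finsupp.single P₀ (Divisor.degree D), by
        rw [Divisor.mem_degZero, map_sub, degree_single', sub_self]⟩
      map_zero' := Subtype.ext (by simp)
      map_add' := fun D E => Subtype.ext (by
        change D + E - Finsupp.single P₀ (Divisor.degree (D + E)) =
          (D - Finsupp.single P₀ (Divisor.degree D)) + (E - Finsupp.single P₀ (Divisor.degree E))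
        rw [map_add, Finsupp.single_add]
        abel) }

theorem clD_eq_mk (P₀ : Place K F) (D : Divisor K F) (D₀ : Divisor.degZero (K := K) (F := F)) :
    clD P₀ D = Pic0.mk D₀ ↔ D - Finsupp.single P₀ (Divisor.degree D) - D₀ ∈
      Divisor.principal (K := K) (F := F) := by
  change (QuotientAddGroup.mk _ : Pic0 K F) = QuotientAddGroup.mk D₀ ↔ _
  rw [QuotientAddGroup.eq, AddSubgroup.mem_addSubgroupOf, ← neg_mem_iff]
  have : -((-(⟨D - Finsupp.single P₀ (Divisor.degree D), by
      rw [Divisor.mem_degZero, map_sub, degree_single', sub_self]⟩ :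
        Divisor.degZero (K := K) (F := F)) + D₀ : Divisor.degZero (K := K) (F := F)) :
          Divisor K F) = D - Finsupp.single P₀ (Divisor.degree D) - D₀ := by
    change -(-(D - Finsupp.single P₀ (Divisor.degree D)) + (D₀ : Divisor K F)) = _
    abel
  rw [← this]
  rfl

/-- the class of a place -/
def cl (P₀ P : Place K F) : Pic0 K F := clD P₀ (Finsupp.single P 1)

theorem sum_cl (P₀ : Place K F) (E : Place K F →₀ ℕ) :
    (E.sum fun P k => k • cl P₀ P) = clD P₀ (toD E) := by
  rw [toD_eq_sum, Finsupp.sum, Finsupp.sum, map_sum]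
  exact Finset.sum_congr rfl fun P _ => by rw [map_nsmul]; rfl

theorem degree_toD (E : Place K F →₀ ℕ) :
    Divisor.degree (toD E) = ((E.sum fun _ k => k : ℕ) : ℤ) := by
  rw [toD_eq_sum, Finsupp.sum, Finsupp.sum, map_sum, Nat.cast_sum]
  refine Finset.sum_congr rfl fun P _ => ?_
  rw [map_nsmul, degree_single']
  simp

/-- the dimension of `L(c + m P₀)` -/
def el (P₀ : Place K F) (c : Pic0 K F) (m : ℕ) : ℕ :=
  ell (((Pic0.mk_surjective c).choose : Divisor K F) + Finsupp.single P₀ (m : ℤ))

theorem el_mk (P₀ : Place K F) (D : Divisor.degZero (K := K) (F := F)) (m : ℕ) :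
    el P₀ (Pic0.mk D) m = ell ((D : Divisor K F) + Finsupp.single P₀ (m : ℤ)) := by
  have h := (Pic0.mk_surjective (Pic0.mk D)).choose_spec
  refine ell_congr ?_
  rw [add_sub_add_right_eq_sub]
  have h1 : (QuotientAddGroup.mk (Pic0.mk_surjective (Pic0.mk D)).choose : Pic0 K F) =
    QuotientAddGroup.mk D := h
  rw [QuotientAddGroup.eq, AddSubgroup.mem_addSubgroupOf, ← neg_mem_iff] at h1
  convert h1 using 1
  change _ = -(-((Pic0.mk_surjective (Pic0.mk D)).choose : Divisor K F) + (D : Divisor K F))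
  abel

section count

variable {q p s : ℕ} [hp : Fact p.Prime] [CharP K p] (Ψ : SemiAut K F q)

/-- the twisted semilinear map on `L(D)` -/
def tw {D : Divisor K F} {h : F} (hh : h ≠ 0) (hD : ∀ v : Place K F, (Ψ.div D) v - D v = v.ord h) :
    riemannRochSpace D →+ riemannRochSpace D where
  toFun x := ⟨h * Ψ.f x.1, by
    rw [mem_riemannRochSpace_iff]
    intro v
    rcases mem_riemannRochSpace_iff.1 (Ψ.mem_L_div.2 x.2) v with h0 | h1
    · left; rw [h0, mul_zero]
    · by_cases hx : Ψ.f x.1 = 0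
      · left; rw [hx, mul_zero]
      · right
        rw [v.ord_mul hh hx, ← hD]
        omega⟩
  map_zero' := Subtype.ext (by simp)
  map_add' x y := Subtype.ext (by
    change h * Ψ.f (x.1 + y.1) = h * Ψ.f x.1 + h * Ψ.f y.1
    rw [map_add, mul_add])

theorem coe_tw {D : Divisor K F} {h : F} (hh : h ≠ 0)
    (hD : ∀ v : Place K F, (Ψ.div D) v - D v = v.ord h) (x : riemannRochSpace D) :
    (tw Ψ hh hD x : F) = h * Ψ.f x.1 := rfl

theorem card_tw {D : Divisor K F} {h : F} (hh : h ≠ 0)
    (hD : ∀ v : Place K F, (Ψ.div D) v - D v = v.ord h) (hq : q = p ^ s) (hs : s ≠ 0) :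
    Nat.card {x : riemannRochSpace D // tw Ψ hh hD x = x} = q ^ ell D := by
  refine card_fixed (p := p) hs hq (fun c x => Subtype.ext ?_) (fun x y hxy => Subtype.ext ?_)
  · change h * Ψ.f (c • x.1) = (c ^ q) • (h * Ψ.f x.1)
    rw [Algebra.smul_def, map_mul, Ψ.comm, Algebra.smul_def]
    ring
  · have h1 := congrArg Subtype.val hxy
    rw [coe_tw, coe_tw] at h1
    exact Ψ.f.injective (mul_left_cancel₀ hh h1)

/-- an effective divisor fixed by `Ψ` in the class of `D` is the divisor of a fixed function -/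
theorem exists_fix {D : Divisor K F} {h : F} (hh : h ≠ 0)
    (hD : ∀ v : Place K F, (Ψ.div D) v - D v = v.ord h) (hq2 : 2 ≤ q) {E : Divisor K F}
    (hE : ∀ v, E (Ψ.perm v) = E v) (hED : E - D ∈ Divisor.principal (K := K) (F := F)) :
    ∃ f : F, f ≠ 0 ∧ (∀ v : Place K F, E v - D v = v.ord f) ∧ h * Ψ.f f = f := by
  obtain ⟨f, hf, hfv⟩ := hED
  have hΨf : Ψ.f f ≠ 0 := (map_ne_zero Ψ.f).2 hf
  have h1 : ∀ v : Place K F, 0 ≤ v.ord (h * Ψ.f f * f⁻¹) := by
    intro v
    rw [v.ord_mul (mul_ne_zero hh hΨf) (inv_ne_zero hf), v.ord_mul hh hΨf, v.ord_inv, ← hD,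
      Ψ.ord_perm', ← hfv, ← hfv, Ψ.div_apply, Finsupp.sub_apply, Finsupp.sub_apply]
    have h2 := hE (Ψ.perm.symm v)
    rw [Equiv.apply_symm_apply] at h2
    rw [← h2]
    omega
  obtain ⟨l, hl⟩ := const_of_no_pole (K := K) h1
  have hl0 : l ≠ 0 := by
    rintro rfl
    rw [map_zero] at hl
    exact mul_ne_zero (mul_ne_zero hh hΨf) (inv_ne_zero hf) hl.symm
  have hl' : h * Ψ.f f = algebraMap K F l * f := by
    rw [hl, mul_assoc, inv_mul_cancel₀ hf, mul_one]
  obtain ⟨u, hu⟩ := IsAlgClosed.exists_pow_nat_eq l⁻¹ (n := q - 1) (by omega)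
  have hu0 : u ≠ 0 := by
    rintro rfl
    rw [zero_pow (by omega)] at hu
    exact inv_ne_zero hl0 hu.symm
  have hu' : algebraMap K F u ≠ 0 := (map_ne_zero (algebraMap K F)).2 hu0
  have huq : u ^ q * l = u := by
    have : u ^ q = u ^ (q - 1) * u := by rw [← pow_succ]; congr 1; omega
    rw [this, hu]
    field_simp
  refine ⟨algebraMap K F u * f, mul_ne_zero hu' hf, fun v => ?_, ?_⟩
  · rw [v.ord_mul hu' hf, ord_algebraMap, zero_add, ← hfv, Finsupp.sub_apply]
  · rw [map_mul, Ψ.comm]
    calc h * (algebraMap K F (u ^ q) * Ψ.f f) = algebraMap K F (u ^ q) * (h * Ψ.f f) := by ring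
      _ = algebraMap K F (u ^ q * l) * f := by rw [hl', map_mul]; ring
      _ = algebraMap K F u * f := by rw [huq]

end count

end Fermat.Agent.S27A
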