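import Fermat.Agent.S27A.Eff2

/-!
# Counting effective divisors fixed by Frobenius: the count
-/

set_option autoImplicit false
set_option linter.unusedSectionVars false

noncomputable section

namespace Fermat.Agent.S27A

open AlgebraicCurve Fermat.Agent.RR Fermat.Agent.Curve

variable {K F : Type*} [Field K] [IsAlgClosed K] [Field F] [Algebra K F] [hF : FunField K F]

theorem mk_eq_mk {D D' : Divisor.degZero (K := K) (F := F)} :
    (Pic0.mk D = Pic0.mk D') ↔ (D : Divisor K F) - D' ∈ Divisor.principal (K := K) (F := F) := by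
  change (QuotientAddGroup.mk _ : Pic0 K F) = QuotientAddGroup.mk D' ↔ _
  rw [QuotientAddGroup.eq, AddSubgroup.mem_addSubgroupOf, ← neg_mem_iff]
  have : -((-D + D' : Divisor.degZero (K := K) (F := F)) : Divisor K F) =
      (D : Divisor K F) - D' := by
    change -(-(D : Divisor K F) + (D' : Divisor K F)) = _
    abel
  rw [← this]

section count

variable {q p s : ℕ} [hp : Fact p.Prime] [CharP K p] (Ψ : SemiAut K F q)

theorem card_eff1 (hq : q = p ^ s) (hs : s ≠ 0) {P₀ : Place K F} (hP₀ : Ψ.perm P₀ = P₀)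
    (c : Pic0 K F) (hc : Ψ.pic c = c) (m : ℕ) :
    Nat.card {E : Place K F →₀ ℕ // (∀ P, E (Ψ.perm P) = E P) ∧ (E.sum fun _ k => k) = m ∧
      (E.sum fun P k => k • cl P₀ P) = c} * (q - 1) = q ^ (el P₀ c m) - 1 := by
  classical
  obtain ⟨D₀, rfl⟩ := Pic0.mk_surjective c
  rw [Ψ.pic_mk, mk_eq_mk, Ψ.coe_deg0] at hc
  obtain ⟨h, hh, hhv⟩ := hc
  set D : Divisor K F := (D₀ : Divisor K F) + Finsupp.single P₀ (m : ℤ) with hDdef
  have hD : ∀ v : Place K F, (Ψ.div D) v - D v = v.ord h := by
    intro v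
    rw [← hhv, hDdef, map_add, Ψ.div_single, hP₀]
    simp only [Finsupp.add_apply, Finsupp.sub_apply]
    ring
  have hq2 : 2 ≤ q := by
    rw [hq]
    exact hp.out.two_le.trans (Nat.le_self_pow hs p)
  set S := {E : Place K F →₀ ℕ // (∀ P, E (Ψ.perm P) = E P) ∧ (E.sum fun _ k => k) = m ∧
      (E.sum fun P k => k • cl P₀ P) = Pic0.mk D₀} with hS
  have hcls : ∀ E : Place K F →₀ ℕ, (E.sum fun _ k => k) = m →
      ((E.sum fun P k => k • cl P₀ P) = Pic0.mk D₀ ↔
        toD E - D ∈ Divisor.principal (K := K) (F := F)) := by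
    intro E hE
    rw [sum_cl, clD_eq_mk, degree_toD, hE, hDdef, ← sub_sub, sub_right_comm]
  have hex : ∀ E : S, ∃ f : F, f ≠ 0 ∧ (∀ v : Place K F, toD E.1 v - D v = v.ord f) ∧
      h * Ψ.f f = f := by
    intro E
    refine exists_fix Ψ hh hD hq2 (fun v => ?_) ((hcls E.1 E.2.2.1).1 E.2.2.2)
    rw [toD_apply, toD_apply, E.2.1]
  choose fE hf0 hfv hfix using hex
  have : Finite {x : riemannRochSpace D // tw Ψ hh hD x = x} := by
    apply Nat.finite_of_card_ne_zero
    rw [card_tw Ψ hh hD hq hs]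
    exact pow_ne_zero _ (by omega)
  have : Finite {μ : K // μ ^ q = μ} := by
    apply Nat.finite_of_card_ne_zero
    rw [card_pow_eq hs hq]
    omega
  have h0 : (0 : K) ^ q = 0 := zero_pow (by omega)
  have e1 := card_ne_zero (fun x : riemannRochSpace D => tw Ψ hh hD x = x) (map_zero _)
  have e2 := card_ne_zero (fun μ : K => μ ^ q = μ) h0
  rw [card_tw Ψ hh hD hq hs] at e1
  rw [card_pow_eq hs hq] at e2
  have hmem : ∀ (E : S) (μ : K), algebraMap K F μ * fE E ∈ riemannRochSpace D := by
    intro E μ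
    rw [mem_riemannRochSpace_iff]
    intro v
    by_cases hμ : μ = 0
    · left; rw [hμ, map_zero, zero_mul]
    · right
      rw [v.ord_mul ((map_ne_zero (algebraMap K F)).2 hμ) (hf0 E), ord_algebraMap, zero_add, ← hfv,
        toD_apply]
      have : (0 : ℤ) ≤ ((E.1 v : ℕ) : ℤ) := Int.natCast_nonneg _
      omega
  let T : S × {μ : K // μ ^ q = μ ∧ μ ≠ 0} →
      {x : riemannRochSpace D // tw Ψ hh hD x = x ∧ x ≠ 0} := fun a =>
    ⟨⟨algebraMap K F a.2.1 * fE a.1, hmem a.1 a.2.1⟩, by
      refine ⟨Subtype.ext ?_, fun h0 => ?_⟩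
      · rw [coe_tw]
        change h * Ψ.f (algebraMap K F a.2.1 * fE a.1) = algebraMap K F a.2.1 * fE a.1
        rw [map_mul, Ψ.comm, a.2.2.1, mul_left_comm, hfix]
      · have h1 := congrArg Subtype.val h0
        exact mul_ne_zero ((map_ne_zero (algebraMap K F)).2 a.2.2.2) (hf0 a.1) h1⟩
  have hT : Function.Bijective T := by
    constructor
    · rintro ⟨E, μ⟩ ⟨E', μ'⟩ h1
      have h2 : algebraMap K F μ.1 * fE E = algebraMap K F μ'.1 * fE E' :=
        congrArg (fun x => ((x.1 : riemannRochSpace D) : F)) h1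
      have hE : E = E' := by
        refine Subtype.ext (Finsupp.ext fun v => ?_)
        have h3 := congrArg v.ord h2
        rw [v.ord_mul ((map_ne_zero (algebraMap K F)).2 μ.2.2) (hf0 E), ord_algebraMap, zero_add,
          v.ord_mul ((map_ne_zero (algebraMap K F)).2 μ'.2.2) (hf0 E'), ord_algebraMap, zero_add,
          ← hfv, ← hfv, toD_apply, toD_apply] at h3
        have h4 : ((E.1 v : ℕ) : ℤ) = ((E'.1 v : ℕ) : ℤ) := by linarith
        exact_mod_cast h4
      subst hE
      have h3 := mul_right_cancel₀ (hf0 E) h2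
      have h4 : μ = μ' := Subtype.ext ((algebraMap K F).injective h3)
      rw [h4]
    · rintro ⟨x, hx, hx0⟩
      have hxF : (x : F) ≠ 0 := fun h => hx0 (Subtype.ext h)
      have hx' : h * Ψ.f (x : F) = x := congrArg Subtype.val hx
      have hΨx : Ψ.f (x : F) ≠ 0 := (map_ne_zero Ψ.f).2 hxF
      have hpos : ∀ v : Place K F, 0 ≤ v.ord (x : F) + D v := by
        intro v
        rcases mem_riemannRochSpace_iff.1 x.2 v with h1 | h1
        · exact absurd h1 hxF
        · omega
      set E : Place K F →₀ ℕ := (D + divisor K (x : F)).mapRange Int.toNat Int.toNat_zero with hEdef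
      have hEv : ∀ v, ((E v : ℕ) : ℤ) = v.ord (x : F) + D v := by
        intro v
        rw [hEdef, Finsupp.mapRange_apply, Finsupp.add_apply, divisor_apply,
          Int.toNat_of_nonneg (by have := hpos v; omega)]
        ring
      have htoD : toD E = D + divisor K (x : F) := by
        refine Finsupp.ext fun v => ?_
        rw [toD_apply, hEv, Finsupp.add_apply D, divisor_apply]
        ring
      have hinv : ∀ v, E (Ψ.perm v) = E v := by
        intro v
        have h1 : ((E (Ψ.perm v) : ℕ) : ℤ) = ((E v : ℕ) : ℤ) := by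
          rw [hEv, hEv]
          have h2 := congrArg (Ψ.perm v).ord hx'
          rw [(Ψ.perm v).ord_mul hh hΨx, ← hD, Ψ.ord_perm, Ψ.div_apply, Equiv.symm_apply_apply] at h2
          linarith
        exact_mod_cast h1
      have hsum : (E.sum fun _ k => k) = m := by
        have h1 := degree_toD E
        rw [htoD, map_add, degree_divisor, add_zero, hDdef, map_add, degree_single'] at h1
        have h2 : Divisor.degree (D₀ : Divisor K F) = 0 := D₀.2
        rw [h2, zero_add] at h1
        exact_mod_cast h1.symm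
      have hprin : toD E - D ∈ Divisor.principal (K := K) (F := F) := by
        rw [htoD, add_sub_cancel_left]
        exact ⟨x, hxF, fun v => divisor_apply _ _⟩
      let E' : S := ⟨E, hinv, hsum, (hcls E hsum).2 hprin⟩
      have hr : ∀ v : Place K F, 0 ≤ v.ord ((x : F) * (fE E')⁻¹) := by
        intro v
        rw [v.ord_mul hxF (inv_ne_zero (hf0 E')), v.ord_inv, ← hfv, toD_apply]
        change 0 ≤ v.ord (x : F) + -(((E v : ℕ) : ℤ) - D v)
        rw [hEv]
        linarith
      obtain ⟨μ, hμ⟩ := const_of_no_pole (K := K) hr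
      have hxμ : (x : F) = algebraMap K F μ * fE E' := by
        rw [hμ, mul_assoc, inv_mul_cancel₀ (hf0 E'), mul_one]
      have hμ0 : μ ≠ 0 := by
        rintro rfl
        rw [map_zero, zero_mul] at hxμ
        exact hxF hxμ
      have hμq : μ ^ q = μ := by
        rw [hxμ, map_mul, Ψ.comm, mul_left_comm, hfix] at hx'
        exact (algebraMap K F).injective (mul_right_cancel₀ (hf0 E') hx')
      exact ⟨(E', ⟨μ, hμq, hμ0⟩), Subtype.ext (Subtype.ext hxμ.symm)⟩
  have e3 := Nat.card_congr (Equiv.ofBijective T hT)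
  rw [Nat.card_prod] at e3
  have e4 : Nat.card {μ : K // μ ^ q = μ ∧ μ ≠ 0} = q - 1 := by omega
  have e5 : Nat.card {x : riemannRochSpace D // tw Ψ hh hD x = x ∧ x ≠ 0} = q ^ ell D - 1 := by omega
  rw [e4, e5] at e3
  rw [el_mk]
  exact e3

end count

end Fermat.Agent.S27A
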