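import Fermat.Agent.S27A.LF0

/-!
# Abstract function fields over finite fields: counting divisors
-/

set_option autoImplicit false
set_option linter.style.haveILetI false
set_option linter.unusedSectionVars false

namespace Fermat.Agent.S27A

noncomputable section

/-- The data of the action of Frobenius on the places `X` and on the classes `J` of degree `0`;
`cl P` is the class of `P - P₀`, `el c m` is the dimension of `L(c + m P₀)`. -/
structure FrobData (J X : Type*) [AddCommGroup J] where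
  Φ : AddMonoid.End J
  φ : Equiv.Perm X
  cl : X → J
  cl_φ : ∀ P, cl (φ P) = Φ (cl P)
  q : ℕ
  hq : 1 < q
  g : ℕ
  el : J → ℕ → ℕ
  el_Φ : ∀ c m, el (Φ c) m = el c m
  fin_fix : ∀ n : ℕ, n ≠ 0 → {P | (φ ^ n) P = P}.Finite
  card_eff : ∀ n : ℕ, n ≠ 0 → ∀ c : J, (Φ ^ n) c = c → ∀ m : ℕ,
    Nat.card {E : X →₀ ℕ // (∀ P, E ((φ ^ n) P) = E P) ∧ (E.sum fun _ k => k) = m ∧
      (E.sum fun P k => k • cl P) = c} * (q ^ n - 1) = q ^ (n * el c m) - 1
  el_large : ∀ (c : J) (m : ℕ), 2 * g ≤ m + 1 → el c m + g = m + 1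
  el_crit : 1 ≤ g → ∃ c₀ : J, el c₀ (2 * g - 2) = g ∧ ∀ c ≠ c₀, el c (2 * g - 2) = g - 1

namespace FrobData

variable {J X : Type*} [AddCommGroup J] (D : FrobData J X)

theorem cl_pow (n : ℕ) (P : X) : D.cl ((D.φ ^ n) P) = (D.Φ ^ n) (D.cl P) := by
  induction n with
  | zero => rfl
  | succ n ih =>
    rw [pow_succ', pow_succ', Equiv.Perm.mul_apply, D.cl_φ, ih]
    rfl

theorem el_pow (n : ℕ) (c : J) (m : ℕ) : D.el ((D.Φ ^ n) c) m = D.el c m := by
  induction n with
  | zero => rfl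
  | succ n ih =>
    rw [pow_succ']
    exact (D.el_Φ _ _).trans ih

/-- the data over the extension of degree `n` -/
def pow (n : ℕ) (hn : n ≠ 0) : FrobData J X where
  Φ := D.Φ ^ n
  φ := D.φ ^ n
  cl := D.cl
  cl_φ := D.cl_pow n
  q := D.q ^ n
  hq := Nat.one_lt_pow hn D.hq
  g := D.g
  el := D.el
  el_Φ := D.el_pow n
  fin_fix k hk := by
    rw [← pow_mul]
    exact D.fin_fix (n * k) (mul_ne_zero hn hk)
  card_eff k hk c hc m := by
    rw [← pow_mul] at hc ⊢
    rw [← pow_mul, ← pow_mul, ← mul_assoc]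
    exact D.card_eff (n * k) (mul_ne_zero hn hk) c hc m
  el_large := D.el_large
  el_crit := D.el_crit

/-- effective divisors -/
def IsEff (m : ℕ) (E : X →₀ ℕ) : Prop := (∀ P, E (D.φ P) = E P) ∧ (E.sum fun _ k => k) = m

/-- the class map -/
def cls : (X →₀ ℕ) →+ J := Finsupp.liftAddHom fun P => (multiplesHom J (D.cl P))

theorem cls_apply (E : X →₀ ℕ) : D.cls E = E.sum fun P k => k • D.cl P := rfl

theorem deg_eq (E : X →₀ ℕ) : (E.sum fun _ k => k) = Finsupp.degree E := by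
  rw [Finsupp.degree_apply]; rfl

theorem IsEff.pow {m : ℕ} {E : X →₀ ℕ} (h : D.IsEff m E) (n : ℕ) (P : X) :
    E ((D.φ ^ n) P) = E P := by
  induction n with
  | zero => rfl
  | succ n ih => rw [pow_succ', Equiv.Perm.mul_apply, h.1, ih]

theorem sum_le_degree (E : X →₀ ℕ) (s : Finset X) : ∑ P ∈ s, E P ≤ Finsupp.degree E := by
  classical
  rw [Finsupp.degree_apply, ← Finset.sum_filter_add_sum_filter_not s (fun P => P ∈ E.support)]
  have h1 : ∑ P ∈ s with P ∉ E.support, E P = 0 := by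
    refine Finset.sum_eq_zero fun P hP => ?_
    rw [Finset.mem_filter, Finsupp.notMem_support_iff] at hP
    exact hP.2
  rw [h1, add_zero]
  exact Finset.sum_le_sum_of_subset fun P hP => (Finset.mem_filter.1 hP).2

theorem exists_period {m : ℕ} {E : X →₀ ℕ} (h : D.IsEff m E) {P : X} (hP : E P ≠ 0) :
    ∃ n : ℕ, n ≠ 0 ∧ n ≤ m ∧ (D.φ ^ n) P = P := by
  classical
  by_contra hcon
  push Not at hcon
  have hinj : Set.InjOn (fun i : ℕ => (D.φ ^ i) P) (Finset.range (m + 1) : Set ℕ) := by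
    have key : ∀ i j : ℕ, i < j → j ≤ m → (D.φ ^ i) P ≠ (D.φ ^ j) P := by
      intro i j hij hj he
      apply hcon (j - i) (by omega) (by omega)
      apply (D.φ ^ i).injective
      rw [← Equiv.Perm.mul_apply, ← pow_add, Nat.add_sub_cancel' hij.le, he]
    intro i hi j hj hij
    simp only [Finset.coe_range, Set.mem_Iio] at hi hj
    rcases lt_trichotomy i j with h1 | h1 | h1
    · exact absurd hij (key i j h1 (by omega))
    · exact h1
    · exact absurd hij.symm (key j i h1 (by omega))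
  have h1 := sum_le_degree E ((Finset.range (m + 1)).image fun i : ℕ => (D.φ ^ i) P)
  rw [Finset.sum_image hinj] at h1
  simp only [h.pow] at h1
  rw [Finset.sum_const, Finset.card_range, ← deg_eq, h.2, smul_eq_mul] at h1
  have h2 : 1 ≤ E P := Nat.one_le_iff_ne_zero.2 hP
  nlinarith

theorem finite_eff (m : ℕ) : {E : X →₀ ℕ | D.IsEff m E}.Finite := by
  classical
  have hF : {P | ∃ n : ℕ, n ≠ 0 ∧ n ≤ m ∧ (D.φ ^ n) P = P}.Finite := by
    have : {P | ∃ n : ℕ, n ≠ 0 ∧ n ≤ m ∧ (D.φ ^ n) P = P} ⊆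
        ⋃ n ∈ Finset.Icc 1 m, {P | (D.φ ^ n) P = P} := by
      rintro P ⟨n, h1, h2, h3⟩
      simp only [Set.mem_iUnion]
      exact ⟨n, Finset.mem_Icc.2 ⟨Nat.one_le_iff_ne_zero.2 h1, h2⟩, h3⟩
    refine Set.Finite.subset ?_ this
    refine Set.Finite.biUnion (Finset.finite_toSet _) fun n hn => D.fin_fix n ?_
    have := (Finset.mem_Icc.1 (Finset.mem_coe.1 hn)).1
    omega
  let F := hF.toFinset
  let M : X →₀ ℕ := Finsupp.onFinset F (fun P => if P ∈ F then m else 0) (by
    intro P hP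
    by_contra h
    simp [h] at hP)
  refine Set.Finite.subset (Set.finite_Iic M) fun E hE => ?_
  intro P
  by_cases h0 : E P = 0
  · rw [h0]; exact Nat.zero_le _
  · have h1 : P ∈ F := by
      rw [Set.Finite.mem_toFinset]
      exact D.exists_period hE h0
    change E P ≤ if P ∈ F then m else 0
    rw [if_pos h1]
    have h2 := sum_le_degree E {P}
    rw [Finset.sum_singleton, ← deg_eq, hE.2] at h2
    exact h2

/-- the finite set of effective divisors of degree `m` -/
def eff (m : ℕ) : Finset (X →₀ ℕ) := (D.finite_eff m).toFinset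

theorem mem_eff {m : ℕ} {E : X →₀ ℕ} : E ∈ D.eff m ↔ D.IsEff m E := Set.Finite.mem_toFinset _

/-- the fixed points -/
def fix (n : ℕ) : Finset X := if hn : n ≠ 0 then (D.fin_fix n hn).toFinset else ∅

theorem mem_fix {n : ℕ} (hn : n ≠ 0) {P : X} : P ∈ D.fix n ↔ (D.φ ^ n) P = P := by
  rw [fix, dif_pos hn]
  exact Set.Finite.mem_toFinset _

/-- the trace of a point -/
def orb (n : ℕ) (P : X) : X →₀ ℕ := ∑ i ∈ Finset.range n, Finsupp.single ((D.φ ^ i) P) 1

theorem cls_Φ {m : ℕ} {E : X →₀ ℕ} (h : D.IsEff m E) : D.Φ (D.cls E) = D.cls E := by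
  classical
  rw [cls_apply, Finsupp.sum, map_sum]
  refine Finset.sum_bij (fun P _ => D.φ P) ?_ ?_ ?_ ?_
  · intro P hP
    rw [Finsupp.mem_support_iff] at hP ⊢
    rwa [h.1]
  · intro P _ Q _ hPQ
    exact D.φ.injective hPQ
  · intro Q hQ
    refine ⟨D.φ.symm Q, ?_, D.φ.apply_symm_apply Q⟩
    rw [Finsupp.mem_support_iff] at hQ ⊢
    rwa [← h.1, D.φ.apply_symm_apply]
  · intro P _
    rw [map_nsmul, h.1, D.cl_φ]

end FrobData

end

end Fermat.Agent.S27A
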