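import Fermat.Agent.S27A.Eff3
import Fermat.Agent.S27A.RR2
import Fermat.Agent.S27A.LF1

/-!
# Frobenius data from a semilinear automorphism of a function field
-/

set_option autoImplicit false
set_option linter.unusedSectionVars false

noncomputable section

namespace Fermat.Agent.S27A

open AlgebraicCurve Fermat.Agent.RR Fermat.Agent.Curve

variable {K F : Type*} [Field K] [IsAlgClosed K] [Field F] [Algebra K F] [hF : FunField K F]

theorem degree_mk (D₀ : Divisor.degZero (K := K) (F := F)) (P₀ : Place K F) (m : ℤ) :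
    Divisor.degree ((D₀ : Divisor K F) + Finsupp.single P₀ m) = m := by
  rw [map_add, degree_single']
  have h2 : Divisor.degree (D₀ : Divisor K F) = 0 := D₀.2
  rw [h2, zero_add]

theorem el_large' (P₀ : Place K F) (c : Pic0 K F) (m : ℕ) (h : 2 * rrGenus K F ≤ m + 1) :
    el P₀ c m + rrGenus K F = m + 1 := by
  obtain ⟨D₀, rfl⟩ := Pic0.mk_surjective c
  obtain ⟨Wc, hW, hRR⟩ := exists_canonical K F
  have h1 := hRR ((D₀ : Divisor K F) + Finsupp.single P₀ (m : ℤ))
  rw [degree_mk, ell_eq_zero (D := Wc - _)] at h1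
  · rw [el_mk]
    push_cast at h1
    omega
  · rw [map_sub, degree_mk, hW]
    omega

theorem principal_of_ell_pos {D : Divisor K F} (hD : Divisor.degree D = 0) (h : ell D ≠ 0) :
    D ∈ Divisor.principal (K := K) (F := F) := by
  obtain ⟨z, hz, hzD⟩ := exists_ne_zero_of_ell_pos (D := D) (by omega)
  have h1 : 0 ≤ D + divisor K z := by
    intro v
    rw [Finsupp.add_apply, divisor_apply]
    rcases mem_riemannRochSpace_iff.1 hzD v with h0 | h0
    · exact absurd h0 hz
    · simp only [Finsupp.coe_zero, Pi.zero_apply]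
      omega
  have h2 : D + divisor K z = 0 := by
    have h3 : Divisor.degree (D + divisor K z) = 0 := by rw [map_add, hD, degree_divisor, add_zero]
    rw [degree_eq] at h3
    have h4 := (Finset.sum_eq_zero_iff_of_nonneg fun v _ => h1 v).1 h3
    ext v
    by_cases hv : v ∈ (D + divisor K z).support
    · rw [h4 v hv]; rfl
    · rw [Finsupp.notMem_support_iff.1 hv]; rfl
  refine ⟨z⁻¹, inv_ne_zero hz, fun v => ?_⟩
  have h3 := DFunLike.congr_fun h2 v
  rw [Finsupp.add_apply, divisor_apply] at h3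
  rw [v.ord_inv]
  simp only [Finsupp.coe_zero, Pi.zero_apply] at h3
  omega

theorem el_crit' (P₀ : Place K F) (hg : 1 ≤ rrGenus K F) :
    ∃ c₀ : Pic0 K F, el P₀ c₀ (2 * rrGenus K F - 2) = rrGenus K F ∧
      ∀ c ≠ c₀, el P₀ c (2 * rrGenus K F - 2) = rrGenus K F - 1 := by
  obtain ⟨Wc, hW, hRR⟩ := exists_canonical K F
  have hm : ((2 * rrGenus K F - 2 : ℕ) : ℤ) = 2 * rrGenus K F - 2 := by omega
  let W₀ : Divisor.degZero (K := K) (F := F) :=
    ⟨Wc - Finsupp.single P₀ ((2 * rrGenus K F - 2 : ℕ) : ℤ), by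
      rw [Divisor.mem_degZero, map_sub, degree_single', hW, hm, sub_self]⟩
  refine ⟨Pic0.mk W₀, ?_, fun c hc => ?_⟩
  · rw [el_mk]
    change ell (Wc - Finsupp.single P₀ ((2 * rrGenus K F - 2 : ℕ) : ℤ) +
      Finsupp.single P₀ ((2 * rrGenus K F - 2 : ℕ) : ℤ)) = _
    rw [sub_add_cancel]
    have h1 := hRR Wc
    rw [sub_self, ell_zero, hW] at h1
    push_cast at h1
    omega
  · obtain ⟨D₀, rfl⟩ := Pic0.mk_surjective c
    rw [el_mk]
    have h1 := hRR ((D₀ : Divisor K F) + Finsupp.single P₀ ((2 * rrGenus K F - 2 : ℕ) : ℤ))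
    have h2 : ell (Wc - ((D₀ : Divisor K F) +
        Finsupp.single P₀ ((2 * rrGenus K F - 2 : ℕ) : ℤ))) = 0 := by
      by_contra h3
      have h4 := principal_of_ell_pos (by rw [map_sub, degree_mk, hW, hm, sub_self]) h3
      refine hc (mk_eq_mk.2 ?_)
      rw [← neg_mem_iff] at h4
      convert h4 using 1
      change (D₀ : Divisor K F) - (Wc - Finsupp.single P₀ ((2 * rrGenus K F - 2 : ℕ) : ℤ)) = _
      abel
    rw [h2, degree_mk] at h1
    generalize ell ((D₀ : Divisor K F) + _) = e at h1 ⊢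
    push_cast at h1
    omega

variable {q p s : ℕ} [hp : Fact p.Prime] [CharP K p]

theorem el_div (Φ : SemiAut K F q) (hq : q = p ^ s) {P₀ : Place K F} (hP₀ : Φ.perm P₀ = P₀)
    (c : Pic0 K F) (m : ℕ) : el P₀ (Φ.pic c) m = el P₀ c m := by
  obtain ⟨D₀, rfl⟩ := Pic0.mk_surjective c
  rw [Φ.pic_mk, el_mk, el_mk, Φ.coe_deg0, ← Φ.ell_div hq ((D₀ : Divisor K F) + _), map_add,
    Φ.div_single, hP₀]

theorem cl_perm (Φ : SemiAut K F q) {P₀ : Place K F} (hP₀ : Φ.perm P₀ = P₀) (P : Place K F) :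
    cl P₀ (Φ.perm P) = Φ.pic (cl P₀ P) := by
  change Pic0.mk _ = Φ.pic (Pic0.mk _)
  rw [Φ.pic_mk]
  refine congrArg Pic0.mk (Subtype.ext ?_)
  rw [Φ.coe_deg0]
  change Finsupp.single (Φ.perm P) (1 : ℤ) - Finsupp.single P₀ (Divisor.degree
      (Finsupp.single (Φ.perm P) (1 : ℤ) : Divisor K F)) = Φ.div (Finsupp.single P (1 : ℤ) -
        Finsupp.single P₀ (Divisor.degree (Finsupp.single P (1 : ℤ) : Divisor K F)))
  rw [map_sub, Φ.div_single, Φ.div_single, hP₀, degree_single', degree_single']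

/-- **The Frobenius data** of a semilinear automorphism with a fixed place -/
def frobData (Φ : SemiAut K F q) (hq : q = p ^ s) (hs : s ≠ 0) (P₀ : Place K F)
    (hP₀ : Φ.perm P₀ = P₀)
    (hfin : ∀ n : ℕ, n ≠ 0 → {P | (Φ.perm ^ n) P = P}.Finite) :
    FrobData (Pic0 K F) (Place K F) where
  Φ := Φ.pic
  φ := Φ.perm
  cl := cl P₀
  cl_φ := cl_perm Φ hP₀
  q := q
  hq := by rw [hq]; exact Nat.one_lt_pow hs hp.out.one_lt
  g := rrGenus K F
  el := el P₀
  el_Φ := el_div Φ hq hP₀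
  fin_fix := hfin
  card_eff n hn c hc m := by
    have hP : (Φ.pow n).perm P₀ = P₀ := by
      rw [Φ.perm_pow]
      exact Function.IsFixedPt.perm_pow hP₀ n
    have hc' : (Φ.pow n).pic c = c := by rw [Φ.pic_pow]; exact hc
    have h1 := card_eff1 (Φ.pow n) (p := p) (s := s * n) (by rw [hq, pow_mul]) (mul_ne_zero hs hn)
      hP c hc' m
    rw [Φ.perm_pow, ← pow_mul] at h1
    exact h1
  el_large := el_large' P₀
  el_crit := el_crit' P₀

end Fermat.Agent.S27A
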