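import Mathlib

/-!
# Semilinear Frobenius automorphisms of function fields over an algebraic closure of `𝔽_p`
-/

set_option autoImplicit false

noncomputable section

namespace Fermat.Agent.S27A

open IntermediateField Polynomial

/-! ### locally finite automorphisms -/

section LF

variable {M : Type*} [Field M] (σ : RingAut M)

theorem fix_pow_mul {n : ℕ} {y : M} (h : (σ ^ n) y = y) (k : ℕ) : (σ ^ (n * k)) y = y := by
  rw [pow_mul]
  induction k with
  | zero => simp
  | succ k ih => rw [pow_succ, RingAut.mul_apply, h, ih]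

theorem fix_pow_mul' {n : ℕ} {y : M} (h : (σ ^ n) y = y) (k : ℕ) : (σ ^ (k * n)) y = y := by
  rw [mul_comm]; exact fix_pow_mul σ h k

/-- the subfield of the elements with a finite orbit -/
def perSub : Subfield M where
  carrier := {y | ∃ n : ℕ, 0 < n ∧ (σ ^ n) y = y}
  mul_mem' := by
    rintro x y ⟨m, hm, hx⟩ ⟨n, hn, hy⟩
    refine ⟨m * n, Nat.mul_pos hm hn, ?_⟩
    rw [map_mul, fix_pow_mul σ hx, fix_pow_mul' σ hy]
  one_mem' := ⟨1, one_pos, map_one _⟩
  add_mem' := by
    rintro x y ⟨m, hm, hx⟩ ⟨n, hn, hy⟩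
    refine ⟨m * n, Nat.mul_pos hm hn, ?_⟩
    rw [map_add, fix_pow_mul σ hx, fix_pow_mul' σ hy]
  zero_mem' := ⟨1, one_pos, map_zero _⟩
  neg_mem' := by
    rintro x ⟨m, hm, hx⟩
    exact ⟨m, hm, by rw [map_neg, hx]⟩
  inv_mem' := by
    rintro x ⟨m, hm, hx⟩
    exact ⟨m, hm, by rw [map_inv₀, hx]⟩

theorem mem_perSub {y : M} : y ∈ perSub σ ↔ ∃ n : ℕ, 0 < n ∧ (σ ^ n) y = y := Iff.rfl

theorem exists_common (s : Finset M) (hs : ∀ y ∈ s, y ∈ perSub σ) :
    ∃ n : ℕ, 0 < n ∧ ∀ y ∈ s, (σ ^ n) y = y := by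
  classical
  induction s using Finset.induction_on with
  | empty => exact ⟨1, one_pos, fun y hy => absurd hy (Finset.notMem_empty y)⟩
  | insert a s ha ih =>
    obtain ⟨m, hm, h1⟩ := ih fun y hy => hs y (Finset.mem_insert_of_mem hy)
    obtain ⟨n, hn, h2⟩ := hs a (Finset.mem_insert_self a s)
    refine ⟨m * n, Nat.mul_pos hm hn, fun y hy => ?_⟩
    rcases Finset.mem_insert.1 hy with rfl | hy
    · exact fix_pow_mul' σ h2 m
    · exact fix_pow_mul σ (h1 y hy) n

/-- a root of a polynomial with coefficients of finite orbit has a finite orbit -/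
theorem mem_perSub_of_root {P : M[X]} (hP : P ≠ 0) (hc : ∀ i, P.coeff i ∈ perSub σ) {y : M}
    (hy : P.eval y = 0) : y ∈ perSub σ := by
  classical
  obtain ⟨N, hN, h1⟩ := exists_common σ (P.support.image P.coeff) fun y hy => by
    obtain ⟨i, _, rfl⟩ := Finset.mem_image.1 hy
    exact hc i
  have h2 : ∀ k : ℕ, P.map ((σ ^ (N * k) : RingAut M) : M →+* M) = P := by
    intro k
    ext i
    rw [coeff_map]
    by_cases hi : i ∈ P.support
    · exact fix_pow_mul σ (h1 _ (Finset.mem_image_of_mem _ hi)) k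
    · rw [notMem_support_iff.1 hi, map_zero]
  have h3 : ∀ k : ℕ, (σ ^ (N * k)) y ∈ (P.roots.toFinset : Set M) := by
    intro k
    rw [Finset.mem_coe, Multiset.mem_toFinset, mem_roots hP, IsRoot.def]
    have h4 : ((σ ^ (N * k) : RingAut M) : M →+* M) (P.eval y) =
        (P.map ((σ ^ (N * k) : RingAut M) : M →+* M)).eval
          (((σ ^ (N * k) : RingAut M) : M →+* M) y) := by
      rw [eval_map, eval₂_at_apply]
    rw [hy, map_zero, h2] at h4
    exact h4.symm
  obtain ⟨k, l, hkl, h4⟩ := Set.Finite.exists_lt_map_eq_of_forall_mem h3 (Finset.finite_toSet _)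
  refine ⟨N * (l - k), Nat.mul_pos hN (Nat.sub_pos_of_lt hkl), ?_⟩
  have h5 : σ ^ (N * l) = σ ^ (N * k) * σ ^ (N * (l - k)) := by
    rw [← pow_add, ← mul_add, Nat.add_sub_cancel' hkl.le]
  rw [h5, RingAut.mul_apply] at h4
  exact ((σ ^ (N * k)).injective h4).symm

end LF

/-! ### existence -/

variable {K F : Type*} [Field K] [IsAlgClosed K] [Field F] [Algebra K F]

/-- the `p`-Frobenius of the rational function field -/
theorem exists_tau (p : ℕ) [Fact p.Prime] [CharP K p] {x : F} (hx : Transcendental K x) :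
    ∃ τ : K⟮x⟯ ≃+* K⟮x⟯, (∀ c : K, τ (algebraMap K K⟮x⟯ c) = algebraMap K K⟮x⟯ (c ^ p)) ∧
      τ (AdjoinSimple.gen K x) = AdjoinSimple.gen K x := by
  have : ExpChar K p := ExpChar.prime Fact.out
  let e := RatFunc.algEquivOfTranscendental x hx
  let t0 : RatFunc K ≃+* RatFunc K :=
    IsFractionRing.ringEquivOfRingEquiv (A := K[X]) (B := K[X])
      (Polynomial.mapEquiv (frobeniusEquiv K p))
  have ht : ∀ g : K[X], t0 (algebraMap K[X] (RatFunc K) g) =
      algebraMap K[X] (RatFunc K) (g.map (frobenius K p)) := by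
    intro g
    simp only [t0]
    rw [IsFractionRing.ringEquivOfRingEquiv_algebraMap]
    rfl
  have he : ∀ g : K[X], e (algebraMap K[X] (RatFunc K) g) = aeval (AdjoinSimple.gen K x) g :=
    fun g => RatFunc.algEquivOfTranscendental_algebraMap x hx g
  have hes : ∀ g : K[X], e.symm (aeval (AdjoinSimple.gen K x) g) = algebraMap K[X] (RatFunc K) g :=
    fun g => RatFunc.algEquivOfTranscendental_symm_aeval x hx g
  have key : ∀ g : K[X], ((e.symm.toRingEquiv.trans t0).trans e.toRingEquiv)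
      (aeval (AdjoinSimple.gen K x) g) = aeval (AdjoinSimple.gen K x) (g.map (frobenius K p)) := by
    intro g
    have h1 : ((e.symm.toRingEquiv.trans t0).trans e.toRingEquiv)
      (aeval (AdjoinSimple.gen K x) g) = e (t0 (e.symm (aeval (AdjoinSimple.gen K x) g))) := rfl
    rw [h1, hes, ht, he]
  refine ⟨(e.symm.toRingEquiv.trans t0).trans e.toRingEquiv, ?_, ?_⟩
  · intro c
    have h1 := key (C c)
    rw [Polynomial.map_C, aeval_C, aeval_C] at h1
    exact h1
  · have h1 := key X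
    rw [Polynomial.map_X, aeval_X] at h1
    exact h1

/-- **existence of a semilinear Frobenius** all of whose orbits are finite -/
theorem exists_frob (p : ℕ) [Fact p.Prime] [CharP K p] (hK : ∀ c : K, ∃ m : ℕ, 0 < m ∧ c ^ p ^ m = c)
    {x : F} (hx : Transcendental K x) [FiniteDimensional K⟮x⟯ F] :
    ∃ s : ℕ, 0 < s ∧ ∃ Φ : RingAut F,
      (∀ c : K, Φ (algebraMap K F c) = algebraMap K F (c ^ p ^ s)) ∧ Φ x = x ∧
        ∀ f : F, ∃ n : ℕ, 0 < n ∧ (Φ ^ n) f = f := by
  classical
  obtain ⟨τ, hτ, hτx⟩ := exists_tau (F := F) p hx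
  let M := AlgebraicClosure F
  have : Algebra.IsAlgebraic K⟮x⟯ M := Algebra.IsAlgebraic.trans K⟮x⟯ F M
  have : IsAlgClosure K⟮x⟯ M := ⟨inferInstance, this⟩
  let σ : RingAut M := IsAlgClosure.equivOfEquiv M M τ
  have hσ : ∀ u : K⟮x⟯, σ (algebraMap K⟮x⟯ M u) = algebraMap K⟮x⟯ M (τ u) := fun u =>
    IsAlgClosure.equivOfEquiv_algebraMap M M τ u
  have hσn : ∀ (n : ℕ) (u : K⟮x⟯), (σ ^ n) (algebraMap K⟮x⟯ M u) =
      algebraMap K⟮x⟯ M ((τ : RingAut K⟮x⟯) ^ n • u) := by
    intro n
    induction n with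
    | zero => intro u; simp
    | succ n ih =>
      intro u
      rw [pow_succ, RingAut.mul_apply, hσ, ih, pow_succ, mul_smul]
      rfl
  have hσc : ∀ (n : ℕ) (c : K), (σ ^ n) (algebraMap K M c) = algebraMap K M (c ^ p ^ n) := by
    intro n
    induction n with
    | zero => intro c; simp
    | succ n ih =>
      intro c
      have h1 : σ (algebraMap K M c) = algebraMap K M (c ^ p) := by
        rw [IsScalarTower.algebraMap_apply K K⟮x⟯ M, hσ, hτ,
          ← IsScalarTower.algebraMap_apply K K⟮x⟯ M]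
      rw [pow_succ, RingAut.mul_apply, h1, ih, ← pow_mul, pow_succ, mul_comm p]
  have hσx : σ (algebraMap F M x) = algebraMap F M x := by
    have h1 := hσ (AdjoinSimple.gen K x)
    rw [hτx] at h1
    exact h1
  have hσxn : ∀ n : ℕ, (σ ^ n) (algebraMap F M x) = algebraMap F M x := by
    intro n
    induction n with
    | zero => simp
    | succ n ih => rw [pow_succ, RingAut.mul_apply, hσx, ih]
  have hKx : ∀ u : K⟮x⟯, algebraMap K⟮x⟯ M u ∈ perSub σ := by
    rintro ⟨u, hu⟩
    change algebraMap F M u ∈ perSub σ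
    induction hu using IntermediateField.adjoin_induction with
    | mem u hu =>
      rw [Set.mem_singleton_iff.1 hu]
      exact ⟨1, one_pos, hσxn 1⟩
    | algebraMap c =>
      obtain ⟨m, hm, h1⟩ := hK c
      refine ⟨m, hm, ?_⟩
      rw [← IsScalarTower.algebraMap_apply K F M, hσc, h1]
    | add u v _ _ h1 h2 => rw [map_add]; exact add_mem h1 h2
    | inv u _ h1 => rw [map_inv₀]; exact inv_mem h1
    | mul u v _ _ h1 h2 => rw [map_mul]; exact mul_mem h1 h2
  have hall : ∀ y : M, y ∈ perSub σ := by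
    intro y
    have hy : IsIntegral K⟮x⟯ y := Algebra.IsIntegral.isIntegral y
    refine mem_perSub_of_root σ (P := (minpoly K⟮x⟯ y).map (algebraMap K⟮x⟯ M)) ?_ ?_ ?_
    · exact (Polynomial.map_ne_zero (minpoly.ne_zero hy))
    · intro i
      rw [coeff_map]
      exact hKx _
    · rw [eval_map_algebraMap, minpoly.aeval]
  let b := Module.finBasis K⟮x⟯ F
  obtain ⟨N, hN, hb⟩ := exists_common σ (Finset.univ.image fun i => algebraMap F M (b i))
    fun y _ => hall y
  have hb' : ∀ i, (σ ^ N) (algebraMap F M (b i)) = algebraMap F M (b i) := fun i =>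
    hb _ (Finset.mem_image_of_mem _ (Finset.mem_univ i))
  have hbk : ∀ k i, (σ ^ (N * k)) (algebraMap F M (b i)) = algebraMap F M (b i) := fun k i =>
    fix_pow_mul σ (hb' i) k
  have hF : ∀ (k : ℕ) (f : F), ∃ f' : F, (σ ^ (N * k)) (algebraMap F M f) = algebraMap F M f' := by
    intro k f
    refine ⟨∑ i, ((τ : RingAut K⟮x⟯) ^ (N * k) • (b.repr f i)) • b i, ?_⟩
    conv_lhs => rw [← b.sum_repr f]
    rw [map_sum, map_sum, map_sum]
    refine Finset.sum_congr rfl fun i _ => ?_
    rw [Algebra.smul_def, Algebra.smul_def, map_mul, map_mul, map_mul, hbk,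
      ← IsScalarTower.algebraMap_apply K⟮x⟯ F M, hσn, ← IsScalarTower.algebraMap_apply K⟮x⟯ F M]
  choose φ hφ using fun f => hF 1 f
  rw [mul_one] at hφ
  have hinj : Function.Injective (algebraMap F M) := (algebraMap F M).injective
  let φ' : F →+* F :=
    { toFun := φ
      map_one' := hinj (by rw [← hφ, map_one, map_one])
      map_zero' := hinj (by rw [← hφ, map_zero, map_zero])
      map_add' := fun a b => hinj (by rw [← hφ, map_add, map_add, hφ, hφ, map_add])
      map_mul' := fun a b => hinj (by rw [← hφ, map_mul, map_mul, hφ, hφ, map_mul]) }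
  have hsurj : Function.Surjective φ' := by
    intro f
    obtain ⟨n, hn, h1⟩ := hall (algebraMap F M f)
    obtain ⟨f', hf'⟩ := hF (n - 1) f
    refine ⟨f', hinj ?_⟩
    change algebraMap F M (φ f') = _
    rw [← hφ, ← hf', ← RingAut.mul_apply, ← pow_add]
    have h2 : N + N * (n - 1) = N * n := by
      obtain ⟨m, rfl⟩ : ∃ m, n = m + 1 := ⟨n - 1, by omega⟩
      rw [Nat.add_sub_cancel]; ring
    rw [h2, fix_pow_mul' σ h1]
  let Φ : RingAut F := RingEquiv.ofBijective φ' ⟨φ'.injective, hsurj⟩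
  have hΦ : ∀ f, algebraMap F M (Φ f) = (σ ^ N) (algebraMap F M f) := fun f => (hφ f).symm
  have hΦn : ∀ (n : ℕ) f, algebraMap F M ((Φ ^ n) f) = (σ ^ (N * n)) (algebraMap F M f) := by
    intro n
    induction n with
    | zero => intro f; simp
    | succ n ih =>
      intro f
      rw [pow_succ, RingAut.mul_apply, ih, hΦ, mul_add, mul_one, pow_add, RingAut.mul_apply]
  refine ⟨N, hN, Φ, fun c => hinj ?_, hinj ?_, fun f => ?_⟩
  · rw [hΦ, ← IsScalarTower.algebraMap_apply, hσc, ← IsScalarTower.algebraMap_apply]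
  · rw [hΦ, hσxn]
  · obtain ⟨n, hn, h1⟩ := hall (algebraMap F M f)
    exact ⟨n, hn, hinj (by rw [hΦn, fix_pow_mul' σ h1])⟩

end Fermat.Agent.S27A
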