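import Fermat.Agent.S27A.Semi
import Fermat.Agent.S27A.FrobEx

/-!
# Orbits of the Frobenius on places and classes; existence of Frobenius
-/

set_option autoImplicit false
set_option linter.unusedSectionVars false

noncomputable section

namespace Fermat.Agent.S27A

open AlgebraicCurve Fermat.Agent.RR Fermat.Agent.Curve

section perm

variable {X : Type*} (φ : Equiv.Perm X)

theorem perm_fix_mul {n : ℕ} {P : X} (h : (φ ^ n) P = P) (k : ℕ) : (φ ^ (n * k)) P = P := by
  rw [pow_mul]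
  induction k with
  | zero => rfl
  | succ k ih => rw [pow_succ, Equiv.Perm.mul_apply, h, ih]

theorem perm_fix_mul' {n : ℕ} {P : X} (h : (φ ^ n) P = P) (k : ℕ) : (φ ^ (k * n)) P = P := by
  rw [mul_comm]; exact perm_fix_mul φ h k

theorem perm_exists_common (horb : ∀ P : X, ∃ n : ℕ, 0 < n ∧ (φ ^ n) P = P) (s : Finset X) :
    ∃ n : ℕ, 0 < n ∧ ∀ P ∈ s, (φ ^ n) P = P := by
  classical
  induction s using Finset.induction_on with
  | empty => exact ⟨1, one_pos, fun y hy => absurd hy (Finset.notMem_empty y)⟩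
  | insert a s ha ih =>
    obtain ⟨m, hm, h1⟩ := ih
    obtain ⟨n, hn, h2⟩ := horb a
    refine ⟨m * n, Nat.mul_pos hm hn, fun y hy => ?_⟩
    rcases Finset.mem_insert.1 hy with rfl | hy
    · exact perm_fix_mul' φ h2 m
    · exact perm_fix_mul φ (h1 y hy) n

/-- a point whose orbit stays in a finite set is periodic -/
theorem perm_periodic {S : Set X} (hS : S.Finite) {m : ℕ} (hm : 0 < m) {P : X}
    (h : ∀ k : ℕ, (φ ^ (m * k)) P ∈ S) : ∃ n : ℕ, 0 < n ∧ (φ ^ n) P = P := by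
  obtain ⟨k, l, hkl, h4⟩ := Set.Finite.exists_lt_map_eq_of_forall_mem h hS
  refine ⟨m * (l - k), Nat.mul_pos hm (Nat.sub_pos_of_lt hkl), ?_⟩
  have h5 : φ ^ (m * l) = φ ^ (m * k) * φ ^ (m * (l - k)) := by
    rw [← pow_add, ← mul_add, Nat.add_sub_cancel' hkl.le]
  rw [h5, Equiv.Perm.mul_apply] at h4
  exact ((φ ^ (m * k)).injective h4).symm

end perm

theorem finite_pow_eq {K : Type*} [Field K] {N : ℕ} (hN : 1 < N) : {c : K | c ^ N = c}.Finite := by
  classical
  have h0 : (Polynomial.X ^ N - Polynomial.X : Polynomial K) ≠ 0 := by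
    intro h
    have h1 := congrArg (fun P => Polynomial.coeff P N) h
    simp only [Polynomial.coeff_sub, Polynomial.coeff_X_pow, Polynomial.coeff_zero] at h1
    rw [Polynomial.coeff_X_of_ne_one (by omega)] at h1
    simp at h1
  refine (Finset.finite_toSet (Polynomial.X ^ N - Polynomial.X : Polynomial K).roots.toFinset).subset
    fun c hc => ?_
  rw [Finset.mem_coe, Multiset.mem_toFinset, Polynomial.mem_roots h0, Polynomial.IsRoot.def]
  simp only [Polynomial.eval_sub, Polynomial.eval_pow, Polynomial.eval_X]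
  rw [sub_eq_zero]
  exact hc

variable {K F : Type*} [Field K] [IsAlgClosed K] [Field F] [Algebra K F]

theorem sub_const_ne {x : F} (hx : Transcendental K x) (c : K) : x - algebraMap K F c ≠ 0 := by
  intro h
  rw [sub_eq_zero] at h
  exact hx (h ▸ isAlgebraic_algebraMap c)

theorem value_unique (v : Place K F) {x : F} {c d : K} (hc : 0 < v.ord (x - algebraMap K F c))
    (hd : 0 < v.ord (x - algebraMap K F d)) : c = d := by
  by_contra hcd
  have h0 : (x - algebraMap K F c) + -(x - algebraMap K F d) = algebraMap K F (d - c) := by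
    rw [map_sub]; ring
  have h1 : algebraMap K F (d - c) ≠ 0 := by
    rw [Ne, map_eq_zero, sub_eq_zero]
    exact fun h => hcd h.symm
  have h3 : x - algebraMap K F c ≠ 0 := fun h => by
    rw [h, Place.ord_zero] at hc; exact lt_irrefl _ hc
  have h4 : -(x - algebraMap K F d) ≠ 0 := fun h => by
    rw [neg_eq_zero.1 h, Place.ord_zero] at hd; exact lt_irrefl _ hd
  have h2 := le_ord_add v (n := 1) (h0 ▸ h1) hc (by rw [ord_neg]; exact hd) h3 h4
  rw [h0, ord_algebraMap] at h2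
  exact absurd h2 (by norm_num)

namespace SemiAut

variable {q : ℕ} (Φ : SemiAut K F q)

theorem pow_f_apply {x : F} (hx : Φ.f x = x) (n : ℕ) : (Φ.pow n).f x = x := by
  change (Φ.f ^ n) x = x
  induction n with
  | zero => rfl
  | succ n ih =>
    rw [pow_succ Φ.f]
    change (Φ.f ^ n) (Φ.f x) = x
    rw [hx, ih]

theorem pow_f_sub {x : F} (hx : Φ.f x = x) (n : ℕ) (c : K) :
    (Φ.pow n).f (x - algebraMap K F c) = x - algebraMap K F (c ^ q ^ n) := by
  rw [map_sub, Φ.pow_f_apply hx, (Φ.pow n).comm]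

variable [hF : FunField K F]

theorem value_cases {x : F} (hx : Transcendental K x) (v : Place K F) :
    v.ord x < 0 ∨ ∃ c : K, 0 < v.ord (x - algebraMap K F c) := by
  rcases lt_or_ge (v.ord x) 0 with h | h
  · exact Or.inl h
  · obtain ⟨a, ha⟩ := exists_const' v (mem_of_ord_nonneg v h)
    rcases ha with ha | ha
    · exact absurd ha (sub_const_ne hx a)
    · exact Or.inr ⟨a, by omega⟩

/-- finitely many places are fixed by a power of Frobenius -/
theorem finite_fixed (hq : 1 < q) {x : F} (hx : Transcendental K x) (hΦx : Φ.f x = x) {n : ℕ}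
    (hn : n ≠ 0) : {P : Place K F | (Φ.perm ^ n) P = P}.Finite := by
  have h1 : 1 < q ^ n := Nat.one_lt_pow hn hq
  refine ((finite_ord (K := K) (f := x) (fun h => hx (h ▸ isAlgebraic_zero))).union
    ((finite_pow_eq (K := K) h1).biUnion fun c _ => finite_pos (K := K) (sub_const_ne hx c))).subset ?_
  intro v hv
  rcases value_cases hx v with h | ⟨c, hc⟩
  · exact Or.inl h.ne
  · refine Or.inr (Set.mem_biUnion (x := c) ?_ hc)
    have h2 := (Φ.pow n).ord_perm v (x - algebraMap K F c)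
    rw [Φ.pow_f_sub hΦx, Φ.perm_pow] at h2
    have hv' : (Φ.perm ^ n) v = v := hv
    rw [hv'] at h2
    exact value_unique v (h2 ▸ hc) hc

/-- all orbits on the places are finite -/
theorem finite_orbit (hK : ∀ c : K, ∃ m : ℕ, 0 < m ∧ c ^ q ^ m = c) {x : F}
    (hx : Transcendental K x) (hΦx : Φ.f x = x) (P : Place K F) :
    ∃ n : ℕ, 0 < n ∧ (Φ.perm ^ n) P = P := by
  rcases value_cases hx P with h | ⟨c, hc⟩
  · refine perm_periodic Φ.perm (finite_ord (K := K) (f := x)
      (fun h => hx (h ▸ isAlgebraic_zero))) one_pos fun k => ?_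
    have h2 := (Φ.pow (1 * k)).ord_perm P x
    rw [Φ.pow_f_apply hΦx, Φ.perm_pow] at h2
    change Place.ord _ _ ≠ 0
    rw [h2]
    exact h.ne
  · obtain ⟨m, hm, h1⟩ := hK c
    refine perm_periodic Φ.perm (finite_pos (K := K) (sub_const_ne hx c)) hm fun k => ?_
    have h2 := (Φ.pow (m * k)).ord_perm P (x - algebraMap K F c)
    have h3 : c ^ q ^ (m * k) = c := by
      rw [pow_mul]
      induction k with
      | zero => simp
      | succ k ih => rw [pow_succ, pow_mul, ih (by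
          have := (Φ.pow (m * k)).ord_perm P (x - algebraMap K F c)
          exact this), h1]
    rw [Φ.pow_f_sub hΦx, Φ.perm_pow, h3] at h2
    change 0 < Place.ord _ _
    rw [h2]
    exact hc

/-- all orbits on the classes are finite -/
theorem finite_orbit_pic (horb : ∀ P : Place K F, ∃ n : ℕ, 0 < n ∧ (Φ.perm ^ n) P = P)
    (c : Pic0 K F) : ∃ n : ℕ, 0 < n ∧ (Φ.pic ^ n) c = c := by
  obtain ⟨D, rfl⟩ := Pic0.mk_surjective c
  obtain ⟨n, hn, h1⟩ := perm_exists_common Φ.perm horb (D : Divisor K F).support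
  refine ⟨n, hn, ?_⟩
  rw [← Φ.pic_pow, pic_mk]
  refine congrArg Pic0.mk (Subtype.ext ?_)
  rw [coe_deg0]
  ext v
  rw [div_apply, Φ.perm_pow]
  by_cases hv : (D : Divisor K F) ((Φ.perm ^ n).symm v) = 0
  · rw [hv]
    by_contra h2
    have h3 := h1 v (Finsupp.mem_support_iff.2 (Ne.symm h2))
    rw [← h3, Equiv.symm_apply_apply] at hv
    exact h2 hv.symm
  · have h3 := h1 _ (Finsupp.mem_support_iff.2 hv)
    rw [Equiv.apply_symm_apply] at h3
    rw [← h3]

end SemiAut

/-- **existence of a Frobenius with all the finiteness properties and a fixed place** -/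
theorem exists_semiAut (K F : Type*) [Field K] [IsAlgClosed K] [Field F] [Algebra K F]
    [hF : FunField K F] (p : ℕ) [hp : Fact p.Prime] [CharP K p]
    (hK : ∀ c : K, ∃ m : ℕ, 0 < m ∧ c ^ p ^ m = c) :
    ∃ s : ℕ, 0 < s ∧ ∃ Φ : SemiAut K F (p ^ s),
      (∀ n : ℕ, n ≠ 0 → {P : Place K F | (Φ.perm ^ n) P = P}.Finite) ∧
      (∀ P : Place K F, ∃ n : ℕ, 0 < n ∧ (Φ.perm ^ n) P = P) ∧
      (∀ c : Pic0 K F, ∃ n : ℕ, 0 < n ∧ (Φ.pic ^ n) c = c) ∧
      ∃ P₀ : Place K F, Φ.perm P₀ = P₀ := by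
  obtain ⟨x, hx, hfin⟩ := hF.out
  obtain ⟨s, hs, φ, h1, h2, h3⟩ := exists_frob p hK hx
  have hq : 1 < p ^ s := Nat.one_lt_pow hs.ne' hp.out.one_lt
  let Φ : SemiAut K F (p ^ s) := ⟨φ, h1, (pow_pos hp.out.pos s).ne'⟩
  have hKs : ∀ r : ℕ, ∀ c : K, ∃ m : ℕ, 0 < m ∧ c ^ (p ^ r) ^ m = c := by
    intro r c
    obtain ⟨m, hm, h4⟩ := hK c
    refine ⟨m, hm, ?_⟩
    rw [← pow_mul, mul_comm, pow_mul]
    induction r with
    | zero => simp
    | succ r ih => rw [pow_succ, pow_mul, ih, h4]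
  have horb := Φ.finite_orbit (hKs s) hx h2
  obtain ⟨P₀, -⟩ := exists_zero' (K := K) hx
  obtain ⟨n, hn, hP⟩ := horb P₀
  have e : (p ^ s) ^ n = p ^ (s * n) := (pow_mul p s n).symm
  obtain ⟨Ψ, hΨ1, hΨ2⟩ : ∃ Ψ : SemiAut K F (p ^ (s * n)), Ψ.perm = Φ.perm ^ n ∧ Ψ.f x = x := by
    rw [← e]
    exact ⟨Φ.pow n, Φ.perm_pow n, Φ.pow_f_apply h2 n⟩
  have hsn : 0 < s * n := Nat.mul_pos hs hn
  refine ⟨s * n, hsn, Ψ, fun k hk => Ψ.finite_fixed (Nat.one_lt_pow hsn.ne' hp.out.one_lt) hx hΨ2 hk,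
    Ψ.finite_orbit (hKs _) hx hΨ2, Ψ.finite_orbit_pic (Ψ.finite_orbit (hKs _) hx hΨ2), P₀, ?_⟩
  rw [hΨ1, hP]

end Fermat.Agent.S27A
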