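import Fermat.Agent.S27A.Eff4
import Fermat.Agent.S27A.FrobOrb

/-!
# Existence of Frobenius data
-/

set_option autoImplicit false
set_option linter.unusedSectionVars false

noncomputable section

namespace Fermat.Agent.S27A

open AlgebraicCurve Fermat.Agent.RR Fermat.Agent.Curve

theorem exists_frobData (K F : Type*) [Field K] [IsAlgClosed K] [Field F] [Algebra K F]
    [hF : FunField K F] (p : ℕ) [hp : Fact p.Prime] [CharP K p]
    (hK : ∀ c : K, ∃ m : ℕ, 0 < m ∧ c ^ p ^ m = c) :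
    ∃ D : FrobData (Pic0 K F) (Place K F), D.g = rrGenus K F ∧ (∃ s, s ≠ 0 ∧ D.q = p ^ s) ∧
      ∀ c, ∃ n, 0 < n ∧ (D.Φ ^ n) c = c := by
  obtain ⟨s, hs, Φ, hfin, -, horb, P₀, hP₀⟩ := exists_semiAut K F p hK
  exact ⟨frobData Φ rfl hs.ne' P₀ hP₀ hfin, rfl, ⟨s, hs.ne', rfl⟩, horb⟩

end Fermat.Agent.S27A
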