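import Fermat.Agent.S27A.Grp2

/-!
# The order of the torsion
-/

set_option autoImplicit false
set_option linter.unusedSectionVars false
set_option linter.style.haveILetI false

namespace Fermat.Agent.S27A

open Finset

variable {J : Type*} [AddCommGroup J] {ℓ : ℕ} [hℓ : Fact ℓ.Prime] {Φ : AddMonoid.End J}

/-- cardinality of a group, from a surjective homomorphism -/
theorem card_of_hom {G G' : Type*} [AddCommGroup G] [AddCommGroup G'] (f : G →+ G')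
    (hf : Function.Surjective f) : Nat.card G = Nat.card f.ker * Nat.card G' := by
  have h1 := f.ker.card_mul_index
  rw [AddSubgroup.index_ker] at h1
  have h2 : Nat.card f.range = Nat.card G' := by
    rw [AddMonoidHom.range_eq_top.2 hf]
    exact Nat.card_congr AddSubgroup.topEquiv.toEquiv
  rw [← h1, h2]

namespace FD

variable {r C n₀ : ℕ} (H : FD Φ ℓ r C n₀)

include H

/-- the torsion is finite -/
theorem finite_tor (k : ℕ) : Finite (tor J (ℓ ^ k)) := by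
  induction k with
  | zero =>
    refine Set.Finite.to_subtype (s := (tor J (ℓ ^ 0) : Set J)) ?_
    refine (Set.finite_singleton (0 : J)).subset fun x hx => ?_
    have h1 : ℓ ^ 0 • x = 0 := hx
    rw [pow_zero, one_smul] at h1
    exact h1
  | succ k ih =>
    haveI := H.finite_tor_one
    have h1 : ((tor J (ℓ ^ k) : AddSubgroup J) : Set J).Finite := Set.toFinite _
    have h2 : ((tor J ℓ : AddSubgroup J) : Set J).Finite := Set.toFinite _
    have h3 : ((fun x : J => ℓ • x) ⁻¹' (tor J (ℓ ^ k) : Set J)).Finite := by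
      refine Set.Finite.preimage' h1 fun b _ => ?_
      by_cases hb : ∃ x₀ : J, ℓ • x₀ = b
      · obtain ⟨x₀, hx₀⟩ := hb
        refine (h2.image fun z => x₀ + z).subset fun x hx => ?_
        have hx' : ℓ • x = b := hx
        refine ⟨x - x₀, ?_, add_sub_cancel _ _⟩
        change ℓ • (x - x₀) = 0
        rw [smul_sub, hx', hx₀, sub_self]
      · refine Set.finite_empty.subset fun x hx => ?_
        exact hb ⟨x, hx⟩
    refine Set.Finite.to_subtype (s := (tor J (ℓ ^ (k + 1)) : Set J)) ?_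
    refine h3.subset fun x hx => ?_
    have hx' : ℓ ^ (k + 1) • x = 0 := hx
    change ℓ ^ k • (ℓ • x) = 0
    rw [← mul_smul, ← pow_succ]
    exact hx'

/-- an exponent fixing the `ℓ ^ 2`-torsion -/
theorem exists_j : ∃ j₀, ∀ j, j₀ ≤ j → ∀ x ∈ tor J (ℓ ^ 2), (Φ ^ (n₀ * ℓ ^ j)) x = x := by
  classical
  haveI := H.finite_tor 2
  have h1 : ((tor J (ℓ ^ 2) : AddSubgroup J) : Set J).Finite := Set.toFinite _
  have h2 : ∀ x ∈ tor J (ℓ ^ 2), ∃ j, x ∈ fx Φ (n₀ * ℓ ^ j) := fun x hx => H.exists_fix ⟨2, hx⟩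
  choose! f hf using h2
  refine ⟨h1.toFinset.sup f, fun j hj x hx => ?_⟩
  have h3 : f x ≤ j := (Finset.le_sup (f := f) (h1.mem_toFinset.2 hx)).trans hj
  exact fx_mono (Nat.mul_dvd_mul_left _ (pow_dvd_pow ℓ h3)) (hf x hx)

/-- **Divisibility.** -/
theorem exists_div {x : J} (hx : Prm ℓ x) : ∃ w, Prm ℓ w ∧ ℓ • w = x := by
  obtain ⟨j₀, hj₀⟩ := H.exists_j
  obtain ⟨j₁, hj₁⟩ := H.exists_fix hx
  obtain ⟨j, hj, hxj⟩ : ∃ j, j₀ ≤ j ∧ x ∈ fx Φ (n₀ * ℓ ^ j) :=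
    ⟨max j₀ j₁, le_max_left _ _,
      fx_mono (Nat.mul_dvd_mul_left _ (pow_dvd_pow ℓ (le_max_right _ _))) hj₁⟩
  have hpos := H.posj j
  have hpos' : 0 < n₀ * ℓ ^ j * ℓ := Nat.mul_pos hpos hℓ.out.pos
  obtain ⟨y₁, hy₁, hp₁, hxy⟩ := exists_prm_norm (H.fin _ hpos') (H.norm _ hpos) hxj hx
  obtain ⟨y, hy, hp, hyy⟩ := exists_prm_norm (H.fin _ (Nat.mul_pos hpos' hℓ.out.pos))
    (H.norm _ hpos') hy₁ hp₁
  set σ : AddMonoid.End J := Φ ^ (n₀ * ℓ ^ j) with hσ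
  set τ : AddMonoid.End J := Φ ^ (n₀ * ℓ ^ j * ℓ) with hτ
  have hτ2 : ∀ x ∈ tor J (ℓ ^ 2), τ x = x := fun x hx => by
    rw [hτ, show n₀ * ℓ ^ j * ℓ = n₀ * ℓ ^ (j + 1) by ring]
    exact hj₀ (j + 1) (by omega) x hx
  have hσ2 : ∀ x ∈ tor J (ℓ ^ 2), σ x = x := fun x hx => hj₀ j hj x hx
  have hyfix : (τ ^ ℓ) y = y := by
    rw [hτ, ← pow_mul]
    exact hy
  have hN : ∑ i ∈ range ℓ, (τ ^ i) (τ y - y) = 0 := by
    rw [norm_sub, hyfix, sub_self]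
  have hz : Prm ℓ (τ y - y) := by
    rw [sub_eq_add_neg]
    exact (hp.map τ).add hp.neg
  have hz1 : ℓ • (τ y - y) = 0 := smul_eq_zero_of_norm hτ2 hz hN
  have hz2 : (τ y - y) ∈ tor J (ℓ ^ 2) := by
    rw [mem_tor, pow_two, mul_smul, hz1, smul_zero]
  have h1 : y₁ = ℓ • y + (∑ i ∈ range ℓ, i) • (τ y - y) := by
    rw [hyy, nm_eq, ← hτ, Finset.sum_congr rfl fun i _ => pow_of_unip (hτ2 _ hz2) i,
      Finset.sum_add_distrib, Finset.sum_const, card_range, Finset.sum_smul]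
  refine ⟨nm Φ ℓ (n₀ * ℓ ^ j) y, ?_, ?_⟩
  · exact Prm.sum _ _ fun i _ => hp.map _
  · rw [hxy, h1, nm_add, nm_smul, nm_smul]
    have h2 : nm Φ ℓ (n₀ * ℓ ^ j) (τ y - y) = 0 := by
      rw [nm_eq, ← hσ, Finset.sum_congr rfl fun i _ => pow_fix (hσ2 _ hz2) i, Finset.sum_const,
        card_range, hz1]
    rw [h2, smul_zero, add_zero]

/-- the order of the `ℓ`-torsion -/
theorem card_tor_one : Nat.card (tor J ℓ) = ℓ ^ r := by
  obtain ⟨j, hj⟩ := H.exists_j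
  have hpos := H.posj j
  have hpos1 := H.posj (j + 1)
  set σ : AddMonoid.End J := Φ ^ (n₀ * ℓ ^ j) with hσ
  have hσ2 : ∀ x ∈ tor J (ℓ ^ 2), σ x = x := fun x hx => hj j le_rfl x hx
  have e1 : Φ ^ (n₀ * ℓ ^ (j + 1)) = σ ^ ℓ := by
    rw [hσ, ← pow_mul]
    congr 1
    ring
  haveI := H.fin _ hpos
  haveI := H.fin _ hpos1
  -- multiplication by `ℓ`
  have hmap : ∀ x : prmG ℓ (fx Φ (n₀ * ℓ ^ (j + 1))),
      ∃ h : ℓ • ((x : fx Φ (n₀ * ℓ ^ (j + 1))) : J) ∈ fx Φ (n₀ * ℓ ^ j),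
        (⟨_, h⟩ : fx Φ (n₀ * ℓ ^ j)) ∈ prmG ℓ (fx Φ (n₀ * ℓ ^ j)) := by
    intro x
    obtain ⟨s, hs⟩ := x.2
    have hs' : ℓ ^ s • ((x : fx Φ (n₀ * ℓ ^ (j + 1))) : J) = 0 := congrArg Subtype.val hs
    have hp : Prm ℓ ((x : fx Φ (n₀ * ℓ ^ (j + 1))) : J) := ⟨s, hs'⟩
    have hfix : (σ ^ ℓ) ((x : fx Φ (n₀ * ℓ ^ (j + 1))) : J) =
        ((x : fx Φ (n₀ * ℓ ^ (j + 1))) : J) := by
      rw [← e1]
      exact (x : fx Φ (n₀ * ℓ ^ (j + 1))).2
    have hN : ∑ i ∈ range ℓ, (σ ^ i) (σ ((x : fx Φ (n₀ * ℓ ^ (j + 1))) : J) -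
        ((x : fx Φ (n₀ * ℓ ^ (j + 1))) : J)) = 0 := by
      rw [norm_sub, hfix, sub_self]
    have hz : Prm ℓ (σ ((x : fx Φ (n₀ * ℓ ^ (j + 1))) : J) -
        ((x : fx Φ (n₀ * ℓ ^ (j + 1))) : J)) := by
      rw [sub_eq_add_neg]
      exact (hp.map σ).add hp.neg
    have hz1 := smul_eq_zero_of_norm hσ2 hz hN
    rw [smul_sub, ← map_nsmul, sub_eq_zero] at hz1
    refine ⟨hz1, s, Subtype.ext ?_⟩
    change ℓ ^ s • ℓ • ((x : fx Φ (n₀ * ℓ ^ (j + 1))) : J) = 0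
    rw [smul_comm, hs', smul_zero]
  let f : prmG ℓ (fx Φ (n₀ * ℓ ^ (j + 1))) →+ prmG ℓ (fx Φ (n₀ * ℓ ^ j)) :=
    { toFun := fun x => ⟨⟨_, (hmap x).choose⟩, (hmap x).choose_spec⟩
      map_zero' := Subtype.ext (Subtype.ext (smul_zero _))
      map_add' := fun x y => Subtype.ext (Subtype.ext (smul_add _ _ _)) }
  have hfv : ∀ x, (((f x : prmG ℓ (fx Φ (n₀ * ℓ ^ j))) : fx Φ (n₀ * ℓ ^ j)) : J) =
      ℓ • ((x : fx Φ (n₀ * ℓ ^ (j + 1))) : J) := fun x => rfl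
  have hsurj : Function.Surjective f := by
    rintro ⟨⟨x, hx⟩, hxp⟩
    obtain ⟨s, hs⟩ := hxp
    have hs' : ℓ ^ s • x = 0 := congrArg Subtype.val hs
    obtain ⟨w, ⟨s', hw⟩, hwx⟩ := H.exists_div (x := x) ⟨s, hs'⟩
    have hz1 : ℓ • (σ w - w) = 0 := by
      rw [smul_sub, ← map_nsmul, hwx, sub_eq_zero]
      exact hx
    have hz2 : (σ w - w) ∈ tor J (ℓ ^ 2) := by
      rw [mem_tor, pow_two, mul_smul, hz1, smul_zero]
    have hwf : w ∈ fx Φ (n₀ * ℓ ^ (j + 1)) := by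
      rw [mem_fx, e1, pow_of_unip (hσ2 _ hz2), hz1, add_zero]
    exact ⟨⟨⟨w, hwf⟩, s', Subtype.ext hw⟩, Subtype.ext (Subtype.ext hwx)⟩
  have hker : Nat.card f.ker = Nat.card (tor J ℓ) := by
    refine Nat.card_congr ⟨fun x => ⟨((x : prmG ℓ (fx Φ (n₀ * ℓ ^ (j + 1)))) :
      fx Φ (n₀ * ℓ ^ (j + 1))), ?_⟩, fun x => ⟨⟨⟨x, ?_⟩, 1, ?_⟩, ?_⟩, fun x => rfl, fun x => rfl⟩
    · have h1 := x.2
      rw [AddMonoidHom.mem_ker] at h1
      have h2 := congrArg Subtype.val (congrArg Subtype.val h1)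
      exact h2
    · have h1 : (x : J) ∈ tor J (ℓ ^ 2) := by
        rw [mem_tor, pow_two, mul_smul, mem_tor.1 x.2, smul_zero]
      rw [mem_fx, e1]
      exact pow_fix (hσ2 _ h1) ℓ
    · apply Subtype.ext
      change ℓ ^ 1 • (x : J) = 0
      rw [pow_one]
      exact x.2
    · rw [AddMonoidHom.mem_ker]
      apply Subtype.ext
      apply Subtype.ext
      exact x.2
  have h1 := card_of_hom f hsurj
  rw [card_prm, card_prm, H.val' j, H.val' (j + 1), hker] at h1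
  have h2 : ℓ ^ r * ℓ ^ (C + r * j) = Nat.card (tor J ℓ) * ℓ ^ (C + r * j) := by
    rw [← h1, ← pow_add]
    congr 1
    ring
  exact (Nat.eq_of_mul_eq_mul_right (pow_pos hℓ.out.pos _) h2).symm

/-- **The order of the torsion.** -/
theorem card_tor (k : ℕ) : Nat.card (tor J (ℓ ^ k)) = ℓ ^ (r * k) := by
  induction k with
  | zero =>
    rw [mul_zero, pow_zero]
    have h1 : tor J 1 = ⊥ := by
      ext x
      rw [mem_tor, one_smul, AddSubgroup.mem_bot]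
    rw [h1, AddSubgroup.card_bot]
  | succ k ih =>
    have hmap : ∀ x : tor J (ℓ ^ (k + 1)), ℓ • (x : J) ∈ tor J (ℓ ^ k) := fun x => by
      have h1 := mem_tor.1 x.2
      rw [mem_tor, ← mul_smul, ← pow_succ]
      exact h1
    let f : tor J (ℓ ^ (k + 1)) →+ tor J (ℓ ^ k) :=
      { toFun := fun x => ⟨_, hmap x⟩
        map_zero' := Subtype.ext (smul_zero _)
        map_add' := fun x y => Subtype.ext (smul_add _ _ _) }
    have hsurj : Function.Surjective f := by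
      rintro ⟨x, hx⟩
      obtain ⟨w, -, hwx⟩ := H.exists_div (x := x) ⟨k, hx⟩
      refine ⟨⟨w, ?_⟩, Subtype.ext hwx⟩
      rw [mem_tor, pow_succ, mul_smul, hwx]
      exact hx
    have hker : Nat.card f.ker = Nat.card (tor J ℓ) := by
      refine Nat.card_congr ⟨fun x => ⟨(x : tor J (ℓ ^ (k + 1))), ?_⟩,
        fun x => ⟨⟨x, ?_⟩, ?_⟩, fun x => rfl, fun x => rfl⟩
      · have h1 := x.2
        rw [AddMonoidHom.mem_ker] at h1
        exact congrArg Subtype.val h1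
      · rw [mem_tor, pow_succ, mul_smul, mem_tor.1 x.2, smul_zero]
      · rw [AddMonoidHom.mem_ker]
        apply Subtype.ext
        exact x.2
    rw [card_of_hom f hsurj, hker, H.card_tor_one, ih, ← pow_add]
    congr 1
    ring

end FD

/-- **The order of the torsion**, from the number of fixed points of the powers of Frobenius. -/
theorem card_tor_of_frob {r : ℕ} {M : Matrix (Fin r) (Fin r) ℤ} (hM : ¬ (ℓ : ℤ) ∣ M.det)
    (horb : ∀ x : J, ∃ n, 0 < n ∧ (Φ ^ n) x = x)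
    (hfin : ∀ n, 0 < n → Finite (fx Φ n))
    (hcard : ∀ n, 0 < n → Nat.card (fx Φ n) = (1 - M ^ n).det.natAbs)
    (hnorm : ∀ n, 0 < n → ∀ x ∈ fx Φ n, ∃ y ∈ fx Φ (n * ℓ), x = nm Φ ℓ n y) (k : ℕ) :
    Nat.card (tor J (ℓ ^ k)) = ℓ ^ (r * k) := by
  have hne : ∀ n, 0 < n → (1 - M ^ n).det ≠ 0 := fun n hn h0 => by
    haveI := hfin n hn
    have h1 := hcard n hn
    rw [h0, Int.natAbs_zero] at h1
    exact Nat.card_pos.ne' h1
  obtain ⟨n₀, C, hn₀, hval⟩ := exists_val hM hne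
  have H : FD Φ ℓ r C n₀ := ⟨hn₀, horb, hfin, fun j n hn => by
    have hn0 : 0 < n := Nat.pos_of_ne_zero fun h => hn (h ▸ dvd_zero _)
    rw [hcard _ (Nat.mul_pos (Nat.mul_pos hn₀ (pow_pos hℓ.out.pos j)) hn0)]
    exact hval j n hn, hnorm⟩
  exact H.card_tor k

end Fermat.Agent.S27A
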