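import Fermat.Agent.S27A.LF5

/-!
# The matrix of Frobenius
-/

set_option autoImplicit false
set_option linter.style.haveILetI false
set_option linter.unusedSectionVars false

namespace Fermat.Agent.S27A

noncomputable section

open Polynomial Matrix

/-- companion matrices -/
theorem exists_companion {R : ℤ[X]} (hR : R.Monic) {d : ℕ} (hd : R.natDegree = d) :
    ∃ M : Matrix (Fin d) (Fin d) ℤ, M.charpoly = R := by
  have h1 := charpoly_leftMulMatrix (AdjoinRoot.powerBasis' hR)
  have h2 : minpoly ℤ (AdjoinRoot.powerBasis' hR).gen = R := by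
    symm
    apply minpoly.unique' ℤ _ hR
    · rw [AdjoinRoot.powerBasis'_gen, AdjoinRoot.aeval_eq, AdjoinRoot.mk_self]
    · intro q hq
      by_cases h0 : q = 0
      · exact Or.inl h0
      · right
        intro h
        have h3 := (AdjoinRoot.powerBasis' hR).dim_le_degree_of_root h0 h
        rw [AdjoinRoot.powerBasis'_dim, ← Polynomial.degree_eq_natDegree hR.ne_zero] at h3
        exact absurd hq (not_lt.2 h3)
  rw [h2] at h1
  have h3 : (AdjoinRoot.powerBasis' hR).dim = d := by rw [AdjoinRoot.powerBasis'_dim, hd]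
  refine ⟨Matrix.reindex (finCongr h3) (finCongr h3)
    (Algebra.leftMulMatrix (AdjoinRoot.powerBasis' hR).basis (AdjoinRoot.powerBasis' hR).gen), ?_⟩
  rw [Matrix.charpoly_reindex, h1]

theorem one_sub_pow {n : ℕ} (hn : n ≠ 0) (α : ℂ) :
    1 - α ^ n = ∏ ζ ∈ nthRootsFinset n (1 : ℂ), (1 - ζ * α) := by
  have h1 := IsPrimitiveRoot.pow_sub_pow_eq_prod_sub_mul (R := ℂ) 1 α (Nat.pos_of_ne_zero hn)
    (Complex.isPrimitiveRoot_exp n hn)
  rwa [one_pow] at h1

theorem one_sub_X_pow {n : ℕ} (hn : n ≠ 0) :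
    (1 - X ^ n : ℂ[X]) = ∏ ζ ∈ nthRootsFinset n (1 : ℂ), (1 - C ζ * X) := by
  apply Polynomial.funext
  intro z
  rw [eval_prod]
  simp only [eval_sub, eval_one, eval_pow, eval_X, eval_mul, eval_C]
  exact one_sub_pow hn z

/-- the determinant of `1 - M ^ n` -/
theorem det_one_sub_pow {d : ℕ} (M : Matrix (Fin d) (Fin d) ℂ) (L : ℂ[X]) (hd : L.natDegree = d)
    (hL : M.charpoly = L.reverse) {s : Multiset ℂ} (hs : L = prp s) {n : ℕ} (hn : n ≠ 0) :
    (1 - M ^ n).det = (s.map fun α => 1 - α ^ n).prod := by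
  let F : ℂ[X] →* ℂ := (Matrix.detMonoidHom (n := Fin d) (R := ℂ)).comp
    (MonoidHomClass.toMonoidHom (aeval M : ℂ[X] →ₐ[ℂ] Matrix (Fin d) (Fin d) ℂ))
  have hF : ∀ f : ℂ[X], F f = (aeval M f).det := fun f => rfl
  have h1 : (1 - M ^ n).det = F (1 - X ^ n) := by
    rw [hF]
    simp
  rw [h1, one_sub_X_pow hn, map_prod]
  have h2 : ∀ ζ ∈ nthRootsFinset n (1 : ℂ), F (1 - C ζ * X) = (s.map fun α => 1 - ζ * α).prod := by
    intro ζ hζ
    have hζ0 : ζ ≠ 0 := by
      rintro rfl
      rw [mem_nthRootsFinset (Nat.pos_of_ne_zero hn), zero_pow hn] at hζ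
      exact zero_ne_one hζ
    letI : Invertible ζ := invertibleOfNonzero hζ0
    have h3 := eval₂_reverse_mul_pow (RingHom.id ℂ) ζ L
    rw [← hL, invOf_eq_inv] at h3
    have h4 : eval₂ (RingHom.id ℂ) ζ⁻¹ M.charpoly = M.charpoly.eval ζ⁻¹ := rfl
    have h5 : eval₂ (RingHom.id ℂ) ζ L = L.eval ζ := rfl
    rw [h4, h5, hd, Matrix.eval_charpoly, hs, eval_prp] at h3
    rw [hF]
    have h6 : (aeval M (1 - C ζ * X) : Matrix (Fin d) (Fin d) ℂ) = ζ • (Matrix.scalar (Fin d) ζ⁻¹ - M) := by
      rw [map_sub, map_one, map_mul, aeval_C, aeval_X, smul_sub]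
      congr 1
      · ext i j
        by_cases hij : i = j
        · subst hij
          simp [hζ0]
        · simp [hij]
      · rw [Algebra.algebraMap_eq_smul_one, smul_mul_assoc, one_mul]
    rw [h6, Matrix.det_smul, Fintype.card_fin, mul_comm, h3]
    refine congrArg Multiset.prod (Multiset.map_congr rfl fun α _ => ?_)
    rw [mul_comm]
  rw [Finset.prod_congr rfl h2]
  clear h2 h1 hs
  induction s using Multiset.induction_on with
  | empty => simp
  | cons a s ih =>
    simp only [Multiset.map_cons, Multiset.prod_cons]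
    rw [Finset.prod_mul_distrib, ih, one_sub_pow hn a]

namespace FrobData

variable {J V : Type*} [AddCommGroup J] (D : FrobData J V)

/-- **the class numbers of the extensions** -/
theorem exists_matrix : ∃ M : Matrix (Fin (2 * D.g)) (Fin (2 * D.g)) ℤ, M.det = (D.q : ℤ) ^ D.g ∧
    ∀ n : ℕ, n ≠ 0 → (Nat.card {c : J // (D.Φ ^ n) c = c} : ℤ) = (1 - M ^ n).det := by
  have h0 : D.Lp.coeff 0 ≠ 0 := by rw [D.Lp_zero]; exact one_ne_zero
  have hR : D.Lp.reverse.Monic := by
    rw [Polynomial.Monic, Polynomial.reverse_leadingCoeff]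
    rw [Polynomial.trailingCoeff, Polynomial.natTrailingDegree_eq_zero_of_constantCoeff_ne_zero h0, D.Lp_zero]
  have hdeg : D.Lp.reverse.natDegree = 2 * D.g := by
    rw [Polynomial.reverse_natDegree, Polynomial.natTrailingDegree_eq_zero_of_constantCoeff_ne_zero h0,
      D.natDegree_Lp, Nat.sub_zero]
  obtain ⟨M, hM⟩ := exists_companion hR hdeg
  refine ⟨M, ?_, fun n hn => ?_⟩
  · rw [Matrix.det_eq_sign_charpoly_coeff, Fintype.card_fin, pow_mul, neg_one_sq, one_pow, one_mul, hM,
      Polynomial.coeff_zero_reverse, Polynomial.leadingCoeff, D.natDegree_Lp, coeff_Lp, coeff_Ls_crit]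
  · obtain ⟨s, hs, -⟩ := D.exists_alpha
    have h1 := det_one_sub_pow (M.map (Int.castRingHom ℂ)) (D.Lp.map (Int.castRingHom ℂ))
      (by rw [Polynomial.natDegree_map_eq_of_injective (RingHom.injective_int _), D.natDegree_Lp])
      (by rw [Matrix.charpoly_map, hM, Polynomial.reverse, Polynomial.reverse, Polynomial.reflect_map,
        Polynomial.natDegree_map_eq_of_injective (RingHom.injective_int _)]) hs hn
    rw [D.card_fixJ hn]
    have h2 := D.hh_pow hs hn
    rw [← h1] at h2
    have h3 : ((1 - M ^ n).det : ℂ) = (1 - (M.map (Int.castRingHom ℂ)) ^ n).det := by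
      have h4 := RingHom.map_det (Int.castRingHom ℂ) (1 - M ^ n)
      rw [eq_intCast] at h4
      rw [h4, map_sub, map_one, map_pow]
      rfl
    rw [← h3] at h2
    exact_mod_cast h2

end FrobData

end

end Fermat.Agent.S27A
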