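import Fermat.Agent.S27A.Eff5
import Fermat.Agent.S27A.LF6
import Fermat.Agent.S27A.Grp3

/-!
# The torsion of the class group over the algebraic closure of a finite field
-/

set_option autoImplicit false
set_option linter.unusedSectionVars false

noncomputable section

namespace Fermat.Agent.S27A

open AlgebraicCurve Fermat.Agent.RR Fermat.Agent.Curve

theorem torsion_eq_tor (K F : Type*) [Field K] [Field F] [Algebra K F] (n : ℕ) :
    (Pic0.torsion K F n : Set (Pic0 K F)) = tor (Pic0 K F) n := by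
  ext x
  simp only [SetLike.mem_coe]
  rw [Pic0.mem_torsion, mem_tor, natCast_zsmul]

theorem card_tor_Fp (K F : Type*) [Field K] [IsAlgClosed K] [Field F] [Algebra K F]
    [hF : FunField K F] (p : ℕ) [hp : Fact p.Prime] [CharP K p]
    (hK : ∀ c : K, ∃ m : ℕ, 0 < m ∧ c ^ p ^ m = c) (ℓ : ℕ) [hℓ : Fact ℓ.Prime] (hpl : ℓ ≠ p)
    (k : ℕ) :
    Nat.card (Pic0.torsion K F (ℓ ^ k)) = ℓ ^ (2 * rrGenus K F * k) := by
  obtain ⟨D, hg, ⟨s, hs, hq⟩, horb⟩ := exists_frobData K F p hK
  obtain ⟨M, hM, hcard⟩ := D.exists_matrix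
  have h1 : ¬ (ℓ : ℤ) ∣ M.det := by
    rw [hM, hq]
    intro h
    have h2 : ℓ ∣ (p ^ s) ^ D.g := by exact_mod_cast h
    have h3 := hℓ.out.dvd_of_dvd_pow (hℓ.out.dvd_of_dvd_pow h2)
    exact hpl ((Nat.prime_dvd_prime_iff_eq hℓ.out hp.out).1 h3)
  have h2 := card_tor_of_frob (ℓ := ℓ) (Φ := D.Φ) h1 horb
    (fun n hn => D.finite_fixJ hn.ne') (fun n hn => by
      have h3 := hcard n hn.ne'
      change Nat.card {c : Pic0 K F // (D.Φ ^ n) c = c} = _
      rw [← h3, Int.natAbs_natCast])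
    (fun n hn x hx => by
      obtain ⟨y, hy, hxy⟩ := D.norm_surj hℓ.out.ne_zero hn.ne' hx
      exact ⟨y, hy, hxy⟩) k
  rw [← hg, ← h2]
  exact Nat.card_congr (Equiv.setCongr (torsion_eq_tor K F (ℓ ^ k)))

/-- the case of the algebraic closure of the prime field -/
theorem card_torsion_Fp (p : ℕ) [hp : Fact p.Prime] (F : Type*) [Field F]
    [Algebra (AlgebraicClosure (ZMod p)) F] [hF : FunField (AlgebraicClosure (ZMod p)) F]
    (ℓ : ℕ) [hℓ : Fact ℓ.Prime] (hpl : ℓ ≠ p) (k : ℕ) :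
    Nat.card (Pic0.torsion (AlgebraicClosure (ZMod p)) F (ℓ ^ k)) =
      ℓ ^ (2 * rrGenus (AlgebraicClosure (ZMod p)) F * k) := by
  have : CharP (AlgebraicClosure (ZMod p)) p :=
    charP_of_injective_algebraMap (algebraMap (ZMod p) (AlgebraicClosure (ZMod p))).injective p
  refine card_tor_Fp _ F p (fun c => ?_) ℓ hpl k
  have hc : IsIntegral (ZMod p) c := Algebra.IsIntegral.isIntegral c
  have : FiniteDimensional (ZMod p) (IntermediateField.adjoin (ZMod p) {c}) :=
    IntermediateField.adjoin.finiteDimensional hc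
  have : Finite (IntermediateField.adjoin (ZMod p) {c}) := Module.finite_of_finite (ZMod p)
  have : Fintype (IntermediateField.adjoin (ZMod p) {c}) := Fintype.ofFinite _
  refine ⟨Module.finrank (ZMod p) (IntermediateField.adjoin (ZMod p) {c}),
    Module.finrank_pos, ?_⟩
  have h1 := FiniteField.pow_card (IntermediateField.AdjoinSimple.gen (ZMod p) c)
  rw [Module.card_eq_pow_finrank (K := ZMod p), ZMod.card] at h1
  exact congrArg Subtype.val h1

end Fermat.Agent.S27A
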