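import Fermat.Agent.S27A.Mat

/-!
# The structure of the torsion, from the number of fixed points of the powers of Frobenius
-/

set_option autoImplicit false
set_option linter.unusedSectionVars false
set_option linter.style.haveILetI false

namespace Fermat.Agent.S27A

open Finset

section basic

variable {J : Type*} [AddCommGroup J]

/-- the elements fixed by `Φ ^ n` -/
def fx (Φ : AddMonoid.End J) (n : ℕ) : AddSubgroup J where
  carrier := {x | (Φ ^ n) x = x}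
  zero_mem' := map_zero _
  add_mem' {a b} ha hb := by
    change (Φ ^ n) (a + b) = a + b
    rw [map_add, show (Φ ^ n) a = a from ha, show (Φ ^ n) b = b from hb]
  neg_mem' {a} ha := by
    change (Φ ^ n) (-a) = -a
    rw [map_neg, show (Φ ^ n) a = a from ha]

theorem mem_fx {Φ : AddMonoid.End J} {n : ℕ} {x : J} : x ∈ fx Φ n ↔ (Φ ^ n) x = x := Iff.rfl

/-- the `m`-torsion -/
def tor (J : Type*) [AddCommGroup J] (m : ℕ) : AddSubgroup J where
  carrier := {x | m • x = 0}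
  zero_mem' := smul_zero _
  add_mem' {a b} ha hb := by
    change m • (a + b) = 0
    rw [smul_add, show m • a = 0 from ha, show m • b = 0 from hb, add_zero]
  neg_mem' {a} ha := by
    change m • (-a) = 0
    rw [smul_neg, show m • a = 0 from ha, neg_zero]

theorem mem_tor {m : ℕ} {x : J} : x ∈ tor J m ↔ m • x = 0 := Iff.rfl

theorem pow_fix {Φ : AddMonoid.End J} {x : J} (h : Φ x = x) (k : ℕ) : (Φ ^ k) x = x := by
  induction k with
  | zero => rfl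
  | succ k ih =>
    rw [pow_succ]
    change (Φ ^ k) (Φ x) = x
    rw [h, ih]

theorem fx_mono {Φ : AddMonoid.End J} {n m : ℕ} (h : n ∣ m) : fx Φ n ≤ fx Φ m := by
  rintro x hx
  obtain ⟨k, rfl⟩ := h
  rw [mem_fx, pow_mul]
  exact pow_fix hx k

theorem pow_add_apply (Φ : AddMonoid.End J) (a b : ℕ) (x : J) :
    (Φ ^ (a + b)) x = (Φ ^ a) ((Φ ^ b) x) := by
  rw [pow_add]
  rfl

variable {ℓ : ℕ} [hℓ : Fact ℓ.Prime]

/-- `ℓ`-primary elements -/
def Prm (ℓ : ℕ) (x : J) : Prop := ∃ s : ℕ, ℓ ^ s • x = 0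

theorem Prm.map {x : J} (h : Prm ℓ x) (f : AddMonoid.End J) : Prm ℓ (f x) := by
  obtain ⟨s, hs⟩ := h
  exact ⟨s, by rw [← map_nsmul, hs, map_zero]⟩

omit hℓ in
theorem Prm.of_le {s s' : ℕ} {x : J} (h : ℓ ^ s • x = 0) (hs : s ≤ s') : ℓ ^ s' • x = 0 := by
  obtain ⟨k, rfl⟩ := Nat.exists_eq_add_of_le hs
  rw [pow_add, mul_comm, mul_smul, h, smul_zero]

omit hℓ in
theorem Prm.add {x y : J} (hx : Prm ℓ x) (hy : Prm ℓ y) : Prm ℓ (x + y) := by
  obtain ⟨s, hs⟩ := hx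
  obtain ⟨s', hs'⟩ := hy
  exact ⟨max s s', by rw [smul_add, Prm.of_le hs (le_max_left _ _), Prm.of_le hs' (le_max_right _ _),
    add_zero]⟩

omit hℓ in
theorem Prm.zero : Prm ℓ (0 : J) := ⟨0, smul_zero _⟩

omit hℓ in
theorem Prm.neg {x : J} (hx : Prm ℓ x) : Prm ℓ (-x) := by
  obtain ⟨s, hs⟩ := hx
  exact ⟨s, by rw [smul_neg, hs, neg_zero]⟩

omit hℓ in
theorem Prm.sum {ι : Type*} (s : Finset ι) (f : ι → J) (h : ∀ i ∈ s, Prm ℓ (f i)) :
    Prm ℓ (∑ i ∈ s, f i) := by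
  classical
  induction s using Finset.induction_on with
  | empty => rw [Finset.sum_empty]; exact Prm.zero
  | insert a s ha ih =>
    rw [Finset.sum_insert ha]
    exact (h a (Finset.mem_insert_self a s)).add (ih fun i hi => h i (Finset.mem_insert_of_mem hi))

/-- a finite group killed by a power of `ℓ` has order a power of `ℓ` -/
theorem card_pow_of_prm {G : Type*} [AddCommGroup G] [Finite G] (h : ∀ x : G, Prm ℓ x) :
    ∃ e : ℕ, Nat.card G = ℓ ^ e := by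
  classical
  haveI := Fintype.ofFinite G
  have h1 : ∀ {q : ℕ}, q.Prime → q ∣ Nat.card G → q = ℓ := by
    intro q hq hqd
    haveI : Fact q.Prime := ⟨hq⟩
    rw [Nat.card_eq_fintype_card] at hqd
    obtain ⟨x, hx⟩ := exists_prime_addOrderOf_dvd_card q hqd
    obtain ⟨s, hs⟩ := h x
    have h2 := addOrderOf_dvd_of_nsmul_eq_zero hs
    rw [hx] at h2
    exact (Nat.prime_dvd_prime_iff_eq hq hℓ.out).1 (hq.dvd_of_dvd_pow h2)
  exact ⟨_, Nat.eq_prime_pow_of_unique_prime_dvd Nat.card_pos.ne' h1⟩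

/-- the `ℓ`-primary part -/
def prmG (ℓ : ℕ) (G : Type*) [AddCommGroup G] : AddSubgroup G where
  carrier := {x | Prm ℓ x}
  zero_mem' := Prm.zero
  add_mem' ha hb := Prm.add ha hb
  neg_mem' ha := Prm.neg ha

/-- the order of the `ℓ`-primary part -/
theorem card_prm (G : Type*) [AddCommGroup G] [Finite G] :
    Nat.card (prmG ℓ G) = ℓ ^ padicValNat ℓ (Nat.card G) := by
  classical
  haveI := Fintype.ofFinite G
  obtain ⟨e, he⟩ := card_pow_of_prm (ℓ := ℓ) (G := prmG ℓ G) (fun x => by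
    obtain ⟨s, hs⟩ := x.2
    exact ⟨s, Subtype.ext hs⟩)
  have h1 : ¬ ℓ ∣ (prmG ℓ G).index := by
    intro hd
    rw [AddSubgroup.index_eq_card] at hd
    haveI : Fintype (G ⧸ prmG ℓ G) := Fintype.ofFinite _
    rw [Nat.card_eq_fintype_card] at hd
    obtain ⟨x, hx⟩ := exists_prime_addOrderOf_dvd_card ℓ hd
    obtain ⟨y, rfl⟩ := QuotientAddGroup.mk_surjective x
    have h2 : ℓ • (y : G ⧸ prmG ℓ G) = 0 := by
      have h4 := addOrderOf_nsmul_eq_zero (y : G ⧸ prmG ℓ G)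
      rwa [hx] at h4
    rw [← QuotientAddGroup.mk_nsmul, QuotientAddGroup.eq_zero_iff] at h2
    obtain ⟨s, hs⟩ := h2
    have h3 : (y : G ⧸ prmG ℓ G) = 0 := (QuotientAddGroup.eq_zero_iff _).2
      ⟨s + 1, by rw [pow_succ, mul_smul]; exact hs⟩
    rw [h3, addOrderOf_zero] at hx
    exact hℓ.out.one_lt.ne hx
  have h2 := (prmG ℓ G).card_mul_index
  have h3 : (prmG ℓ G).index ≠ 0 := AddSubgroup.index_ne_zero_of_finite
  have h4 : padicValNat ℓ (Nat.card G) = e := by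
    rw [← h2, he, padicValNat.mul (pow_ne_zero _ hℓ.out.ne_zero) h3, padicValNat.prime_pow,
      padicValNat.eq_zero_of_not_dvd h1, add_zero]
  rw [h4, he]

end basic

section fixed

variable {J : Type*} [AddCommGroup J] {ℓ : ℕ} [hℓ : Fact ℓ.Prime] {Φ : AddMonoid.End J}

/-- if `σ` is trivial on the `ℓ ^ 2`-torsion, elements of norm zero are killed by `ℓ` -/
theorem smul_eq_zero_of_norm {σ : AddMonoid.End J} (hσ : ∀ x ∈ tor J (ℓ ^ 2), σ x = x) {z : J}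
    (hz : Prm ℓ z) (hN : ∑ i ∈ range ℓ, (σ ^ i) z = 0) : ℓ • z = 0 := by
  classical
  by_contra hne
  have hs := Nat.find_spec hz
  set s := Nat.find hz with hsd
  have hs2 : 2 ≤ s := by
    by_contra hlt
    apply hne
    have h1 : s ≤ 1 := by omega
    have h2 := Prm.of_le hs h1
    rwa [pow_one] at h2
  have hmin : ℓ ^ (s - 1) • z ≠ 0 := Nat.find_min hz (by omega)
  have h1 : ℓ ^ (s - 2) • z ∈ tor J (ℓ ^ 2) := by
    rw [mem_tor, ← mul_smul, ← pow_add, show 2 + (s - 2) = s by omega]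
    exact hs
  have h2 : ∀ i ∈ range ℓ, (σ ^ i) (ℓ ^ (s - 2) • z) = ℓ ^ (s - 2) • z := fun i _ =>
    pow_fix (hσ _ h1) i
  have h3 : ∑ i ∈ range ℓ, (σ ^ i) (ℓ ^ (s - 2) • z) = ℓ ^ (s - 1) • z := by
    rw [Finset.sum_congr rfl h2, Finset.sum_const, card_range, ← mul_smul, ← pow_succ',
      show s - 2 + 1 = s - 1 by omega]
  apply hmin
  rw [← h3]
  simp only [map_nsmul]
  rw [← Finset.smul_sum, hN, smul_zero]

/-- telescoping -/
theorem norm_sub (σ : AddMonoid.End J) (n : ℕ) (y : J) :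
    ∑ i ∈ range n, (σ ^ i) (σ y - y) = (σ ^ n) y - y := by
  have h1 : ∀ i, (σ ^ i) (σ y - y) = (σ ^ (i + 1)) y - (σ ^ i) y := fun i => by
    rw [map_sub, pow_succ]
    rfl
  simp only [h1]
  rw [Finset.sum_range_sub (fun i => (σ ^ i) y)]
  rfl

/-- powers of `σ` on an element with `σ y - y` fixed -/
theorem pow_of_unip {σ : AddMonoid.End J} {y : J} (h : σ (σ y - y) = σ y - y) (i : ℕ) :
    (σ ^ i) y = y + i • (σ y - y) := by
  induction i with
  | zero => rw [pow_zero, zero_smul, add_zero]; rfl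
  | succ i ih =>
    rw [pow_succ']
    change σ ((σ ^ i) y) = _
    rw [ih, map_add, map_nsmul, h, succ_nsmul]
    abel

/-- the norm -/
def nm {J : Type*} [AddCommGroup J] (Φ : AddMonoid.End J) (ℓ n : ℕ) (y : J) : J :=
  ∑ i ∈ range ℓ, (Φ ^ (n * i)) y

theorem nm_eq (n : ℕ) (y : J) : nm Φ ℓ n y = ∑ i ∈ range ℓ, ((Φ ^ n) ^ i) y := by
  rw [nm]
  simp only [pow_mul]

theorem nm_smul (n m : ℕ) (y : J) : nm Φ ℓ n (m • y) = m • nm Φ ℓ n y := by
  rw [nm, nm, Finset.smul_sum]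
  simp only [map_nsmul]

theorem nm_add (n : ℕ) (y z : J) : nm Φ ℓ n (y + z) = nm Φ ℓ n y + nm Φ ℓ n z := by
  rw [nm, nm, nm, ← Finset.sum_add_distrib]
  simp only [map_add]

/-- norms of primary elements -/
theorem exists_prm_norm {n : ℕ} (hfin : Finite (fx Φ (n * ℓ)))
    (hnorm : ∀ x ∈ fx Φ n, ∃ y ∈ fx Φ (n * ℓ), x = nm Φ ℓ n y) {x : J} (hx : x ∈ fx Φ n)
    (hp : Prm ℓ x) : ∃ y ∈ fx Φ (n * ℓ), Prm ℓ y ∧ x = nm Φ ℓ n y := by
  obtain ⟨y, hy, hxy⟩ := hnorm x hx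
  obtain ⟨s, hs⟩ := hp
  -- the order of `y`
  obtain ⟨c, hc0, hc⟩ : ∃ c, c ≠ 0 ∧ c • y = 0 := by
    refine ⟨Nat.card (fx Φ (n * ℓ)), Nat.card_pos.ne', ?_⟩
    have h1 : Nat.card (fx Φ (n * ℓ)) • (⟨y, hy⟩ : fx Φ (n * ℓ)) = 0 := card_nsmul_eq_zero'
    exact congrArg Subtype.val h1
  obtain ⟨a, m, hm, hcm⟩ := Nat.exists_eq_pow_mul_and_not_dvd hc0 ℓ hℓ.out.ne_one
  have hco : Nat.Coprime m (ℓ ^ s) :=
    (((Nat.Prime.coprime_iff_not_dvd hℓ.out).2 hm).pow_left s).symm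
  obtain ⟨u, hu⟩ : ∃ u : ℕ, m * u ≡ 1 [MOD ℓ ^ s] := by
    obtain ⟨u, -, hu⟩ := Nat.exists_mul_mod_eq_of_coprime 1 hco (pow_ne_zero _ hℓ.out.ne_zero)
    exact ⟨u, hu⟩
  refine ⟨(m * u) • y, (fx Φ (n * ℓ)).nsmul_mem hy _, ⟨a, ?_⟩, ?_⟩
  · rw [← mul_smul, show ℓ ^ a * (m * u) = u * (ℓ ^ a * m) by ring, ← hcm, mul_smul, hc, smul_zero]
  · rw [nm_smul, ← hxy]
    have h1 : ((m * u : ℕ) : ℤ) ≡ 1 [ZMOD (ℓ ^ s : ℕ)] := by exact_mod_cast hu
    obtain ⟨k, hk⟩ := h1.symm.dvd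
    have h2 : ((m * u : ℕ) : ℤ) = 1 + (ℓ ^ s : ℕ) * k := by linarith
    rw [← natCast_zsmul, h2, add_smul, one_smul, mul_comm, mul_smul, natCast_zsmul, hs, smul_zero,
      add_zero]

end fixed

end Fermat.Agent.S27A
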