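import Fermat.Agent.S27A.Grp

/-!
# The structure of the torsion, from the number of fixed points of the powers of Frobenius, II
-/

set_option autoImplicit false
set_option linter.unusedSectionVars false
set_option linter.style.haveILetI false

namespace Fermat.Agent.S27A

open Finset

variable {J : Type*} [AddCommGroup J] {ℓ : ℕ} [hℓ : Fact ℓ.Prime] {Φ : AddMonoid.End J}

/-- the hypotheses -/
structure FD (Φ : AddMonoid.End J) (ℓ r C n₀ : ℕ) : Prop where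
  pos : 0 < n₀
  orb : ∀ x : J, ∃ n, 0 < n ∧ (Φ ^ n) x = x
  fin : ∀ n, 0 < n → Finite (fx Φ n)
  val : ∀ j n, ¬ ℓ ∣ n → padicValNat ℓ (Nat.card (fx Φ (n₀ * ℓ ^ j * n))) = C + r * j
  norm : ∀ n, 0 < n → ∀ x ∈ fx Φ n, ∃ y ∈ fx Φ (n * ℓ), x = nm Φ ℓ n y

omit hℓ in
theorem exists_lt_pow (hℓ2 : 2 ≤ ℓ) (C r : ℕ) : ∃ j, ℓ ^ (C + r * j) < 2 ^ (ℓ ^ j) := by
  set m := ℓ * (C + 2 * r) + 1 with hm
  refine ⟨2 * m, ?_⟩
  have h1 : ℓ * (C + r * (2 * m)) < m * m := by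
    have e1 : ℓ * (C + r * (2 * m)) ≤ m * (ℓ * (C + 2 * r)) := by
      have h2 : 1 ≤ m := by omega
      calc ℓ * (C + r * (2 * m)) = ℓ * C * 1 + ℓ * (2 * r) * m := by ring
        _ ≤ ℓ * C * m + ℓ * (2 * r) * m := by
          exact Nat.add_le_add_right (Nat.mul_le_mul_left _ h2) _
        _ = m * (ℓ * (C + 2 * r)) := by ring
    refine e1.trans_lt ?_
    exact Nat.mul_lt_mul_of_pos_left (by omega) (by omega)
  have h2 : m * m ≤ ℓ ^ (2 * m) := by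
    rw [pow_mul']
    have h3 : m ≤ ℓ ^ m := (Nat.lt_two_pow_self).le.trans (Nat.pow_le_pow_left hℓ2 m)
    calc m * m ≤ ℓ ^ m * ℓ ^ m := Nat.mul_le_mul h3 h3
      _ = (ℓ ^ m) ^ 2 := by ring
  calc ℓ ^ (C + r * (2 * m)) ≤ (2 ^ ℓ) ^ (C + r * (2 * m)) :=
        Nat.pow_le_pow_left (Nat.lt_two_pow_self).le _
    _ = 2 ^ (ℓ * (C + r * (2 * m))) := by rw [← pow_mul]
    _ < 2 ^ (ℓ ^ (2 * m)) := Nat.pow_lt_pow_right (by norm_num) (h1.trans_le h2)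

theorem relIndex_mul_card {H K : AddSubgroup J} (h : H ≤ K) :
    H.relIndex K * Nat.card H = Nat.card K := by
  rw [← AddSubgroup.relIndex_bot_left H, ← AddSubgroup.relIndex_bot_left K, mul_comm]
  exact AddSubgroup.relIndex_mul_relIndex ⊥ H K bot_le h

/-- increasing chains of finite subgroups -/
theorem exists_eq_step {K : ℕ → AddSubgroup J} (hmono : ∀ t, K t ≤ K (t + 1)) {s : ℕ}
    (hfin : ∀ t ≤ s, Finite (K t)) (hlt : Nat.card (K s) < 2 ^ s) : ∃ t < s, K t = K (t + 1) := by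
  by_contra hne
  push Not at hne
  have key : ∀ t ≤ s, 2 ^ t ≤ Nat.card (K t) := by
    intro t
    induction t with
    | zero =>
      intro _
      haveI := hfin 0 (Nat.zero_le _)
      rw [pow_zero]
      exact Nat.card_pos
    | succ t ih =>
      intro ht
      haveI := hfin (t + 1) ht
      have h1 := ih (by omega)
      have h2 : (K t).relIndex (K (t + 1)) * Nat.card (K t) = Nat.card (K (t + 1)) :=
        relIndex_mul_card (hmono t)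
      have h3 : (K t).relIndex (K (t + 1)) ≠ 0 := by
        intro h0
        rw [h0, zero_mul] at h2
        exact Nat.card_pos.ne h2
      have h4 : (K t).relIndex (K (t + 1)) ≠ 1 := fun h0 =>
        hne t (by omega) (le_antisymm (hmono t) (AddSubgroup.relIndex_eq_one.1 h0))
      have h5 : 2 ≤ (K t).relIndex (K (t + 1)) := by omega
      calc 2 ^ (t + 1) = 2 * 2 ^ t := by rw [pow_succ']
        _ ≤ (K t).relIndex (K (t + 1)) * Nat.card (K t) := Nat.mul_le_mul h5 h1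
        _ = _ := h2
  exact absurd (key s le_rfl) (by omega)

namespace FD

variable {r C n₀ : ℕ} (H : FD Φ ℓ r C n₀)

include H

theorem posj (j : ℕ) : 0 < n₀ * ℓ ^ j := Nat.mul_pos H.pos (pow_pos hℓ.out.pos j)

theorem val' (j : ℕ) : padicValNat ℓ (Nat.card (fx Φ (n₀ * ℓ ^ j))) = C + r * j := by
  have h1 := H.val j 1 (fun h => hℓ.out.one_lt.ne' (Nat.dvd_one.1 h))
  rwa [mul_one] at h1

/-- primary elements are fixed by some `Φ ^ (n₀ ℓ ^ j)` -/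
theorem exists_fix {x : J} (hx : Prm ℓ x) : ∃ j, x ∈ fx Φ (n₀ * ℓ ^ j) := by
  obtain ⟨n, hn, hxn⟩ := H.orb x
  obtain ⟨j, n', hn', hnj⟩ := Nat.exists_eq_pow_mul_and_not_dvd hn.ne' ℓ hℓ.out.ne_one
  refine ⟨j, ?_⟩
  have hn'0 : 0 < n' := Nat.pos_of_ne_zero fun h => hn' (h ▸ dvd_zero _)
  have hpos : 0 < n₀ * ℓ ^ j * n' := Nat.mul_pos (H.posj j) hn'0
  haveI := H.fin _ hpos
  haveI := H.fin _ (H.posj j)
  have hle : fx Φ (n₀ * ℓ ^ j) ≤ fx Φ (n₀ * ℓ ^ j * n') := fx_mono (dvd_mul_right _ _)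
  have hxG : x ∈ fx Φ (n₀ * ℓ ^ j * n') := fx_mono (by rw [hnj, mul_assoc]; exact dvd_mul_left _ _) hxn
  have h2 : (fx Φ (n₀ * ℓ ^ j)).relIndex (fx Φ (n₀ * ℓ ^ j * n')) *
      Nat.card (fx Φ (n₀ * ℓ ^ j)) = Nat.card (fx Φ (n₀ * ℓ ^ j * n')) :=
    relIndex_mul_card hle
  have h3 : (fx Φ (n₀ * ℓ ^ j)).relIndex (fx Φ (n₀ * ℓ ^ j * n')) ≠ 0 := by
    intro h0
    rw [h0, zero_mul] at h2
    exact Nat.card_pos.ne h2
  have h4 : ¬ ℓ ∣ (fx Φ (n₀ * ℓ ^ j)).relIndex (fx Φ (n₀ * ℓ ^ j * n')) := by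
    have h5 := congrArg (padicValNat ℓ) h2
    rw [padicValNat.mul h3 Nat.card_pos.ne', H.val j n' hn', H.val' j] at h5
    intro hd
    have h6 := one_le_padicValNat_of_dvd h3 hd
    omega
  -- the index kills the quotient
  have h5 : (fx Φ (n₀ * ℓ ^ j)).relIndex (fx Φ (n₀ * ℓ ^ j * n')) • x ∈ fx Φ (n₀ * ℓ ^ j) := by
    have h6 := ((fx Φ (n₀ * ℓ ^ j)).addSubgroupOf (fx Φ (n₀ * ℓ ^ j * n'))).nsmul_index_mem
      (⟨x, hxG⟩ : fx Φ (n₀ * ℓ ^ j * n'))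
    exact h6
  obtain ⟨s, hs⟩ := hx
  have hco : Nat.Coprime ((fx Φ (n₀ * ℓ ^ j)).relIndex (fx Φ (n₀ * ℓ ^ j * n'))) (ℓ ^ s) :=
    (((Nat.Prime.coprime_iff_not_dvd hℓ.out).2 h4).pow_left s).symm
  obtain ⟨u, -, hu⟩ := Nat.exists_mul_mod_eq_of_coprime 1 hco (pow_ne_zero _ hℓ.out.ne_zero)
  have hu' : (fx Φ (n₀ * ℓ ^ j)).relIndex (fx Φ (n₀ * ℓ ^ j * n')) * u ≡ 1 [MOD ℓ ^ s] := hu
  have h7 : (((fx Φ (n₀ * ℓ ^ j)).relIndex (fx Φ (n₀ * ℓ ^ j * n')) * u : ℕ) : ℤ) ≡ 1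
      [ZMOD (ℓ ^ s : ℕ)] := by exact_mod_cast hu'
  obtain ⟨k, hk⟩ := h7.symm.dvd
  have h8 : (((fx Φ (n₀ * ℓ ^ j)).relIndex (fx Φ (n₀ * ℓ ^ j * n')) * u : ℕ) : ℤ) =
      1 + (ℓ ^ s : ℕ) * k := by linarith
  have h9 : ((fx Φ (n₀ * ℓ ^ j)).relIndex (fx Φ (n₀ * ℓ ^ j * n')) * u) • x = x := by
    rw [← natCast_zsmul, h8, add_smul, one_smul, mul_comm, mul_smul, natCast_zsmul, hs, smul_zero,
      add_zero]
  rw [← h9, mul_comm ((fx Φ (n₀ * ℓ ^ j)).relIndex (fx Φ (n₀ * ℓ ^ j * n'))) u, mul_smul]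
  exact AddSubgroup.nsmul_mem _ h5 u

/-- the `ℓ`-torsion is finite -/
theorem finite_tor_one : Finite (tor J ℓ) := by
  classical
  set σ : AddMonoid.End J := Φ ^ n₀ with hσ
  let K : ℕ → AddSubgroup J := fun t => tor J ℓ ⊓ ((σ - 1) ^ t : AddMonoid.End J).ker
  have hK : ∀ t x, x ∈ K t ↔ ℓ • x = 0 ∧ ((σ - 1) ^ t : AddMonoid.End J) x = 0 := fun t x => Iff.rfl
  have hmono : ∀ t, K t ≤ K (t + 1) := fun t x hx => by
    rw [hK] at hx ⊢
    refine ⟨hx.1, ?_⟩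
    rw [pow_succ']
    change (σ - 1) (((σ - 1) ^ t : AddMonoid.End J) x) = 0
    rw [hx.2, map_zero]
  have hstep : ∀ t, K t = K (t + 1) → ∀ s, t ≤ s → K s = K t := by
    intro t ht s hs
    induction s, hs using Nat.le_induction with
    | base => rfl
    | succ s hs ih =>
      rw [← ih]
      refine le_antisymm (fun x hx => ?_) (hmono s)
      rw [hK] at hx
      have h1 : (σ - 1) x ∈ K s := by
        rw [hK]
        refine ⟨by rw [← map_nsmul, hx.1, map_zero], ?_⟩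
        have h2 := hx.2
        rw [pow_succ] at h2
        exact h2
      rw [ih] at h1
      have h3 : x ∈ K (t + 1) := by
        rw [hK]
        refine ⟨hx.1, ?_⟩
        rw [pow_succ]
        exact ((hK _ _).1 h1).2
      rw [ih, ht]
      exact h3
  -- `(σ - 1) ^ (ℓ ^ j) = σ ^ (ℓ ^ j) - 1` on the `ℓ`-torsion
  have hfrob : ∀ j x, ℓ • x = 0 → (((σ - 1) ^ (ℓ ^ j) : AddMonoid.End J) x = 0 ↔
      x ∈ fx Φ (n₀ * ℓ ^ j)) := by
    intro j x hx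
    obtain ⟨q, hq⟩ : ∃ q : AddMonoid.End J,
        σ ^ (ℓ ^ j) = (σ - 1) ^ (ℓ ^ j) + 1 + ℓ • q := by
      obtain ⟨q, hq⟩ := (Commute.one_right (σ - 1)).exists_add_pow_prime_pow_eq hℓ.out j
      rw [sub_add_cancel, one_pow] at hq
      exact ⟨(σ - 1) * 1 * q, by rw [hq, nsmul_eq_mul, mul_assoc, mul_assoc, mul_assoc]⟩
    have h1 : (σ ^ (ℓ ^ j)) x = ((σ - 1) ^ (ℓ ^ j) : AddMonoid.End J) x + x := by
      have h3 : (σ ^ (ℓ ^ j)) x = ((σ - 1) ^ (ℓ ^ j) : AddMonoid.End J) x + x + ℓ • (q x) :=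
        DFunLike.congr_fun hq x
      rw [h3, ← map_nsmul, hx, map_zero, add_zero]
    rw [mem_fx, pow_mul, ← hσ, h1]
    exact ⟨fun h => by rw [h, zero_add], fun h => by simpa using h⟩
  have hKfx : ∀ j, K (ℓ ^ j) ≤ fx Φ (n₀ * ℓ ^ j) := fun j x hx =>
    (hfrob j x ((hK _ _).1 hx).1).1 ((hK _ _).1 hx).2
  have hKfin : ∀ j, Finite (K (ℓ ^ j)) := fun j => by
    haveI := H.fin _ (H.posj j)
    exact Finite.of_injective (AddSubgroup.inclusion (hKfx j)) (AddSubgroup.inclusion_injective _)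
  obtain ⟨j, hj⟩ := exists_lt_pow hℓ.out.two_le C r
  have hKle : ∀ s t, s ≤ t → K s ≤ K t := fun s t hst => monotone_nat_of_le_succ hmono hst
  have hcard : Nat.card (K (ℓ ^ j)) ≤ ℓ ^ (C + r * j) := by
    haveI := hKfin j
    haveI := H.fin _ (H.posj j)
    obtain ⟨e, he⟩ := card_pow_of_prm (ℓ := ℓ) (G := K (ℓ ^ j)) (fun x =>
      ⟨1, Subtype.ext (by rw [pow_one]; exact ((hK _ _).1 x.2).1)⟩)
    have h1 : Nat.card (K (ℓ ^ j)) ∣ Nat.card (fx Φ (n₀ * ℓ ^ j)) :=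
      AddSubgroup.card_dvd_of_le (hKfx j)
    rw [he] at h1 ⊢
    refine Nat.pow_le_pow_right hℓ.out.pos ?_
    rw [← H.val' j]
    exact (padicValNat_dvd_iff_le Nat.card_pos.ne').1 h1
  obtain ⟨t, ht, hKt⟩ := exists_eq_step hmono (s := ℓ ^ j) (fun t ht => by
    haveI := hKfin j
    exact Finite.of_injective (AddSubgroup.inclusion (hKle _ _ ht))
      (AddSubgroup.inclusion_injective _)) (hcard.trans_lt hj)
  -- everything is in `K t`
  have hall : tor J ℓ ≤ K (ℓ ^ j) := by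
    intro x hx
    obtain ⟨j', hj'⟩ := H.exists_fix (x := x) ⟨1, by rw [pow_one]; exact hx⟩
    have h1 : x ∈ K (ℓ ^ j') := (hK _ _).2 ⟨hx, (hfrob j' x hx).2 hj'⟩
    have h2 : x ∈ K (max (ℓ ^ j') t) := hKle _ _ (le_max_left _ _) h1
    rw [hstep t hKt _ (le_max_right _ _)] at h2
    exact hKle _ _ ht.le h2
  haveI := hKfin j
  exact Finite.of_injective (AddSubgroup.inclusion hall) (AddSubgroup.inclusion_injective _)

end FD

end Fermat.Agent.S27A
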