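import Mathlib

/-!
# Logarithmic derivatives of power series; products `∏ (1 - α T)`
-/

set_option autoImplicit false
set_option linter.style.haveILetI false
set_option linter.unusedSectionVars false

namespace Fermat.Agent.S27A

open PowerSeries

noncomputable section

variable {K : Type*} [Field K] [CharZero K]

/-- `T B' = S B` and `B(0) = 1` -/
structure LD (B S : K⟦X⟧) : Prop where
  one : coeff 0 B = 1
  eq : ∀ m : ℕ, (m : K) * coeff m B =
    ∑ x ∈ Finset.HasAntidiagonal.antidiagonal m, coeff x.1 S * coeff x.2 B
  zero : coeff 0 S = 0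

theorem LD.inj {B B' S : K⟦X⟧} (h : LD B S) (h' : LD B' S) : B = B' := by
  ext m
  induction m using Nat.strong_induction_on with
  | _ m ih =>
    rcases Nat.eq_zero_or_pos m with rfl | hm
    · rw [h.one, h'.one]
    · have hm' : (m : K) ≠ 0 := by exact_mod_cast hm.ne'
      apply mul_left_cancel₀ hm'
      rw [h.eq, h'.eq]
      refine Finset.sum_congr rfl fun x hx => ?_
      rw [Finset.HasAntidiagonal.mem_antidiagonal] at hx
      rcases Nat.eq_zero_or_pos x.1 with h1 | h1
      · rw [h1, h.zero, zero_mul, zero_mul]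
      · rw [ih x.2 (by omega)]

theorem LD.iff {B S : K⟦X⟧} : LD B S ↔ coeff 0 B = 1 ∧ coeff 0 S = 0 ∧
    (X : K⟦X⟧) * d⁄dX K B = S * B := by
  constructor
  · intro h
    refine ⟨h.one, h.zero, ?_⟩
    ext m
    rw [coeff_mul m S B, ← h.eq]
    rcases m with _ | m
    · simp
    · rw [coeff_succ_X_mul, coeff_derivative]
      push_cast
      ring
  · rintro ⟨h1, h2, h3⟩
    refine ⟨h1, fun m => ?_, h2⟩
    rw [← coeff_mul, ← h3]
    rcases m with _ | m
    · simp
    · rw [coeff_succ_X_mul, coeff_derivative]
      push_cast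
      ring

theorem LD.mul {B B' S S' : K⟦X⟧} (h : LD B S) (h' : LD B' S') : LD (B * B') (S + S') := by
  rw [LD.iff] at h h' ⊢
  obtain ⟨h1, h2, h3⟩ := h
  obtain ⟨h4, h5, h6⟩ := h'
  refine ⟨by simp_all, by simp_all, ?_⟩
  rw [Derivation.leibniz]
  simp only [smul_eq_mul]
  linear_combination B' * h3 + B * h6

theorem LD.inj_right {B S S' : K⟦X⟧} (h : LD B S) (h' : LD B S') : S = S' := by
  rw [LD.iff] at h h'
  have h1 : B ≠ 0 := by
    rintro rfl
    simpa using h.1
  apply mul_right_cancel₀ h1
  rw [← h.2.2, ← h'.2.2]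

theorem LD.one_one : LD (1 : K⟦X⟧) 0 := by
  rw [LD.iff]
  refine ⟨by simp, by simp, ?_⟩
  rw [← map_one (C (R := K)), derivative_C]
  simp

/-- the power sums, without constant term -/
def pw (α : K) : K⟦X⟧ := PowerSeries.mk fun n => if n = 0 then 0 else α ^ n

theorem LD.lin (α : K) : LD (1 - C α * X) (-(pw α)) := by
  rw [LD.iff]
  refine ⟨by simp, by simp [pw], ?_⟩
  have h1 : d⁄dX K (1 - C α * X : K⟦X⟧) = -C α := by
    rw [map_sub, Derivation.leibniz, derivative_C, ← map_one (C (R := K)), derivative_C]
    simp
  rw [h1]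
  ext m
  rcases m with _ | m
  · simp [pw]
  · have e1 : -(pw α) * (1 - C α * X) = -(pw α) + C α * (pw α * X) := by ring
    rw [e1, map_add, coeff_C_mul, coeff_succ_mul_X, mul_comm X, mul_comm (-C α), ← mul_comm,
      coeff_succ_mul_X]
    simp only [pw, map_neg, coeff_mk, Nat.succ_ne_zero, if_false]
    rcases m with _ | m
    · simp
    · simp
      ring

/-- the product -/
def pr (s : Multiset K) : K⟦X⟧ := (s.map fun α => 1 - C α * X).prod

/-- the power sums -/
def ps (s : Multiset K) : K⟦X⟧ := (s.map fun α => pw α).sum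

theorem coeff_ps (s : Multiset K) {n : ℕ} (hn : n ≠ 0) : coeff n (ps s) = (s.map fun α => α ^ n).sum := by
  induction s using Multiset.induction_on with
  | empty => simp [ps]
  | cons a s ih =>
    rw [ps, Multiset.map_cons, Multiset.sum_cons, map_add, Multiset.map_cons, Multiset.sum_cons, ← ih,
      ps, pw, coeff_mk, if_neg hn]

theorem LD.prod (s : Multiset K) : LD (pr s) (-(ps s)) := by
  induction s using Multiset.induction_on with
  | empty => simpa [pr, ps] using LD.one_one
  | cons a s ih =>
    have h := (LD.lin a).mul ih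
    have e : -(pw a) + -(ps s) = -(ps (a ::ₘ s)) := by
      simp only [ps, Multiset.map_cons, Multiset.sum_cons]
      ring
    rw [e] at h
    simpa [pr, Multiset.map_cons, Multiset.prod_cons] using h

theorem ps_ext {s t : Multiset K} (h : ∀ n : ℕ, n ≠ 0 → (s.map fun α => α ^ n).sum = (t.map fun α => α ^ n).sum) :
    ps s = ps t := by
  ext n
  rcases Nat.eq_zero_or_pos n with rfl | hn
  · rw [← neg_inj, ← map_neg, ← map_neg, (LD.prod s).zero, (LD.prod t).zero]
  · rw [coeff_ps s hn.ne', coeff_ps t hn.ne', h n hn.ne']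

/-- the product, as a polynomial -/
def prp (s : Multiset K) : Polynomial K := (s.map fun α => 1 - Polynomial.C α * Polynomial.X).prod

theorem coe_prp (s : Multiset K) : ((prp s : Polynomial K) : K⟦X⟧) = pr s := by
  induction s using Multiset.induction_on with
  | empty => simp [prp, pr]
  | cons a s ih =>
    rw [prp, pr, Multiset.map_cons, Multiset.prod_cons, Multiset.map_cons, Multiset.prod_cons,
      Polynomial.coe_mul]
    rw [prp, pr] at ih
    rw [ih]
    congr 1
    simp

theorem prp_ext {s t : Multiset K} (h : ∀ n : ℕ, n ≠ 0 → (s.map fun α => α ^ n).sum = (t.map fun α => α ^ n).sum) :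
    prp s = prp t := by
  apply Polynomial.coe_injective K
  rw [coe_prp, coe_prp]
  have h1 := LD.prod s
  rw [ps_ext h] at h1
  exact h1.inj (LD.prod t)

theorem eval_prp (s : Multiset K) (x : K) : (prp s).eval x = (s.map fun α => 1 - α * x).prod := by
  induction s using Multiset.induction_on with
  | empty => simp [prp]
  | cons a s ih =>
    rw [prp, Multiset.map_cons, Multiset.prod_cons, Polynomial.eval_mul, Multiset.map_cons,
      Multiset.prod_cons, ← ih, prp]
    simp

/-- factorisation -/
theorem exists_prp [IsAlgClosed K] (f : Polynomial K) (hf : f.coeff 0 = 1) :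
    ∃ s : Multiset K, f = prp s ∧ Multiset.card s = f.natDegree := by
  have hsp := IsAlgClosed.splits f
  refine ⟨f.roots.map fun r => r⁻¹, ?_, ?_⟩
  · have h1 := hsp.eq_prod_roots
    have h0 : ∀ r ∈ f.roots, r ≠ 0 := by
      intro r hr h
      rw [Polynomial.mem_roots', h, Polynomial.IsRoot.def, ← Polynomial.coeff_zero_eq_eval_zero, hf] at hr
      exact one_ne_zero hr.2
    have h2 : (f.roots.map fun a => Polynomial.X - Polynomial.C a).prod =
        Polynomial.C (f.roots.map fun a => -a).prod * prp (f.roots.map fun r => r⁻¹) := by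
      generalize f.roots = s at h0
      induction s using Multiset.induction_on with
      | empty => simp [prp]
      | cons a s ih =>
        have ha : a ≠ 0 := h0 a (Multiset.mem_cons_self a s)
        rw [Multiset.map_cons, Multiset.prod_cons, ih fun r hr => h0 r (Multiset.mem_cons_of_mem hr),
          Multiset.map_cons, Multiset.prod_cons, prp, prp, Multiset.map_cons, Multiset.map_cons,
          Multiset.prod_cons, Polynomial.C_mul]
        have e : (Polynomial.X - Polynomial.C a : Polynomial K) =
            Polynomial.C (-a) * (1 - Polynomial.C a⁻¹ * Polynomial.X) := by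
          rw [mul_sub, mul_one, ← mul_assoc, ← Polynomial.C_mul, neg_mul, mul_inv_cancel₀ ha]
          simp
          ring
        rw [e]
        ring
    rw [h2, ← mul_assoc, ← Polynomial.C_mul] at h1
    have h3 : f.leadingCoeff * (f.roots.map fun a => -a).prod = 1 := by
      rw [h1, Polynomial.coeff_zero_eq_eval_zero, Polynomial.eval_mul, eval_prp] at hf
      simpa using hf
    rw [h3, Polynomial.C_1, one_mul] at h1
    exact h1
  · rw [Multiset.card_map]
    exact hsp.natDegree_eq_card_roots.symm

end

end Fermat.Agent.S27A
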