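import Fermat.Agent.S27A.LF1

/-!
# The double counting `m b_m = ∑ S_n b_{m-n}`
-/

set_option autoImplicit false
set_option linter.style.haveILetI false
set_option linter.unusedSectionVars false

namespace Fermat.Agent.S27A

noncomputable section

namespace FrobData

open Function

variable {J X : Type*} [AddCommGroup J] (D : FrobData J X)

theorem isEff_iff {m : ℕ} {E : X →₀ ℕ} :
    D.IsEff m E ↔ Finsupp.mapDomain D.φ E = E ∧ Finsupp.degree E = m := by
  rw [IsEff, deg_eq]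
  refine and_congr_left fun _ => ⟨fun h => ?_, fun h P => ?_⟩
  · ext Q
    obtain ⟨P, rfl⟩ := D.φ.surjective Q
    rw [Finsupp.mapDomain_apply D.φ.injective, h]
  · conv_lhs => rw [← h]
    rw [Finsupp.mapDomain_apply D.φ.injective]

theorem degree_orb (n : ℕ) (P : X) : Finsupp.degree (D.orb n P) = n := by
  rw [orb, map_sum]
  simp

theorem isEff_orb {n : ℕ} {P : X} (h : (D.φ ^ n) P = P) : D.IsEff n (D.orb n P) := by
  rw [isEff_iff]
  refine ⟨?_, D.degree_orb n P⟩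
  have h1 : Finsupp.mapDomain D.φ (D.orb n P) =
      ∑ i ∈ Finset.range n, Finsupp.single ((D.φ ^ (i + 1)) P) 1 := by
    rw [orb, ← Finsupp.mapDomain.addMonoidHom_apply, map_sum]
    refine Finset.sum_congr rfl fun i _ => ?_
    rw [Finsupp.mapDomain.addMonoidHom_apply, Finsupp.mapDomain_single, pow_succ',
      Equiv.Perm.mul_apply]
  rw [h1]
  have h2 := Finset.sum_range_succ (fun i => Finsupp.single ((D.φ ^ i) P) (1 : ℕ)) n
  have h3 := Finset.sum_range_succ' (fun i => Finsupp.single ((D.φ ^ i) P) (1 : ℕ)) n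
  rw [h2] at h3
  simp only [h, pow_zero, Equiv.Perm.coe_one, id] at h3
  exact (add_right_cancel h3).symm

theorem IsEff.add {m n : ℕ} {E E' : X →₀ ℕ} (h : D.IsEff m E) (h' : D.IsEff n E') :
    D.IsEff (m + n) (E + E') := by
  rw [isEff_iff] at h h' ⊢
  rw [Finsupp.mapDomain_add, h.1, h'.1, map_add, h.2, h'.2]
  exact ⟨rfl, rfl⟩

theorem IsEff.sub {m n : ℕ} {E E' : X →₀ ℕ} (h : D.IsEff m E) (h' : D.IsEff n E') (hle : E' ≤ E) :
    D.IsEff (m - n) (E - E') ∧ n ≤ m := by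
  have h1 : E - E' + E' = E := tsub_add_cancel_of_le hle
  have h2 : Finsupp.degree (E - E') + n = m := by
    rw [isEff_iff] at h h'
    rw [← h'.2, ← map_add, h1, h.2]
  refine ⟨⟨fun P => ?_, ?_⟩, by omega⟩
  · rw [Finsupp.tsub_apply, Finsupp.tsub_apply, h.1, h'.1]
  · rw [deg_eq]; omega

/-- the minimal period -/
def per (P : X) : ℕ := minimalPeriod D.φ P

theorem pow_eq_iff {n : ℕ} {P : X} : (D.φ ^ n) P = P ↔ D.per P ∣ n := by
  rw [per, ← isPeriodicPt_iff_minimalPeriod_dvd, IsPeriodicPt, IsFixedPt, Equiv.Perm.iterate_eq_pow]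

theorem per_pos {m : ℕ} {E : X →₀ ℕ} (h : D.IsEff m E) {P : X} (hP : E P ≠ 0) : 0 < D.per P := by
  obtain ⟨n, hn, -, h1⟩ := D.exists_period h hP
  rw [pow_eq_iff] at h1
  exact Nat.pos_of_dvd_of_pos h1 (Nat.pos_of_ne_zero hn)

theorem orb_mul (d k : ℕ) {P : X} (h : (D.φ ^ d) P = P) : D.orb (d * k) P = k • D.orb d P := by
  induction k with
  | zero => simp [orb]
  | succ k ih =>
    rw [Nat.mul_succ, orb, Finset.sum_range_add, succ_nsmul, ← ih, orb]
    congr 1
    refine Finset.sum_congr rfl fun i _ => ?_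
    have h1 : (D.φ ^ (d * k)) P = P := by
      rw [pow_eq_iff] at h ⊢
      exact Dvd.dvd.mul_right h k
    rw [add_comm, pow_add, Equiv.Perm.mul_apply, h1]

theorem orb_per_apply (P Q : X) : D.orb (D.per P) P Q ≤ 1 := by
  classical
  rw [orb, Finsupp.finsetSum_apply]
  simp only [Finsupp.single_apply]
  rw [Finset.sum_boole]
  simp only [Nat.cast_id]
  rw [Finset.card_le_one]
  intro i hi j hj
  rw [Finset.mem_filter, Finset.mem_range] at hi hj
  have h1 := iterate_injOn_Iio_minimalPeriod (f := D.φ) (x := P) hi.1 hj.1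
  apply h1
  simp only [Equiv.Perm.iterate_eq_pow]
  rw [hi.2, hj.2]

theorem orb_apply_ne {n : ℕ} {P Q : X} (h : D.orb n P Q ≠ 0) : ∃ i, Q = (D.φ ^ i) P := by
  classical
  rw [orb, Finsupp.finsetSum_apply] at h
  obtain ⟨i, -, hi⟩ := Finset.exists_ne_zero_of_sum_ne_zero h
  rw [Finsupp.single_apply] at hi
  exact ⟨i, by_contra fun h => hi (if_neg fun h' => h h'.symm)⟩

theorem orb_self {P : X} (hP : 0 < D.per P) : 1 ≤ D.orb (D.per P) P P := by
  classical
  rw [orb, Finsupp.finsetSum_apply]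
  have h1 : (Finsupp.single ((D.φ ^ 0) P) 1 : X →₀ ℕ) P = 1 := by simp
  exact h1.symm.le.trans (Finset.single_le_sum
    (f := fun i => (Finsupp.single ((D.φ ^ i) P) 1 : X →₀ ℕ) P)
    (fun i _ => Nat.zero_le _) (Finset.mem_range.2 hP))

theorem orb_le_iff {m : ℕ} {E : X →₀ ℕ} (hE : D.IsEff m E) {P : X} (hP : 0 < D.per P) (k : ℕ) :
    D.orb (D.per P * k) P ≤ E ↔ k ≤ E P := by
  rw [D.orb_mul _ _ (D.pow_eq_iff.2 dvd_rfl)]
  constructor
  · intro h
    have h1 := h P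
    rw [Finsupp.smul_apply, smul_eq_mul] at h1
    have h2 := D.orb_self hP
    nlinarith
  · intro h Q
    rw [Finsupp.smul_apply, smul_eq_mul]
    by_cases h0 : D.orb (D.per P) P Q = 0
    · rw [h0, mul_zero]; exact Nat.zero_le _
    · obtain ⟨i, rfl⟩ := D.orb_apply_ne h0
      rw [hE.pow]
      have := D.orb_per_apply P ((D.φ ^ i) P)
      nlinarith

/-- pairs (point, effective divisor) of total degree `m` -/
def T (m : ℕ) : Finset (Σ _ : ℕ, X × (X →₀ ℕ)) :=
  (Finset.Icc 1 m).sigma fun n => (D.fix n) ×ˢ (D.eff (m - n))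

/-- the sum -/
def tot (t : Σ _ : ℕ, X × (X →₀ ℕ)) : X →₀ ℕ := D.orb t.1 t.2.1 + t.2.2

theorem mem_T {m : ℕ} {t : Σ _ : ℕ, X × (X →₀ ℕ)} : t ∈ D.T m ↔
    (1 ≤ t.1 ∧ t.1 ≤ m) ∧ (D.φ ^ t.1) t.2.1 = t.2.1 ∧ D.IsEff (m - t.1) t.2.2 := by
  rw [T, Finset.mem_sigma, Finset.mem_Icc, Finset.mem_product, mem_eff]
  constructor
  · rintro ⟨h1, h2, h3⟩
    exact ⟨h1, (D.mem_fix (by omega)).1 h2, h3⟩
  · rintro ⟨h1, h2, h3⟩
    exact ⟨h1, (D.mem_fix (by omega)).2 h2, h3⟩

theorem tot_mem {m : ℕ} {t : Σ _ : ℕ, X × (X →₀ ℕ)} (ht : t ∈ D.T m) : D.tot t ∈ D.eff m := by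
  rw [mem_T] at ht
  rw [mem_eff, tot]
  have := (D.isEff_orb ht.2.1).add D ht.2.2
  rwa [Nat.add_sub_cancel' ht.1.2] at this

open Classical in
theorem card_fiber {m : ℕ} {E : X →₀ ℕ} (hE : D.IsEff m E) :
    ((D.T m).filter fun t => D.tot t = E).card = m := by
  have h1 : (E.support.sigma fun P => Finset.range (E P)).card = m := by
    rw [Finset.card_sigma]
    simp only [Finset.card_range]
    rw [← hE.2]
    rfl
  refine Eq.trans ?_ h1
  symm
  refine Finset.card_bij (fun x _ => ⟨D.per x.1 * (x.2 + 1), x.1, E - D.orb (D.per x.1 * (x.2 + 1)) x.1⟩)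
    ?_ ?_ ?_
  · rintro ⟨P, j⟩ hx
    rw [Finset.mem_sigma, Finsupp.mem_support_iff, Finset.mem_range] at hx
    obtain ⟨hP, hj⟩ := hx
    simp only at hP hj ⊢
    have hper := D.per_pos hE hP
    have hle : D.orb (D.per P * (j + 1)) P ≤ E := (D.orb_le_iff hE hper (j + 1)).2 hj
    have hfix : (D.φ ^ (D.per P * (j + 1))) P = P := D.pow_eq_iff.2 (dvd_mul_right _ _)
    obtain ⟨h2, h3⟩ := hE.sub D (D.isEff_orb hfix) hle
    rw [Finset.mem_filter, mem_T]
    refine ⟨⟨⟨Nat.mul_pos hper (Nat.succ_pos j), h3⟩, hfix, h2⟩, ?_⟩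
    rw [tot]
    exact add_tsub_cancel_of_le hle
  · rintro ⟨P, j⟩ hx ⟨P', j'⟩ hx' h
    rw [Finset.mem_sigma, Finsupp.mem_support_iff, Finset.mem_range] at hx
    simp only [Sigma.mk.injEq, heq_eq_eq, Prod.mk.injEq] at h
    obtain ⟨h2, rfl, -⟩ := h
    have h3 := Nat.eq_of_mul_eq_mul_left (D.per_pos hE hx.1) h2
    obtain rfl : j = j' := by omega
    rfl
  · rintro ⟨n, P, E'⟩ ht
    rw [Finset.mem_filter, mem_T] at ht
    obtain ⟨⟨⟨h2, h3⟩, h4, h5⟩, h6⟩ := ht
    simp only [tot] at h2 h3 h4 h5 h6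
    have hn := D.pow_eq_iff.1 h4
    obtain ⟨k, rfl⟩ := hn
    have hper : 0 < D.per P := Nat.pos_of_ne_zero fun h => by rw [h] at h2; simp at h2
    have hk : k ≠ 0 := fun h => by rw [h] at h2; simp at h2
    have hle : D.orb (D.per P * k) P ≤ E := by rw [← h6]; exact le_self_add
    have hkE := (D.orb_le_iff hE hper k).1 hle
    refine ⟨⟨P, k - 1⟩, ?_, ?_⟩
    · rw [Finset.mem_sigma, Finsupp.mem_support_iff, Finset.mem_range]
      simp only
      omega
    · simp only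
      have e : k - 1 + 1 = k := by omega
      rw [e, ← h6, add_tsub_cancel_left]

section count

variable {K : Type*} [CommRing K]

/-- `χ` is a character on the fixed classes -/
structure IsChar (χ : J → K) : Prop where
  zero : χ 0 = 1
  add : ∀ a b, D.Φ a = a → D.Φ b = b → χ (a + b) = χ a * χ b

/-- the sum of `χ` over the effective divisors -/
def bb (χ : J → K) (m : ℕ) : K := ∑ E ∈ D.eff m, χ (D.cls E)

/-- the sum over the fixed points -/
def SS (χ : J → K) (n : ℕ) : K := ∑ P ∈ D.fix n, χ (D.cls (D.orb n P))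

theorem count {χ : J → K} (hχ : D.IsChar χ) (m : ℕ) :
    (m : K) * D.bb χ m = ∑ n ∈ Finset.Icc 1 m, D.SS χ n * D.bb χ (m - n) := by
  classical
  have h1 : ∑ n ∈ Finset.Icc 1 m, D.SS χ n * D.bb χ (m - n) = ∑ t ∈ D.T m, χ (D.cls (D.tot t)) := by
    rw [T, Finset.sum_sigma]
    refine Finset.sum_congr rfl fun n hn => ?_
    rw [Finset.mem_Icc] at hn
    rw [SS, bb, Finset.sum_mul_sum, ← Finset.sum_product']
    refine Finset.sum_congr rfl fun x hx => ?_
    rw [Finset.mem_product, D.mem_fix (by omega), mem_eff] at hx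
    rw [tot, map_add, hχ.add _ _ (D.cls_Φ (D.isEff_orb hx.1)) (D.cls_Φ hx.2)]
  rw [h1, ← Finset.sum_fiberwise_of_maps_to (fun t ht => D.tot_mem ht), bb, Finset.mul_sum]
  refine Finset.sum_congr rfl fun E hE => ?_
  rw [Finset.sum_congr rfl (g := fun _ => χ (D.cls E)), Finset.sum_const, nsmul_eq_mul,
    D.card_fiber (D.mem_eff.1 hE)]
  intro t ht
  rw [(Finset.mem_filter.1 ht).2]

end count

end FrobData

end

end Fermat.Agent.S27A
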