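import Fermat.Agent.S27A.LF2

/-!
# The zeta function
-/

set_option autoImplicit false
set_option linter.style.haveILetI false
set_option linter.unusedSectionVars false

namespace Fermat.Agent.S27A

noncomputable section

namespace FrobData

open Function

variable {J X : Type*} [AddCommGroup J] (D : FrobData J X)

open Classical in
/-- number of effective divisors in a class -/
theorem card_cls {c : J} (hc : D.Φ c = c) (m : ℕ) :
    ((D.eff m).filter fun E => D.cls E = c).card * (D.q - 1) = D.q ^ (D.el c m) - 1 := by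
  have h1 := D.card_eff 1 one_ne_zero c (by rw [pow_one]; exact hc) m
  simp only [pow_one, one_mul] at h1
  rw [← h1]
  congr 1
  refine (Nat.subtype_card _ fun E => ?_).symm
  rw [Finset.mem_filter, mem_eff, IsEff, cls_apply, and_assoc]

theorem finite_fix1 : {c : J | D.Φ c = c}.Finite := by
  classical
  refine ((D.eff (2 * D.g)).image D.cls).finite_toSet.subset fun c hc => ?_
  have h1 := D.card_cls hc (2 * D.g)
  have h2 := D.el_large c (2 * D.g) (by omega)
  have h3 : D.el c (2 * D.g) ≠ 0 := by omega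
  have h4 : 1 < D.q ^ D.el c (2 * D.g) := Nat.one_lt_pow h3 D.hq
  have h5 : ((D.eff (2 * D.g)).filter fun E => D.cls E = c).card ≠ 0 := by
    intro h
    rw [h, zero_mul] at h1
    omega
  obtain ⟨E, hE⟩ := Finset.card_pos.1 (Nat.pos_of_ne_zero h5)
  rw [Finset.mem_filter] at hE
  rw [Finset.coe_image]
  exact ⟨E, hE.1, hE.2⟩

/-- the fixed classes -/
def fixJ : Finset J := D.finite_fix1.toFinset

theorem mem_fixJ {c : J} : c ∈ D.fixJ ↔ D.Φ c = c := Set.Finite.mem_toFinset _

theorem zero_mem_fixJ : (0 : J) ∈ D.fixJ := D.mem_fixJ.2 (map_zero _)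

section K

variable {K : Type*} [CommRing K]

theorem q_mul_bb (χ : J → K) (m : ℕ) :
    ((D.q : K) - 1) * D.bb χ m = ∑ c ∈ D.fixJ, χ c * ((D.q : K) ^ D.el c m - 1) := by
  classical
  have h1 : D.bb χ m = ∑ c ∈ D.fixJ, (((D.eff m).filter fun E => D.cls E = c).card : K) * χ c := by
    rw [bb, ← Finset.sum_fiberwise_of_maps_to (t := D.fixJ) (g := D.cls)
      (fun E hE => D.mem_fixJ.2 (D.cls_Φ (D.mem_eff.1 hE)))]
    refine Finset.sum_congr rfl fun c _ => ?_
    rw [Finset.sum_congr rfl (g := fun _ => χ c), Finset.sum_const, nsmul_eq_mul]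
    intro E hE
    rw [(Finset.mem_filter.1 hE).2]
  rw [h1, Finset.mul_sum]
  refine Finset.sum_congr rfl fun c hc => ?_
  have h2 := D.card_cls (D.mem_fixJ.1 hc) m
  have h3 : ((((D.eff m).filter fun E => D.cls E = c).card * (D.q - 1) : ℕ) : K) =
      ((D.q ^ (D.el c m) - 1 : ℕ) : K) := by rw [h2]
  rw [Nat.cast_mul, Nat.cast_sub D.hq.le, Nat.cast_sub (Nat.one_le_pow _ _ (by have := D.hq; omega)),
    Nat.cast_pow, Nat.cast_one] at h3
  rw [← h3]
  ring

theorem eff_zero : D.eff 0 = {0} := by
  ext E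
  rw [mem_eff, Finset.mem_singleton, isEff_iff]
  constructor
  · rintro ⟨-, h⟩
    rwa [Finsupp.degree_eq_zero_iff] at h
  · rintro rfl
    simp

theorem bb_zero {χ : J → K} (hχ : χ 0 = 1) : D.bb χ 0 = 1 := by
  rw [bb, eff_zero, Finset.sum_singleton, map_zero, hχ]

end K

/-- the trivial character -/
theorem isChar_one {K : Type*} [CommRing K] : D.IsChar (fun _ => (1 : K)) :=
  ⟨rfl, fun _ _ _ _ => (one_mul 1).symm⟩

section LD

open PowerSeries

variable {K : Type*} [Field K] [CharZero K]

theorem ld {χ : J → K} (hχ : D.IsChar χ) :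
    LD (PowerSeries.mk (D.bb χ)) (PowerSeries.mk fun n => if n = 0 then 0 else D.SS χ n) := by
  refine ⟨?_, fun m => ?_, ?_⟩
  · rw [coeff_mk, D.bb_zero hχ.zero]
  · rw [coeff_mk, D.count hχ, Finset.Nat.sum_antidiagonal_eq_sum_range_succ_mk]
    simp only [coeff_mk]
    rw [Finset.sum_range_succ', if_pos rfl, zero_mul, add_zero]
    refine Finset.sum_nbij' (fun n => n - 1) (fun i => i + 1) ?_ ?_ ?_ ?_ ?_
    · intro n hn
      rw [Finset.mem_Icc] at hn
      exact Finset.mem_range.2 (by omega)
    · intro i hi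
      rw [Finset.mem_range] at hi
      exact Finset.mem_Icc.2 ⟨by omega, by omega⟩
    · intro n hn
      rw [Finset.mem_Icc] at hn
      omega
    · intro i _
      exact Nat.add_sub_cancel i 1
    · intro n hn
      rw [Finset.mem_Icc] at hn
      have e : n - 1 + 1 = n := by omega
      rw [if_neg (by omega), e]
  · rw [coeff_mk, if_pos rfl]

end LD

end FrobData

end

end Fermat.Agent.S27A
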