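import Fermat.Agent.S27A.LF3

/-!
# The `L`-polynomial
-/

set_option autoImplicit false
set_option linter.style.haveILetI false
set_option linter.unusedSectionVars false

namespace Fermat.Agent.S27A

noncomputable section

namespace FrobData

open Function PowerSeries

variable {J V : Type*} [AddCommGroup J] (D : FrobData J V)

/-- number of effective divisors -/
def Ac (m : ℕ) : ℤ := D.bb (fun _ => (1 : ℤ)) m

/-- the class number -/
def hh : ℕ := D.fixJ.card

theorem hh_pos : 0 < D.hh := Finset.card_pos.2 ⟨0, D.zero_mem_fixJ⟩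

theorem Ac_zero : D.Ac 0 = 1 := D.bb_zero rfl

theorem q_pos : (0 : ℤ) < D.q := by have := D.hq; omega

theorem q_sub_ne : ((D.q : ℤ) - 1) ≠ 0 := by have := D.hq; omega

theorem Ac_large {m e : ℕ} (h : 2 * D.g ≤ m + 1) (he : e + D.g = m + 1) :
    ((D.q : ℤ) - 1) * D.Ac m = D.hh * ((D.q : ℤ) ^ e - 1) := by
  rw [Ac, D.q_mul_bb]
  rw [Finset.sum_congr rfl (g := fun _ => ((D.q : ℤ) ^ e - 1)), Finset.sum_const, nsmul_eq_mul, hh]
  intro c _
  have := D.el_large c m h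
  have e1 : D.el c m = e := by omega
  rw [e1, one_mul]

theorem Ac_crit {k : ℕ} (hg : D.g = k + 1) :
    ((D.q : ℤ) - 1) * D.Ac (2 * k) = D.hh * ((D.q : ℤ) ^ k - 1) + ((D.q : ℤ) ^ (k + 1) - (D.q : ℤ) ^ k) := by
  classical
  obtain ⟨c₀, h1, h2⟩ := D.el_crit (by omega)
  have e : 2 * D.g - 2 = 2 * k := by omega
  have e' : D.g - 1 = k := by omega
  rw [e] at h1 h2
  rw [e'] at h2
  have hc₀ : c₀ ∈ D.fixJ := by
    rw [mem_fixJ]
    by_contra h
    have h3 := h2 _ h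
    rw [D.el_Φ, h1] at h3
    omega
  rw [Ac, D.q_mul_bb, ← Finset.add_sum_erase _ _ hc₀, h1, one_mul]
  rw [Finset.sum_congr rfl (g := fun _ => ((D.q : ℤ) ^ k - 1)), Finset.sum_const, nsmul_eq_mul,
    Finset.card_erase_of_mem hc₀, hg]
  · have h4 := D.hh_pos
    rw [hh] at h4 ⊢
    rw [Nat.cast_sub (by omega)]
    push_cast
    ring
  · intro c hc
    rw [h2 c (Finset.ne_of_mem_erase hc), one_mul]

/-- the zeta function -/
def Zs : ℤ⟦X⟧ := PowerSeries.mk D.Ac

/-- `(1 - qT) Z` -/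
def Ys : ℤ⟦X⟧ := (1 - C (D.q : ℤ) * X) * D.Zs

/-- `(1 - T) (1 - qT) Z` -/
def Ls : ℤ⟦X⟧ := (1 - X) * D.Ys

theorem coeff_Ys_zero : coeff 0 D.Ys = 1 := by
  simp [Ys, Zs, D.Ac_zero]

theorem coeff_Ys_succ (m : ℕ) : coeff (m + 1) D.Ys = D.Ac (m + 1) - D.q * D.Ac m := by
  rw [Ys, sub_mul, one_mul, mul_assoc, map_sub, coeff_C_mul, coeff_succ_X_mul, Zs, coeff_mk, coeff_mk]

theorem coeff_Ls_zero : coeff 0 D.Ls = 1 := by
  rw [Ls, coeff_zero_eq_constantCoeff, map_mul, ← coeff_zero_eq_constantCoeff_apply D.Ys, coeff_Ys_zero]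
  simp

theorem coeff_Ls_succ (m : ℕ) : coeff (m + 1) D.Ls = coeff (m + 1) D.Ys - coeff m D.Ys := by
  rw [Ls, sub_mul, one_mul, map_sub, coeff_succ_X_mul]

theorem sum_Ls (M : ℕ) : ∑ i ∈ Finset.range (M + 1), coeff i D.Ls = coeff M D.Ys := by
  induction M with
  | zero => rw [zero_add, Finset.sum_range_one, coeff_Ls_zero, coeff_Ys_zero]
  | succ M ih => rw [Finset.sum_range_succ, ih, coeff_Ls_succ]; ring

theorem coeff_Ys_large {m : ℕ} (h : 2 * D.g ≤ m) : coeff m D.Ys = D.hh := by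
  apply mul_left_cancel₀ D.q_sub_ne
  rcases m with _ | m
  · have hg : D.g = 0 := by omega
    have h1 := D.Ac_large (m := 0) (e := 1) (by omega) (by omega)
    rw [Ac_zero] at h1
    rw [coeff_Ys_zero, h1]
    ring
  · rw [coeff_Ys_succ]
    obtain ⟨e, he⟩ : ∃ e, e + D.g = m + 1 := ⟨m + 1 - D.g, by omega⟩
    have h1 := D.Ac_large (m := m) (e := e) (by omega) he
    have h2 := D.Ac_large (m := m + 1) (e := e + 1) (by omega) (by omega)
    rw [mul_sub, mul_left_comm, h1, h2]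
    ring

theorem coeff_Ls_large {m : ℕ} (h : 2 * D.g < m) : coeff m D.Ls = 0 := by
  obtain ⟨m, rfl⟩ : ∃ k, m = k + 1 := ⟨m - 1, by omega⟩
  rw [coeff_Ls_succ, D.coeff_Ys_large (by omega), D.coeff_Ys_large (by omega), sub_self]

theorem coeff_Ls_crit : coeff (2 * D.g) D.Ls = (D.q : ℤ) ^ D.g := by
  rcases hg : D.g with _ | k
  · rw [mul_zero, coeff_Ls_zero, pow_zero]
  · have e : 2 * (k + 1) = 2 * k + 1 + 1 := by ring
    rw [e, coeff_Ls_succ, D.coeff_Ys_large (by omega), coeff_Ys_succ]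
    apply mul_left_cancel₀ D.q_sub_ne
    have h1 := D.Ac_crit hg
    have h2 := D.Ac_large (m := 2 * k + 1) (e := k + 1) (by omega) (by omega)
    rw [mul_sub, mul_sub, h2, mul_left_comm, h1]
    ring

/-- the `L`-polynomial -/
def Lp : Polynomial ℤ := PowerSeries.trunc (2 * D.g + 1) D.Ls

theorem coe_Lp : ((D.Lp : Polynomial ℤ) : ℤ⟦X⟧) = D.Ls := by
  ext m
  rw [Lp, Polynomial.coeff_coe, coeff_trunc]
  split_ifs with h
  · rfl
  · rw [D.coeff_Ls_large (by omega)]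

theorem coeff_Lp (m : ℕ) : D.Lp.coeff m = coeff m D.Ls := by
  rw [← Polynomial.coeff_coe, coe_Lp]

theorem natDegree_Lp : D.Lp.natDegree = 2 * D.g := by
  apply le_antisymm
  · rw [Polynomial.natDegree_le_iff_coeff_eq_zero]
    intro m hm
    rw [coeff_Lp, D.coeff_Ls_large hm]
  · apply Polynomial.le_natDegree_of_ne_zero
    rw [coeff_Lp, coeff_Ls_crit]
    exact pow_ne_zero _ D.q_pos.ne'

theorem eval_Lp : D.Lp.eval 1 = D.hh := by
  rw [Polynomial.eval_eq_sum_range, natDegree_Lp]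
  simp only [one_pow, mul_one, coeff_Lp]
  rw [sum_Ls, D.coeff_Ys_large le_rfl]

section K

variable {K : Type*} [Field K] [CharZero K]

theorem SS_one (n : ℕ) : D.SS (fun _ => (1 : K)) n = (D.fix n).card := by
  rw [SS]; simp

theorem map_Ac (m : ℕ) : ((D.Ac m : ℤ) : K) = D.bb (fun _ => (1 : K)) m := by
  rw [Ac, bb, bb]; simp

/-- the point count -/
theorem zeta {s : Multiset K} (hs : D.Lp.map (Int.castRingHom K) = prp s) {n : ℕ} (hn : n ≠ 0) :
    ((D.fix n).card : K) = 1 + (D.q : K) ^ n - (s.map fun α => α ^ n).sum := by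
  have h1 := ((LD.lin (1 : K)).mul (LD.lin (D.q : K))).mul (D.ld (D.isChar_one (K := K)))
  have h2 : (1 - C (1 : K) * X) * (1 - C (D.q : K) * X) * PowerSeries.mk (D.bb (fun _ => (1 : K))) = pr s := by
    rw [← coe_prp, ← hs]
    have h3 : ((Polynomial.map (Int.castRingHom K) D.Lp : Polynomial K) : K⟦X⟧) =
        PowerSeries.map (Int.castRingHom K) ((D.Lp : Polynomial ℤ) : ℤ⟦X⟧) := by
      ext m; simp
    rw [h3, coe_Lp, Ls, Ys, Zs, map_mul, map_mul]
    have h4 : PowerSeries.map (Int.castRingHom K) (PowerSeries.mk D.Ac) =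
        PowerSeries.mk (D.bb (fun _ => (1 : K))) := by
      ext m
      rw [PowerSeries.coeff_map, coeff_mk, coeff_mk, eq_intCast, D.map_Ac]
    rw [h4]
    simp [mul_assoc]
  rw [h2] at h1
  have h5 := congrArg (coeff n) ((LD.prod s).inj_right h1)
  rw [map_neg, coeff_ps s hn, map_add, map_add, map_neg, map_neg, pw, pw, coeff_mk, coeff_mk, coeff_mk,
    if_neg hn, if_neg hn, if_neg hn, SS_one, one_pow] at h5
  linear_combination -h5

end K

end FrobData

end

end Fermat.Agent.S27A
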