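import Fermat.Agent.S27A.LF4

/-!
# Class numbers of the constant extensions; norms are surjective
-/

set_option autoImplicit false
set_option linter.style.haveILetI false
set_option linter.unusedSectionVars false

namespace Fermat.Agent.S27A

noncomputable section

namespace FrobData

open Function

variable {J V : Type*} [AddCommGroup J] (D : FrobData J V)

theorem Lp_zero : D.Lp.coeff 0 = 1 := by rw [coeff_Lp, coeff_Ls_zero]

theorem exists_alpha : ∃ s : Multiset ℂ, D.Lp.map (Int.castRingHom ℂ) = prp s ∧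
    Multiset.card s = 2 * D.g := by
  obtain ⟨s, h1, h2⟩ := exists_prp (D.Lp.map (Int.castRingHom ℂ)) (by
    rw [Polynomial.coeff_map, D.Lp_zero, map_one])
  refine ⟨s, h1, ?_⟩
  rw [h2, Polynomial.natDegree_map_eq_of_injective (RingHom.injective_int _), D.natDegree_Lp]

theorem hh_eq {s : Multiset ℂ} (hs : D.Lp.map (Int.castRingHom ℂ) = prp s) :
    (D.hh : ℂ) = (s.map fun α => 1 - α).prod := by
  have h1 := congrArg (Polynomial.eval 1) hs
  rw [Polynomial.eval_one_map, D.eval_Lp, eval_prp] at h1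
  simpa using h1

theorem fix_pow {n : ℕ} (hn : n ≠ 0) {k : ℕ} (hk : k ≠ 0) : (D.pow n hn).fix k = D.fix (n * k) := by
  ext P
  rw [mem_fix _ hk, mem_fix _ (mul_ne_zero hn hk), pow_mul]
  rfl

/-- the `L`-polynomial of the extension of degree `n` -/
theorem prp_pow {s : Multiset ℂ} (hs : D.Lp.map (Int.castRingHom ℂ) = prp s) {n : ℕ} (hn : n ≠ 0) :
    (D.pow n hn).Lp.map (Int.castRingHom ℂ) = prp (s.map fun α => α ^ n) := by
  obtain ⟨t, ht, -⟩ := (D.pow n hn).exists_alpha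
  rw [ht]
  apply prp_ext
  intro k hk
  have h1 := (D.pow n hn).zeta ht hk
  have h2 := D.zeta hs (mul_ne_zero hn hk)
  rw [fix_pow, h2] at h1
  have h3 : (((D.pow n hn).q : ℕ) : ℂ) = (D.q : ℂ) ^ n := by
    change ((D.q ^ n : ℕ) : ℂ) = _
    push_cast
    rfl
  rw [h3, ← pow_mul] at h1
  rw [Multiset.map_map]
  have h4 : (s.map ((fun α => α ^ k) ∘ fun α => α ^ n)) = s.map fun α => α ^ (n * k) := by
    refine Multiset.map_congr rfl fun α _ => ?_
    simp [pow_mul]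
  rw [h4]
  linear_combination h1
  exact hk

/-- the class number of the extension of degree `n` -/
theorem hh_pow {s : Multiset ℂ} (hs : D.Lp.map (Int.castRingHom ℂ) = prp s) {n : ℕ} (hn : n ≠ 0) :
    ((D.pow n hn).hh : ℂ) = (s.map fun α => 1 - α ^ n).prod := by
  rw [hh_eq _ (D.prp_pow hs hn), Multiset.map_map]
  rfl

theorem finite_fixJ {n : ℕ} (hn : n ≠ 0) : Finite {c : J // (D.Φ ^ n) c = c} :=
  (D.pow n hn).finite_fix1

theorem card_fixJ {n : ℕ} (hn : n ≠ 0) : Nat.card {c : J // (D.Φ ^ n) c = c} = (D.pow n hn).hh := by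
  rw [hh]
  exact Nat.subtype_card _ fun c => (D.pow n hn).mem_fixJ

/-! ### norms -/

theorem pow_add_apply (m n : ℕ) (c : J) : (D.Φ ^ (m + n)) c = (D.Φ ^ m) ((D.Φ ^ n) c) := by
  rw [pow_add]; rfl

/-- a nontrivial character which is trivial on norms -/
theorem exists_char {ℓ : ℕ} {x : J} (hx : D.Φ x = x)
    (hn : ¬ ∃ y, (D.Φ ^ ℓ) y = y ∧ x = ∑ i ∈ Finset.range ℓ, (D.Φ ^ i) y) :
    ∃ χ : J → ℂ, D.IsChar χ ∧ χ x ≠ 1 ∧
      ∀ y, (D.Φ ^ ℓ) y = y → χ (∑ i ∈ Finset.range ℓ, (D.Φ ^ i) y) = 1 := by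
  classical
  let G : AddSubgroup J := (AddMonoidHom.eqLocus (D.Φ : J →+ J) (AddMonoidHom.id J))
  have hG : ∀ c, c ∈ G ↔ D.Φ c = c := fun c => Iff.rfl
  haveI : Finite G := D.finite_fix1
  have hcomm : ∀ (i : ℕ) (c : J), D.Φ ((D.Φ ^ i) c) = (D.Φ ^ i) (D.Φ c) := fun i c => by
    have h1 := D.pow_add_apply 1 i c
    have h2 := D.pow_add_apply i 1 c
    rw [pow_one] at h1 h2
    rw [← h1, ← h2, add_comm]
  have hNm : ∀ y, (D.Φ ^ ℓ) y = y → (∑ i ∈ Finset.range ℓ, (D.Φ ^ i) y) ∈ G := fun y hy => by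
    rw [hG, map_sum]
    have h2 := Finset.sum_range_succ (fun i => (D.Φ ^ i) y) ℓ
    rw [Finset.sum_range_succ', hy, pow_zero] at h2
    have h3 := add_right_cancel h2
    rw [← h3]
    refine Finset.sum_congr rfl fun i _ => ?_
    rw [add_comm i 1, D.pow_add_apply 1 i y, pow_one]
  let N : AddSubgroup G :=
    { carrier := {z | ∃ y, (D.Φ ^ ℓ) y = y ∧ (z : J) = ∑ i ∈ Finset.range ℓ, (D.Φ ^ i) y}
      zero_mem' := ⟨0, map_zero _, by simp⟩
      add_mem' := by
        rintro a b ⟨y, h1, h2⟩ ⟨y', h3, h4⟩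
        refine ⟨y + y', by rw [map_add, h1, h3], ?_⟩
        simp only [map_add, Finset.sum_add_distrib]
        rw [← h2, ← h4]
        rfl
      neg_mem' := by
        rintro a ⟨y, h1, h2⟩
        refine ⟨-y, by rw [map_neg, h1], ?_⟩
        simp only [map_neg, Finset.sum_neg_distrib]
        rw [← h2]
        rfl }
  have hxN : (⟨x, hx⟩ : G) ∉ N := hn
  have hq : (QuotientAddGroup.mk (⟨x, hx⟩ : G) : G ⧸ N) ≠ 0 := by
    rwa [Ne, QuotientAddGroup.eq_zero_iff]
  obtain ⟨ψ, hψ⟩ := (AddChar.exists_apply_ne_zero (α := G ⧸ N)).2 hq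
  let χ : J → ℂ := fun c => if h : c ∈ G then ψ (QuotientAddGroup.mk (⟨c, h⟩ : G)) else 0
  have hχ : ∀ c (h : c ∈ G), χ c = ψ (QuotientAddGroup.mk (⟨c, h⟩ : G)) := fun c h => dif_pos h
  refine ⟨χ, ⟨?_, ?_⟩, ?_, ?_⟩
  · rw [hχ 0 G.zero_mem]
    have : (QuotientAddGroup.mk (⟨0, G.zero_mem⟩ : G) : G ⧸ N) = 0 := rfl
    rw [this, AddChar.map_zero_eq_one]
  · intro a b ha hb
    rw [hχ a ha, hχ b hb, hχ (a + b) (G.add_mem ha hb), ← AddChar.map_add_eq_mul]
    rfl
  · rw [hχ x hx]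
    exact hψ
  · intro y hy
    have h1 := hNm y hy
    rw [hχ _ h1]
    have : (QuotientAddGroup.mk (⟨_, h1⟩ : G) : G ⧸ N) = 0 := by
      rw [QuotientAddGroup.eq_zero_iff]
      exact ⟨y, hy, rfl⟩
    rw [this, AddChar.map_zero_eq_one]

theorem cls_orb (n : ℕ) (P : V) : D.cls (D.orb n P) = ∑ i ∈ Finset.range n, (D.Φ ^ i) (D.cl P) := by
  rw [orb, map_sum]
  refine Finset.sum_congr rfl fun i _ => ?_
  rw [cls_apply, Finsupp.sum_single_index (by simp), one_smul, cl_pow]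

/-- **norms are surjective** -/
theorem norm_surj1 {ℓ : ℕ} (hℓ : ℓ ≠ 0) {x : J} (hx : D.Φ x = x) :
    ∃ y, (D.Φ ^ ℓ) y = y ∧ x = ∑ i ∈ Finset.range ℓ, (D.Φ ^ i) y := by
  classical
  by_contra hn
  obtain ⟨χ, h1, h2, h3⟩ := D.exists_char hx hn
  -- the sum of the character vanishes
  have hsum : ∑ c ∈ D.fixJ, χ c = 0 := by
    have h4 : ∑ c ∈ D.fixJ, χ c = χ x * ∑ c ∈ D.fixJ, χ c := by
      rw [Finset.mul_sum]
      refine Finset.sum_nbij' (fun c => c - x) (fun c => x + c) ?_ ?_ ?_ ?_ ?_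
      · intro c hc
        rw [mem_fixJ] at hc ⊢
        rw [map_sub, hc, hx]
      · intro c hc
        rw [mem_fixJ] at hc ⊢
        rw [map_add, hc, hx]
      · intro c _; abel
      · intro c _; abel
      · intro c hc
        rw [mem_fixJ] at hc
        rw [← h1.add _ _ hx (by rw [map_sub, hc, hx])]
        congr 1; abel
    have h5 : (χ x - 1) * ∑ c ∈ D.fixJ, χ c = 0 := by rw [sub_mul, ← h4, one_mul, sub_self]
    exact (mul_eq_zero.1 h5).resolve_left (sub_ne_zero.2 h2)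
  have hqc : ((D.q : ℂ) - 1) ≠ 0 := by
    have := D.hq
    rw [sub_ne_zero]
    exact_mod_cast this.ne'
  have hlarge : ∀ m, 2 * D.g ≤ m + 1 → D.bb χ m = 0 := by
    intro m hm
    apply mul_left_cancel₀ hqc
    rw [D.q_mul_bb, mul_zero]
    rw [Finset.sum_congr rfl (g := fun c => χ c * ((D.q : ℂ) ^ (m + 1 - D.g) - 1)), ← Finset.sum_mul, hsum,
      zero_mul]
    intro c _
    have := D.el_large c m hm
    have e1 : D.el c m = m + 1 - D.g := by omega
    rw [e1]
  -- the `L`-polynomial of `χ`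
  let B : Polynomial ℂ := PowerSeries.trunc (2 * D.g) (PowerSeries.mk (D.bb χ))
  have hB : (B : PowerSeries ℂ) = PowerSeries.mk (D.bb χ) := by
    ext m
    rw [Polynomial.coeff_coe, PowerSeries.coeff_trunc]
    split_ifs with h
    · rfl
    · rw [PowerSeries.coeff_mk, hlarge m (by omega)]
  have hB0 : B.coeff 0 = 1 := by
    rw [← Polynomial.coeff_coe, hB, PowerSeries.coeff_mk, D.bb_zero h1.zero]
  obtain ⟨t, ht, -⟩ := exists_prp B hB0
  have hS : ∀ n : ℕ, n ≠ 0 → D.SS χ n = -(t.map fun β => β ^ n).sum := by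
    intro n hn
    have h4 := LD.prod t
    rw [← coe_prp, ← ht, hB] at h4
    have h5 := congrArg (PowerSeries.coeff n) ((D.ld h1).inj_right h4)
    rw [map_neg, coeff_ps t hn, PowerSeries.coeff_mk, if_neg hn] at h5
    exact h5
  -- norms of points
  have hS' : ∀ k : ℕ, k ≠ 0 → D.SS χ (ℓ * k) = (D.fix (ℓ * k)).card := by
    intro k hk
    rw [SS, Finset.sum_congr rfl (g := fun _ => (1 : ℂ)), Finset.sum_const, nsmul_eq_mul, mul_one]
    intro P hP
    rw [D.mem_fix (mul_ne_zero hℓ hk)] at hP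
    have hy : (D.Φ ^ ℓ) (∑ j ∈ Finset.range k, (D.Φ ^ (ℓ * j)) (D.cl P)) =
        ∑ j ∈ Finset.range k, (D.Φ ^ (ℓ * j)) (D.cl P) := by
      rw [map_sum]
      have h5 := Finset.sum_range_succ (fun j => (D.Φ ^ (ℓ * j)) (D.cl P)) k
      rw [Finset.sum_range_succ'] at h5
      have h6 : (D.Φ ^ (ℓ * k)) (D.cl P) = D.cl P := by rw [← D.cl_pow, hP]
      rw [h6, mul_zero, pow_zero] at h5
      have h7 := add_right_cancel h5
      rw [← h7]
      refine Finset.sum_congr rfl fun j _ => ?_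
      rw [Nat.mul_succ, add_comm (ℓ * j) ℓ, D.pow_add_apply]
    have h8 : D.cls (D.orb (ℓ * k) P) = ∑ i ∈ Finset.range ℓ, (D.Φ ^ i)
        (∑ j ∈ Finset.range k, (D.Φ ^ (ℓ * j)) (D.cl P)) := by
      rw [cls_orb]
      simp only [map_sum]
      rw [Finset.sum_comm]
      simp only [← D.pow_add_apply]
      clear hy hP
      induction k with
      | zero => simp
      | succ k ih =>
        rcases Nat.eq_zero_or_pos k with rfl | hk0
        · simp
        · rw [Nat.mul_succ, Finset.sum_range_add, Finset.sum_range_succ, ih hk0.ne']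
          congr 1
          refine Finset.sum_congr rfl fun i _ => ?_
          rw [add_comm]
    rw [h8]
    exact h3 _ hy
  obtain ⟨s, hs, -⟩ := D.exists_alpha
  have h9 : prp (s.map fun α => α ^ ℓ) = prp (1 ::ₘ ((D.q : ℂ) ^ ℓ) ::ₘ (t.map fun β => β ^ ℓ)) := by
    apply prp_ext
    intro k hk
    have h10 := D.zeta hs (mul_ne_zero hℓ hk)
    rw [← hS' k hk, hS _ (mul_ne_zero hℓ hk)] at h10
    simp only [Multiset.map_cons, Multiset.sum_cons, Multiset.map_map]
    have e1 : (s.map ((fun α => α ^ k) ∘ fun α => α ^ ℓ)) = s.map fun α => α ^ (ℓ * k) := by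
      refine Multiset.map_congr rfl fun α _ => ?_
      simp [pow_mul]
    have e2 : (t.map ((fun α => α ^ k) ∘ fun α => α ^ ℓ)) = t.map fun α => α ^ (ℓ * k) := by
      refine Multiset.map_congr rfl fun α _ => ?_
      simp [pow_mul]
    rw [e1, e2, one_pow, ← pow_mul]
    linear_combination h10
  have h11 := (D.pow ℓ hℓ).hh_eq (D.prp_pow hs hℓ)
  have h12 := congrArg (Polynomial.eval 1) h9
  rw [eval_prp, eval_prp] at h12
  simp only [mul_one, Multiset.map_cons, Multiset.prod_cons, sub_self, zero_mul] at h12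
  rw [h12] at h11
  have h13 := (D.pow ℓ hℓ).hh_pos
  have h14 : ((D.pow ℓ hℓ).hh : ℂ) ≠ 0 := by exact_mod_cast h13.ne'
  exact h14 h11

/-- **norms are surjective** -/
theorem norm_surj {ℓ n : ℕ} (hℓ : ℓ ≠ 0) (hn : n ≠ 0) {x : J} (hx : (D.Φ ^ n) x = x) :
    ∃ y, (D.Φ ^ (n * ℓ)) y = y ∧ x = ∑ i ∈ Finset.range ℓ, (D.Φ ^ (n * i)) y := by
  obtain ⟨y, h1, h2⟩ := (D.pow n hn).norm_surj1 hℓ hx
  refine ⟨y, ?_, ?_⟩
  · rw [pow_mul]; exact h1
  · rw [h2]
    refine Finset.sum_congr rfl fun i _ => ?_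
    rw [pow_mul]; rfl

end FrobData

end

end Fermat.Agent.S27A
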