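import Fermat.Agent.S27A.LF1
import Fermat.Agent.S27A.Grp3

/-!
# The torsion, from the Frobenius data
-/

set_option autoImplicit false
set_option linter.unusedSectionVars false
set_option linter.style.haveILetI false

namespace Fermat.Agent.S27A

open Finset

namespace FrobData

variable {J X : Type*} [AddCommGroup J] (D : FrobData J X)

/-- **The order of the torsion**, abstract form. -/
theorem card_tor_of
    (hfinJ : ∀ {n : ℕ}, n ≠ 0 → Finite {c : J // (D.Φ ^ n) c = c})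
    (hmat : ∃ M : Matrix (Fin (2 * D.g)) (Fin (2 * D.g)) ℤ, M.det = (D.q : ℤ) ^ D.g ∧
      ∀ n : ℕ, n ≠ 0 → (Nat.card {c : J // (D.Φ ^ n) c = c} : ℤ) = (1 - M ^ n).det)
    {ℓ : ℕ} [hℓ : Fact ℓ.Prime]
    (hnorm : ∀ {n : ℕ}, n ≠ 0 → ∀ {x : J}, (D.Φ ^ n) x = x →
      ∃ y, (D.Φ ^ (n * ℓ)) y = y ∧ x = ∑ i ∈ range ℓ, (D.Φ ^ (n * i)) y)
    (horb : ∀ x : J, ∃ n : ℕ, 0 < n ∧ (D.Φ ^ n) x = x)
    (hℓq : ¬ ℓ ∣ D.q) (k : ℕ) : Nat.card (tor J (ℓ ^ k)) = ℓ ^ (2 * D.g * k) := by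
  obtain ⟨M, hdet, hM⟩ := hmat
  refine card_tor_of_frob (M := M) ?_ horb (fun n hn => ?_) (fun n hn => ?_)
    (fun n hn x hx => ?_) k
  · rw [hdet]
    intro hd
    have h1 := (Nat.prime_iff_prime_int.1 hℓ.out).dvd_of_dvd_pow hd
    exact hℓq (Int.natCast_dvd_natCast.1 h1)
  · exact hfinJ hn.ne'
  · have h1 := hM n hn.ne'
    have h2 := congrArg Int.natAbs h1
    rw [Int.natAbs_natCast] at h2
    exact h2
  · exact hnorm hn.ne' hx

end FrobData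

end Fermat.Agent.S27A
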