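import Mathlib

/-!
# Valuations of `det (1 - M ^ n)`
-/

set_option autoImplicit false
set_option linter.unusedSectionVars false
set_option linter.style.haveILetI false

namespace Fermat.Agent.S27A

open Matrix Finset

section mat

variable {ℓ : ℕ} [hℓ : Fact ℓ.Prime] {r : ℕ}

/-- an integral matrix which vanishes modulo `m` -/
theorem exists_smul_of_map {m : ℕ} {X : Matrix (Fin r) (Fin r) ℤ}
    (h : (Int.castRingHom (ZMod m)).mapMatrix X = 0) : ∃ Y, X = (m : ℤ) • Y := by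
  have h1 : ∀ i j, (m : ℤ) ∣ X i j := fun i j => by
    have h2 := congrFun (congrFun h i) j
    rw [RingHom.mapMatrix_apply, Matrix.map_apply, Matrix.zero_apply] at h2
    exact (ZMod.intCast_zmod_eq_zero_iff_dvd _ _).1 h2
  choose Y hY using h1
  refine ⟨Matrix.of Y, ?_⟩
  ext i j
  rw [Matrix.smul_apply, Matrix.of_apply, smul_eq_mul]
  exact hY i j

theorem det_mod {m : ℕ} (X : Matrix (Fin r) (Fin r) ℤ) :
    ((X.det : ℤ) : ZMod m) = ((Int.castRingHom (ZMod m)).mapMatrix X).det := by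
  rw [← RingHom.map_det]
  rfl

/-- some power is congruent to `1` -/
theorem exists_pow_one {M : Matrix (Fin r) (Fin r) ℤ} (hM : ¬ (ℓ : ℤ) ∣ M.det) :
    ∃ n₀ : ℕ, 0 < n₀ ∧ ∃ X, M ^ n₀ = 1 + (ℓ : ℤ) ^ 2 • X := by
  haveI : NeZero (ℓ ^ 2) := ⟨pow_ne_zero 2 hℓ.out.ne_zero⟩
  have hu : IsUnit ((Int.castRingHom (ZMod (ℓ ^ 2))).mapMatrix M) := by
    rw [Matrix.isUnit_iff_isUnit_det, ← det_mod]
    have h1 : IsCoprime (M.det) ((ℓ : ℤ) ^ 2) := by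
      refine IsCoprime.pow_right ?_
      exact ((Nat.prime_iff_prime_int.1 hℓ.out).coprime_iff_not_dvd.2 hM).symm
    obtain ⟨a, b, hab⟩ := h1
    refine IsUnit.of_mul_eq_one ((a : ℤ) : ZMod (ℓ ^ 2)) ?_
    have h2 : ((a * M.det + b * (ℓ : ℤ) ^ 2 : ℤ) : ZMod (ℓ ^ 2)) = 1 := by rw [hab, Int.cast_one]
    rw [Int.cast_add, Int.cast_mul, Int.cast_mul, Int.cast_pow, Int.cast_natCast] at h2
    have h3 : ((ℓ : ZMod (ℓ ^ 2))) ^ 2 = 0 := by
      rw [← Nat.cast_pow]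
      exact ZMod.natCast_self _
    rw [h3, mul_zero, add_zero] at h2
    rw [mul_comm]
    exact h2
  obtain ⟨u, hu⟩ := hu
  refine ⟨orderOf u, orderOf_pos u, ?_⟩
  have h1 : (Int.castRingHom (ZMod (ℓ ^ 2))).mapMatrix (M ^ orderOf u - 1) = 0 := by
    rw [map_sub, map_pow, ← hu, ← Units.val_pow_eq_pow_val, pow_orderOf_eq_one, Units.val_one,
      map_one, sub_self]
  obtain ⟨X, hX⟩ := exists_smul_of_map h1
  refine ⟨X, ?_⟩
  rw [← sub_eq_iff_eq_add', hX]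
  push_cast
  rfl

theorem pow_one_add {Y X : Matrix (Fin r) (Fin r) ℤ} (hY : Y = 1 + (ℓ : ℤ) ^ 2 • X) (i : ℕ) :
    ∃ Z, Y ^ i = 1 + (ℓ : ℤ) ^ 2 • Z := by
  induction i with
  | zero => exact ⟨0, by rw [pow_zero, smul_zero, add_zero]⟩
  | succ i ih =>
    obtain ⟨Z, hZ⟩ := ih
    refine ⟨Z + X + (ℓ : ℤ) ^ 2 • (Z * X), ?_⟩
    rw [pow_succ, hZ, hY]
    simp only [add_mul, mul_add, one_mul, mul_one, smul_add, Matrix.smul_mul, Matrix.mul_smul]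
    abel

theorem geom {Y : Matrix (Fin r) (Fin r) ℤ} (n : ℕ) :
    (1 - Y) * ∑ i ∈ range n, Y ^ i = 1 - Y ^ n := by
  rw [mul_neg_geom_sum]

/-- the step `n = ℓ` -/
theorem val_step {Y X : Matrix (Fin r) (Fin r) ℤ} (hY : Y = 1 + (ℓ : ℤ) ^ 2 • X)
    (h0 : (1 - Y).det ≠ 0) :
    padicValInt ℓ (1 - Y ^ ℓ).det = padicValInt ℓ (1 - Y).det + r := by
  choose Z hZ using fun i => pow_one_add hY i
  have hS : ∑ i ∈ range ℓ, Y ^ i = (ℓ : ℤ) • (1 + (ℓ : ℤ) • ∑ i ∈ range ℓ, Z i) := by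
    rw [Finset.sum_congr rfl fun i _ => hZ i, Finset.sum_add_distrib, Finset.sum_const, card_range,
      ← Finset.smul_sum, smul_add, smul_smul, ← pow_two, natCast_zsmul]
  have h2 : (1 + (ℓ : ℤ) • ∑ i ∈ range ℓ, Z i).det ≠ 0 ∧
      padicValInt ℓ (1 + (ℓ : ℤ) • ∑ i ∈ range ℓ, Z i).det = 0 := by
    have h3 : (((1 + (ℓ : ℤ) • ∑ i ∈ range ℓ, Z i).det : ℤ) : ZMod ℓ) = 1 := by
      rw [det_mod, map_add, map_one]
      have h4 : (Int.castRingHom (ZMod ℓ)).mapMatrix ((ℓ : ℤ) • ∑ i ∈ range ℓ, Z i) = 0 := by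
        ext i j
        rw [RingHom.mapMatrix_apply, Matrix.map_apply, Matrix.smul_apply, smul_eq_mul, map_mul]
        have h5 : (Int.castRingHom (ZMod ℓ)) (ℓ : ℤ) = 0 := by
          rw [map_natCast]
          exact ZMod.natCast_self ℓ
        rw [h5, zero_mul, Matrix.zero_apply]
      rw [h4, add_zero, det_one]
    have h6 : ¬ (ℓ : ℤ) ∣ (1 + (ℓ : ℤ) • ∑ i ∈ range ℓ, Z i).det := by
      rw [← ZMod.intCast_zmod_eq_zero_iff_dvd, h3]
      exact one_ne_zero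
    exact ⟨fun h => h6 (h ▸ dvd_zero _), padicValInt.eq_zero_of_not_dvd h6⟩
  have h3 : (1 - Y ^ ℓ).det = (1 - Y).det * ((ℓ : ℤ) ^ r *
      (1 + (ℓ : ℤ) • ∑ i ∈ range ℓ, Z i).det) := by
    rw [← geom ℓ, det_mul, hS, det_smul, Fintype.card_fin]
  have hl0 : (ℓ : ℤ) ^ r ≠ 0 := pow_ne_zero _ (Nat.cast_ne_zero.2 hℓ.out.ne_zero)
  have h5 : padicValInt ℓ ((ℓ : ℤ) ^ r) = r := by
    rw [← Nat.cast_pow, padicValInt.of_nat, padicValNat.prime_pow]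
  rw [h3, padicValInt.mul h0 (mul_ne_zero hl0 h2.1), padicValInt.mul hl0 h2.1, h2.2, h5, add_zero]

/-- the step `n` prime to `ℓ` -/
theorem val_coprime {Y X : Matrix (Fin r) (Fin r) ℤ} (hY : Y = 1 + (ℓ : ℤ) ^ 2 • X)
    (h0 : (1 - Y).det ≠ 0) {n : ℕ} (hn : ¬ ℓ ∣ n) :
    padicValInt ℓ (1 - Y ^ n).det = padicValInt ℓ (1 - Y).det := by
  choose Z hZ using fun i => pow_one_add hY i
  have h2 : (∑ i ∈ range n, Y ^ i).det ≠ 0 ∧ padicValInt ℓ (∑ i ∈ range n, Y ^ i).det = 0 := by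
    have h3 : (((∑ i ∈ range n, Y ^ i).det : ℤ) : ZMod ℓ) = (n : ZMod ℓ) ^ r := by
      rw [det_mod, map_sum]
      have h4 : ∀ i ∈ range n, (Int.castRingHom (ZMod ℓ)).mapMatrix (Y ^ i) = 1 := by
        intro i _
        rw [hZ i, map_add, map_one]
        have h4 : (Int.castRingHom (ZMod ℓ)).mapMatrix ((ℓ : ℤ) ^ 2 • Z i) = 0 := by
          ext i' j
          rw [RingHom.mapMatrix_apply, Matrix.map_apply, Matrix.smul_apply, smul_eq_mul, map_mul,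
            map_pow]
          have h5 : (Int.castRingHom (ZMod ℓ)) (ℓ : ℤ) = 0 := by
            rw [map_natCast]
            exact ZMod.natCast_self ℓ
          rw [h5, zero_pow two_ne_zero, zero_mul, Matrix.zero_apply]
        rw [h4, add_zero]
      rw [Finset.sum_congr rfl h4, Finset.sum_const, card_range, ← Nat.cast_smul_eq_nsmul (ZMod ℓ),
        det_smul, det_one, mul_one, Fintype.card_fin]
    have h6 : ¬ (ℓ : ℤ) ∣ (∑ i ∈ range n, Y ^ i).det := by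
      rw [← ZMod.intCast_zmod_eq_zero_iff_dvd, h3]
      refine pow_ne_zero _ fun h => hn ?_
      exact (ZMod.natCast_eq_zero_iff _ _).1 h
    exact ⟨fun h => h6 (h ▸ dvd_zero _), padicValInt.eq_zero_of_not_dvd h6⟩
  rw [← geom n, det_mul, padicValInt.mul h0 h2.1, h2.2, add_zero]

/-- **The valuation of `det (1 - M ^ n)`**. -/
theorem exists_val {M : Matrix (Fin r) (Fin r) ℤ} (hM : ¬ (ℓ : ℤ) ∣ M.det)
    (h0 : ∀ n, 0 < n → (1 - M ^ n).det ≠ 0) :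
    ∃ n₀ C : ℕ, 0 < n₀ ∧ ∀ j n : ℕ, ¬ ℓ ∣ n →
      padicValInt ℓ (1 - M ^ (n₀ * ℓ ^ j * n)).det = C + r * j := by
  obtain ⟨n₀, hn₀, X, hX⟩ := exists_pow_one hM
  refine ⟨n₀, padicValInt ℓ (1 - M ^ n₀).det, hn₀, fun j n hn => ?_⟩
  have h1 : ∀ j : ℕ, (∃ Z, M ^ (n₀ * ℓ ^ j) = 1 + (ℓ : ℤ) ^ 2 • Z) ∧
      padicValInt ℓ (1 - M ^ (n₀ * ℓ ^ j)).det = padicValInt ℓ (1 - M ^ n₀).det + r * j := by
    intro j
    induction j with
    | zero => exact ⟨⟨X, by rw [pow_zero, mul_one]; exact hX⟩, by rw [pow_zero, mul_one, mul_zero,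
        add_zero]⟩
    | succ j ih =>
      obtain ⟨⟨Z, hZ⟩, hv⟩ := ih
      have e1 : M ^ (n₀ * ℓ ^ (j + 1)) = (M ^ (n₀ * ℓ ^ j)) ^ ℓ := by
        rw [← pow_mul]
        congr 1
        ring
      have hpos : 0 < n₀ * ℓ ^ j := Nat.mul_pos hn₀ (pow_pos hℓ.out.pos j)
      refine ⟨?_, ?_⟩
      · rw [e1]
        exact pow_one_add hZ ℓ
      · have h2 := val_step hZ (h0 _ hpos)
        rw [← e1, hv] at h2
        rw [h2]
        ring
  obtain ⟨⟨Z, hZ⟩, hv⟩ := h1 j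
  have hpos : 0 < n₀ * ℓ ^ j := Nat.mul_pos hn₀ (pow_pos hℓ.out.pos j)
  rw [pow_mul, val_coprime hZ (h0 _ hpos) hn, hv]

end mat

end Fermat.Agent.S27A
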