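import Fermat.Agent.RR.Riemann

/-!
# Repartitions and the dimension of `H1`
-/

set_option autoImplicit false
set_option linter.style.haveILetI false
set_option linter.unusedSectionVars false

noncomputable section

namespace Fermat.Agent.S27A

open AlgebraicCurve Fermat.Agent.Curve Fermat.Agent.RR Polynomial IntermediateField

variable {K F : Type*} [Field K] [Field F] [Algebra K F]

theorem mem_R {D : Divisor K F} {α : ↥(repartitions K F)} :
    α ∈ repartitionsOf D ↔ ∀ v : Place K F, Ge v (-D v) ((α : Place K F → F) v) :=
  mem_repartitionsOf_iff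

/-- induction for effective divisors -/
theorem div_induction {P : Divisor K F → Prop} (h0 : P 0)
    (hs : ∀ (G : Divisor K F) (v : Place K F), 0 ≤ G → P G → P (G + Finsupp.single v 1)) :
    ∀ G : Divisor K F, 0 ≤ G → P G := by
  classical
  have key : ∀ (n : ℕ) (G : Divisor K F), 0 ≤ G → ∑ v ∈ G.support, G v = n → P G := by
    intro n
    induction n with
    | zero =>
      intro G hG hn
      have hG0 : G = 0 := by
        ext v
        by_cases hv : v ∈ G.support
        · exact (Finset.sum_eq_zero_iff_of_nonneg (fun v _ => hG v)).1 (by simpa using hn) v hv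
        · rwa [Finsupp.notMem_support_iff] at hv
      rw [hG0]; exact h0
    | succ n ih =>
      intro G hG hn
      obtain ⟨v, hv⟩ : ∃ v, 1 ≤ G v := by
        by_contra hcon
        push Not at hcon
        have h0 : G = 0 := by
          ext v
          have h1 := hG v
          have h2 := hcon v
          simp only [Finsupp.coe_zero, Pi.zero_apply] at h1 ⊢
          omega
        rw [h0] at hn
        simp at hn
        omega
      have hG' : 0 ≤ G - Finsupp.single v 1 := by
        intro w
        by_cases hw : w = v
        · rw [hw, Finsupp.sub_apply, Finsupp.single_eq_same]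
          simp only [Finsupp.coe_zero, Pi.zero_apply]
          omega
        · rw [Finsupp.sub_apply, Finsupp.single_eq_of_ne hw, sub_zero]
          exact hG w
      have e : G = (G - Finsupp.single v 1) + Finsupp.single v 1 := by abel
      rw [e]
      refine hs _ v hG' (ih _ hG' ?_)
      have h1 : ∀ D : Divisor K F, ∑ v ∈ D.support, D v = D.sum fun _ n => n := fun D => rfl
      rw [h1] at hn ⊢
      rw [Finsupp.sum_sub_index (fun _ _ _ => rfl), hn, Finsupp.sum_single_index rfl]
      push_cast; ring
  intro G hG
  have h1 : 0 ≤ ∑ v ∈ G.support, G v := Finset.sum_nonneg fun v _ => hG v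
  exact key (∑ v ∈ G.support, G v).toNat G hG (Int.toNat_of_nonneg h1).symm

/-- the sum of the repartitions with poles bounded by `D` and the constants -/
def SS (D : Divisor K F) : Submodule K ↥(repartitions K F) :=
  repartitionsOf D ⊔ principalRepartitions K F

theorem SS_mono {D E : Divisor K F} (h : D ≤ E) : SS D ≤ SS E :=
  sup_le_sup_right (repartitionsOf_mono h) _

/-- the constant repartition -/
def cst (f : F) : ↥(repartitions K F) := algebraMap F ↥(repartitions K F) f

theorem cst_apply (f : F) (v : Place K F) : (cst f : ↥(repartitions K F)).1 v = f := rfl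

theorem mem_P {α : ↥(repartitions K F)} : α ∈ principalRepartitions K F ↔ ∃ f : F, α = cst f := by
  rw [mem_principalRepartitions_iff]
  constructor
  · rintro ⟨f, hf⟩
    exact ⟨f, Subtype.ext hf⟩
  · rintro ⟨f, rfl⟩
    exact ⟨f, rfl⟩

theorem cst_mem_R {D : Divisor K F} {f : F} :
    (cst f : ↥(repartitions K F)) ∈ repartitionsOf D ↔ f ∈ riemannRochSpace D := by
  rw [mem_R, mem_riemannRochSpace_iff]
  rfl

theorem mem_SS {D : Divisor K F} {α : ↥(repartitions K F)} :
    α ∈ SS D ↔ ∃ β ∈ repartitionsOf D, ∃ f : F, α = β + cst f := by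
  rw [SS, Submodule.mem_sup]
  constructor
  · rintro ⟨β, hβ, γ, hγ, rfl⟩
    obtain ⟨f, rfl⟩ := mem_P.1 hγ
    exact ⟨β, hβ, f, rfl⟩
  · rintro ⟨β, hβ, f, rfl⟩
    exact ⟨β, hβ, cst f, mem_P.2 ⟨f, rfl⟩, rfl⟩

variable [IsAlgClosed K] [hF : FunField K F]

/-- poles of repartitions are finite in number -/
theorem finite_poles (α : ↥(repartitions K F)) :
    {v : Place K F | (α : Place K F → F) v ≠ 0 ∧ v.ord ((α : Place K F → F) v) < 0}.Finite := by
  obtain ⟨α, hα⟩ := α
  change {v : Place K F | α v ≠ 0 ∧ v.ord (α v) < 0}.Finite
  induction hα using Algebra.adjoin_induction with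
  | mem x hx =>
    refine hx.subset ?_
    intro v hv
    change ¬ v.adicValuation (x v) ≤ 1
    rw [v.not_adicValuation_le_one_iff]
    exact hv.2
  | algebraMap r =>
    rcases eq_or_ne r 0 with rfl | hr
    · refine Set.finite_empty.subset ?_
      rintro v ⟨hv, -⟩
      exact hv rfl
    · refine (finite_ord (K := K) hr).subset ?_
      rintro v ⟨-, hv⟩
      have hv' : v.ord r < 0 := hv
      exact hv'.ne
  | add x y _ _ hx hy =>
    refine (hx.union hy).subset ?_
    rintro v ⟨h0, h1⟩
    by_contra hcon
    rw [Set.mem_union, not_or] at hcon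
    have hx' : Ge v 0 (x v) := by
      by_cases h : x v = 0
      · exact Or.inl h
      · right; by_contra hlt; exact hcon.1 ⟨h, by omega⟩
    have hy' : Ge v 0 (y v) := by
      by_cases h : y v = 0
      · exact Or.inl h
      · right; by_contra hlt; exact hcon.2 ⟨h, by omega⟩
    have := (hx'.add hy').le_ord h0
    have h1' : v.ord (x v + y v) < 0 := h1
    omega
  | mul x y _ _ hx hy =>
    refine (hx.union hy).subset ?_
    rintro v ⟨h0, h1⟩
    by_contra hcon
    rw [Set.mem_union, not_or] at hcon
    have hx' : Ge v 0 (x v) := by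
      by_cases h : x v = 0
      · exact Or.inl h
      · right; by_contra hlt; exact hcon.1 ⟨h, by omega⟩
    have hy' : Ge v 0 (y v) := by
      by_cases h : y v = 0
      · exact Or.inl h
      · right; by_contra hlt; exact hcon.2 ⟨h, by omega⟩
    have := (hx'.mul hy').le_ord h0
    have h1' : v.ord (x v * y v) < 0 := h1
    omega

theorem exists_mem_R (α : ↥(repartitions K F)) (D : Divisor K F) :
    ∃ E : Divisor K F, D ≤ E ∧ α ∈ repartitionsOf E := by
  classical
  have hfin := finite_poles α
  let s := hfin.toFinset
  let E0 : Divisor K F := Finsupp.onFinset s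
    (fun v => if v ∈ s then max (-v.ord ((α : Place K F → F) v)) 0 else 0)
    (fun v hv => by
      by_contra h
      exact hv (by simp [h]))
  have hE0 : α ∈ repartitionsOf E0 := by
    rw [mem_R]
    intro v
    by_cases hv : v ∈ s
    · have : E0 v = max (-v.ord ((α : Place K F → F) v)) 0 := by
        simp only [E0, Finsupp.onFinset_apply, if_pos hv]
      rw [this]
      right
      omega
    · have : E0 v = 0 := by
        simp only [E0, Finsupp.onFinset_apply, if_neg hv]
      rw [this]
      by_cases h0 : (α : Place K F → F) v = 0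
      · exact Or.inl h0
      · right
        by_contra hlt
        apply hv
        rw [Set.Finite.mem_toFinset]
        exact ⟨h0, by omega⟩
  exact ⟨D ⊔ E0, le_sup_left, repartitionsOf_mono le_sup_right hE0⟩

/-- the elementary step for repartitions -/
theorem exists_step (D : Divisor K F) (v : Place K F) :
    ∃ r ∈ repartitionsOf (D + Finsupp.single v 1), r ∉ repartitionsOf D ∧
      ∀ α ∈ repartitionsOf (D + Finsupp.single v 1), ∃ a : K, α - a • r ∈ repartitionsOf D := by
  classical
  have hval : ∀ w, w ≠ v → (D + Finsupp.single v 1 : Divisor K F) w = D w := by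
    intro w hw
    rw [Finsupp.add_apply, Finsupp.single_eq_of_ne hw, add_zero]
  have hvalv : (D + Finsupp.single v 1 : Divisor K F) v = D v + 1 := by
    rw [Finsupp.add_apply, Finsupp.single_eq_same]
  obtain ⟨π, hπ0, hπ⟩ := exists_ord_eq v (-(D v + 1))
  let r0 : Place K F → F := Function.update 0 v π
  have hr0v : r0 v = π := Function.update_self _ _ _
  have hr0 : ∀ w, w ≠ v → r0 w = 0 := fun w hw => by
    simp only [r0, Function.update_of_ne hw, Pi.zero_apply]
  have hmem : r0 ∈ repartitions K F := by
    apply mem_repartitions_of_finite_ord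
    refine (Set.finite_singleton v).subset ?_
    intro w hw
    by_contra hne
    have : w ≠ v := hne
    have h1 : w.ord (r0 w) < 0 := hw
    rw [hr0 w this, w.ord_zero] at h1
    exact lt_irrefl _ h1
  refine ⟨⟨r0, hmem⟩, ?_, ?_, ?_⟩
  · rw [mem_R]
    intro w
    change Ge w _ (r0 w)
    by_cases hw : w = v
    · rw [hw, hr0v, hvalv]; exact Or.inr hπ.ge
    · rw [hr0 w hw]; exact Ge.zero _ _
  · intro h
    rw [mem_R] at h
    have h1 := h v
    change Ge v _ (r0 v) at h1
    rw [hr0v] at h1
    have := h1.le_ord hπ0
    omega
  · intro α hα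
    rw [mem_R] at hα
    have hq : Ge v 0 ((α : Place K F → F) v / π) := by
      have h1 := hα v
      rw [hvalv] at h1
      rcases h1 with h1 | h1
      · rw [h1, zero_div]; exact Ge.zero v 0
      · by_cases hf0 : (α : Place K F → F) v = 0
        · rw [hf0, zero_div]; exact Ge.zero v 0
        · right
          rw [ord_div v hf0 hπ0, hπ]
          omega
    obtain ⟨a, ha⟩ := exists_const' v hq.mem
    refine ⟨a, ?_⟩
    rw [mem_R]
    intro w
    change Ge w _ ((α : Place K F → F) w - a • r0 w)
    by_cases hw : w = v
    · rw [hw, hr0v]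
      have e : (α : Place K F → F) v - a • π = ((α : Place K F → F) v / π - algebraMap K F a) * π := by
        rw [Algebra.smul_def]
        field_simp
      rw [e]
      exact (ha.mul (Ge.of_le hπ.ge)).mono (by omega)
    · rw [hr0 w hw, smul_zero, sub_zero, ← hval w hw]
      exact hα w

/-- if `L(D + v)` is larger than `L(D)` then `SS` does not change -/
theorem SS_eq_of_lt (D : Divisor K F) (v : Place K F)
    (h : ell D < ell (D + Finsupp.single v 1)) : SS (D + Finsupp.single v 1) = SS D := by
  obtain ⟨r, hr, hrD, hstep⟩ := exists_step D v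
  apply le_antisymm _ (SS_mono (le_add_of_nonneg_right (by
    intro w; by_cases hw : w = v
    · rw [hw, Finsupp.single_eq_same]; simp
    · rw [Finsupp.single_eq_of_ne hw]; simp)))
  obtain ⟨f, hf, hfD⟩ : ∃ f ∈ riemannRochSpace (D + Finsupp.single v 1),
      f ∉ riemannRochSpace D := by
    by_contra hcon
    push Not at hcon
    exact absurd (Submodule.finrank_mono hcon) (not_le.2 h)
  obtain ⟨c, hc⟩ := hstep (cst f) (cst_mem_R.2 hf)
  have hc0 : c ≠ 0 := by
    rintro rfl
    rw [zero_smul, sub_zero] at hc
    exact hfD (cst_mem_R.1 hc)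
  have hrS : r ∈ SS D := by
    have h1 : c • r ∈ SS D := by
      have e : c • r = -(cst f - c • r) + cst f := by abel
      rw [e]
      exact add_mem (neg_mem (Submodule.mem_sup_left hc)) (Submodule.mem_sup_right (mem_P.2 ⟨f, rfl⟩))
    have := Submodule.smul_mem _ c⁻¹ h1
    rwa [inv_smul_smul₀ hc0] at this
  refine sup_le ?_ le_sup_right
  intro α hα
  obtain ⟨a, ha⟩ := hstep α hα
  have e : α = (α - a • r) + a • r := by abel
  rw [e]
  exact add_mem (Submodule.mem_sup_left ha) (Submodule.smul_mem _ a hrS)

/-- if `L(D + v) = L(D)` then `SS` grows by one dimension -/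
theorem SS_of_eq (D : Divisor K F) (v : Place K F)
    (h : ell (D + Finsupp.single v 1) = ell D) :
    ∃ r, r ∉ SS D ∧ SS (D + Finsupp.single v 1) = SS D ⊔ Submodule.span K {r} := by
  obtain ⟨r, hr, hrD, hstep⟩ := exists_step D v
  have hle : D ≤ D + Finsupp.single v 1 := le_add_of_nonneg_right (by
    intro w; by_cases hw : w = v
    · rw [hw, Finsupp.single_eq_same]; simp
    · rw [Finsupp.single_eq_of_ne hw]; simp)
  have hL : riemannRochSpace (D + Finsupp.single v 1) = riemannRochSpace D :=
    (Submodule.eq_of_le_of_finrank_eq (L_mono hle) h.symm).symm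
  refine ⟨r, ?_, le_antisymm ?_ ?_⟩
  · intro hr'
    obtain ⟨β, hβ, f, hf⟩ := mem_SS.1 hr'
    have h1 : cst f ∈ repartitionsOf (D + Finsupp.single v 1) := by
      have e : cst f = r - β := by rw [hf]; abel
      rw [e]
      exact sub_mem hr (repartitionsOf_mono hle hβ)
    rw [cst_mem_R, hL, ← cst_mem_R] at h1
    apply hrD
    rw [hf]
    exact add_mem hβ h1
  · refine sup_le ?_ (le_sup_right.trans le_sup_left)
    intro α hα
    obtain ⟨a, ha⟩ := hstep α hα
    have e : α = (α - a • r) + a • r := by abel
    rw [e]
    exact add_mem (Submodule.mem_sup_left (Submodule.mem_sup_left ha))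
      (Submodule.mem_sup_right (Submodule.smul_mem _ a (Submodule.mem_span_singleton_self r)))
  · refine sup_le (SS_mono hle) ?_
    rw [Submodule.span_singleton_le_iff_mem]
    exact Submodule.mem_sup_left hr

theorem degree_add_single (D : Divisor K F) (v : Place K F) :
    Divisor.degree (D + Finsupp.single v 1) = Divisor.degree D + 1 := by
  rw [map_add, degree_single']

theorem SS_eq_top {c : ℤ} (hc : ∀ D : Divisor K F, c ≤ Divisor.degree D →
    (ell D : ℤ) = Divisor.degree D + 1 - rrGenus K F) {E : Divisor K F}
    (hE : c ≤ Divisor.degree E) : SS E = ⊤ := by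
  have key : ∀ G : Divisor K F, 0 ≤ G → SS (E + G) = SS E := by
    intro G hG
    refine div_induction (P := fun G => SS (E + G) = SS E) (by rw [add_zero]) ?_ G hG
    intro G v hG ih
    have h1 : c ≤ Divisor.degree (E + G) := by
      rw [map_add]
      have := degree_nonneg hG
      omega
    have h2 := hc _ h1
    have h3 := hc (E + G + Finsupp.single v 1) (by rw [degree_add_single]; omega)
    rw [degree_add_single] at h3
    rw [← add_assoc, SS_eq_of_lt (E + G) v (by omega), ih]
  rw [eq_top_iff]
  intro α _
  obtain ⟨E', hE', hα⟩ := exists_mem_R α E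
  have h4 := key (E' - E) (sub_nonneg.2 hE')
  rw [add_sub_cancel] at h4
  rw [← h4]
  exact Submodule.mem_sup_left hα

/-- **The dimension of `H1`** -/
theorem finrank_H1 (D : Divisor K F) : Module.Finite K (H1 D) ∧
    (Module.finrank K (H1 D) : ℤ) = ell D - Divisor.degree D - 1 + rrGenus K F := by
  obtain ⟨c, hc⟩ := exists_riemann (K := K) (F := F)
  obtain ⟨t, ht, _⟩ := hF.out
  obtain ⟨v, -⟩ := exists_pole ht
  have key : ∀ (n : ℕ) (D : Divisor K F), c ≤ Divisor.degree D + n → Module.Finite K (H1 D) ∧
      (Module.finrank K (H1 D) : ℤ) = ell D - Divisor.degree D - 1 + rrGenus K F := by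
    intro n
    induction n with
    | zero =>
      intro D hD
      have h1 : c ≤ Divisor.degree D := by simpa using hD
      have h2 := SS_eq_top hc h1
      have h3 : Subsingleton (H1 D) := by
        exact Submodule.Quotient.subsingleton_iff.2 h2
      refine ⟨inferInstance, ?_⟩
      rw [Module.finrank_zero_of_subsingleton, hc D h1]
      push_cast; ring
    | succ n ih =>
      intro D hD
      obtain ⟨h1, h2⟩ := ih (D + Finsupp.single v 1) (by
        rw [degree_add_single]; push_cast at hD; omega)
      rw [degree_add_single] at h2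
      have hle : D ≤ D + Finsupp.single v 1 := le_add_of_nonneg_right (by
        intro w; by_cases hw : w = v
        · rw [hw, Finsupp.single_eq_same]; simp
        · rw [Finsupp.single_eq_of_ne hw]; simp)
      have hb := ell_le_of_le hle
      rw [degree_add_single] at hb
      have hm := ell_mono hle
      rcases Nat.lt_or_ge (ell D) (ell (D + Finsupp.single v 1)) with hlt | hge
      · have e := SS_eq_of_lt D v hlt
        have e' : H1 (D + Finsupp.single v 1) = (↥(repartitions K F) ⧸ SS D) := by
          rw [← e]; rfl
        have f1 : Module.Finite K (↥(repartitions K F) ⧸ SS (D + Finsupp.single v 1)) := h1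
        have f2 : (Module.finrank K (↥(repartitions K F) ⧸ SS (D + Finsupp.single v 1)) : ℤ) = _ := h2
        rw [e] at f1 f2
        refine ⟨f1, ?_⟩
        have f3 : (Module.finrank K (H1 D) : ℤ) = _ := f2
        rw [f3]
        omega
      · obtain ⟨r, hr, hrS⟩ := SS_of_eq D v (le_antisymm hge hm)
        let T : Submodule K (↥(repartitions K F) ⧸ SS D) :=
          (SS (D + Finsupp.single v 1)).map (SS D).mkQ
        have hT : T = Submodule.span K {(SS D).mkQ r} := by
          change (SS (D + Finsupp.single v 1)).map (SS D).mkQ = _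
          rw [hrS, Submodule.map_sup, Submodule.map_span, Set.image_singleton]
          rw [Submodule.mkQ_map_self, bot_sup_eq]
        have hr0 : (SS D).mkQ r ≠ 0 := by
          intro h0
          rw [Submodule.mkQ_apply, Submodule.Quotient.mk_eq_zero] at h0
          exact hr h0
        have hT1 : Module.finrank K T = 1 := by rw [hT]; exact finrank_span_singleton hr0
        haveI : Module.Finite K T := by rw [hT]; infer_instance
        have eq := Submodule.quotientQuotientEquivQuotient (SS D) (SS (D + Finsupp.single v 1))
          (SS_mono hle)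
        haveI : Module.Finite K (↥(repartitions K F) ⧸ SS (D + Finsupp.single v 1)) := h1
        haveI : Module.Finite K ((↥(repartitions K F) ⧸ SS D) ⧸ T) :=
          Module.Finite.equiv eq.symm
        haveI f1 : Module.Finite K (↥(repartitions K F) ⧸ SS D) :=
          Module.Finite.of_submodule_quotient T
        refine ⟨f1, ?_⟩
        have f4 := Submodule.finrank_quotient_add_finrank T
        rw [hT1, eq.finrank_eq] at f4
        have f5 : (Module.finrank K (↥(repartitions K F) ⧸ SS (D + Finsupp.single v 1)) : ℤ) = _ := h2
        change (Module.finrank K (↥(repartitions K F) ⧸ SS D) : ℤ) = _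
        rw [← f4]
        push_cast
        rw [f5]
        have : ell (D + Finsupp.single v 1) = ell D := le_antisymm hge hm
        rw [this]
        ring
  refine key (c - Divisor.degree D).toNat D ?_
  have := Int.self_le_toNat (c - Divisor.degree D)
  omega

variable (K F) in
theorem genusFF_eq : genusFF K F = rrGenus K F := by
  have h := (finrank_H1 (0 : Divisor K F)).2
  rw [ell_zero, map_zero] at h
  have : (genusFF K F : ℤ) = rrGenus K F := by
    rw [genusFF, h]; push_cast; ring
  exact_mod_cast this

end Fermat.Agent.S27A
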