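import Fermat.Agent.RR.Riemann

/-!
# Plane models of function fields: pole and genus bounds
-/

set_option autoImplicit false
set_option linter.unusedSectionVars false
set_option linter.style.haveILetI false

noncomputable section

open IntermediateField Polynomial AlgebraicCurve Fermat.Agent.Curve Fermat.Agent.RR

namespace Fermat.Agent.S27A

section ev

variable {k F : Type*} [Field k] [Field F] [Algebra k F]

/-- evaluation of a two-variable polynomial -/
def ev2 (x y : F) : k[X][X] →+* F := eval₂RingHom (aeval x : k[X] →ₐ[k] F).toRingHom y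

theorem ev2_apply (x y : F) (f : k[X][X]) :
    ev2 x y f = ∑ i ∈ Finset.range (f.natDegree + 1), aeval x (f.coeff i) * y ^ i :=
  eval₂_eq_sum_range _ _

end ev

variable {k F : Type*} [Field k] [IsAlgClosed k] [Field F] [Algebra k F] [FunField k F]

omit [FunField k F] in
theorem ge_aeval {v : Place k F} {x : F} {e : ℤ} (he : 0 ≤ e) (hx : Ge v (-e) x) {D : ℕ}
    {p : k[X]} (hp : p.natDegree ≤ D) : Ge v (-(D * e)) (aeval x p) := by
  rw [aeval_eq_sum_range]
  refine Ge.sum _ fun a ha => ?_
  refine Ge.smul _ ((hx.pow a).mono ?_)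
  have ha' : (a : ℤ) ≤ D := by
    have := Finset.mem_range.1 ha
    omega
  nlinarith

theorem mem_L_of_monic {x y : F} {f : k[X][X]} (hf : f.Monic) {D : ℕ}
    (hD : ∀ i, (f.coeff i).natDegree ≤ D) (h0 : ev2 x y f = 0) :
    y ∈ riemannRochSpace (D • poleDiv k x) := by
  rw [mem_L]
  intro v
  rw [Finsupp.smul_apply, poleDiv_apply, nsmul_eq_mul]
  obtain ⟨e, he⟩ : ∃ e, e = max (-v.ord x) 0 := ⟨_, rfl⟩
  rw [← he]
  have he0 : 0 ≤ e := he ▸ le_max_right _ _
  have hx : Ge v (-e) x := Ge.of_le (by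
    have := le_max_left (-v.ord x) 0
    omega)
  by_contra hcon
  rw [Ge, not_or, not_le] at hcon
  obtain ⟨hy0, hy⟩ := hcon
  have hDe : 0 ≤ (D : ℤ) * e := mul_nonneg (by positivity) he0
  have h1 : y ^ f.natDegree = -∑ i ∈ Finset.range f.natDegree, aeval x (f.coeff i) * y ^ i := by
    rw [ev2_apply, Finset.sum_range_succ, coeff_natDegree, hf.leadingCoeff, map_one, one_mul] at h0
    linear_combination h0
  have h2 : Ge v (f.natDegree * v.ord y + 1) (y ^ f.natDegree) := by
    rw [h1]
    refine Ge.neg (Ge.sum _ fun i hi => ?_)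
    have hi' : (i : ℤ) + 1 ≤ f.natDegree := by
      have := Finset.mem_range.1 hi
      omega
    refine ((ge_aeval he0 hx (hD i)).mul ((Ge.of_le (le_refl (v.ord y))).pow i)).mono ?_
    nlinarith
  have h3 := h2.le_ord (pow_ne_zero _ hy0)
  rw [Fermat.Agent.Curve.ord_pow] at h3
  omega

/-- **The genus bound** -/
theorem genus_le {x y : F} (hx : Transcendental k x) {f : k[X][X]} (hf : f.Monic) {D : ℕ}
    (hD : ∀ i, (f.coeff i).natDegree ≤ D) (h0 : ev2 x y f = 0)
    {m : ℕ} (hm : Module.finrank k⟮x⟯ F = m)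
    (hli : LinearIndependent k⟮x⟯ (fun j : Fin m => y ^ (j : ℕ))) :
    rrGenus k F ≤ D * m ^ 2 + 1 := by
  haveI := fd (K := k) hx
  have hy := mem_L_of_monic hf hD h0
  obtain ⟨c, hc⟩ := exists_riemann (K := k) (F := F)
  have hm0 : 0 < m := hm ▸ Module.finrank_pos
  have hgen : Transcendental k (AdjoinSimple.gen k x) := transcendental_gen hx
  have key : ∀ s : ℕ, ((s * m : ℕ) : ℤ) ≤ ell ((s + D * m) • poleDiv k x) := by
    intro s
    have hli2 := linearIndependent_smul (linearIndependent_pow hgen s) hli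
    have hmem : ∀ q : Fin s × Fin m, (AdjoinSimple.gen k x ^ (q.1 : ℕ)) • y ^ (q.2 : ℕ) ∈
        riemannRochSpace ((s + D * m) • poleDiv k x) := by
      intro q
      have h1 : (AdjoinSimple.gen k x ^ (q.1 : ℕ)) • y ^ (q.2 : ℕ) = x ^ (q.1 : ℕ) * y ^ (q.2 : ℕ) := by
        rw [Algebra.smul_def, map_pow]
        rfl
      rw [h1, add_smul]
      refine L_mul_mem ?_ ?_
      · exact L_mono (nsmul_le_nsmul_left (poleDiv_nonneg x) q.1.2.le)
          (L_pow_mem (mem_L_poleDiv x) _)
      · refine L_mono ?_ (L_pow_mem hy _)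
        rw [smul_smul]
        exact nsmul_le_nsmul_left (poleDiv_nonneg x) (by nlinarith [q.2.2])
    let w : Fin s × Fin m → riemannRochSpace ((s + D * m) • poleDiv k x) :=
      fun q => ⟨(AdjoinSimple.gen k x ^ (q.1 : ℕ)) • y ^ (q.2 : ℕ), hmem q⟩
    have hw : LinearIndependent k w := by
      apply LinearIndependent.of_comp (riemannRochSpace ((s + D * m) • poleDiv k x)).subtype
      exact hli2
    have h2 := hw.fintype_card_le_finrank
    rw [Fintype.card_prod, Fintype.card_fin, Fintype.card_fin] at h2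
    exact_mod_cast h2
  have h1 := key c.toNat
  have hdeg : Divisor.degree ((c.toNat + D * m) • poleDiv k x) = (c.toNat + D * m) * m := by
    rw [map_nsmul, degree_poleDiv hx, hm, nsmul_eq_mul]
    push_cast
    ring
  have h2 := hc ((c.toNat + D * m) • poleDiv k x) (by
    rw [hdeg]
    have h3 : (1 : ℤ) ≤ m := by exact_mod_cast hm0
    have h4 := Int.self_le_toNat c
    nlinarith [mul_nonneg (Int.natCast_nonneg D) (Int.natCast_nonneg m),
      mul_nonneg (Int.natCast_nonneg c.toNat) (Int.natCast_nonneg m)])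
  rw [hdeg] at h2
  push_cast at h1
  have h5 : (rrGenus k F : ℤ) ≤ D * m ^ 2 + 1 := by
    rw [h2] at h1
    nlinarith
  exact_mod_cast h5

end Fermat.Agent.S27A
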