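import Mathlib

/-!
# Homomorphisms from finitely generated rings to algebraic closures of finite fields
-/

set_option autoImplicit false
set_option linter.style.haveILetI false

namespace Fermat.Agent.S27A

theorem isJacobsonRing_int : IsJacobsonRing ℤ := by
  rw [isJacobsonRing_iff_prime_eq]
  intro P hP
  by_cases h0 : P = ⊥
  · subst h0
    rw [eq_bot_iff]
    intro x hx
    by_contra hx0
    have hx0' : x ≠ 0 := hx0
    obtain ⟨p, hp, hpp⟩ := Nat.exists_infinite_primes (x.natAbs + 1)
    have hprime : Prime (p : ℤ) := Nat.prime_iff_prime_int.1 hpp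
    have hmax : (Ideal.span {(p : ℤ)}).IsMaximal :=
      PrincipalIdealRing.isMaximal_of_irreducible hprime.irreducible
    have h1 : x ∈ Ideal.span {(p : ℤ)} := by
      rw [Ideal.mem_jacobson_iff] at hx
      by_contra h2
      have h3 := hmax.exists_inv h2
      obtain ⟨y, i, hi, hyi⟩ := h3
      obtain ⟨z, hz⟩ := hx (-y)
      have hz' : z * -y * x + z - 1 = 0 := by simpa using hz
      have h4 : z * i = 1 := by
        have : z * (y * x + i) = z := by rw [hyi, mul_one]
        linear_combination this + hz'
      exact hmax.ne_top ((Ideal.eq_top_iff_one _).2 (h4 ▸ Ideal.mul_mem_left _ z hi))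
    rw [Ideal.mem_span_singleton] at h1
    have h5 := Int.natAbs_dvd_natAbs.2 h1
    rw [Int.natAbs_natCast] at h5
    have h6 := Nat.le_of_dvd (Int.natAbs_pos.2 hx0') h5
    omega
  · have := IsPrime.to_maximal_ideal (hpi := hP) h0
    exact Ideal.jacobson_eq_self_of_isMaximal

/-- a field which is a finitely generated ring is a finite extension of a prime field -/
theorem exists_prime_finite (L : Type*) [Field L] (h : (Int.castRingHom L).FiniteType) :
    ∃ p : ℕ, p.Prime ∧ CharP L p ∧ (Int.castRingHom L).IsIntegral := by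
  haveI := isJacobsonRing_int
  have hint : (Int.castRingHom L).IsIntegral :=
    (RingHom.finite_iff_finiteType_of_isJacobsonRing.2 h).to_isIntegral
  obtain ⟨p, hp⟩ := CharP.exists L
  rcases CharP.char_is_prime_or_zero L p with h | h
  · exact ⟨p, h, hp, hint⟩
  · subst h
    exfalso
    haveI : CharZero L := CharP.charP_to_charZero L
    have hinj : Function.Injective (algebraMap ℤ L) := by
      rw [algebraMap_int_eq]
      exact (Int.castRingHom L).injective_int
    haveI : Algebra.IsIntegral ℤ L := ⟨fun x => hint x⟩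
    have h1 : IsField ℤ := (Algebra.IsIntegral.isField_iff_isField (R := ℤ) (S := L) hinj).2
      (Field.toIsField L)
    exact Int.not_isField h1

theorem exists_hom_field (L : Type*) [Field L] (h : (Int.castRingHom L).FiniteType) :
    ∃ (p : ℕ) (_ : Fact p.Prime), CharP L p ∧ Nonempty (L →+* AlgebraicClosure (ZMod p)) := by
  obtain ⟨p, hp, hL, hint⟩ := exists_prime_finite L h
  haveI : Fact p.Prime := ⟨hp⟩
  refine ⟨p, inferInstance, hL, ?_⟩
  letI : Algebra (ZMod p) L := ZMod.algebra L p
  haveI : IsScalarTower ℤ (ZMod p) L := IsScalarTower.of_algebraMap_eq fun x => by simp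
  haveI : Algebra.IsIntegral (ZMod p) L := ⟨fun x => by
    have h1 : IsIntegral ℤ x := hint x
    exact h1.tower_top⟩
  haveI : Algebra.IsAlgebraic (ZMod p) L := inferInstance
  exact ⟨(IsAlgClosed.lift (R := ZMod p) (S := L) (M := AlgebraicClosure (ZMod p))).toRingHom⟩

/-- homomorphisms from finitely generated subrings of a field of characteristic zero to algebraic
closures of finite fields of large characteristic -/
theorem exists_hom_adjoin {K : Type*} [Field K] [CharZero K] (S : Finset K) :
    ∃ (p : ℕ) (_ : Fact p.Prime), S.card ≤ p ∧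
      Nonempty (Algebra.adjoin ℤ (S : Set K) →+* AlgebraicClosure (ZMod p)) := by
  classical
  set N := S.card with hN
  let T : Finset K := insert ((N.factorial : K)⁻¹) S
  let R := Algebra.adjoin ℤ (T : Set K)
  haveI hft : Algebra.FiniteType ℤ R := by
    rw [← Subalgebra.fg_iff_finiteType]
    exact ⟨T, rfl⟩
  obtain ⟨m, hm⟩ := Ideal.exists_maximal R
  letI := Ideal.Quotient.field m
  have hft1 : (algebraMap ℤ R).FiniteType := by
    rw [RingHom.finiteType_algebraMap]
    exact hft
  have hft2 : ((Ideal.Quotient.mk m).comp (algebraMap ℤ R)).FiniteType :=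
    (RingHom.FiniteType.of_surjective _ Ideal.Quotient.mk_surjective).comp hft1
  have hft3 : (Int.castRingHom (R ⧸ m)).FiniteType := by
    have e : (Ideal.Quotient.mk m).comp (algebraMap ℤ R) = Int.castRingHom (R ⧸ m) :=
      Subsingleton.elim _ _
    rwa [e] at hft2
  obtain ⟨p, hp, hL, ⟨φ⟩⟩ := exists_hom_field (R ⧸ m) hft3
  have hle : Algebra.adjoin ℤ (S : Set K) ≤ R := Algebra.adjoin_mono (by
    intro x hx
    exact Finset.mem_coe.2 (Finset.mem_insert_of_mem (Finset.mem_coe.1 hx)))
  refine ⟨p, hp, ?_, ⟨(φ.comp (Ideal.Quotient.mk m)).comp (Subalgebra.inclusion hle).toRingHom⟩⟩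
  -- `N!` is invertible mod `p`
  by_contra hlt
  push Not at hlt
  have hdvd : p ∣ N.factorial := (Nat.Prime.dvd_factorial hp.out).2 hlt.le
  have hmem : ((N.factorial : K)⁻¹) ∈ R := Algebra.subset_adjoin (by
    exact Finset.mem_coe.2 (Finset.mem_insert_self _ _))
  have h1 : ((N.factorial : ℕ) : R) * ⟨_, hmem⟩ = 1 := by
    apply Subtype.ext
    push_cast
    exact mul_inv_cancel₀ (Nat.cast_ne_zero.2 (Nat.factorial_ne_zero _))
  have h2 := congrArg (Ideal.Quotient.mk m) h1
  rw [map_mul, map_natCast, map_one] at h2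
  have h3 : ((N.factorial : ℕ) : R ⧸ m) = 0 := (CharP.cast_eq_zero_iff (R ⧸ m) p _).2 hdvd
  rw [h3, zero_mul] at h2
  exact zero_ne_one h2

end Fermat.Agent.S27A
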