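import Mathlib

/-!
# Ultraproducts of fields
-/

set_option autoImplicit false

namespace Fermat.Agent.S27A

open Filter Polynomial

section basic

variable {I : Type*} (U : Ultrafilter I) (R : I → Type*) [∀ i, Field (R i)]

/-- the ideal of sequences which vanish almost everywhere -/
def uIdeal : Ideal (∀ i, R i) where
  carrier := {f | ∀ᶠ i in U, f i = 0}
  zero_mem' := Eventually.of_forall fun _ => rfl
  add_mem' := by
    intro f g hf hg
    filter_upwards [hf, hg] with i h1 h2
    rw [Pi.add_apply, h1, h2, add_zero]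
  smul_mem' := by
    intro c f hf
    filter_upwards [hf] with i h1
    rw [smul_eq_mul, Pi.mul_apply, h1, mul_zero]

theorem mem_uIdeal {f : ∀ i, R i} : f ∈ uIdeal U R ↔ ∀ᶠ i in U, f i = 0 := Iff.rfl

theorem eventually_or {p q : I → Prop} :
    (∀ᶠ i in (U : Filter I), p i ∨ q i) ↔ (∀ᶠ i in U, p i) ∨ ∀ᶠ i in U, q i :=
  Ultrafilter.eventually_or

instance uIdeal_isMaximal : (uIdeal U R).IsMaximal := by
  classical
  rw [Ideal.isMaximal_iff]
  constructor
  · intro h
    have h1 : ∀ᶠ i in (U : Filter I), False := by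
      filter_upwards [(mem_uIdeal U R).1 h] with i hi
      exact one_ne_zero hi
    exact U.neBot.ne (Filter.eventually_false_iff_eq_bot.1 h1)
  · intro J f hJ hf hfJ
    have h1 : ∀ᶠ i in (U : Filter I), f i ≠ 0 := Ultrafilter.eventually_not.2 hf
    have h2 : (1 : ∀ i, R i) - f * (fun i => (f i)⁻¹) ∈ uIdeal U R := by
      rw [mem_uIdeal]
      filter_upwards [h1] with i hi
      rw [Pi.sub_apply, Pi.one_apply, Pi.mul_apply, mul_inv_cancel₀ hi, sub_self]
    have h3 := J.add_mem (hJ h2) (J.mul_mem_right (fun i => (f i)⁻¹) hfJ)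
    rwa [sub_add_cancel] at h3

/-- the ultraproduct -/
def UP : Type _ := (∀ i, R i) ⧸ uIdeal U R

noncomputable instance : Field (UP U R) := Ideal.Quotient.field (uIdeal U R)

variable {R}

/-- the class of a sequence -/
def umk : (∀ i, R i) →+* UP U R := Ideal.Quotient.mk (uIdeal U R)

variable {U}

theorem umk_surjective : Function.Surjective (umk U (R := R)) := Ideal.Quotient.mk_surjective

theorem umk_eq_zero {f : ∀ i, R i} : umk U f = 0 ↔ ∀ᶠ i in U, f i = 0 :=
  Ideal.Quotient.eq_zero_iff_mem (I := uIdeal U R)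

theorem umk_eq {f g : ∀ i, R i} : umk U f = umk U g ↔ ∀ᶠ i in U, f i = g i := by
  rw [← sub_eq_zero, ← map_sub, umk_eq_zero]
  simp only [Pi.sub_apply, sub_eq_zero]

theorem umk_ne_zero {f : ∀ i, R i} : umk U f ≠ 0 ↔ ∀ᶠ i in U, f i ≠ 0 := by
  rw [Ne, umk_eq_zero, Ultrafilter.eventually_not]

theorem umk_inv (f : ∀ i, R i) : umk U (fun i => (f i)⁻¹) = (umk U f)⁻¹ := by
  by_cases h : umk U f = 0
  · rw [h, inv_zero, umk_eq_zero]
    filter_upwards [umk_eq_zero.1 h] with i hi
    rw [hi, inv_zero]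
  · rw [eq_comm, inv_eq_of_mul_eq_one_right]
    rw [← map_mul, ← map_one (umk U (R := R)), umk_eq]
    filter_upwards [umk_ne_zero.1 h] with i hi
    rw [Pi.mul_apply, mul_inv_cancel₀ hi, Pi.one_apply]

variable (U R)

instance [∀ i, IsAlgClosed (R i)] : IsAlgClosed (UP U R) := by
  refine IsAlgClosed.of_exists_root _ fun p hp hirr => ?_
  have hdeg : p.natDegree ≠ 0 := hirr.natDegree_pos.ne'
  choose c hc using fun j => umk_surjective (U := U) (R := R) (p.coeff j)
  have hr : ∀ i, ∃ r : R i, r ^ p.natDegree + ∑ j ∈ Finset.range p.natDegree, c j i * r ^ j = 0 := by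
    intro i
    let q : (R i)[X] := X ^ p.natDegree + ∑ j ∈ Finset.range p.natDegree, C (c j i) * X ^ j
    have hq : q.degree ≠ 0 := by
      have h1 : (∑ j ∈ Finset.range p.natDegree, C (c j i) * X ^ j : (R i)[X]).degree <
          p.natDegree := by
        refine (degree_sum_le _ _).trans_lt ?_
        rw [Finset.sup_lt_iff (WithBot.bot_lt_coe _)]
        intro j hj
        refine (degree_C_mul_X_pow_le _ _).trans_lt ?_
        exact_mod_cast Finset.mem_range.1 hj
      have h2 : q.degree = p.natDegree := by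
        rw [degree_add_eq_left_of_degree_lt]
        · exact degree_X_pow _
        · rw [degree_X_pow]; exact h1
      rw [h2]
      exact_mod_cast hdeg
    obtain ⟨r, hr⟩ := IsAlgClosed.exists_root q hq
    refine ⟨r, ?_⟩
    rw [IsRoot.def] at hr
    simpa [q, eval_finset_sum] using hr
  choose r hr using hr
  refine ⟨umk U r, ?_⟩
  conv_lhs => rw [hp.as_sum]
  rw [eval_add, eval_pow, eval_X, eval_finset_sum]
  simp only [eval_mul, eval_C, eval_pow, eval_X, ← hc]
  have h1 : umk U r ^ p.natDegree + ∑ j ∈ Finset.range p.natDegree, umk U (c j) * umk U r ^ j =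
      umk U (fun i => r i ^ p.natDegree + ∑ j ∈ Finset.range p.natDegree, c j i * r i ^ j) := by
    rw [← map_pow]
    simp only [← map_pow, ← map_mul, ← map_sum, ← map_add]
    congr 1
    ext i
    simp [Finset.sum_apply]
  rw [h1, umk_eq_zero]
  exact Eventually.of_forall hr

theorem UP_charZero (h : ∀ n : ℕ, n ≠ 0 → ∀ᶠ i in U, ((n : ℕ) : R i) ≠ 0) :
    CharZero (UP U R) := by
  refine charZero_of_inj_zero fun n hn => ?_
  by_contra hn0
  have h1 : (n : UP U R) = umk U (fun i => (n : R i)) := by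
    rw [← map_natCast (umk U (R := R)) n]; rfl
  rw [h1] at hn
  exact umk_ne_zero.2 (h n hn0) hn

end basic

section algebra

variable {I : Type*} {U : Ultrafilter I} {k F : I → Type*} [∀ i, Field (k i)] [∀ i, Field (F i)]
  [∀ i, Algebra (k i) (F i)]

/-- the structure map -/
noncomputable def umap : UP U k →+* UP U F := Ideal.quotientMap (uIdeal U F)
    (Pi.ringHom fun i => (algebraMap (k i) (F i)).comp (Pi.evalRingHom k i)) (by
      intro f hf
      exact hf.mono fun i hi => by
        change algebraMap (k i) (F i) (f i) = 0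
        rw [hi, map_zero])

noncomputable instance : Algebra (UP U k) (UP U F) := RingHom.toAlgebra umap

theorem algebraMap_umk (c : ∀ i, k i) :
    algebraMap (UP U k) (UP U F) (umk U c) = umk U (fun i => algebraMap (k i) (F i) (c i)) := rfl

theorem umk_smul (c : ∀ i, k i) (f : ∀ i, F i) :
    umk U c • umk U f = umk U (fun i => c i • f i) := by
  rw [Algebra.smul_def, algebraMap_umk, ← map_mul]
  congr 1
  ext i
  rw [Pi.mul_apply, Algebra.smul_def]

end algebra

/-- a sequence with values in a finite set is almost everywhere constant -/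
theorem exists_ulim {I : Type*} (U : Ultrafilter I) {α : Type*} (S : Finset α) {a : I → α}
    (h : ∀ᶠ i in U, a i ∈ S) : ∃ n ∈ S, ∀ᶠ i in U, a i = n := by
  classical
  by_contra hc
  push Not at hc
  have h1 : ∀ n ∈ S, ∀ᶠ i in (U : Filter I), a i ≠ n := hc
  have h2 : ∀ᶠ i in (U : Filter I), ∀ n ∈ S, a i ≠ n := (Filter.eventually_all_finset S).2 h1
  obtain ⟨i, hi, hi'⟩ := (h.and h2).exists
  exact hi' _ hi rfl

theorem exists_ulim_int {I : Type*} (U : Ultrafilter I) {a : I → ℤ} {m : ℤ}
    (h : ∀ᶠ i in U, |a i| ≤ m) : ∃ n, ∀ᶠ i in U, a i = n := by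
  obtain ⟨n, -, hn⟩ := exists_ulim U (Finset.Icc (-m) m) (a := a) (by
    filter_upwards [h] with i hi
    rw [Finset.mem_Icc]
    exact abs_le.1 hi)
  exact ⟨n, hn⟩

open Classical in
/-- the limit of a bounded sequence of integers -/
noncomputable def ulim {I : Type*} (U : Ultrafilter I) (a : I → ℤ) : ℤ :=
  if h : ∃ n, ∀ᶠ i in U, a i = n then h.choose else 0

theorem ulim_spec {I : Type*} {U : Ultrafilter I} {a : I → ℤ} {m : ℤ}
    (h : ∀ᶠ i in U, |a i| ≤ m) : ∀ᶠ i in U, a i = ulim U a := by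
  have h1 := exists_ulim_int U h
  rw [ulim, dif_pos h1]
  exact h1.choose_spec

theorem ulim_eq {I : Type*} {U : Ultrafilter I} {a : I → ℤ} {n : ℤ}
    (h : ∀ᶠ i in U, a i = n) : ulim U a = n := by
  have h1 : ∃ n, ∀ᶠ i in U, a i = n := ⟨n, h⟩
  rw [ulim, dif_pos h1]
  obtain ⟨i, hi, hi'⟩ := (h.and h1.choose_spec).exists
  rw [← hi', hi]

end Fermat.Agent.S27A
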