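import Fermat.Agent.RR.Riemann

/-!
# Degrees of functions, uniform bounds
-/

set_option autoImplicit false

namespace Fermat.Agent.S27A

open AlgebraicCurve Fermat.Agent.Curve Fermat.Agent.RR Polynomial IntermediateField

variable {K F : Type*} [Field K] [IsAlgClosed K] [Field F] [Algebra K F] [hF : FunField K F]

variable (K) in
/-- the degree of the divisor of poles -/
noncomputable def pd (f : F) : ℤ := Divisor.degree (poleDiv K f)

theorem pd_nonneg (f : F) : 0 ≤ pd K f := degree_nonneg (poleDiv_nonneg f)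

theorem pd_le_of_le {f : F} {D : Divisor K F} (h : poleDiv K f ≤ D) : pd K f ≤ Divisor.degree D :=
  degree_mono h

theorem pd_zero : pd K (0 : F) = 0 := by
  have h : poleDiv K (0 : F) = 0 := by
    ext v
    rw [poleDiv_apply, v.ord_zero]
    simp
  rw [pd, h, map_zero]

theorem pd_algebraMap (a : K) : pd K (algebraMap K F a) = 0 := by
  have h : poleDiv K (algebraMap K F a) = 0 := by
    ext v
    rw [poleDiv_apply, ord_algebraMap]
    simp
  rw [pd, h, map_zero]

theorem pd_one : pd K (1 : F) = 0 := by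
  rw [← map_one (algebraMap K F), pd_algebraMap]

theorem poleDiv_add_le (f g : F) : poleDiv K (f + g) ≤ poleDiv K f + poleDiv K g := by
  intro v
  rw [Finsupp.add_apply, poleDiv_apply, poleDiv_apply, poleDiv_apply]
  rcases eq_or_ne f 0 with rfl | hf
  · rw [zero_add, v.ord_zero]; simp
  rcases eq_or_ne g 0 with rfl | hg
  · rw [add_zero, v.ord_zero]; simp
  rcases eq_or_ne (f + g) 0 with hfg | hfg
  · rw [hfg, v.ord_zero]; simp only [neg_zero, max_self]; positivity
  · have h1 : min (v.ord f) (v.ord g) ≤ v.ord (f + g) :=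
      le_ord_add v hfg (min_le_left _ _) (min_le_right _ _) hf hg
    omega

theorem pd_add (f g : F) : pd K (f + g) ≤ pd K f + pd K g := by
  rw [pd, pd, pd, ← map_add]
  exact degree_mono (poleDiv_add_le f g)

theorem poleDiv_mul_le (f g : F) : poleDiv K (f * g) ≤ poleDiv K f + poleDiv K g := by
  intro v
  rw [Finsupp.add_apply, poleDiv_apply, poleDiv_apply, poleDiv_apply]
  rcases eq_or_ne f 0 with rfl | hf
  · rw [zero_mul, v.ord_zero]; simp
  rcases eq_or_ne g 0 with rfl | hg
  · rw [mul_zero, v.ord_zero]; simp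
  rw [v.ord_mul hf hg]
  omega

theorem pd_mul (f g : F) : pd K (f * g) ≤ pd K f + pd K g := by
  rw [pd, pd, pd, ← map_add]
  exact degree_mono (poleDiv_mul_le f g)

theorem pd_inv (f : F) : pd K f⁻¹ = pd K f := by
  have h1 := degree_divisor (K := K) f
  rw [divisor_eq_sub, map_sub, sub_eq_zero, zeroDiv_eq_poleDiv_inv] at h1
  exact h1

theorem pd_neg (f : F) : pd K (-f) = pd K f := by
  have h : poleDiv K (-f) = poleDiv K f := by
    ext v
    rw [poleDiv_apply, poleDiv_apply, ord_neg]
  rw [pd, h, pd]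

theorem pd_div (f g : F) : pd K (f / g) ≤ pd K f + pd K g := by
  rw [div_eq_mul_inv, ← pd_inv g]
  exact pd_mul _ _

theorem pd_pow (f : F) (n : ℕ) : pd K (f ^ n) ≤ n * pd K f := by
  induction n with
  | zero => rw [pow_zero, pd_one]; simp
  | succ n ih =>
    rw [pow_succ]
    refine (pd_mul _ _).trans ?_
    push_cast
    linarith

theorem pd_of_mem {f : F} {D : Divisor K F} (h : f ∈ riemannRochSpace D) :
    pd K f ≤ Divisor.degree (D ⊔ 0) := by
  apply pd_le_of_le
  intro v
  rw [poleDiv_apply, Finsupp.sup_apply, Finsupp.zero_apply]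
  rcases mem_L.1 h v with rfl | h1
  · rw [v.ord_zero]; simp
  · omega

theorem single_le_degree {D : Divisor K F} (hD : 0 ≤ D) (v : Place K F) :
    D v ≤ Divisor.degree D := by
  rw [degree_eq]
  by_cases hv : v ∈ D.support
  · exact Finset.single_le_sum (f := fun w => D w) (fun w _ => hD w) hv
  · rw [Finsupp.notMem_support_iff.1 hv]
    exact Finset.sum_nonneg fun w _ => hD w

theorem neg_ord_le (v : Place K F) (f : F) : -v.ord f ≤ pd K f := by
  have h1 := single_le_degree (poleDiv_nonneg (K := K) f) v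
  rw [poleDiv_apply] at h1
  exact (le_max_left _ _).trans h1

theorem ord_le (v : Place K F) (f : F) : v.ord f ≤ pd K f := by
  have h1 := neg_ord_le v f⁻¹
  rw [v.ord_inv, pd_inv, neg_neg] at h1
  exact h1

theorem abs_ord_le (v : Place K F) (f : F) : |v.ord f| ≤ pd K f :=
  abs_le.2 ⟨by linarith [neg_ord_le v f], ord_le v f⟩

/-- the divisor `n v` -/
theorem ell_nsmul_single (v : Place K F) (n : ℕ) :
    n + 1 ≤ ell (Finsupp.single v (n : ℤ) : Divisor K F) + rrGenus K F := by
  have h := riemann (Finsupp.single v (n : ℤ) : Divisor K F)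
  rw [degree_single'] at h
  exact_mod_cast h

/-- if the dimension jumps there is a function with exact pole order -/
theorem exists_of_jump (v : Place K F) (n : ℕ)
    (h : ell (Finsupp.single v (n : ℤ) : Divisor K F) <
      ell (Finsupp.single v ((n + 1 : ℕ) : ℤ) : Divisor K F)) :
    ∃ f : F, f ≠ 0 ∧ v.ord f = -((n + 1 : ℕ) : ℤ) ∧ pd K f ≤ n + 1 := by
  classical
  have h1 : ¬ riemannRochSpace (Finsupp.single v ((n + 1 : ℕ) : ℤ) : Divisor K F) ≤
      riemannRochSpace (Finsupp.single v (n : ℤ) : Divisor K F) := by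
    intro hle
    exact absurd (Submodule.finrank_mono hle) (not_le.2 h)
  obtain ⟨f, hf, hf'⟩ := SetLike.not_le_iff_exists.1 h1
  have hf0 : f ≠ 0 := by
    rintro rfl
    exact hf' (zero_mem _)
  refine ⟨f, hf0, ?_, ?_⟩
  · have h2 := (mem_L.1 hf v).le_ord hf0
    rw [Finsupp.single_eq_same] at h2
    refine le_antisymm ?_ h2
    by_contra hc
    apply hf'
    rw [mem_L]
    intro w
    rcases eq_or_ne w v with rfl | hw
    · rw [Finsupp.single_eq_same]
      right
      push_cast at hc ⊢
      omega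
    · have h3 := mem_L.1 hf w
      rw [Finsupp.single_eq_of_ne hw] at h3 ⊢
      exact h3
  · have h2 := pd_of_mem hf
    have h3 : (Finsupp.single v ((n + 1 : ℕ) : ℤ) : Divisor K F) ⊔ 0 =
        Finsupp.single v ((n + 1 : ℕ) : ℤ) := by
      rw [sup_eq_left]
      intro w
      rw [Finsupp.single_apply]
      split_ifs
      · simp only [Finsupp.coe_zero, Pi.zero_apply]; positivity
      · rfl
    rw [h3, degree_single'] at h2
    exact_mod_cast h2

/-- uniform bound for uniformizers -/
theorem exists_unif (v : Place K F) :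
    ∃ u : F, u ≠ 0 ∧ v.ord u = 1 ∧ pd K u ≤ 4 * rrGenus K F + 7 := by
  obtain ⟨g, hg⟩ : ∃ g, g = rrGenus K F := ⟨_, rfl⟩
  obtain ⟨a, ha⟩ : ∃ a : ℕ → ℕ, ∀ n, a n = ell (Finsupp.single v (n : ℤ) : Divisor K F) :=
    ⟨_, fun n => rfl⟩
  have hlow : ∀ n, n + 1 ≤ a n + g := fun n => by rw [ha, hg]; exact ell_nsmul_single v n
  have hmono : ∀ n, a n ≤ a (n + 1) := fun n => by
    rw [ha, ha]
    exact ell_mono (Finsupp.single_le_single.2 (by push_cast; omega))
  have hstep : ∀ n, a (n + 1) ≤ a n + 1 := fun n => by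
    have := ell_le_of_le (D := (Finsupp.single v (n : ℤ) : Divisor K F))
      (E := Finsupp.single v ((n + 1 : ℕ) : ℤ)) (Finsupp.single_le_single.2 (by push_cast; omega))
    rw [degree_single', degree_single'] at this
    rw [ha, ha]
    omega
  have ha0 : a 0 = 1 := by
    rw [ha, Nat.cast_zero, Finsupp.single_zero, ell_zero]
  -- two consecutive jumps
  obtain ⟨n, hn, h1, h2⟩ : ∃ n, n ≤ 2 * g + 1 ∧ a n < a (n + 1) ∧ a (n + 1) < a (n + 2) := by
    by_contra hc
    push Not at hc
    have h3 : ∀ m, m ≤ g + 1 → a (2 * m) ≤ 1 + m := by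
      intro m
      induction m with
      | zero => intro _; rw [Nat.mul_zero, ha0]
      | succ m ih =>
        intro hm
        have h4 := ih (by omega)
        have h5 := hc (2 * m) (by omega)
        have h6 := hstep (2 * m)
        have h7 := hstep (2 * m + 1)
        have h8 := hmono (2 * m)
        have e : 2 * (m + 1) = 2 * m + 1 + 1 := by ring
        rw [e]
        by_cases h9 : a (2 * m) < a (2 * m + 1)
        · have h10 := h5 h9
          have e2 : 2 * m + 2 = 2 * m + 1 + 1 := by ring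
          rw [e2] at h10
          omega
        · omega
    have h4 := h3 (g + 1) le_rfl
    have h5 := hlow (2 * (g + 1))
    omega
  rw [ha, ha] at h1 h2
  obtain ⟨f1, hf1, ho1, hp1⟩ := exists_of_jump v n h1
  obtain ⟨f2, hf2, ho2, hp2⟩ := exists_of_jump v (n + 1) h2
  refine ⟨f1 / f2, div_ne_zero hf1 hf2, ?_, ?_⟩
  · rw [ord_div v hf1 hf2, ho1, ho2]
    push_cast
    ring
  · refine (pd_div f1 f2).trans ?_
    rw [← hg]
    push_cast at hp1 hp2 ⊢
    omega

/-- separation of places -/
theorem exists_sep {v w : Place K F} (hvw : w ≠ v) :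
    ∃ f : F, f ≠ 0 ∧ v.ord f < 0 ∧ 0 ≤ w.ord f ∧ pd K f ≤ rrGenus K F + 1 := by
  classical
  have h1 := ell_nsmul_single v (rrGenus K F + 1)
  have h2 : ¬ riemannRochSpace (Finsupp.single v ((rrGenus K F + 1 : ℕ) : ℤ) : Divisor K F) ≤
      riemannRochSpace (0 : Divisor K F) := by
    intro hle
    have h3 : ell (Finsupp.single v ((rrGenus K F + 1 : ℕ) : ℤ) : Divisor K F) ≤
      ell (0 : Divisor K F) := Submodule.finrank_mono hle
    rw [ell_zero] at h3
    omega
  obtain ⟨f, hf, hf'⟩ := SetLike.not_le_iff_exists.1 h2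
  have hf0 : f ≠ 0 := by
    rintro rfl
    exact hf' (zero_mem _)
  have h4 : ∀ u : Place K F, u ≠ v → 0 ≤ u.ord f := by
    intro u hu
    have h3 := (mem_L.1 hf u).le_ord hf0
    rwa [Finsupp.single_eq_of_ne hu, neg_zero] at h3
  refine ⟨f, hf0, ?_, h4 w hvw, ?_⟩
  · by_contra hc
    apply hf'
    rw [mem_L]
    intro u
    right
    rw [Finsupp.zero_apply, neg_zero]
    rcases eq_or_ne u v with rfl | hu
    · exact not_lt.1 hc
    · exact h4 u hu
  · have h5 := pd_of_mem hf
    have h3 : (Finsupp.single v ((rrGenus K F + 1 : ℕ) : ℤ) : Divisor K F) ⊔ 0 =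
        Finsupp.single v ((rrGenus K F + 1 : ℕ) : ℤ) := by
      rw [sup_eq_left]
      intro w
      rw [Finsupp.single_apply]
      split_ifs
      · simp only [Finsupp.coe_zero, Pi.zero_apply]; positivity
      · rfl
    rw [h3, degree_single'] at h5
    exact_mod_cast h5

/-- linear relations with polynomial coefficients of bounded degree -/
theorem exists_rel {t : F} {e : ℕ} (he : pd K t ≤ e) {m : ℕ} (h : Fin (e + 1) → F)
    (hm : ∀ j, pd K (h j) ≤ m) :
    ∃ c : Fin (e + 1) × Fin ((e + 1) * m + 2) → K,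
      ∑ p, c p • (t ^ (p.2 : ℕ) * h p.1) = 0 ∧ ∃ p, c p = 1 := by
  obtain ⟨B, hB⟩ : ∃ B, B = (e + 1) * m + 1 := ⟨_, rfl⟩
  have hB2 : (e + 1) * m + 2 = B + 1 := by rw [hB]
  rw [hB2]
  let D : Divisor K F := B • poleDiv K t + ∑ j, poleDiv K (h j)
  have hD0 : 0 ≤ D := add_nonneg (nsmul_nonneg (poleDiv_nonneg t) B)
    (Finset.sum_nonneg fun j _ => poleDiv_nonneg (h j))
  have hdeg : Divisor.degree D ≤ B * e + (e + 1) * m := by
    simp only [D]
    rw [map_add, map_nsmul, map_sum, nsmul_eq_mul]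
    have h1 : ∑ j, Divisor.degree (poleDiv K (h j)) ≤ (e + 1) * m := by
      refine (Finset.sum_le_card_nsmul _ _ (m : ℤ) fun j _ => hm j).trans ?_
      simp
    have h2 : (B : ℤ) * Divisor.degree (poleDiv K t) ≤ B * e :=
      mul_le_mul_of_nonneg_left he (by positivity)
    linarith
  have hmem : ∀ p : Fin (e + 1) × Fin (B + 1), t ^ (p.2 : ℕ) * h p.1 ∈ riemannRochSpace D := by
    intro p
    have h1 : t ^ (p.2 : ℕ) * h p.1 ∈
        riemannRochSpace ((p.2 : ℕ) • poleDiv K t + poleDiv K (h p.1)) :=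
      L_mul_mem (L_pow_mem (mem_L_poleDiv t) _) (mem_L_poleDiv _)
    refine L_mono ?_ h1
    refine add_le_add (nsmul_le_nsmul_left (poleDiv_nonneg t) (by omega)) ?_
    exact Finset.single_le_sum (f := fun j => poleDiv K (h j))
      (fun j _ => poleDiv_nonneg (h j)) (Finset.mem_univ p.1)
  have hnot : ¬ LinearIndependent K
      (fun p : Fin (e + 1) × Fin (B + 1) => (⟨_, hmem p⟩ : riemannRochSpace D)) := by
    intro hli
    have h1 := hli.fintype_card_le_finrank
    rw [Fintype.card_prod, Fintype.card_fin, Fintype.card_fin] at h1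
    have h2 : (ell D : ℤ) ≤ Divisor.degree D + 1 := ell_le_degree_add_one hD0
    have h3 : (((e + 1) * (B + 1) : ℕ) : ℤ) ≤ ell D := by exact_mod_cast h1
    have h4 : (B : ℤ) = (e + 1) * m + 1 := by rw [hB]; push_cast; ring
    push_cast at h3
    nlinarith
  rw [Fintype.not_linearIndependent_iff] at hnot
  obtain ⟨c, hc, p, hp⟩ := hnot
  refine ⟨fun q => (c p)⁻¹ * c q, ?_, p, inv_mul_cancel₀ hp⟩
  have h1 := congrArg (fun x : riemannRochSpace D => (x : F)) hc
  simp only [Submodule.coe_sum, Submodule.coe_smul, Submodule.coe_zero] at h1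
  have h2 : ∑ q, ((c p)⁻¹ * c q) • (t ^ (q.2 : ℕ) * h q.1) =
      (c p)⁻¹ • ∑ q, c q • (t ^ (q.2 : ℕ) * h q.1) := by
    rw [Finset.smul_sum]
    refine Finset.sum_congr rfl fun q _ => ?_
    rw [mul_smul]
  rw [h2, h1, smul_zero]

/-- effective divisors are sums of places -/
theorem exists_eq_sum {n : ℕ} {D : Divisor K F} (hD : 0 ≤ D) (hn : Divisor.degree D = n) :
    ∃ v : Fin n → Place K F, D = ∑ s, Finsupp.single (v s) 1 := by
  induction n generalizing D with
  | zero =>
    refine ⟨fun s => s.elim0, ?_⟩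
    have h1 : ∀ w, D w = 0 := by
      intro w
      have h2 := single_le_degree hD w
      rw [hn] at h2
      exact le_antisymm (by exact_mod_cast h2) (hD w)
    ext w
    simp [h1 w]
  | succ n ih =>
    have h1 : ∃ w, 0 < D w := by
      by_contra hc
      push Not at hc
      have h2 : D = 0 := by
        ext w
        exact le_antisymm (hc w) (hD w)
      rw [h2, map_zero] at hn
      push_cast at hn
      omega
    obtain ⟨w, hw⟩ := h1
    have h2 : 0 ≤ D - Finsupp.single w 1 := by
      intro u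
      rw [Finsupp.sub_apply, Finsupp.zero_apply]
      rcases eq_or_ne u w with rfl | hu
      · rw [Finsupp.single_eq_same]; omega
      · rw [Finsupp.single_eq_of_ne hu, sub_zero]; exact hD u
    obtain ⟨v, hv⟩ := ih h2 (by rw [map_sub, hn, degree_single']; push_cast; ring)
    refine ⟨Fin.cons w v, ?_⟩
    rw [Fin.sum_univ_succ, Fin.cons_zero]
    simp only [Fin.cons_succ]
    rw [← hv]
    abel

/-- every class of degree zero is represented by `P₁ + … + P_g - g P₀` -/
theorem exists_eff (D : Divisor K F) (hD : Divisor.degree D = 0) (P0 : Place K F) :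
    ∃ (v : Fin (rrGenus K F) → Place K F) (f : F), f ≠ 0 ∧
      D + divisor K f = ∑ s, Finsupp.single (v s) 1 - Finsupp.single P0 (rrGenus K F : ℤ) := by
  have h1 := riemann (D + Finsupp.single P0 (rrGenus K F : ℤ))
  rw [map_add, hD, degree_single'] at h1
  obtain ⟨f, hf0, hf⟩ := exists_ne_zero_of_ell_pos (D := D + Finsupp.single P0 (rrGenus K F : ℤ))
    (by omega)
  have h2 : 0 ≤ D + Finsupp.single P0 (rrGenus K F : ℤ) + divisor K f := by
    intro w
    have h3 := (mem_L.1 hf w).le_ord hf0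
    rw [Finsupp.add_apply, divisor_apply, Finsupp.zero_apply]
    omega
  obtain ⟨v, hv⟩ := exists_eq_sum (n := rrGenus K F) h2 (by
    rw [map_add, map_add, hD, degree_single', degree_divisor]; ring)
  refine ⟨v, f, hf0, ?_⟩
  rw [← hv]
  abel

end Fermat.Agent.S27A
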