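import Fermat.Agent.S27A.U1
import Fermat.Agent.S27A.U2

/-!
# The ultraproduct of function fields
-/

set_option autoImplicit false
set_option linter.unusedSectionVars false

namespace Fermat.Agent.S27A

open AlgebraicCurve Fermat.Agent.Curve Fermat.Agent.RR Polynomial IntermediateField Filter

variable {I : Type*} {U : Ultrafilter I} {k F : I → Type*} [∀ i, Field (k i)]
  [∀ i, IsAlgClosed (k i)] [∀ i, Field (F i)] [∀ i, Algebra (k i) (F i)]
  [∀ i, FunField (k i) (F i)]

variable (k) in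
/-- bounded sequences -/
def Bdd (f : ∀ i, F i) : Prop := ∃ m : ℕ, ∀ i, pd (k i) (f i) ≤ m

theorem Bdd.of_zero : Bdd k (0 : ∀ i, F i) := ⟨0, fun i => by
  rw [Pi.zero_apply, pd_zero]; simp⟩

theorem Bdd.of_one : Bdd k (1 : ∀ i, F i) := ⟨0, fun i => by
  rw [Pi.one_apply, pd_one]; simp⟩

theorem Bdd.of_algebraMap (c : ∀ i, k i) : Bdd k (fun i => algebraMap (k i) (F i) (c i)) :=
  ⟨0, fun i => by rw [pd_algebraMap]; simp⟩

theorem Bdd.add {f g : ∀ i, F i} (hf : Bdd k f) (hg : Bdd k g) : Bdd k (f + g) := by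
  obtain ⟨m, hm⟩ := hf
  obtain ⟨n, hn⟩ := hg
  exact ⟨m + n, fun i => by
    push_cast
    exact (pd_add _ _).trans (add_le_add (hm i) (hn i))⟩

theorem Bdd.mul {f g : ∀ i, F i} (hf : Bdd k f) (hg : Bdd k g) : Bdd k (f * g) := by
  obtain ⟨m, hm⟩ := hf
  obtain ⟨n, hn⟩ := hg
  exact ⟨m + n, fun i => by
    push_cast
    exact (pd_mul _ _).trans (add_le_add (hm i) (hn i))⟩

theorem Bdd.inv {f : ∀ i, F i} (hf : Bdd k f) : Bdd k (fun i => (f i)⁻¹) := by
  obtain ⟨m, hm⟩ := hf
  exact ⟨m, fun i => by rw [pd_inv]; exact hm i⟩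

/-- modification of a sequence on a small set -/
theorem exists_modify {f : ∀ i, F i} {m : ℤ} (hm : 0 ≤ m) (h : ∀ᶠ i in U, pd (k i) (f i) ≤ m) :
    ∃ f' : ∀ i, F i, (∀ i, pd (k i) (f' i) ≤ m) ∧ umk U f' = umk U f := by
  classical
  refine ⟨fun i => if pd (k i) (f i) ≤ m then f i else 0, fun i => ?_, ?_⟩
  · by_cases hi : pd (k i) (f i) ≤ m
    · simp only [if_pos hi]; exact hi
    · simp only [if_neg hi, pd_zero]; exact hm
  · rw [umk_eq]
    filter_upwards [h] with i hi
    rw [if_pos hi]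

variable (U k F) in
/-- the function field: classes of bounded sequences -/
noncomputable def FS : IntermediateField (UP U k) (UP U F) where
  carrier := {x | ∃ f : ∀ i, F i, Bdd k f ∧ umk U f = x}
  mul_mem' := by
    rintro _ _ ⟨f, hf, rfl⟩ ⟨g, hg, rfl⟩
    exact ⟨f * g, hf.mul hg, map_mul _ _ _⟩
  add_mem' := by
    rintro _ _ ⟨f, hf, rfl⟩ ⟨g, hg, rfl⟩
    exact ⟨f + g, hf.add hg, map_add _ _ _⟩
  algebraMap_mem' := by
    intro c
    obtain ⟨c, rfl⟩ := umk_surjective c
    exact ⟨_, Bdd.of_algebraMap c, rfl⟩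
  inv_mem' := by
    rintro _ ⟨f, hf, rfl⟩
    exact ⟨_, hf.inv, umk_inv f⟩

theorem mem_FS {x : UP U F} : x ∈ FS U k F ↔ ∃ f : ∀ i, F i, Bdd k f ∧ umk U f = x := Iff.rfl

theorem umk_mem_FS {f : ∀ i, F i} {m : ℤ} (h : ∀ᶠ i in U, pd (k i) (f i) ≤ m) :
    umk U f ∈ FS U k F := by
  obtain ⟨f', hf', he⟩ := exists_modify (k := k) (U := U) (f := f) (m := max m 0)
    (le_max_right _ _) (h.mono fun i hi => hi.trans (le_max_left _ _))
  rw [← he]
  exact ⟨f', ⟨(max m 0).toNat, fun i => by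
    rw [Int.toNat_of_nonneg (le_max_right _ _)]; exact hf' i⟩, rfl⟩

/-- a bounded representative -/
noncomputable def rep (x : FS U k F) : ∀ i, F i := x.2.choose

theorem rep_bdd (x : FS U k F) : Bdd k (rep x) := x.2.choose_spec.1

theorem umk_rep (x : FS U k F) : umk U (rep x) = x := x.2.choose_spec.2

theorem rep_eq {x : FS U k F} {f : ∀ i, F i} (h : umk U f = x) : ∀ᶠ i in U, rep x i = f i := by
  rw [← umk_eq, umk_rep, h]

theorem rep_ne_zero {x : FS U k F} (h : x ≠ 0) : ∀ᶠ i in U, rep x i ≠ 0 := by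
  rw [← umk_ne_zero, umk_rep]
  exact fun h' => h (Subtype.ext h')

theorem rep_mul (x y : FS U k F) : ∀ᶠ i in U, rep (x * y) i = rep x i * rep y i :=
  rep_eq (f := rep x * rep y) (by rw [map_mul, umk_rep, umk_rep]; rfl)

theorem rep_add (x y : FS U k F) : ∀ᶠ i in U, rep (x + y) i = rep x i + rep y i :=
  rep_eq (f := rep x + rep y) (by rw [map_add, umk_rep, umk_rep]; rfl)

theorem rep_algebraMap (c : ∀ i, k i) : ∀ᶠ i in U,
    rep (algebraMap (UP U k) (FS U k F) (umk U c)) i = algebraMap (k i) (F i) (c i) :=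
  rep_eq (f := fun i => algebraMap (k i) (F i) (c i)) rfl

/-- an element which is almost everywhere constant is constant -/
theorem exists_const_of {x : FS U k F} (h : ∀ᶠ i in U, ∃ c, rep x i = algebraMap (k i) (F i) c) :
    ∃ c, x = algebraMap (UP U k) (FS U k F) c := by
  classical
  refine ⟨umk U (fun i => if h : ∃ c, rep x i = algebraMap (k i) (F i) c then h.choose else 0),
    Subtype.ext ?_⟩
  rw [← umk_rep x]
  change umk U (rep x) = umk U (fun i => algebraMap (k i) (F i)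
    (if h : ∃ c, rep x i = algebraMap (k i) (F i) c then h.choose else 0))
  rw [umk_eq]
  filter_upwards [h] with i hi
  rw [dif_pos hi]
  exact hi.choose_spec

/-- transcendental elements are almost everywhere transcendental -/
theorem transcendental_rep {x : FS U k F} (h : Transcendental (UP U k) x) :
    ∀ᶠ i in U, Transcendental (k i) (rep x i) := by
  by_contra hc
  rw [← Ultrafilter.eventually_not] at hc
  have h1 : ∀ᶠ i in U, ∃ c, rep x i = algebraMap (k i) (F i) c := by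
    filter_upwards [hc] with i hi
    have h2 : IsAlgebraic (k i) (rep x i) := not_not.1 hi
    obtain ⟨c, hc⟩ := mem_range_of_isAlgebraic h2
    exact ⟨c, hc.symm⟩
  obtain ⟨c, hc⟩ := exists_const_of h1
  apply h
  rw [hc]
  exact isAlgebraic_algebraMap c

end Fermat.Agent.S27A
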