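import Fermat.Agent.S27A.U3

/-!
# The ultraproduct of function fields is a function field
-/

set_option autoImplicit false
set_option linter.unusedSectionVars false

namespace Fermat.Agent.S27A

open AlgebraicCurve Fermat.Agent.Curve Fermat.Agent.RR Polynomial IntermediateField Filter

variable {I : Type*} {U : Ultrafilter I} {k F : I → Type*} [∀ i, Field (k i)]
  [∀ i, IsAlgClosed (k i)] [∀ i, Field (F i)] [∀ i, Algebra (k i) (F i)]
  [∀ i, FunField (k i) (F i)]

theorem transcendental_of {x : FS U k F} (h : ∀ᶠ i in U, Transcendental (k i) (rep x i)) :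
    Transcendental (UP U k) x := by
  intro hx
  obtain ⟨c, hc⟩ := mem_range_of_isAlgebraic hx
  obtain ⟨c, rfl⟩ := umk_surjective c
  have h1 := rep_algebraMap (U := U) (F := F) c
  rw [hc] at h1
  obtain ⟨i, hi, hi'⟩ := (h.and h1).exists
  apply hi
  rw [hi']
  exact isAlgebraic_algebraMap _

/-- a nontrivial relation -/
theorem exists_rel_FS {x : FS U k F} {e : ℕ}
    (he : ∀ᶠ i in U, pd (k i) (rep x i) ≤ e) (h : Fin (e + 1) → FS U k F) :
    ∃ (B : ℕ) (c : Fin (e + 1) × Fin B → UP U k),
      ∑ p, c p • (x ^ (p.2 : ℕ) * h p.1) = 0 ∧ ∃ p, c p = 1 := by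
  classical
  obtain ⟨t, ht, htx⟩ := exists_modify (U := U) (m := (e : ℤ)) (by positivity) he
  choose m hm using fun j => rep_bdd (h j)
  obtain ⟨M, hM⟩ : ∃ M : ℕ, ∀ j, m j ≤ M := ⟨Finset.univ.sup m, fun j =>
    Finset.le_sup (f := m) (Finset.mem_univ j)⟩
  have hM' : ∀ i j, pd (k i) (rep (h j) i) ≤ M := fun i j =>
    (hm j i).trans (by exact_mod_cast hM j)
  choose c hc p hp using fun i => exists_rel (K := k i) (ht i) (fun j => rep (h j) i) (hM' i)
  obtain ⟨p0, -, hp0⟩ := exists_ulim U Finset.univ (a := p) (Eventually.of_forall fun i =>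
    Finset.mem_univ _)
  refine ⟨_, fun q => umk U (fun i => c i q), ?_, p0, ?_⟩
  · apply Subtype.ext
    rw [IntermediateField.coe_sum]
    have h1 : ∀ q : Fin (e + 1) × Fin ((e + 1) * M + 2),
        ((umk U (fun i => c i q) • (x ^ (q.2 : ℕ) * h q.1) : FS U k F) : UP U F) =
        umk U (fun i => c i q • (t i ^ (q.2 : ℕ) * rep (h q.1) i)) := by
      intro q
      rw [IntermediateField.coe_smul, IntermediateField.coe_mul, IntermediateField.coe_pow,
        ← umk_rep (h q.1), ← umk_rep x, ← htx, ← map_pow, ← map_mul, umk_smul]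
      rfl
    simp only [h1]
    rw [← map_sum, IntermediateField.coe_zero, umk_eq_zero]
    refine Eventually.of_forall fun i => ?_
    rw [Finset.sum_apply]
    exact hc i
  · rw [← map_one (umk U (R := k)), umk_eq]
    filter_upwards [hp0] with i hi
    rw [← hi, hp i, Pi.one_apply]

theorem rank_le_of {x : FS U k F} (hx : Transcendental (UP U k) x) {e : ℕ}
    (he : ∀ᶠ i in U, pd (k i) (rep x i) ≤ e) :
    Module.rank (UP U k)⟮x⟯ (FS U k F) ≤ e := by
  classical
  refine rank_le fun s hs => ?_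
  by_contra hcard
  push Not at hcard
  have hcard' : e + 1 ≤ Fintype.card s := by rw [Fintype.card_coe]; exact hcard
  obtain ⟨emb⟩ : Nonempty (Fin (e + 1) ↪ s) :=
    Function.Embedding.nonempty_of_card_le (by rw [Fintype.card_fin]; exact hcard')
  have hli := hs.comp emb emb.injective
  obtain ⟨B, c, hc, p, hp⟩ := exists_rel_FS he (fun j => ((emb j : s) : FS U k F))
  -- the coefficients
  let a : Fin (e + 1) → (UP U k)⟮x⟯ := fun j => ∑ b : Fin B, c (j, b) •
    (AdjoinSimple.gen (UP U k) x) ^ (b : ℕ)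
  have ha : ∀ j, ((a j : (UP U k)⟮x⟯) : FS U k F) = ∑ b : Fin B, c (j, b) • x ^ (b : ℕ) := by
    intro j
    simp only [a]
    rw [IntermediateField.coe_sum]
    refine Finset.sum_congr rfl fun b _ => ?_
    rw [IntermediateField.coe_smul, IntermediateField.coe_pow, AdjoinSimple.coe_gen]
  have h1 : ∑ j, a j • ((emb j : s) : FS U k F) = 0 := by
    rw [← hc, Fintype.sum_prod_type]
    refine Finset.sum_congr rfl fun j _ => ?_
    rw [Algebra.smul_def, IntermediateField.algebraMap_apply, ha, Finset.sum_mul]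
    refine Finset.sum_congr rfl fun b _ => ?_
    rw [smul_mul_assoc]
  have h2 := Fintype.linearIndependent_iff.1 hli a h1 p.1
  have h3 := ha p.1
  rw [h2, IntermediateField.coe_zero] at h3
  have h4 := Fintype.linearIndependent_iff.1 (linearIndependent_pow hx B) (fun b => c (p.1, b))
    h3.symm p.2
  have h5 : c p = 0 := h4
  rw [h5] at hp
  exact zero_ne_one hp

theorem finiteDimensional_of {x : FS U k F} (hx : Transcendental (UP U k) x) :
    FiniteDimensional (UP U k)⟮x⟯ (FS U k F) := by
  obtain ⟨m, hm⟩ := rep_bdd x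
  rw [FiniteDimensional, ← Module.rank_lt_aleph0_iff]
  exact (rank_le_of hx (Eventually.of_forall hm)).trans_lt (Cardinal.nat_lt_aleph0 _)

theorem finrank_le_of {x : FS U k F} (hx : Transcendental (UP U k) x) {e : ℕ}
    (he : ∀ᶠ i in U, pd (k i) (rep x i) ≤ e) :
    Module.finrank (UP U k)⟮x⟯ (FS U k F) ≤ e := by
  haveI := finiteDimensional_of hx
  have h1 := rank_le_of hx he
  rw [← Module.finrank_eq_rank] at h1
  exact_mod_cast h1

end Fermat.Agent.S27A
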