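import Fermat.Agent.S27A.U4

/-!
# Places of the ultraproduct of function fields
-/

set_option autoImplicit false
set_option linter.unusedSectionVars false

namespace Fermat.Agent.S27A

open AlgebraicCurve Fermat.Agent.Curve Fermat.Agent.RR Polynomial IntermediateField Filter

variable {I : Type*} {U : Ultrafilter I} {k F : I → Type*} [∀ i, Field (k i)]
  [∀ i, IsAlgClosed (k i)] [∀ i, Field (F i)] [∀ i, Algebra (k i) (F i)]
  [∀ i, FunField (k i) (F i)]

/-- the limit valuation -/
noncomputable def uw (v : ∀ i, Place (k i) (F i)) (x : FS U k F) : ℤ :=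
  ulim U (fun i => (v i).ord (rep x i))

theorem uw_spec (v : ∀ i, Place (k i) (F i)) (x : FS U k F) :
    ∀ᶠ i in U, (v i).ord (rep x i) = uw v x := by
  obtain ⟨m, hm⟩ := rep_bdd x
  exact ulim_spec (m := m) (Eventually.of_forall fun i => (abs_ord_le _ _).trans (hm i))

theorem uw_eq {v : ∀ i, Place (k i) (F i)} {x : FS U k F} {n : ℤ}
    (h : ∀ᶠ i in U, (v i).ord (rep x i) = n) : uw v x = n := ulim_eq h

theorem exists_place (G : ℕ) (hG : ∀ i, rrGenus (k i) (F i) ≤ G) (v : ∀ i, Place (k i) (F i)) :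
    ∃ w : Place (UP U k) (FS U k F), ∀ x, w.ord x = uw v x := by
  -- a uniformizer
  choose u hu0 hu1 hu2 using fun i => exists_unif (v i)
  have hub : ∀ᶠ i in U, pd (k i) (u i) ≤ 4 * G + 7 := Eventually.of_forall fun i =>
    (hu2 i).trans (by have := hG i; omega)
  let x0 : FS U k F := ⟨umk U u, umk_mem_FS hub⟩
  have hx0 : uw v x0 = 1 := by
    apply uw_eq
    filter_upwards [rep_eq (x := x0) (f := u) rfl] with i hi
    rw [hi, hu1]
  have hx00 : x0 ≠ 0 := by
    intro h
    have h1 : umk U u = 0 := congrArg (fun x : FS U k F => (x : UP U F)) h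
    rw [umk_eq_zero] at h1
    obtain ⟨i, hi⟩ := h1.exists
    exact hu0 i hi
  obtain ⟨w, m, hm, hw⟩ := exists_place_of_valuation (K := UP U k) (F := FS U k F) (uw v) (by
      intro f g hf hg
      apply uw_eq
      filter_upwards [rep_mul f g, uw_spec v f, uw_spec v g, rep_ne_zero hf, rep_ne_zero hg] with
        i h1 h2 h3 h4 h5
      rw [h1, (v i).ord_mul h4 h5, h2, h3]) (by
      intro f g hf hg hfg
      obtain ⟨i, h1, h2, h3, h4, h5, h6, h7⟩ := ((rep_add f g).and ((uw_spec v f).and
        ((uw_spec v g).and ((uw_spec v (f + g)).and ((rep_ne_zero hf).and ((rep_ne_zero hg).and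
          (rep_ne_zero hfg))))))).exists
      rw [← h2, ← h3, ← h4, h1]
      rw [h1] at h7
      exact le_ord_add (v i) h7 (min_le_left _ _) (min_le_right _ _) h5 h6) (by
      intro a ha
      obtain ⟨c, rfl⟩ := umk_surjective a
      apply uw_eq
      filter_upwards [rep_algebraMap (F := F) c] with i hi
      rw [hi, ord_algebraMap]) ⟨x0, hx00, by rw [hx0]; exact one_ne_zero⟩
  have hm1 : m = 1 := by
    have h1 := hw x0 hx00
    rw [hx0] at h1
    exact Int.eq_one_or_neg_one_of_mul_eq_one h1.symm |>.resolve_right (by omega)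
  refine ⟨w, fun x => ?_⟩
  rcases eq_or_ne x 0 with rfl | hx
  · rw [w.ord_zero, eq_comm]
    apply uw_eq
    filter_upwards [rep_eq (x := (0 : FS U k F)) (f := 0) (by rw [map_zero]; rfl)] with i hi
    rw [hi, Pi.zero_apply, (v i).ord_zero]
  · rw [hw x hx, hm1, one_mul]

/-- families of function fields of bounded genus -/
class BG (k F : I → Type*) [∀ i, Field (k i)]
    [∀ i, IsAlgClosed (k i)] [∀ i, Field (F i)] [∀ i, Algebra (k i) (F i)]
    [∀ i, FunField (k i) (F i)] : Prop where
  out : ∃ G : ℕ, ∀ i, rrGenus (k i) (F i) ≤ G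

variable [hBG : BG k F]

/-- the limit place -/
noncomputable def uv (v : ∀ i, Place (k i) (F i)) : Place (UP U k) (FS U k F) :=
  (exists_place hBG.out.choose hBG.out.choose_spec v).choose

theorem uv_ord (v : ∀ i, Place (k i) (F i)) (x : FS U k F) :
    ∀ᶠ i in U, (v i).ord (rep x i) = (uv v).ord x := by
  have h := (exists_place (U := U) hBG.out.choose hBG.out.choose_spec v).choose_spec x
  filter_upwards [uw_spec v x] with i hi
  rw [hi, ← h]
  rfl

theorem uv_ord_eq {v : ∀ i, Place (k i) (F i)} {x : FS U k F} {n : ℤ}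
    (h : ∀ᶠ i in U, (v i).ord (rep x i) = n) : (uv v).ord x = n := by
  obtain ⟨i, hi, hi'⟩ := (h.and (uv_ord v x)).exists
  rw [← hi', hi]

theorem uv_eq_iff {v v' : ∀ i, Place (k i) (F i)} :
    (uv v : Place (UP U k) (FS U k F)) = uv v' ↔ ∀ᶠ i in U, v i = v' i := by
  classical
  constructor
  · intro h
    by_contra hc
    rw [← Ultrafilter.eventually_not] at hc
    obtain ⟨G, hG⟩ := hBG.out
    have h1 : ∀ i, ∃ f : F i, v i ≠ v' i → (v i).ord f < 0 ∧ 0 ≤ (v' i).ord f ∧
        pd (k i) f ≤ G + 1 := by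
      intro i
      by_cases hi : v i = v' i
      · exact ⟨0, fun h => absurd hi h⟩
      · obtain ⟨f, -, h1, h2, h3⟩ := exists_sep (v := v i) (w := v' i) (Ne.symm hi)
        exact ⟨f, fun _ => ⟨h1, h2, h3.trans (by have := hG i; omega)⟩⟩
    choose f hf using h1
    let x : FS U k F := ⟨umk U f, umk_mem_FS (m := G + 1) (by
      filter_upwards [hc] with i hi
      exact (hf i hi).2.2)⟩
    obtain ⟨i, h1, h2, h3, h4⟩ := ((uv_ord v x).and ((uv_ord v' x).and
      ((rep_eq (x := x) (f := f) rfl).and hc))).exists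
    rw [h] at h1
    rw [← h2, h3] at h1
    have h5 := hf i h4
    omega
  · intro h
    obtain ⟨G, hG⟩ := hBG.out
    have h1 : ∀ x : FS U k F, (uv v).ord x = (uv v').ord x := by
      intro x
      apply uv_ord_eq
      filter_upwards [h, uv_ord v' x] with i h1 h2
      rw [h1, h2]
    apply Place.ext
    ext x
    rw [mem_iff_ord_nonneg, mem_iff_ord_nonneg, h1]

end Fermat.Agent.S27A
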