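import Fermat.Agent.S27A.RR2

/-!
# Ultraproducts of function fields: divisors and Riemann-Roch spaces (abstract form)
-/

set_option autoImplicit false
set_option linter.style.haveILetI false
set_option linter.unusedSectionVars false

noncomputable section

namespace Fermat.Agent.S27A

open AlgebraicCurve Fermat.Agent.Curve Fermat.Agent.RR Polynomial IntermediateField Filter

/-- families of functions with bounded poles -/
def Bd {I : Type*} (U : Ultrafilter I) (k : I → Type*) {F : I → Type*} [∀ i, Field (k i)]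
    [∀ i, IsAlgClosed (k i)] [∀ i, Field (F i)] [∀ i, Algebra (k i) (F i)]
    [∀ i, FunField (k i) (F i)] (f : ∀ i, F i) : Prop :=
  ∃ d : ℤ, ∀ᶠ i in (U : Filter I), Divisor.degree (poleDiv (k i) (f i)) ≤ d

/-- The abstract properties of an ultraproduct of function fields. -/
structure UD {I : Type*} (U : Ultrafilter I) (k F : I → Type*) [∀ i, Field (k i)]
    [∀ i, IsAlgClosed (k i)] [∀ i, Field (F i)] [∀ i, Algebra (k i) (F i)]
    [∀ i, FunField (k i) (F i)] (Ks Fs : Type*) [Field Ks] [Field Fs] [Algebra Ks Fs] where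
  /-- the class of a bounded family -/
  of : (∀ i, F i) → Fs
  /-- the class of a family of constants -/
  ofK : (∀ i, k i) → Ks
  /-- the place defined by a family of places -/
  pl : (∀ i, Place (k i) (F i)) → Place Ks Fs
  surj : ∀ x : Fs, ∃ f, Bd U k f ∧ of f = x
  surjK : Function.Surjective ofK
  of_zero : of 0 = 0
  ofK_zero : ofK 0 = 0
  of_eq : ∀ {f g : ∀ i, F i}, Bd U k f → Bd U k g →
    (of f = of g ↔ ∀ᶠ i in (U : Filter I), f i = g i)
  ofK_eq : ∀ {a b : ∀ i, k i}, ofK a = ofK b ↔ ∀ᶠ i in (U : Filter I), a i = b i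
  of_add : ∀ {f g : ∀ i, F i}, Bd U k f → Bd U k g → of (fun i => f i + g i) = of f + of g
  of_smul : ∀ (a : ∀ i, k i) {f : ∀ i, F i}, Bd U k f → of (fun i => a i • f i) = ofK a • of f
  pl_surj : Function.Surjective pl
  pl_eq : ∀ {v w : ∀ i, Place (k i) (F i)}, pl v = pl w ↔ ∀ᶠ i in (U : Filter I), v i = w i
  ord_pl : ∀ (v : ∀ i, Place (k i) (F i)) {f : ∀ i, F i}, Bd U k f → of f ≠ 0 →
    ∀ᶠ i in (U : Filter I), (v i).ord (f i) = (pl v).ord (of f)

theorem eventually_const {I : Type*} (U : Ultrafilter I) (h : I → ℕ) (B : ℕ)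
    (hB : ∀ᶠ i in (U : Filter I), h i ≤ B) : ∃ m, ∀ᶠ i in (U : Filter I), h i = m := by
  by_contra hcon
  rw [not_exists] at hcon
  have h1 : ∀ m, ∀ᶠ i in (U : Filter I), ¬ h i = m := fun m =>
    Ultrafilter.eventually_not.2 (hcon m)
  have h2 : ∀ n : ℕ, ∀ᶠ i in (U : Filter I), n ≤ h i := by
    intro n
    induction n with
    | zero => exact Filter.Eventually.of_forall fun i => Nat.zero_le _
    | succ n ih =>
      filter_upwards [ih, h1 n] with i h3 h4
      omega
  obtain ⟨i, h3, h4⟩ := (hB.and (h2 (B + 1))).exists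
  omega

namespace UD

variable {I : Type*} {U : Ultrafilter I} {k F : I → Type*} [∀ i, Field (k i)]
  [∀ i, IsAlgClosed (k i)] [∀ i, Field (F i)] [∀ i, Algebra (k i) (F i)]
  [hFF : ∀ i, FunField (k i) (F i)] {Ks Fs : Type*} [Field Ks] [Field Fs] [Algebra Ks Fs]
  (X : UD U k F Ks Fs)

include X

theorem bd_zero : Bd U k (0 : ∀ i, F i) := by
  refine ⟨0, Filter.Eventually.of_forall fun i => ?_⟩
  have : poleDiv (k i) ((0 : ∀ i, F i) i) = 0 := by
    ext v
    rw [poleDiv_apply]
    simp
  rw [this, map_zero]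

theorem of_ne_zero {f : ∀ i, F i} (hf : Bd U k f) :
    X.of f ≠ 0 ↔ ∀ᶠ i in (U : Filter I), f i ≠ 0 := by
  rw [Ultrafilter.eventually_not, Ne, ← X.of_zero, X.of_eq hf X.bd_zero]
  rfl

/-- a family of places over a given place -/
def sec (P : Place Ks Fs) : ∀ i, Place (k i) (F i) := Function.surjInv X.pl_surj P

theorem pl_sec (P : Place Ks Fs) : X.pl (X.sec P) = P := Function.surjInv_eq X.pl_surj P

/-- the family of divisors of a divisor -/
def dv (i : I) : Divisor Ks Fs →+ Divisor (k i) (F i) :=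
  Finsupp.mapDomain.addMonoidHom fun P => X.sec P i

theorem dv_single (i : I) (P : Place Ks Fs) (n : ℤ) :
    X.dv i (Finsupp.single P n) = Finsupp.single (X.sec P i) n :=
  Finsupp.mapDomain_single

theorem dv_nonneg (i : I) {D : Divisor Ks Fs} (hD : 0 ≤ D) : 0 ≤ X.dv i D := by
  classical
  intro w
  change 0 ≤ (Finsupp.mapDomain (fun P => X.sec P i) D) w
  rw [Finsupp.mapDomain, Finsupp.sum_apply]
  refine Finset.sum_nonneg fun P _ => ?_
  change 0 ≤ (Finsupp.single (X.sec P i) (D P)) w
  by_cases h : X.sec P i = w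
  · rw [h, Finsupp.single_eq_same]; exact hD P
  · rw [Finsupp.single_eq_of_ne (Ne.symm h)]

theorem dv_mono (i : I) {D E : Divisor Ks Fs} (h : D ≤ E) : X.dv i D ≤ X.dv i E := by
  have := X.dv_nonneg i (sub_nonneg.2 h)
  rw [map_sub] at this
  exact sub_nonneg.1 this

theorem dv_apply (D : Divisor Ks Fs) (w : ∀ i, Place (k i) (F i)) :
    ∀ᶠ i in (U : Filter I), X.dv i D (w i) = D (X.pl w) := by
  classical
  induction D using Finsupp.induction_linear with
  | zero => exact Filter.Eventually.of_forall fun i => by rw [map_zero]; rfl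
  | add D E hD hE =>
    filter_upwards [hD, hE] with i h1 h2
    rw [map_add, Finsupp.add_apply, Finsupp.add_apply, h1, h2]
  | single P n =>
    by_cases h : P = X.pl w
    · have h1 : ∀ᶠ i in (U : Filter I), X.sec P i = w i := by
        rw [← X.pl_eq, X.pl_sec, h]
      filter_upwards [h1] with i hi
      rw [X.dv_single, hi, Finsupp.single_eq_same, h, Finsupp.single_eq_same]
    · have h1 : ∀ᶠ i in (U : Filter I), X.sec P i ≠ w i := by
        rw [Ultrafilter.eventually_not, ← X.pl_eq, X.pl_sec]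
        exact h
      filter_upwards [h1] with i hi
      rw [X.dv_single, Finsupp.single_eq_of_ne (Ne.symm hi), Finsupp.single_eq_of_ne (Ne.symm h)]

variable [IsAlgClosed Ks] [hF : FunField Ks Fs]

theorem degree_dv (i : I) (D : Divisor Ks Fs) :
    Divisor.degree (X.dv i D) = Divisor.degree D := by
  have h : (Divisor.degree (K := k i) (F := F i)).comp (X.dv i) = Divisor.degree := by
    apply Finsupp.addHom_ext
    intro P n
    rw [AddMonoidHom.comp_apply, X.dv_single, degree_single', degree_single']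
  exact DFunLike.congr_fun h D

theorem bd_of_L {D : Divisor Ks Fs} {f : ∀ i, F i}
    (hf : ∀ᶠ i in (U : Filter I), f i ∈ riemannRochSpace (X.dv i D)) : Bd U k f := by
  refine ⟨Divisor.degree (RR.posPart D), ?_⟩
  filter_upwards [hf] with i hi
  rw [← X.degree_dv i]
  apply RR.degree_mono
  have h1 : f i ∈ riemannRochSpace (X.dv i (RR.posPart D)) := L_mono (X.dv_mono i (RR.le_posPart D)) hi
  intro v
  rw [poleDiv_apply]
  have h2 := X.dv_nonneg i (RR.posPart_nonneg D) v
  rcases mem_L.1 h1 v with h3 | h3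
  · rw [h3, v.ord_zero]
    simpa using h2
  · simp only [Finsupp.coe_zero, Pi.zero_apply] at h2
    omega

theorem mem_L_iff {D : Divisor Ks Fs} {f : ∀ i, F i} (hf : Bd U k f) :
    X.of f ∈ riemannRochSpace D ↔ ∀ᶠ i in (U : Filter I), f i ∈ riemannRochSpace (X.dv i D) := by
  classical
  by_cases h0 : X.of f = 0
  · rw [h0]
    refine ⟨fun _ => ?_, fun _ => zero_mem _⟩
    have h1 : ∀ᶠ i in (U : Filter I), f i = (0 : ∀ i, F i) i := by
      rw [← X.of_eq hf X.bd_zero, h0, X.of_zero]
    filter_upwards [h1] with i hi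
    rw [hi]
    exact zero_mem _
  have hne := (X.of_ne_zero hf).1 h0
  constructor
  · intro h
    by_contra hcon
    rw [← Ultrafilter.eventually_not] at hcon
    obtain ⟨P0⟩ := nonempty_place Ks Fs
    have hex : ∀ i, ∃ w : Place (k i) (F i), f i ∉ riemannRochSpace (X.dv i D) →
        ¬ Ge w (-(X.dv i D) w) (f i) := by
      intro i
      by_cases hi : f i ∈ riemannRochSpace (X.dv i D)
      · exact ⟨X.sec P0 i, fun h' => absurd hi h'⟩
      · have : ¬ ∀ w, Ge w (-(X.dv i D) w) (f i) := fun h' => hi (mem_L.2 h')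
        push Not at this
        obtain ⟨w, hw⟩ := this
        exact ⟨w, fun _ => hw⟩
    choose w hw using hex
    obtain ⟨i, ⟨⟨h1, h2⟩, h3⟩, h4⟩ := (((hcon.and (X.ord_pl w hf h0)).and (X.dv_apply D w)).and
      hne).exists
    apply hw i h1
    right
    rw [h2, h3]
    exact (mem_L.1 h (X.pl w)).le_ord h0
  · intro h
    rw [mem_L]
    intro P
    right
    obtain ⟨i, ⟨⟨h1, h2⟩, h3⟩, h4⟩ := (((h.and (X.ord_pl (X.sec P) hf h0)).and
      (X.dv_apply D (X.sec P))).and hne).exists
    rw [X.pl_sec] at h2 h3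
    rw [← h2, ← h3]
    exact (mem_L.1 h1 _).le_ord h4

theorem of_sum {D : Divisor Ks Fs} {J : Type*} (s : Finset J) (a : J → ∀ i, k i)
    (f : J → ∀ i, F i)
    (hf : ∀ j, ∀ᶠ i in (U : Filter I), f j i ∈ riemannRochSpace (X.dv i D)) :
    (∀ᶠ i in (U : Filter I), ∑ j ∈ s, a j i • f j i ∈ riemannRochSpace (X.dv i D)) ∧
    X.of (fun i => ∑ j ∈ s, a j i • f j i) = ∑ j ∈ s, X.ofK (a j) • X.of (f j) := by
  classical
  induction s using Finset.induction_on with
  | empty =>
    refine ⟨Filter.Eventually.of_forall fun i => by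
      rw [Finset.sum_empty]; exact zero_mem _, ?_⟩
    simp only [Finset.sum_empty]
    exact X.of_zero
  | insert j s hj ih =>
    obtain ⟨ih1, ih2⟩ := ih
    have h1 : ∀ᶠ i in (U : Filter I), a j i • f j i ∈ riemannRochSpace (X.dv i D) := by
      filter_upwards [hf j] with i hi
      exact Submodule.smul_mem _ _ hi
    refine ⟨?_, ?_⟩
    · filter_upwards [h1, ih1] with i h2 h3
      rw [Finset.sum_insert hj]
      exact add_mem h2 h3
    · simp only [Finset.sum_insert hj]
      rw [X.of_add (X.bd_of_L h1) (X.bd_of_L ih1), ih2, X.of_smul (a j) (X.bd_of_L (hf j))]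

theorem ell_bound (D : Divisor Ks Fs) (i : I) : ell (X.dv i D) ≤ (Divisor.degree (RR.posPart D) + 1).toNat := by
  have h1 := ell_mono (X.dv_mono i (RR.le_posPart D))
  have h2 := ell_le_degree_add_one (X.dv_nonneg i (RR.posPart_nonneg D))
  rw [X.degree_dv] at h2
  omega

/-- **the dimension of `L(D)` is the limit of the dimensions** -/
theorem ell_eq (D : Divisor Ks Fs) : ∀ᶠ i in (U : Filter I), ell (X.dv i D) = ell D := by
  classical
  obtain ⟨m, hm⟩ := eventually_const U (fun i => ell (X.dv i D)) _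
    (Filter.Eventually.of_forall fun i => X.ell_bound D i)
  suffices h : ell D = m by rw [h]; exact hm
  let bs : ∀ i, ell (X.dv i D) = m → Module.Basis (Fin m) (k i) (riemannRochSpace (X.dv i D)) :=
    fun i h => Module.finBasisOfFinrankEq (k i) _ h
  let β : Fin m → ∀ i, F i := fun j i =>
    if h : ell (X.dv i D) = m then ((bs i h j : riemannRochSpace (X.dv i D)) : F i) else 0
  have hβ : ∀ j, ∀ᶠ i in (U : Filter I), β j i ∈ riemannRochSpace (X.dv i D) := by
    intro j
    filter_upwards [hm] with i hi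
    simp only [β, dif_pos hi]
    exact (bs i hi j).2
  have hβL : ∀ j, X.of (β j) ∈ riemannRochSpace D := fun j =>
    (X.mem_L_iff (X.bd_of_L (hβ j))).2 (hβ j)
  let b : Fin m → riemannRochSpace D := fun j => ⟨X.of (β j), hβL j⟩
  have hli : LinearIndependent Ks b := by
    rw [Fintype.linearIndependent_iff]
    intro c hc
    choose γ hγ using fun j => X.surjK (c j)
    have h1 : ∑ j, X.ofK (γ j) • X.of (β j) = 0 := by
      have := congrArg Subtype.val hc
      simp only [AddSubmonoidClass.coe_finsetSum, SetLike.val_smul, ZeroMemClass.coe_zero, b] at this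
      simpa only [hγ] using this
    obtain ⟨h2, h3⟩ := X.of_sum Finset.univ γ β hβ
    rw [← h3, ← X.of_zero, X.of_eq (X.bd_of_L h2) X.bd_zero] at h1
    intro j
    rw [← hγ j, ← X.ofK_zero, X.ofK_eq]
    filter_upwards [h1, hm] with i hi hmi
    have h4 : ∑ j, γ j i • (bs i hmi j : riemannRochSpace (X.dv i D)) = 0 := by
      apply Subtype.ext
      rw [AddSubmonoidClass.coe_finsetSum]
      have h5 : ∑ j, γ j i • β j i = 0 := hi
      simp only [β, dif_pos hmi] at h5
      exact h5
    exact Fintype.linearIndependent_iff.1 (bs i hmi).linearIndependent _ h4 j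
  have hsp : ⊤ ≤ Submodule.span Ks (Set.range b) := by
    rintro ⟨x, hx⟩ -
    obtain ⟨f, hf, rfl⟩ := X.surj x
    have h1 := (X.mem_L_iff hf).1 hx
    let γ : Fin m → ∀ i, k i := fun j i =>
      if h : ell (X.dv i D) = m ∧ f i ∈ riemannRochSpace (X.dv i D) then
        (bs i h.1).repr ⟨f i, h.2⟩ j else 0
    obtain ⟨h2, h3⟩ := X.of_sum Finset.univ γ β hβ
    have h4 : X.of f = ∑ j, X.ofK (γ j) • X.of (β j) := by
      rw [← h3, X.of_eq hf (X.bd_of_L h2)]
      filter_upwards [h1, hm] with i hi hmi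
      have h5 := congrArg Subtype.val ((bs i hmi).sum_repr ⟨f i, hi⟩)
      rw [AddSubmonoidClass.coe_finsetSum] at h5
      simp only [γ, β, dif_pos hmi, dif_pos (And.intro hmi hi)]
      exact h5.symm
    have h5 : (⟨X.of f, hx⟩ : riemannRochSpace D) = ∑ j, X.ofK (γ j) • b j := by
      apply Subtype.ext
      rw [AddSubmonoidClass.coe_finsetSum]
      exact h4
    rw [h5]
    exact Submodule.sum_mem _ fun j _ => Submodule.smul_mem _ _ (Submodule.subset_span ⟨j, rfl⟩)
  have := Module.finrank_eq_card_basis (Module.Basis.mk hli hsp)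
  rw [Fintype.card_fin] at this
  exact this

theorem rrGenus_eq {g : ℕ} (hg : ∀ᶠ i in (U : Filter I), rrGenus (k i) (F i) = g) :
    rrGenus Ks Fs = g := by
  have h : (g : ℤ) = rrGenus Ks Fs := by
    apply rrGenus_unique (K := Ks) (F := Fs)
    refine ⟨2 * g - 1, fun D hD => ?_⟩
    obtain ⟨i, h1, h2⟩ := (hg.and (X.ell_eq D)).exists
    obtain ⟨Wc, hW, hRR⟩ := exists_canonical (k i) (F i)
    have h3 := hRR (X.dv i D)
    rw [ell_eq_zero (D := Wc - X.dv i D) (by rw [map_sub, hW, X.degree_dv, h1]; omega),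
      X.degree_dv, h1, h2] at h3
    rw [h3]
    push_cast; ring
  exact_mod_cast h.symm

end UD

end Fermat.Agent.S27A
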