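import Fermat.Agent.S27A.UD1

/-!
# Ultraproducts of function fields: divisor classes (abstract form)
-/

set_option autoImplicit false
set_option linter.style.haveILetI false
set_option linter.unusedSectionVars false

noncomputable section

namespace Fermat.Agent.S27A

open AlgebraicCurve Fermat.Agent.Curve Fermat.Agent.RR Polynomial IntermediateField Filter

section single

variable {K F : Type*} [Field K] [IsAlgClosed K] [Field F] [Algebra K F] [hF : FunField K F]

theorem divisor_eq_of_mem_L {E : Divisor K F} (hE : Divisor.degree E = 0) {f : F} (hf0 : f ≠ 0)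
    (hf : f ∈ riemannRochSpace (-E)) : divisor K f = E := by
  have h1 : divisor K f - E = 0 := by
    apply eq_zero_of_nonneg_degree
    · intro v
      have h2 := (mem_L.1 hf v).le_ord hf0
      rw [Finsupp.neg_apply, neg_neg] at h2
      rw [Finsupp.sub_apply, divisor_apply]
      simp only [Finsupp.coe_zero, Pi.zero_apply]
      omega
    · rw [map_sub, degree_divisor, hE]
      simp
  exact sub_eq_zero.1 h1

theorem isPrincipal_iff {E : Divisor K F} : Divisor.IsPrincipal E ↔
    ∃ f : F, f ≠ 0 ∧ divisor K f = E := by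
  constructor
  · rintro ⟨f, hf, h⟩
    refine ⟨f, hf, ?_⟩
    ext v
    rw [divisor_apply, h v]
  · rintro ⟨f, hf, rfl⟩
    exact ⟨f, hf, fun v => divisor_apply _ _⟩

theorem isPrincipal_iff' {E : Divisor K F} : Divisor.IsPrincipal E ↔
    Divisor.degree E = 0 ∧ ∃ f : F, f ≠ 0 ∧ f ∈ riemannRochSpace (-E) := by
  rw [isPrincipal_iff]
  constructor
  · rintro ⟨f, hf, rfl⟩
    refine ⟨degree_divisor f, f, hf, ?_⟩
    rw [mem_L]
    intro v
    right
    rw [Finsupp.neg_apply, divisor_apply, neg_neg]
  · rintro ⟨h1, f, hf, h2⟩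
    exact ⟨f, hf, divisor_eq_of_mem_L h1 hf h2⟩

/-- effective divisors of degree `n` are sums of `n` places -/
theorem exists_sum_places : ∀ (n : ℕ) (G : Divisor K F), 0 ≤ G → Divisor.degree G = n →
    ∃ v : Fin n → Place K F, G = ∑ j, Finsupp.single (v j) 1 := by
  classical
  intro n
  induction n with
  | zero =>
    intro G hG hd
    refine ⟨Fin.elim0, ?_⟩
    rw [eq_zero_of_nonneg_degree hG (by rw [hd]; simp)]
    simp
  | succ n ih =>
    intro G hG hd
    obtain ⟨v, hv⟩ : ∃ v, 1 ≤ G v := by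
      by_contra hcon
      push Not at hcon
      have h0 : G = 0 := by
        ext v
        have h1 := hG v
        have h2 := hcon v
        simp only [Finsupp.coe_zero, Pi.zero_apply] at h1 ⊢
        omega
      rw [h0, map_zero] at hd
      push_cast at hd
      omega
    have hG' : 0 ≤ G - Finsupp.single v 1 := by
      intro w
      by_cases hw : w = v
      · rw [hw, Finsupp.sub_apply, Finsupp.single_eq_same]
        simp only [Finsupp.coe_zero, Pi.zero_apply]
        omega
      · rw [Finsupp.sub_apply, Finsupp.single_eq_of_ne hw, sub_zero]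
        exact hG w
    obtain ⟨w, hw⟩ := ih _ hG' (by rw [map_sub, degree_single', hd]; push_cast; ring)
    refine ⟨Fin.cons v w, ?_⟩
    rw [Fin.sum_univ_succ]
    simp only [Fin.cons_zero, Fin.cons_succ]
    rw [← hw]
    abel

/-- every class of degree zero is `D - g P` -/
theorem exists_rep (P : Place K F) (E : Divisor K F) (hE : Divisor.degree E = 0) :
    ∃ v : Fin (rrGenus K F) → Place K F,
      Divisor.IsPrincipal (E - (∑ j, Finsupp.single (v j) 1 -
        Finsupp.single P (rrGenus K F : ℤ))) := by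
  have h1 := riemann (E + Finsupp.single P (rrGenus K F : ℤ))
  rw [map_add, hE, degree_single'] at h1
  obtain ⟨z, hz0, hz⟩ := exists_ne_zero_of_ell_pos (D := E + Finsupp.single P (rrGenus K F : ℤ))
    (by omega)
  have h2 : 0 ≤ divisor K z + (E + Finsupp.single P (rrGenus K F : ℤ)) := by
    intro v
    have h3 := (mem_L.1 hz v).le_ord hz0
    rw [Finsupp.add_apply (divisor K z), divisor_apply]
    simp only [Finsupp.coe_zero, Pi.zero_apply]
    omega
  obtain ⟨v, hv⟩ := exists_sum_places (rrGenus K F) _ h2 (by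
    rw [map_add, degree_divisor, map_add, hE, degree_single']
    ring)
  refine ⟨v, ?_⟩
  rw [← hv, isPrincipal_iff]
  refine ⟨z⁻¹, inv_ne_zero hz0, ?_⟩
  ext w
  rw [divisor_apply, w.ord_inv]
  simp only [Finsupp.sub_apply, Finsupp.add_apply, divisor_apply]
  ring

end single

namespace UD

variable {I : Type*} {U : Ultrafilter I} {k F : I → Type*} [∀ i, Field (k i)]
  [∀ i, IsAlgClosed (k i)] [∀ i, Field (F i)] [∀ i, Algebra (k i) (F i)]
  [hFF : ∀ i, FunField (k i) (F i)] {Ks Fs : Type*} [Field Ks] [Field Fs] [Algebra Ks Fs]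
  (X : UD U k F Ks Fs)

variable [IsAlgClosed Ks] [hF : FunField Ks Fs]

include X

theorem isPrincipal_dv (D : Divisor Ks Fs) :
    Divisor.IsPrincipal D ↔ ∀ᶠ i in (U : Filter I), Divisor.IsPrincipal (X.dv i D) := by
  classical
  constructor
  · intro h
    obtain ⟨h1, x, hx, h2⟩ := isPrincipal_iff'.1 h
    obtain ⟨f, hf, rfl⟩ := X.surj x
    have h3 := (X.mem_L_iff hf).1 h2
    have h4 := (X.of_ne_zero hf).1 hx
    filter_upwards [h3, h4] with i h5 h6
    rw [isPrincipal_iff']
    rw [map_neg] at h5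
    exact ⟨by rw [X.degree_dv, h1], f i, h6, h5⟩
  · intro h
    let f : ∀ i, F i := fun i => if hi : Divisor.IsPrincipal (X.dv i D) then
      (isPrincipal_iff'.1 hi).2.choose else 0
    have hf0 : ∀ᶠ i in (U : Filter I), f i ≠ 0 := by
      filter_upwards [h] with i hi
      simp only [f, dif_pos hi]
      exact (isPrincipal_iff'.1 hi).2.choose_spec.1
    have hfL : ∀ᶠ i in (U : Filter I), f i ∈ riemannRochSpace (X.dv i (-D)) := by
      filter_upwards [h] with i hi
      simp only [f, dif_pos hi]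
      rw [map_neg]
      exact (isPrincipal_iff'.1 hi).2.choose_spec.2
    have hbd := X.bd_of_L hfL
    rw [isPrincipal_iff']
    refine ⟨?_, X.of f, (X.of_ne_zero hbd).2 hf0, (X.mem_L_iff hbd).2 hfL⟩
    obtain ⟨i, hi⟩ := h.exists
    rw [← X.degree_dv i]
    exact (isPrincipal_iff'.1 hi).1

/-- the family of classes of a divisor of degree zero -/
def th (i : I) : Divisor.degZero (K := Ks) (F := Fs) →+ Pic0 (k i) (F i) :=
  (QuotientAddGroup.mk' _).comp
    (((X.dv i).comp (Divisor.degZero (K := Ks) (F := Fs)).subtype).codRestrict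
      (Divisor.degZero (K := k i) (F := F i)) fun D => by
        rw [Divisor.mem_degZero]
        change Divisor.degree (X.dv i D.1) = 0
        rw [X.degree_dv]
        exact D.2)

theorem th_eq_zero (D : Divisor.degZero (K := Ks) (F := Fs)) :
    (Pic0.mk D = 0) ↔ ∀ᶠ i in (U : Filter I), X.th i D = 0 := by
  have h1 : Pic0.mk D = 0 ↔ Divisor.IsPrincipal D.1 := by
    rw [Pic0.mk, QuotientAddGroup.eq_zero_iff, AddSubgroup.mem_addSubgroupOf,
      Divisor.mem_principal]
  rw [h1, X.isPrincipal_dv]
  refine Filter.eventually_congr (Filter.Eventually.of_forall fun i => ?_)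
  change _ ↔ (QuotientAddGroup.mk _ : Pic0 (k i) (F i)) = 0
  rw [QuotientAddGroup.eq_zero_iff, AddSubgroup.mem_addSubgroupOf, Divisor.mem_principal]
  rfl

theorem mk_eq (D E : Divisor.degZero (K := Ks) (F := Fs)) :
    (Pic0.mk D = Pic0.mk E) ↔ ∀ᶠ i in (U : Filter I), X.th i D = X.th i E := by
  have h : Pic0.mk (D - E) = Pic0.mk D - Pic0.mk E := rfl
  rw [← sub_eq_zero, ← h, X.th_eq_zero]
  refine Filter.eventually_congr (Filter.Eventually.of_forall fun i => ?_)
  rw [map_sub, sub_eq_zero]

theorem th_surj {g : ℕ} (hg : ∀ᶠ i in (U : Filter I), rrGenus (k i) (F i) = g)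
    (c : ∀ i, Pic0 (k i) (F i)) :
    ∃ D : Divisor.degZero (K := Ks) (F := Fs), ∀ᶠ i in (U : Filter I), X.th i D = c i := by
  classical
  obtain ⟨P⟩ := nonempty_place Ks Fs
  choose E hE using fun i => Pic0.mk_surjective (K := k i) (F := F i) (c i)
  choose v hv using fun i => exists_rep (X.sec P i) (E i).1 (E i).2
  let w : Fin g → ∀ i, Place (k i) (F i) := fun j i =>
    if h : rrGenus (k i) (F i) = g then v i (Fin.cast h.symm j) else X.sec P i
  let D0 : Divisor Ks Fs := ∑ j, Finsupp.single (X.pl (w j)) 1 - Finsupp.single P (g : ℤ)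
  have hD0 : Divisor.degree D0 = 0 := by
    simp only [D0, map_sub, map_sum, degree_single', Finset.sum_const, Finset.card_univ,
      Fintype.card_fin]
    simp
  refine ⟨⟨D0, hD0⟩, ?_⟩
  have h1 : ∀ j, ∀ᶠ i in (U : Filter I), X.sec (X.pl (w j)) i = w j i := fun j => by
    rw [← X.pl_eq, X.pl_sec]
  have h2 := (Filter.eventually_all (l := (U : Filter I))).2 h1
  filter_upwards [hg, h2] with i hi h3
  rw [← hE i]
  change (QuotientAddGroup.mk _ : Pic0 (k i) (F i)) = QuotientAddGroup.mk _
  rw [eq_comm, QuotientAddGroup.eq_iff_sub_mem, AddSubgroup.mem_addSubgroupOf, Divisor.mem_principal]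
  have h4 := hv i
  have h5 : X.dv i D0 = ∑ j, Finsupp.single (v i j) 1 -
      Finsupp.single (X.sec P i) (rrGenus (k i) (F i) : ℤ) := by
    have hP : (Finsupp.single (X.sec P i) (g : ℤ) : Divisor (k i) (F i)) =
        Finsupp.single (X.sec P i) (rrGenus (k i) (F i) : ℤ) := by rw [hi]
    simp only [D0, map_sub, map_sum, X.dv_single]
    rw [hP]
    congr 1
    have h6 : ∀ j : Fin g, X.sec (X.pl (w j)) i = v i (Fin.cast hi.symm j) := by
      intro j
      rw [h3 j]
      simp only [w, dif_pos hi]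
    simp only [h6]
    exact Fintype.sum_equiv (finCongr hi.symm) _ _ fun j => rfl
  change Divisor.IsPrincipal ((E i).1 - X.dv i D0)
  rw [h5]
  exact h4

/-- **the torsion of the class group of an ultraproduct** -/
theorem card_torsion {g : ℕ} (hg : ∀ᶠ i in (U : Filter I), rrGenus (k i) (F i) = g) (n : ℕ)
    {N : ℕ} (hN0 : N ≠ 0)
    (hN : ∀ᶠ i in (U : Filter I), Nat.card (Pic0.torsion (k i) (F i) n) = N) :
    Nat.card (Pic0.torsion Ks Fs n) = N := by
  classical
  have hex : ∀ i, Nat.card (Pic0.torsion (k i) (F i) n) = N →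
      Nonempty (Fin N ≃ Pic0.torsion (k i) (F i) n) := by
    intro i hi
    haveI : Finite (Pic0.torsion (k i) (F i) n) := Nat.finite_of_card_ne_zero (by rw [hi]; exact hN0)
    exact ⟨(Finite.equivFinOfCardEq hi).symm⟩
  let e : ∀ i, Nat.card (Pic0.torsion (k i) (F i) n) = N → (Fin N ≃ Pic0.torsion (k i) (F i) n) :=
    fun i hi => (hex i hi).some
  let c : Fin N → ∀ i, Pic0 (k i) (F i) := fun j i =>
    if h : Nat.card (Pic0.torsion (k i) (F i) n) = N then (e i h j).1 else 0
  choose D hD using fun j => X.th_surj hg (c j)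
  have hmem : ∀ E : Divisor.degZero (K := Ks) (F := Fs), Pic0.mk E ∈ Pic0.torsion Ks Fs n ↔
      ∀ᶠ i in (U : Filter I), X.th i E ∈ Pic0.torsion (k i) (F i) n := by
    intro E
    rw [Pic0.mem_torsion]
    have h1 : (n : ℤ) • Pic0.mk E = Pic0.mk ((n : ℤ) • E) := rfl
    rw [h1, X.th_eq_zero]
    refine Filter.eventually_congr (Filter.Eventually.of_forall fun i => ?_)
    rw [Pic0.mem_torsion, map_zsmul]
  have hDt : ∀ j, Pic0.mk (D j) ∈ Pic0.torsion Ks Fs n := by
    intro j
    rw [hmem]
    filter_upwards [hD j, hN] with i h1 h2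
    rw [h1]
    simp only [c, dif_pos h2]
    exact (e i h2 j).2
  let φ : Fin N → Pic0.torsion Ks Fs n := fun j => ⟨Pic0.mk (D j), hDt j⟩
  have hφ : Function.Bijective φ := by
    constructor
    · intro j j' h
      have h1 : Pic0.mk (D j) = Pic0.mk (D j') := congrArg Subtype.val h
      rw [X.mk_eq] at h1
      obtain ⟨i, ⟨⟨h2, h3⟩, h4⟩, h5⟩ := (((h1.and (hD j)).and (hD j')).and hN).exists
      rw [h3, h4] at h2
      simp only [c, dif_pos h5] at h2
      exact (e i h5).injective (Subtype.ext h2)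
    · rintro ⟨x, hx⟩
      obtain ⟨E, rfl⟩ := Pic0.mk_surjective x
      have h1 := (hmem E).1 hx
      let h : I → ℕ := fun i =>
        if hi : Nat.card (Pic0.torsion (k i) (F i) n) = N ∧
          X.th i E ∈ Pic0.torsion (k i) (F i) n then (e i hi.1).symm ⟨X.th i E, hi.2⟩ else 0
      obtain ⟨m, hm⟩ := eventually_const U h N (Filter.Eventually.of_forall fun i => by
        simp only [h]
        split_ifs with hi
        · exact (Fin.is_lt _).le
        · exact Nat.zero_le _)
      have hmN : m < N := by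
        obtain ⟨i, ⟨h2, h3⟩, h4⟩ := ((hm.and h1).and hN).exists
        simp only [h, dif_pos (And.intro h4 h3)] at h2
        rw [← h2]
        exact Fin.is_lt _
      refine ⟨⟨m, hmN⟩, Subtype.ext ?_⟩
      change Pic0.mk (D ⟨m, hmN⟩) = Pic0.mk E
      rw [X.mk_eq]
      filter_upwards [hm, h1, hN, hD ⟨m, hmN⟩] with i h2 h3 h4 h5
      rw [h5]
      simp only [c, dif_pos h4]
      simp only [h, dif_pos (And.intro h4 h3)] at h2
      have h6 : (e i h4).symm ⟨X.th i E, h3⟩ = ⟨m, hmN⟩ := Fin.ext h2
      rw [← h6, Equiv.apply_symm_apply]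
  rw [← Nat.card_congr (Equiv.ofBijective φ hφ), Nat.card_eq_fintype_card, Fintype.card_fin]

end UD

end Fermat.Agent.S27A
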